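/-
S16 (Eisenstein ideal index), slice EV, part 1 (helper7): the Lambert-type series

  `A(u, q) = ∑_{m ≥ 1} u q^m / (1 - u q^m)`        (`‖q‖ < 1`)

and the Eisenstein-summed function

  `Zc z q = π cot(πz) − 2πi (A(e(z), q) − A(e(z)⁻¹, q))`,   `e(z) = exp(2πiz)`,

which for `q = e(τ)` is the Eisenstein-ordered sum `∑_m π cot π(z + mτ)`
(`tendsto_sum_Icc_cot`).  Contents: summability, the shift `A(uq, q)`, evenness/periodicity of
`Zc` (`Zc_add_int`, `Zc_neg`, `Zc_add_tau`), the `q`-expansion of `A` for `‖u‖ ≤ 1`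
(`hasSum_dsum`) and of `Zc y q` for real `y` (`hasSum_Zc_ofReal`), bounds (`norm_A_le`) and
holomorphy in `q` (`differentiableAt_A`).  Mathlib only.
-/
import Mathlib

set_option autoImplicit false

noncomputable section

open Complex Filter Topology
open scoped Real

namespace Fermat.Agent.S16.EVLambert

/-- Term of the Lambert-type series `∑_{m ≥ 1} u q^m / (1 - u q^m)`. -/
def lterm (u q : ℂ) (m : ℕ) : ℂ := u * q ^ (m + 1) / (1 - u * q ^ (m + 1))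

/-- The Lambert-type series `A(u, q) = ∑_{m ≥ 1} u q^m / (1 - u q^m)`. -/
def A (u q : ℂ) : ℂ := ∑' m : ℕ, lterm u q m

theorem summable_lterm (u : ℂ) {q : ℂ} (hq : ‖q‖ < 1) : Summable (lterm u q) := by
  have h0 : Tendsto (fun m : ℕ => ‖u‖ * ‖q‖ ^ (m + 1)) atTop (𝓝 0) := by
    have h1 := tendsto_pow_atTop_nhds_zero_of_lt_one (norm_nonneg q) hq
    have h2 := (h1.comp (tendsto_add_atTop_nat 1)).const_mul ‖u‖
    simpa using h2
  have hev : ∀ᶠ m : ℕ in atTop, ‖u‖ * ‖q‖ ^ (m + 1) < 1 / 2 :=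
    h0.eventually (Iio_mem_nhds (by norm_num))
  have hsum : Summable (fun m : ℕ => 2 * (‖u‖ * ‖q‖ ^ (m + 1))) := by
    have h1 : Summable (fun m : ℕ => ‖q‖ ^ (m + 1)) :=
      (summable_nat_add_iff 1).mpr (summable_geometric_of_lt_one (norm_nonneg q) hq)
    exact (h1.mul_left ‖u‖).mul_left 2
  refine Summable.of_norm_bounded_eventually_nat hsum ?_
  filter_upwards [hev] with m hm
  rw [lterm, norm_div]
  have hnum : ‖u * q ^ (m + 1)‖ = ‖u‖ * ‖q‖ ^ (m + 1) := by rw [norm_mul, norm_pow]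
  have hden : 1 / 2 ≤ ‖1 - u * q ^ (m + 1)‖ := by
    have h3 := norm_sub_norm_le (1 : ℂ) (u * q ^ (m + 1))
    rw [norm_one, hnum] at h3
    linarith
  rw [hnum, div_le_iff₀ (by linarith)]
  have h4 : 0 ≤ ‖u‖ * ‖q‖ ^ (m + 1) := by positivity
  nlinarith

theorem lterm_mul_q (u q : ℂ) (m : ℕ) : lterm (u * q) q m = lterm u q (m + 1) := by
  simp only [lterm]
  have h : u * q * q ^ (m + 1) = u * q ^ (m + 1 + 1) := by ring
  rw [h]

theorem A_mul_q (u : ℂ) {q : ℂ} (hq : ‖q‖ < 1) : A (u * q) q = A u q - lterm u q 0 := by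
  have h1 : A u q = lterm u q 0 + ∑' m : ℕ, lterm u q (m + 1) :=
    (summable_lterm u hq).tsum_eq_zero_add
  have h2 : A (u * q) q = ∑' m : ℕ, lterm u q (m + 1) := by
    simp only [A, lterm_mul_q]
  rw [h1, h2]
  ring

/-- bound for the Lambert series -/
theorem norm_A_le (u q : ℂ) {s r : ℝ} (hs : ‖u * q‖ ≤ s) (hs1 : s < 1) (hr : ‖q‖ ≤ r)
    (hr1 : r < 1) : ‖A u q‖ ≤ s / ((1 - s) * (1 - r)) := by
  have hr0 : 0 ≤ r := (norm_nonneg q).trans hr
  have hs0 : 0 ≤ s := (norm_nonneg _).trans hs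
  have hbound : ∀ m : ℕ, ‖lterm u q m‖ ≤ s / (1 - s) * r ^ m := by
    intro m
    have h1 : u * q ^ (m + 1) = u * q * q ^ m := by ring
    have hnum : ‖u * q ^ (m + 1)‖ ≤ s * r ^ m := by
      rw [h1, norm_mul, norm_pow]
      exact mul_le_mul hs (pow_le_pow_left₀ (norm_nonneg q) hr m) (by positivity) hs0
    have hrm : r ^ m ≤ 1 := pow_le_one₀ hr0 hr1.le
    have hnum' : ‖u * q ^ (m + 1)‖ ≤ s := hnum.trans (by nlinarith)
    have hden : 1 - s ≤ ‖1 - u * q ^ (m + 1)‖ := by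
      have h3 := norm_sub_norm_le (1 : ℂ) (u * q ^ (m + 1))
      rw [norm_one] at h3
      linarith
    rw [lterm, norm_div, div_le_iff₀ (by linarith)]
    have h5 : 0 ≤ s / (1 - s) * r ^ m := by
      have : 0 < 1 - s := by linarith
      positivity
    calc ‖u * q ^ (m + 1)‖ ≤ s * r ^ m := hnum
      _ = s / (1 - s) * r ^ m * (1 - s) := by
        have : (1 - s) ≠ 0 := by linarith
        field_simp
      _ ≤ s / (1 - s) * r ^ m * ‖1 - u * q ^ (m + 1)‖ := by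
        exact mul_le_mul_of_nonneg_left hden h5
  have hgeo : HasSum (fun m : ℕ => s / (1 - s) * r ^ m) (s / (1 - s) * (1 - r)⁻¹) :=
    (hasSum_geometric_of_lt_one hr0 hr1).mul_left _
  have := tsum_of_norm_bounded hgeo hbound
  calc ‖A u q‖ ≤ s / (1 - s) * (1 - r)⁻¹ := this
    _ = s / ((1 - s) * (1 - r)) := by
      have h1 : (1 - s) ≠ 0 := by linarith
      have h2 : (1 - r) ≠ 0 := by linarith
      field_simp

/-! ### The exponential `e(z)` and the cotangent -/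

/-- `e(z) = exp(2πiz)` -/
def ee (z : ℂ) : ℂ := cexp (2 * π * I * z)

theorem ee_ne_zero (z : ℂ) : ee z ≠ 0 := Complex.exp_ne_zero _

theorem ee_add (z w : ℂ) : ee (z + w) = ee z * ee w := by
  rw [ee, ee, ee, ← Complex.exp_add]; ring_nf

theorem ee_neg (z : ℂ) : ee (-z) = (ee z)⁻¹ := by
  rw [ee, ee, ← Complex.exp_neg]; ring_nf

theorem ee_intCast (n : ℤ) : ee (n : ℂ) = 1 := by
  rw [ee, Complex.exp_eq_one_iff]
  exact ⟨n, by ring⟩

theorem ee_one : ee 1 = 1 := by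
  simpa using ee_intCast 1

theorem ee_eq_one_iff (z : ℂ) : ee z = 1 ↔ ∃ n : ℤ, z = n := by
  rw [ee, Complex.exp_eq_one_iff]
  have h2 : (2 * π * I : ℂ) ≠ 0 := by
    simp [Real.pi_ne_zero]
  constructor
  · rintro ⟨n, hn⟩
    refine ⟨n, ?_⟩
    have : (2 * π * I : ℂ) * z = (2 * π * I) * n := by rw [hn]; ring
    exact mul_left_cancel₀ h2 this
  · rintro ⟨n, rfl⟩
    exact ⟨n, by ring⟩

theorem norm_ee (z : ℂ) : ‖ee z‖ = Real.exp (-2 * π * z.im) := by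
  rw [ee, Complex.norm_exp]
  congr 1
  simp

/-- `π cot(πz)` in terms of `e(z)`, first form. -/
theorem cotp_eq_neg (z : ℂ) (hz : ee z ≠ 1) :
    π * cot (π * z) = -(π * I) - 2 * π * I * (ee z / (1 - ee z)) := by
  rw [Complex.cot_pi_eq_exp_ratio]
  have h1 : (1 : ℂ) - ee z ≠ 0 := sub_ne_zero.mpr (Ne.symm hz)
  change π * ((ee z + 1) / (I * (1 - ee z))) = _
  have hI : (I : ℂ) ≠ 0 := I_ne_zero
  field_simp
  rw [I_sq]
  ring

/-- `π cot(πz)` in terms of `e(z)⁻¹`, second form. -/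
theorem cotp_eq_pos (z : ℂ) (hz : ee z ≠ 1) :
    π * cot (π * z) = π * I + 2 * π * I * ((ee z)⁻¹ / (1 - (ee z)⁻¹)) := by
  rw [cotp_eq_neg z hz]
  have h0 : ee z ≠ 0 := ee_ne_zero z
  have h1 : (1 : ℂ) - ee z ≠ 0 := sub_ne_zero.mpr (Ne.symm hz)
  have h2 : (1 : ℂ) - (ee z)⁻¹ ≠ 0 := by
    intro h
    apply hz
    have : (ee z)⁻¹ = 1 := (sub_eq_zero.mp h).symm
    exact inv_eq_one.mp this
  have h3 : ee z - 1 ≠ 0 := sub_ne_zero.mpr hz
  field_simp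
  ring


theorem cot_pi_congr {z w : ℂ} (h : ee z = ee w) : cot (π * z) = cot (π * w) := by
  rw [Complex.cot_pi_eq_exp_ratio, Complex.cot_pi_eq_exp_ratio]
  change (ee z + 1) / (I * (1 - ee z)) = (ee w + 1) / (I * (1 - ee w))
  rw [h]

theorem cot_pi_neg (z : ℂ) : cot (π * -z) = -cot (π * z) := by
  rw [mul_neg, Complex.cot_eq_cos_div_sin, Complex.cos_neg, Complex.sin_neg, div_neg,
    ← Complex.cot_eq_cos_div_sin]

/-! ### The Eisenstein-summed function `Zc` -/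

/-- `Zc z q = π cot(πz) − 2πi (A(e(z), q) − A(e(z)⁻¹, q))`; for `q = e(τ)` this is the
Eisenstein-ordered sum `∑_m π cot π(z + mτ)`. -/
def Zc (z q : ℂ) : ℂ := π * cot (π * z) - 2 * π * I * (A (ee z) q - A (ee z)⁻¹ q)

theorem Zc_congr {z w : ℂ} (h : ee z = ee w) (q : ℂ) : Zc z q = Zc w q := by
  rw [Zc, Zc, cot_pi_congr h, h]

theorem Zc_add_int (z q : ℂ) (n : ℤ) : Zc (z + n) q = Zc z q :=
  Zc_congr (by rw [ee_add, ee_intCast, mul_one]) q

theorem Zc_add_one (z q : ℂ) : Zc (z + 1) q = Zc z q := by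
  simpa using Zc_add_int z q 1

theorem Zc_neg (z q : ℂ) : Zc (-z) q = -Zc z q := by
  rw [Zc, Zc, cot_pi_neg, ee_neg, inv_inv]
  ring

theorem lterm_zero (u q : ℂ) : lterm u q 0 = u * q / (1 - u * q) := by
  simp [lterm]

/-- quasi-periodicity in the direction `τ` -/
theorem Zc_add_tau (z τ : ℂ) (hq : ‖ee τ‖ < 1) (hz : ee z ≠ 1) (hz' : ee (z + τ) ≠ 1) :
    Zc (z + τ) (ee τ) = Zc z (ee τ) - 2 * π * I := by
  have hq0 : ee τ ≠ 0 := ee_ne_zero τ
  have hu0 : ee z ≠ 0 := ee_ne_zero z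
  have h1 : A (ee z * ee τ) (ee τ) = A (ee z) (ee τ) - ee z * ee τ / (1 - ee z * ee τ) := by
    rw [A_mul_q _ hq, lterm_zero]
  have h2 : A (ee z)⁻¹ (ee τ) = A (ee z * ee τ)⁻¹ (ee τ) - (ee z)⁻¹ / (1 - (ee z)⁻¹) := by
    have h3 := A_mul_q (ee z * ee τ)⁻¹ hq
    have h4 : (ee z * ee τ)⁻¹ * ee τ = (ee z)⁻¹ := by
      field_simp
    rw [h4] at h3
    rw [h3, lterm_zero, h4]
  rw [Zc, Zc, cotp_eq_neg (z + τ) hz', cotp_eq_pos z hz, ee_add, h1, h2]
  ring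

theorem Zc_add_int_mul_tau (z τ : ℂ) (hq : ‖ee τ‖ < 1) (hz : ∀ m : ℤ, ee (z + m * τ) ≠ 1)
    (m : ℤ) : Zc (z + m * τ) (ee τ) = Zc z (ee τ) - 2 * π * I * m := by
  induction m using Int.induction_on with
  | zero => simp
  | succ k ih =>
    have h1 : z + ((k : ℤ) + 1 : ℤ) * τ = (z + (k : ℤ) * τ) + τ := by push_cast; ring
    rw [h1, Zc_add_tau _ _ hq (hz k) (by rw [← h1]; exact hz _), ih]
    push_cast; ring
  | pred k ih =>
    have h1 : z + (-(k : ℤ) : ℤ) * τ = (z + (-(k : ℤ) - 1 : ℤ) * τ) + τ := by push_cast; ring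
    have h2 := Zc_add_tau (z + (-(k : ℤ) - 1 : ℤ) * τ) τ hq (hz _) (by rw [← h1]; exact hz _)
    rw [← h1, ih] at h2
    push_cast at h2 ⊢
    linear_combination -h2


theorem ee_nat_mul (n : ℕ) (τ : ℂ) : ee (n * τ) = ee τ ^ n := by
  rw [ee, ee, ← Complex.exp_nat_mul]
  ring_nf

theorem cot_pair (z w : ℂ) (h1 : ee (z + w) ≠ 1) (h2 : ee (z - w) ≠ 1) :
    π * cot (π * (z + w)) + π * cot (π * (z - w))
      = -(2 * π * I) * (ee z * ee w / (1 - ee z * ee w)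
          - (ee z)⁻¹ * ee w / (1 - (ee z)⁻¹ * ee w)) := by
  have e2 : (ee (z - w))⁻¹ = (ee z)⁻¹ * ee w := by
    rw [sub_eq_add_neg, ee_add, ee_neg, mul_inv, inv_inv]
  rw [cotp_eq_neg (z + w) h1, cotp_eq_pos (z - w) h2, e2, ee_add]
  ring

/-- Symmetric partial sums of `π cot π(z + mτ)` in closed form. -/
theorem sum_Icc_cot (z τ : ℂ) (hz : ∀ m : ℤ, ee (z + m * τ) ≠ 1) (M : ℕ) :
    ∑ m ∈ Finset.Icc (-(M : ℤ)) M, (π : ℂ) * cot (π * (z + m * τ))
      = π * cot (π * z) - 2 * π * I *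
          ∑ k ∈ Finset.range M, (lterm (ee z) (ee τ) k - lterm (ee z)⁻¹ (ee τ) k) := by
  induction M with
  | zero => simp
  | succ N ih =>
    have h := Finset.sum_Icc_succ_eq_add_endpoints
      (fun m : ℤ => (π : ℂ) * cot (π * (z + m * τ))) (N := N)
    have hcast : ((N + 1 : ℕ) : ℤ) = (N : ℤ) + 1 := by push_cast; ring
    rw [hcast, h, ih, Finset.sum_range_succ]
    have h1 : ee (z + ((N : ℕ) + 1 : ℕ) * τ) ≠ 1 := by
      have := hz ((N : ℤ) + 1)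
      push_cast at this ⊢
      exact this
    have h2 : ee (z - ((N : ℕ) + 1 : ℕ) * τ) ≠ 1 := by
      have := hz (-((N : ℤ) + 1))
      push_cast at this ⊢
      rw [sub_eq_add_neg, ← neg_mul]
      convert this using 2
    have hp := cot_pair z (((N : ℕ) + 1 : ℕ) * τ) h1 h2
    rw [ee_nat_mul] at hp
    have e1 : (((N : ℤ) + 1 : ℤ) : ℂ) = ((N + 1 : ℕ) : ℂ) := by push_cast; ring
    have e2 : z + ((-((N : ℤ) + 1) : ℤ) : ℂ) * τ = z - ((N + 1 : ℕ) : ℂ) * τ := by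
      push_cast; ring
    rw [e1, e2, hp]
    simp only [lterm]
    ring

theorem tendsto_sum_Icc_cot (z τ : ℂ) (hq : ‖ee τ‖ < 1) (hz : ∀ m : ℤ, ee (z + m * τ) ≠ 1) :
    Tendsto (fun M : ℕ => ∑ m ∈ Finset.Icc (-(M : ℤ)) M, (π : ℂ) * cot (π * (z + m * τ)))
      atTop (𝓝 (Zc z (ee τ))) := by
  have hs : HasSum (fun k : ℕ => lterm (ee z) (ee τ) k - lterm (ee z)⁻¹ (ee τ) k)
      (A (ee z) (ee τ) - A (ee z)⁻¹ (ee τ)) :=
    (summable_lterm _ hq).hasSum.sub (summable_lterm _ hq).hasSum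
  have ht := (hs.tendsto_sum_nat.const_mul (2 * π * I)).const_sub (π * cot (π * z))
  refine ht.congr fun M => ?_
  rw [sum_Icc_cot z τ hz M]


/-! ### The `q`-expansion of the Lambert series -/

/-- divisor power sum `∑_{d ∣ n} u^d` -/
def dsum (u : ℂ) (n : ℕ) : ℂ := ∑ d ∈ n.divisors, u ^ d

theorem dsum_zero (u : ℂ) : dsum u 0 = 0 := by simp [dsum]

/-- the double series -/
def gterm (u q : ℂ) (c : ℕ+ × ℕ+) : ℂ := u ^ (c.2 : ℕ) * q ^ ((c.1 : ℕ) * (c.2 : ℕ))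

theorem summable_gterm (u : ℂ) {q : ℂ} (hu : ‖u‖ ≤ 1) (hq : ‖q‖ < 1) : Summable (gterm u q) := by
  have h := summable_prod_mul_pow (𝕜 := ℝ) 0 (r := ‖q‖) (by simpa using hq)
  refine Summable.of_norm_bounded h fun c => ?_
  rw [gterm, norm_mul, norm_pow, norm_pow]
  simp only [pow_zero, one_mul]
  calc ‖u‖ ^ (c.2 : ℕ) * ‖q‖ ^ ((c.1 : ℕ) * (c.2 : ℕ)) ≤ 1 * ‖q‖ ^ ((c.1 : ℕ) * (c.2 : ℕ)) := by
        gcongr
        exact pow_le_one₀ (norm_nonneg u) hu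
    _ = ‖q‖ ^ ((c.1 : ℕ) * (c.2 : ℕ)) := one_mul _

theorem hasSum_gterm_fiber (u : ℂ) {q : ℂ} (hu : ‖u‖ ≤ 1) (hq : ‖q‖ < 1) (m : ℕ+) :
    HasSum (fun d : ℕ+ => gterm u q (m, d)) (lterm u q ((m : ℕ) - 1)) := by
  have hm : ((m : ℕ) - 1) + 1 = (m : ℕ) := Nat.sub_add_cancel m.2
  set r : ℂ := u * q ^ (m : ℕ) with hr
  have hr1 : ‖r‖ < 1 := by
    rw [hr, norm_mul, norm_pow]
    have h1 : ‖q‖ ^ (m : ℕ) < 1 := pow_lt_one₀ (norm_nonneg q) hq m.ne_zero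
    calc ‖u‖ * ‖q‖ ^ (m : ℕ) ≤ 1 * ‖q‖ ^ (m : ℕ) := by gcongr
      _ < 1 := by rw [one_mul]; exact h1
  have hgeo : HasSum (fun d : ℕ => r ^ (d + 1)) (r / (1 - r)) := by
    have h1 := (hasSum_geometric_of_norm_lt_one hr1).mul_left r
    simpa [pow_succ', div_eq_mul_inv] using h1
  have h2 : lterm u q ((m : ℕ) - 1) = r / (1 - r) := by
    rw [lterm, hm]
  rw [h2]
  refine (hasSum_pnat_iff_hasSum_succ (f := fun d : ℕ => u ^ d * q ^ ((m : ℕ) * d))).mpr ?_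
  refine hgeo.congr_fun fun d => ?_
  rw [hr, mul_pow, ← pow_mul]

/-- The double series sums to `A u q`. -/
theorem hasSum_gterm (u : ℂ) {q : ℂ} (hu : ‖u‖ ≤ 1) (hq : ‖q‖ < 1) :
    HasSum (gterm u q) (A u q) := by
  have hs := summable_gterm u hu hq
  have h1 : ∑' c, gterm u q c = ∑' m : ℕ+, ∑' d : ℕ+, gterm u q (m, d) := hs.tsum_prod
  have h2 : ∑' m : ℕ+, ∑' d : ℕ+, gterm u q (m, d) = A u q := by
    have h3 : ∀ m : ℕ+, ∑' d : ℕ+, gterm u q (m, d) = lterm u q ((m : ℕ) - 1) :=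
      fun m => (hasSum_gterm_fiber u hu hq m).tsum_eq
    simp_rw [h3]
    rw [tsum_pnat_eq_tsum_succ (f := fun m : ℕ => lterm u q (m - 1))]
    simp [A]
  rw [← h2, ← h1]
  exact hs.hasSum

/-- the double series on the divisor-antidiagonal side -/
def sterm (u q : ℂ) (x : Σ n : ℕ+, Nat.divisorsAntidiagonal n) : ℂ :=
  u ^ (x.2 : ℕ × ℕ).2 * q ^ ((x.2 : ℕ × ℕ).1 * (x.2 : ℕ × ℕ).2)

/-- Regrouping of the double series by `n = m d`. -/
theorem hasSum_dsum_pnat (u : ℂ) {q : ℂ} (hu : ‖u‖ ≤ 1) (hq : ‖q‖ < 1) :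
    HasSum (fun n : ℕ+ => dsum u n * q ^ (n : ℕ)) (A u q) := by
  have hcomp : sterm u q ∘ sigmaAntidiagonalEquivProd.symm = gterm u q := by
    funext c
    simp only [Function.comp_apply, sterm, gterm, sigmaAntidiagonalEquivProd_symm_apply_snd]
    rfl
  have h1 : HasSum (sterm u q) (A u q) := by
    rw [← sigmaAntidiagonalEquivProd.symm.hasSum_iff, hcomp]
    exact hasSum_gterm u hu hq
  have h2 : ∀ n : ℕ+, HasSum (fun x : Nat.divisorsAntidiagonal n => sterm u q ⟨n, x⟩)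
      (dsum u n * q ^ (n : ℕ)) := by
    intro n
    have h3 : (dsum u n * q ^ (n : ℕ)) = ∑ x : Nat.divisorsAntidiagonal n, sterm u q ⟨n, x⟩ := by
      rw [Finset.univ_eq_attach]
      have h4 := (n : ℕ).divisorsAntidiagonal.sum_attach
        (fun x : ℕ × ℕ => u ^ x.2 * q ^ (x.1 * x.2))
      simp only [sterm]
      rw [h4, Nat.sum_divisorsAntidiagonal' (f := fun a b => u ^ b * q ^ (a * b)), dsum,
        Finset.sum_mul]
      refine Finset.sum_congr rfl fun d hd => ?_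
      rw [Nat.div_mul_cancel (Nat.dvd_of_mem_divisors hd)]
    rw [h3]
    exact hasSum_fintype _
  exact h1.sigma h2

/-- **`q`-expansion of the Lambert series** (for `‖u‖ ≤ 1`). -/
theorem hasSum_dsum (u : ℂ) {q : ℂ} (hu : ‖u‖ ≤ 1) (hq : ‖q‖ < 1) :
    HasSum (fun n : ℕ => dsum u n * q ^ n) (A u q) := by
  have h := hasSum_dsum_pnat u hu hq
  have h2 := (hasSum_pnat_iff (f := fun n : ℕ => dsum u n * q ^ n)).mp h
  simpa [dsum_zero] using h2


/-! ### `q`-expansion of `Zc y q` for real `y` -/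

/-- coefficients of the `q`-expansion of `Zc y q`, `y` real -/
def cZ (y : ℝ) (n : ℕ) : ℂ :=
  if n = 0 then π * cot (π * y) else -(2 * π * I) * (dsum (ee y) n - dsum (ee y)⁻¹ n)

theorem cZ_zero (y : ℝ) : cZ y 0 = π * cot (π * y) := if_pos rfl

theorem cZ_of_ne_zero (y : ℝ) {n : ℕ} (hn : n ≠ 0) :
    cZ y n = -(2 * π * I) * (dsum (ee y) n - dsum (ee y)⁻¹ n) := if_neg hn

theorem norm_ee_ofReal (y : ℝ) : ‖ee (y : ℂ)‖ = 1 := by
  rw [norm_ee]; simp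

theorem hasSum_Zc_ofReal (y : ℝ) {q : ℂ} (hq : ‖q‖ < 1) :
    HasSum (fun n : ℕ => cZ y n * q ^ n) (Zc y q) := by
  have hu : ‖ee (y : ℂ)‖ ≤ 1 := (norm_ee_ofReal y).le
  have hu' : ‖(ee (y : ℂ))⁻¹‖ ≤ 1 := by rw [norm_inv, norm_ee_ofReal, inv_one]
  have h1 := ((hasSum_dsum _ hu hq).sub (hasSum_dsum _ hu' hq)).mul_left (-(2 * π * I))
  have h2 : HasSum (fun n : ℕ => if n = 0 then (π : ℂ) * cot (π * y) else 0)
      (π * cot (π * y)) := hasSum_ite_eq 0 _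
  have h3 := h2.add h1
  have h4 : (π : ℂ) * cot (π * y) + -(2 * π * I) * (A (ee y) q - A (ee y)⁻¹ q) = Zc y q := by
    rw [Zc]; ring
  rw [h4] at h3
  convert h3 using 1
  funext n
  by_cases hn : n = 0
  · subst hn
    simp [cZ_zero, dsum_zero]
  · rw [cZ_of_ne_zero y hn, if_neg hn]
    ring

/-! ### Holomorphy in `q` -/

theorem differentiableAt_A (u : ℂ) (hu : ‖u‖ ≤ 1) {q₀ : ℂ} (hq₀ : ‖q₀‖ < 1) :
    DifferentiableAt ℂ (fun q => A u q) q₀ := by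
  obtain ⟨r, hr0, hr1⟩ := exists_between hq₀
  have hrpos : 0 < r := (norm_nonneg q₀).trans_lt hr0
  have hopen : IsOpen (Metric.ball (0 : ℂ) r) := Metric.isOpen_ball
  have hsum : Summable (fun m : ℕ => r ^ (m + 1) / (1 - r)) := by
    have h1 : Summable (fun m : ℕ => r ^ (m + 1)) :=
      (summable_nat_add_iff 1).mpr (summable_geometric_of_lt_one hrpos.le hr1)
    exact h1.div_const _
  have hkey : ∀ (m : ℕ) (q : ℂ), q ∈ Metric.ball (0 : ℂ) r →
      ‖u * q ^ (m + 1)‖ ≤ r ^ (m + 1) ∧ 1 - r ≤ ‖1 - u * q ^ (m + 1)‖ := by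
    intro m q hq
    have hq' : ‖q‖ < r := by simpa using hq
    have h1 : ‖u * q ^ (m + 1)‖ ≤ r ^ (m + 1) := by
      rw [norm_mul, norm_pow]
      calc ‖u‖ * ‖q‖ ^ (m + 1) ≤ 1 * r ^ (m + 1) := by
            gcongr
        _ = r ^ (m + 1) := one_mul _
    have h2 : r ^ (m + 1) ≤ r := by
      calc r ^ (m + 1) ≤ r ^ 1 := pow_le_pow_of_le_one hrpos.le hr1.le (by omega)
        _ = r := pow_one r
    have h3 := norm_sub_norm_le (1 : ℂ) (u * q ^ (m + 1))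
    rw [norm_one] at h3
    exact ⟨h1, by linarith⟩
  have hd : ∀ m : ℕ, DifferentiableOn ℂ (fun q => lterm u q m) (Metric.ball (0 : ℂ) r) := by
    intro m q hq
    have hne : 1 - u * q ^ (m + 1) ≠ 0 := by
      intro h
      have h1 := (hkey m q hq).2
      rw [h, norm_zero] at h1
      linarith
    apply DifferentiableAt.differentiableWithinAt
    unfold lterm
    exact DifferentiableAt.div (by fun_prop) (by fun_prop) hne
  have hb : ∀ (m : ℕ) (q : ℂ), q ∈ Metric.ball (0 : ℂ) r →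
      ‖lterm u q m‖ ≤ r ^ (m + 1) / (1 - r) := by
    intro m q hq
    obtain ⟨h1, h2⟩ := hkey m q hq
    rw [lterm, norm_div]
    have h3 : 0 < 1 - r := by linarith
    exact div_le_div₀ (by positivity) h1 h3 h2
  have h := differentiableOn_tsum_of_summable_norm hsum hd hopen hb
  exact h.differentiableAt (hopen.mem_nhds (by simpa using hr0))

end Fermat.Agent.S16.EVLambert
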