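/-
S16, slice ZW: the Weierstrass zeta function of the lattice `ℤ t + ℤ`, its Eisenstein-summed
companion `Z z t = ζ_W(z; t) - z G₂(t)`, and the facts needed for the weight-one Eisenstein
series at torsion points:

* `summable_wTerm`   : absolute convergence of the zeta series;
* `zetaW_S`, `Z_S`, `Z_T`, `Z_neg` : behaviour under `t ↦ -1/t`, `t ↦ t + 1`, `z ↦ -z`;
* `tendsto_cot`      : Eisenstein summation, `∑_{|m| ≤ N} π cot(π (z + m t)) → Z z t`;
* `Z_add_one`, `Z_add_tau`, `Z_add_lattice` : quasi-periodicity in `z`.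
-/
import Mathlib

set_option autoImplicit false

open Complex Filter Topology
open UpperHalfPlane hiding I
open scoped Real

noncomputable section

namespace Fermat.Agent.S16.ZW

/-- The lattice point `m t + n`. -/
def om (t : ℍ) (p : ℤ × ℤ) : ℂ := (p.1 : ℂ) * (t : ℂ) + (p.2 : ℂ)

/-- The summand of the Weierstrass zeta function (with Lean's `1 / 0 = 0` convention the term
at `p = 0` is `1 / z`). -/
def wTerm (z : ℂ) (t : ℍ) (p : ℤ × ℤ) : ℂ :=
  1 / (z + om t p) - 1 / om t p + z / om t p ^ 2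

/-- The Weierstrass zeta function of the lattice `ℤ t + ℤ`. -/
def zetaW (z : ℂ) (t : ℍ) : ℂ := ∑' p : ℤ × ℤ, wTerm z t p

/-- The Eisenstein-summed zeta function `Z = ζ_W - z G₂`. -/
def Z (z : ℂ) (t : ℍ) : ℂ := zetaW z t - z * EisensteinSeries.G2 t

theorem om_eq_zero_iff (t : ℍ) (p : ℤ × ℤ) : om t p = 0 ↔ p = 0 := by
  constructor
  · intro h
    have him := congrArg Complex.im h
    have hre := congrArg Complex.re h
    simp only [om, add_im, mul_im, intCast_re, intCast_im, zero_mul, add_zero, zero_im, add_re,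
      mul_re, sub_zero, zero_re, coe_im, coe_re] at him hre
    have h1 : (p.1 : ℝ) = 0 := by
      rcases mul_eq_zero.mp him with h1 | h1
      · exact h1
      · exact absurd h1 t.im_pos.ne'
    rw [h1, zero_mul, zero_add] at hre
    ext
    · exact_mod_cast h1
    · exact_mod_cast hre
  · rintro rfl
    simp [om]

theorem wTerm_eq (z : ℂ) (t : ℍ) (p : ℤ × ℤ) (h0 : om t p ≠ 0) (h1 : z + om t p ≠ 0) :
    wTerm z t p = z ^ 2 / (om t p ^ 2 * (z + om t p)) := by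
  rw [wTerm]
  field_simp
  ring

theorem om_eq_eisSummand (t : ℍ) (p : ℤ × ℤ) :
    ‖EisensteinSeries.eisSummand 3 ((finTwoArrowEquiv ℤ).symm p) t‖ = (‖om t p‖ ^ 3)⁻¹ := by
  simp [EisensteinSeries.eisSummand, om, finTwoArrowEquiv]

theorem summable_om_inv_cube (t : ℍ) : Summable fun p : ℤ × ℤ => (‖om t p‖ ^ 3)⁻¹ := by
  have h := EisensteinSeries.summable_norm_eisSummand (k := 3) le_rfl t
  have h2 := ((finTwoArrowEquiv ℤ).symm.summable_iff).mpr h
  refine h2.congr fun p => ?_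
  exact om_eq_eisSummand t p

theorem eventually_om_large (t : ℍ) (C : ℝ) : ∀ᶠ p : ℤ × ℤ in cofinite, C ≤ ‖om t p‖ := by
  by_cases hC : C ≤ 0
  · exact Eventually.of_forall fun p => hC.trans (norm_nonneg _)
  push Not at hC
  have h := (summable_om_inv_cube t).tendsto_cofinite_zero
  have h2 : ∀ᶠ p : ℤ × ℤ in cofinite, (‖om t p‖ ^ 3)⁻¹ < (C ^ 3)⁻¹ :=
    h.eventually (gt_mem_nhds (by positivity))
  have h3 : ∀ᶠ p : ℤ × ℤ in cofinite, p ≠ 0 := by
    rw [Filter.eventually_cofinite]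
    simp
  filter_upwards [h2, h3] with p hp hp0
  have hpos : 0 < ‖om t p‖ := norm_pos_iff.mpr (fun h => hp0 ((om_eq_zero_iff t p).mp h))
  by_contra hlt
  push Not at hlt
  have : ‖om t p‖ ^ 3 ≤ C ^ 3 := by gcongr
  have h4 : (C ^ 3)⁻¹ ≤ (‖om t p‖ ^ 3)⁻¹ := by
    gcongr
  linarith

theorem summable_wTerm (z : ℂ) (t : ℍ) : Summable (wTerm z t) := by
  refine Summable.of_norm_bounded_eventually
    ((summable_om_inv_cube t).mul_left (2 * ‖z‖ ^ 2)) ?_
  filter_upwards [eventually_om_large t (2 * ‖z‖ + 1)] with p hp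
  have hom : om t p ≠ 0 := by
    intro h
    rw [h, norm_zero] at hp
    linarith [norm_nonneg z]
  have h1 : ‖om t p‖ / 2 ≤ ‖z + om t p‖ := by
    have := norm_sub_norm_le (om t p) (-z)
    rw [sub_neg_eq_add, norm_neg, add_comm] at this
    linarith [norm_nonneg z]
  have hpos : 0 < ‖om t p‖ := norm_pos_iff.mpr hom
  have hz1 : z + om t p ≠ 0 := by
    intro h
    rw [h, norm_zero] at h1
    linarith
  rw [wTerm_eq z t p hom hz1, norm_div, norm_mul, norm_pow, norm_pow]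
  rw [div_le_iff₀ (by positivity)]
  have : 2 * ‖z‖ ^ 2 * (‖om t p‖ ^ 3)⁻¹ * (‖om t p‖ ^ 2 * ‖z + om t p‖)
      = ‖z‖ ^ 2 * (2 * ‖z + om t p‖ / ‖om t p‖) := by
    field_simp
  rw [this]
  have h2 : 1 ≤ 2 * ‖z + om t p‖ / ‖om t p‖ := by
    rw [le_div_iff₀ hpos]
    linarith
  nlinarith [sq_nonneg ‖z‖]


/-! ### Transformation laws -/

theorem coe_S_smul (t : ℍ) : ((ModularGroup.S • t : ℍ) : ℂ) = (-(t : ℂ))⁻¹ := by
  rw [modular_S_smul]

theorem coe_T_smul (t : ℍ) : ((ModularGroup.T • t : ℍ) : ℂ) = (t : ℂ) + 1 := by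
  rw [modular_T_smul]
  simp [add_comm]

/-- The rotation `(m, n) ↦ (n, -m)` of the index lattice. -/
def rot : ℤ × ℤ ≃ ℤ × ℤ where
  toFun p := (p.2, -p.1)
  invFun p := (-p.2, p.1)
  left_inv p := by simp
  right_inv p := by simp

/-- The shear `(m, n) ↦ (m, n + m)` of the index lattice. -/
def shear : ℤ × ℤ ≃ ℤ × ℤ where
  toFun p := (p.1, p.2 + p.1)
  invFun p := (p.1, p.2 - p.1)
  left_inv p := by simp
  right_inv p := by simp

theorem om_S (t : ℍ) (p : ℤ × ℤ) : om (ModularGroup.S • t) p = om t (rot p) / t := by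
  have ht : (t : ℂ) ≠ 0 := ne_zero t
  simp only [om, coe_S_smul, rot, Equiv.coe_fn_mk, Int.cast_neg]
  field_simp
  ring

theorem om_T (t : ℍ) (p : ℤ × ℤ) : om (ModularGroup.T • t) p = om t (shear p) := by
  simp only [om, coe_T_smul, shear, Equiv.coe_fn_mk, Int.cast_add]
  ring

theorem wTerm_S (z : ℂ) (t : ℍ) (p : ℤ × ℤ) :
    wTerm (z / t) (ModularGroup.S • t) p = t * wTerm z t (rot p) := by
  have ht : (t : ℂ) ≠ 0 := ne_zero t
  simp only [wTerm, om_S]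
  rw [← add_div, one_div_div, one_div_div, div_pow, div_div_div_eq]
  rw [show z * (t : ℂ) ^ 2 / (t * om t (rot p) ^ 2) = t * (z / om t (rot p) ^ 2) from by
    rw [show z * (t : ℂ) ^ 2 = t * (z * t) by ring, mul_div_mul_left _ _ ht]
    ring]
  ring

theorem zetaW_S (z : ℂ) (t : ℍ) : zetaW (z / t) (ModularGroup.S • t) = t * zetaW z t := by
  rw [zetaW, zetaW, ← tsum_mul_left, ← rot.tsum_eq (fun p => (t : ℂ) * wTerm z t p)]
  exact tsum_congr fun p => wTerm_S z t p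

theorem zetaW_T (z : ℂ) (t : ℍ) : zetaW z (ModularGroup.T • t) = zetaW z t := by
  rw [zetaW, zetaW, ← shear.tsum_eq (fun p => wTerm z t p)]
  refine tsum_congr fun p => ?_
  simp only [wTerm, om_T]

theorem G2_T (t : ℍ) : EisensteinSeries.G2 (ModularGroup.T • t) = EisensteinSeries.G2 t := by
  have h := congrFun EisensteinSeries.G2_T_transform t
  rw [ModularForm.SL_slash_apply] at h
  simpa [ModularGroup.T, UpperHalfPlane.denom] using h

theorem G2_S (t : ℍ) : EisensteinSeries.G2 (ModularGroup.S • t)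
    = (t : ℂ) ^ 2 * EisensteinSeries.G2 t - 2 * π * I * t := by
  have ht : (t : ℂ) ≠ 0 := ne_zero t
  have h := EisensteinSeries.G2_S_transform t
  rw [h]
  field_simp
  ring

theorem Z_S (z : ℂ) (t : ℍ) : Z (z / t) (ModularGroup.S • t) = t * Z z t + 2 * π * I * z := by
  have ht : (t : ℂ) ≠ 0 := ne_zero t
  rw [Z, Z, zetaW_S, G2_S]
  field_simp
  ring

theorem Z_T (z : ℂ) (t : ℍ) : Z z (ModularGroup.T • t) = Z z t := by
  rw [Z, Z, zetaW_T, G2_T]

theorem om_neg (t : ℍ) (p : ℤ × ℤ) : om t (-p) = - om t p := by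
  simp only [om, Prod.fst_neg, Prod.snd_neg, Int.cast_neg]
  ring

theorem wTerm_neg (z : ℂ) (t : ℍ) (p : ℤ × ℤ) : wTerm (-z) t p = - wTerm z t (-p) := by
  simp only [wTerm, om_neg]
  rw [show -z + om t p = -(z + -om t p) by ring, one_div_neg_eq_neg_one_div,
    one_div_neg_eq_neg_one_div (om t p), neg_sq]
  ring

theorem zetaW_neg (z : ℂ) (t : ℍ) : zetaW (-z) t = - zetaW z t := by
  rw [zetaW, zetaW, ← tsum_neg, ← (Equiv.neg (ℤ × ℤ)).tsum_eq (fun p => - wTerm z t p)]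
  exact tsum_congr fun p => wTerm_neg z t p

theorem Z_neg (z : ℂ) (t : ℍ) : Z (-z) t = - Z z t := by
  rw [Z, Z, zetaW_neg]
  ring


/-! ### Fibre sums -/

/-- `CotOK u`: the Mittag-Leffler series of `π cot(π u)` at `u` (true off the integers and, with
Lean's conventions, at `u = 0`). -/
def CotOK (u : ℂ) : Prop :=
  Summable (fun j : ℕ => cotTerm u j) ∧ ∑' j : ℕ, cotTerm u j = π * cot (π * u) - 1 / u

theorem cotOK_of_mem {u : ℂ} (hu : u ∈ integerComplement) : CotOK u :=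
  ⟨summable_cotTerm hu, (cot_series_rep' hu).symm⟩

theorem cotOK_zero : CotOK 0 := by
  have h : (fun j : ℕ => cotTerm 0 j) = fun _ => 0 := by
    funext j
    simp only [cotTerm, zero_sub, zero_add]
    rw [one_div_neg_eq_neg_one_div]
    ring
  refine ⟨h ▸ summable_zero, ?_⟩
  rw [h, tsum_zero]
  simp [Complex.cot]

theorem tsum_int_symm (g : ℤ → ℂ) (hg : Summable g) :
    ∑' n : ℤ, g n = g 0 + ∑' j : ℕ, (g ((j : ℤ) + 1) + g (-((j : ℤ) + 1))) := by
  have h1 := tsum_nat_add_neg hg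
  have h2 : Summable fun n : ℕ => g n + g (-(n : ℤ)) := hg.nat_add_neg
  rw [h2.tsum_eq_zero_add] at h1
  simp only [Nat.cast_zero, neg_zero, Nat.cast_add, Nat.cast_one] at h1
  linear_combination -h1

theorem fiber_sum (z w u : ℂ) (hw : CotOK w) (hu : CotOK u)
    (hsq : Summable fun n : ℤ => 1 / (u + n) ^ 2)
    (hsum : Summable fun n : ℤ => 1 / (w + n) - 1 / (u + n) + z / (u + n) ^ 2) :
    ∑' n : ℤ, (1 / (w + n) - 1 / (u + n) + z / (u + n) ^ 2)
      = (1 / w - 1 / u) + (π * cot (π * w) - 1 / w) - (π * cot (π * u) - 1 / u)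
        + z * ∑' n : ℤ, 1 / (u + n) ^ 2 := by
  rw [tsum_int_symm _ hsum, tsum_int_symm _ hsq, ← hw.2, ← hu.2]
  have hsq' : Summable fun j : ℕ => (1 / (u + (((j : ℤ) + 1 : ℤ) : ℂ)) ^ 2
      + 1 / (u + ((-((j : ℤ) + 1) : ℤ) : ℂ)) ^ 2) := by
    have := (hsq.nat_add_neg)
    have h2 := (summable_nat_add_iff 1).mpr this
    refine h2.congr fun j => ?_
    push_cast
    ring
  have : ∀ j : ℕ, (1 / (w + (((j : ℤ) + 1 : ℤ) : ℂ)) - 1 / (u + (((j : ℤ) + 1 : ℤ) : ℂ))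
        + z / (u + (((j : ℤ) + 1 : ℤ) : ℂ)) ^ 2
      + (1 / (w + ((-((j : ℤ) + 1) : ℤ) : ℂ)) - 1 / (u + ((-((j : ℤ) + 1) : ℤ) : ℂ))
        + z / (u + ((-((j : ℤ) + 1) : ℤ) : ℂ)) ^ 2))
      = cotTerm w j - cotTerm u j + z * (1 / (u + (((j : ℤ) + 1 : ℤ) : ℂ)) ^ 2
      + 1 / (u + ((-((j : ℤ) + 1) : ℤ) : ℂ)) ^ 2) := by
    intro j
    simp only [cotTerm]
    push_cast
    ring
  rw [tsum_congr this, (hw.1.sub hu.1).tsum_add (hsq'.mul_left z), hw.1.tsum_sub hu.1,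
    tsum_mul_left]
  simp only [Int.cast_zero, add_zero]
  ring


/-! ### Eisenstein summation -/

theorem tendsto_sum_Icc_of_summable {f : ℤ → ℂ} (hf : Summable f) :
    Tendsto (fun N : ℕ => ∑ m ∈ Finset.Icc (-(N : ℤ)) N, f m) atTop (𝓝 (∑' m, f m)) := by
  rw [← SummationFilter.hasSum_symmetricIcc_iff]
  exact hf.hasSum.mono_left (SummationFilter.symmetricIcc ℤ).le_atTop

theorem sum_Icc_odd_eq_zero {c : ℤ → ℂ} (hc : ∀ m, c (-m) = - c m) (N : ℕ) :
    ∑ m ∈ Finset.Icc (-(N : ℤ)) N, c m = 0 := by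
  have h : ∑ m ∈ Finset.Icc (-(N : ℤ)) N, c m = ∑ m ∈ Finset.Icc (-(N : ℤ)) N, c (-m) := by
    refine Finset.sum_nbij' (fun m => -m) (fun m => -m) ?_ ?_ ?_ ?_ ?_
    · intro m hm
      rw [Finset.mem_Icc] at hm ⊢
      constructor <;> linarith [hm.1, hm.2]
    · intro m hm
      rw [Finset.mem_Icc] at hm ⊢
      constructor <;> linarith [hm.1, hm.2]
    · intro m _
      exact neg_neg m
    · intro m _
      exact neg_neg m
    · intro m _
      rw [neg_neg]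
  have h2 : ∑ m ∈ Finset.Icc (-(N : ℤ)) N, c (-m) = - ∑ m ∈ Finset.Icc (-(N : ℤ)) N, c m := by
    rw [← Finset.sum_neg_distrib]
    exact Finset.sum_congr rfl fun m _ => hc m
  rw [h2] at h
  have h3 : (2 : ℂ) * ∑ m ∈ Finset.Icc (-(N : ℤ)) N, c m = 0 := by linear_combination h
  exact (mul_eq_zero.mp h3).resolve_left two_ne_zero

theorem mem_integerComplement_of_im_ne {u : ℂ} (hu : u.im ≠ 0) : u ∈ integerComplement := by
  rintro ⟨n, hn⟩
  apply hu
  rw [← hn]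
  simp

theorem cotOK_mul (t : ℍ) (m : ℤ) : CotOK ((m : ℂ) * (t : ℂ)) := by
  rcases eq_or_ne m 0 with rfl | hm
  · simpa using cotOK_zero
  · refine cotOK_of_mem (mem_integerComplement_of_im_ne ?_)
    simp only [mul_im, intCast_re, intCast_im, zero_mul, add_zero, coe_im]
    exact mul_ne_zero (by exact_mod_cast hm) t.im_pos.ne'

theorem cotOK_add (z : ℂ) (t : ℍ) (hz : ∀ m n : ℤ, z + m * (t : ℂ) + n ≠ 0) (m : ℤ) :
    CotOK (z + (m : ℂ) * (t : ℂ)) := by
  refine cotOK_of_mem ?_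
  rintro ⟨n, hn⟩
  apply hz m (-n)
  rw [← hn]
  push_cast
  ring

theorem summable_sq (t : ℍ) (m : ℤ) :
    Summable fun n : ℤ => 1 / ((m : ℂ) * (t : ℂ) + n) ^ 2 := by
  refine (EisensteinSeries.e2Summand_summable m t).congr fun n => ?_
  simp [EisensteinSeries.eisSummand]

theorem e2Summand_eq (t : ℍ) (m : ℤ) :
    EisensteinSeries.e2Summand m t = ∑' n : ℤ, 1 / ((m : ℂ) * (t : ℂ) + n) ^ 2 := by
  rw [EisensteinSeries.e2Summand]
  refine tsum_congr fun n => ?_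
  simp [EisensteinSeries.eisSummand]

theorem wTerm_mk (z : ℂ) (t : ℍ) (m n : ℤ) :
    wTerm z t (m, n) = 1 / (z + (m : ℂ) * (t : ℂ) + n) - 1 / ((m : ℂ) * (t : ℂ) + n)
      + z / ((m : ℂ) * (t : ℂ) + n) ^ 2 := by
  simp only [wTerm, om, add_assoc]

theorem tsum_wTerm_fiber (z : ℂ) (t : ℍ) (hz : ∀ m n : ℤ, z + m * (t : ℂ) + n ≠ 0) (m : ℤ) :
    ∑' n : ℤ, wTerm z t (m, n) = π * cot (π * (z + m * (t : ℂ))) - π * cot (π * (m * (t : ℂ)))
      + z * EisensteinSeries.e2Summand m t := by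
  have hsum : Summable fun n : ℤ => 1 / (z + (m : ℂ) * (t : ℂ) + n) - 1 / ((m : ℂ) * (t : ℂ) + n)
      + z / ((m : ℂ) * (t : ℂ) + n) ^ 2 :=
    ((summable_wTerm z t).prod_factor m).congr fun n => wTerm_mk z t m n
  rw [tsum_congr (wTerm_mk z t m), fiber_sum z _ _ (cotOK_add z t hz m) (cotOK_mul t m)
    (summable_sq t m) hsum, e2Summand_eq]
  ring

theorem tendsto_cot (z : ℂ) (t : ℍ) (hz : ∀ m n : ℤ, z + m * (t : ℂ) + n ≠ 0) :
    Tendsto (fun N : ℕ => ∑ m ∈ Finset.Icc (-(N : ℤ)) N,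
      (π : ℂ) * cot (π * (z + m * (t : ℂ)))) atTop (𝓝 (Z z t)) := by
  have hA : Tendsto (fun N : ℕ => ∑ m ∈ Finset.Icc (-(N : ℤ)) N, ∑' n : ℤ, wTerm z t (m, n))
      atTop (𝓝 (zetaW z t)) := by
    rw [zetaW, (summable_wTerm z t).tsum_prod]
    exact tendsto_sum_Icc_of_summable (summable_wTerm z t).prod
  have hG : Tendsto (fun N : ℕ => ∑ m ∈ Finset.Icc (-(N : ℤ)) N, EisensteinSeries.e2Summand m t)
      atTop (𝓝 (EisensteinSeries.G2 t)) := by
    rw [← SummationFilter.hasSum_symmetricIcc_iff]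
    exact (EisensteinSeries.summable_e2Summand_symmetricIcc t).hasSum
  have hc : ∀ N : ℕ, ∑ m ∈ Finset.Icc (-(N : ℤ)) N, (π : ℂ) * cot (π * ((m : ℂ) * (t : ℂ))) = 0 := by
    intro N
    refine sum_Icc_odd_eq_zero (c := fun m : ℤ => (π : ℂ) * cot (π * ((m : ℂ) * (t : ℂ)))) ?_ N
    intro m
    simp only [Int.cast_neg, neg_mul, mul_neg, Complex.cot, Complex.sin_neg, Complex.cos_neg,
      div_neg]
  have key : ∀ N : ℕ, ∑ m ∈ Finset.Icc (-(N : ℤ)) N, (π : ℂ) * cot (π * (z + m * (t : ℂ)))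
      = (∑ m ∈ Finset.Icc (-(N : ℤ)) N, ∑' n : ℤ, wTerm z t (m, n))
        - z * ∑ m ∈ Finset.Icc (-(N : ℤ)) N, EisensteinSeries.e2Summand m t := by
    intro N
    rw [Finset.mul_sum, ← Finset.sum_sub_distrib, ← sub_eq_zero, ← Finset.sum_sub_distrib,
      ← hc N]
    refine Finset.sum_congr rfl fun m _ => ?_
    rw [tsum_wTerm_fiber z t hz m]
    ring
  rw [Z]
  refine (hA.sub (hG.const_mul z)).congr fun N => ?_
  rw [key N]


/-! ### Quasi-periodicity -/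

theorem hz_shift {z : ℂ} {t : ℍ} (hz : ∀ m n : ℤ, z + m * (t : ℂ) + n ≠ 0) (a b : ℤ) :
    ∀ m n : ℤ, (z + a * (t : ℂ) + b) + m * (t : ℂ) + n ≠ 0 := by
  intro m n h
  apply hz (a + m) (b + n)
  rw [← h]
  push_cast
  ring

theorem cot_add_pi (x : ℂ) : cot (x + π) = cot x := by
  simp only [Complex.cot, Complex.cos_add_pi, Complex.sin_add_pi, neg_div_neg_eq]

theorem Z_add_one (z : ℂ) (t : ℍ) (hz : ∀ m n : ℤ, z + m * (t : ℂ) + n ≠ 0) :
    Z (z + 1) t = Z z t := by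
  have hz1 : ∀ m n : ℤ, (z + 1) + m * (t : ℂ) + n ≠ 0 := by
    have := hz_shift hz 0 1
    simpa using this
  refine tendsto_nhds_unique (tendsto_cot (z + 1) t hz1) ((tendsto_cot z t hz).congr fun N => ?_)
  refine Finset.sum_congr rfl fun m _ => ?_
  rw [← cot_add_pi (π * (z + m * (t : ℂ)))]
  congr 2
  ring

theorem sum_Icc_shift (f : ℤ → ℂ) (N : ℕ) :
    ∑ m ∈ Finset.Icc (-(N : ℤ)) N, f (m + 1)
      = ∑ m ∈ Finset.Icc (-(N : ℤ)) N, f m + f (N + 1) - f (-(N : ℤ)) := by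
  induction N with
  | zero => simp
  | succ N ih =>
    have h1 := Finset.sum_Icc_succ_eq_add_endpoints (fun m => f (m + 1)) (N := N)
    have h2 := Finset.sum_Icc_succ_eq_add_endpoints f (N := N)
    push_cast at h1 h2 ⊢
    rw [h1, h2, ih]
    have : (-((N : ℤ) + 1) + 1) = -(N : ℤ) := by ring
    rw [this]
    ring

theorem tendsto_cot_up (z : ℂ) (t : ℍ) :
    Tendsto (fun N : ℕ => cot (π * (z + ((N : ℂ) + 1) * (t : ℂ)))) atTop (𝓝 (-I)) := by
  have hq : ‖cexp (2 * π * I * (t : ℂ))‖ < 1 := UpperHalfPlane.norm_exp_two_pi_I_lt_one t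
  have h0 : Tendsto (fun N : ℕ => cexp (2 * π * I * (z + ((N : ℂ) + 1) * (t : ℂ)))) atTop (𝓝 0) := by
    have h1 : Tendsto (fun N : ℕ => cexp (2 * π * I * (t : ℂ)) ^ (N + 1)) atTop (𝓝 0) :=
      (tendsto_pow_atTop_nhds_zero_of_norm_lt_one hq).comp (tendsto_add_atTop_nat 1)
    have h2 := h1.const_mul (cexp (2 * π * I * z))
    rw [mul_zero] at h2
    refine h2.congr fun N => ?_
    rw [← Complex.exp_nat_mul, ← Complex.exp_add]
    congr 1
    push_cast
    ring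
  have h3 : Tendsto (fun N : ℕ => (cexp (2 * π * I * (z + ((N : ℂ) + 1) * (t : ℂ))) + 1)
      / (I * (1 - cexp (2 * π * I * (z + ((N : ℂ) + 1) * (t : ℂ)))))) atTop
      (𝓝 ((0 + 1) / (I * (1 - 0)))) :=
    (h0.add_const 1).div ((h0.const_sub 1).const_mul I) (by simp)
  have h4 : ((0 : ℂ) + 1) / (I * (1 - 0)) = -I := by
    rw [zero_add, sub_zero, mul_one, one_div, Complex.inv_I]
  rw [h4] at h3
  refine h3.congr fun N => ?_
  rw [Complex.cot_pi_eq_exp_ratio]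

theorem cot_neg' (x : ℂ) : cot (-x) = - cot x := by
  simp only [Complex.cot, Complex.sin_neg, Complex.cos_neg, div_neg]

theorem tendsto_cot_down (z : ℂ) (t : ℍ) :
    Tendsto (fun N : ℕ => cot (π * (z + ((-(N : ℤ) : ℤ) : ℂ) * (t : ℂ)))) atTop (𝓝 I) := by
  have h := (tendsto_cot_up (-z - t) t).neg
  rw [neg_neg] at h
  refine h.congr fun N => ?_
  rw [← cot_neg']
  congr 1
  push_cast
  ring

theorem Z_add_tau (z : ℂ) (t : ℍ) (hz : ∀ m n : ℤ, z + m * (t : ℂ) + n ≠ 0) :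
    Z (z + t) t = Z z t - 2 * π * I := by
  have hz1 : ∀ m n : ℤ, (z + t) + m * (t : ℂ) + n ≠ 0 := by
    have := hz_shift hz 1 0
    simpa using this
  have hup : Tendsto (fun N : ℕ => (π : ℂ) * cot (π * (z + (((N : ℤ) + 1 : ℤ) : ℂ) * (t : ℂ))))
      atTop (𝓝 (π * (-I))) := by
    refine ((tendsto_cot_up z t).const_mul (π : ℂ)).congr fun N => ?_
    push_cast
    ring_nf
  have hdown := (tendsto_cot_down z t).const_mul (π : ℂ)
  have h := ((tendsto_cot z t hz).add hup).sub hdown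
  have h2 : Z z t + π * (-I) - π * I = Z z t - 2 * π * I := by ring
  rw [h2] at h
  refine tendsto_nhds_unique (tendsto_cot (z + t) t hz1) (h.congr fun N => ?_)
  rw [← sum_Icc_shift (fun m : ℤ => (π : ℂ) * cot (π * (z + (m : ℂ) * (t : ℂ)))) N]
  refine Finset.sum_congr rfl fun m _ => ?_
  push_cast
  ring_nf

theorem Z_add_int (z : ℂ) (t : ℍ) (hz : ∀ m n : ℤ, z + m * (t : ℂ) + n ≠ 0) (n : ℤ) :
    Z (z + n) t = Z z t := by
  induction n using Int.induction_on with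
  | zero => simp
  | succ n ih =>
    have h := Z_add_one (z + ((n : ℤ) : ℂ)) t (by simpa using hz_shift hz 0 n)
    rw [show z + (((n : ℤ) + 1 : ℤ) : ℂ) = z + ((n : ℤ) : ℂ) + 1 by push_cast; ring, h, ih]
  | pred n ih =>
    have h := Z_add_one (z + ((-(n : ℤ) - 1 : ℤ) : ℂ)) t
      (by simpa using hz_shift hz 0 (-(n : ℤ) - 1))
    rw [show z + ((-(n : ℤ) - 1 : ℤ) : ℂ) + 1 = z + ((-(n : ℤ) : ℤ) : ℂ) by push_cast; ring,
      ih] at h
    exact h.symm

theorem Z_add_int_tau (z : ℂ) (t : ℍ) (hz : ∀ m n : ℤ, z + m * (t : ℂ) + n ≠ 0) (m : ℤ) :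
    Z (z + m * (t : ℂ)) t = Z z t - 2 * π * I * m := by
  induction m using Int.induction_on with
  | zero => simp
  | succ m ih =>
    have h := Z_add_tau (z + ((m : ℤ) : ℂ) * (t : ℂ)) t (by simpa using hz_shift hz m 0)
    rw [ih] at h
    rw [show z + (((m : ℤ) + 1 : ℤ) : ℂ) * (t : ℂ) = z + ((m : ℤ) : ℂ) * (t : ℂ) + t by
      push_cast; ring, h]
    push_cast
    ring
  | pred m ih =>
    have h := Z_add_tau (z + ((-(m : ℤ) - 1 : ℤ) : ℂ) * (t : ℂ)) t
      (by simpa using hz_shift hz (-(m : ℤ) - 1) 0)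
    rw [show z + ((-(m : ℤ) - 1 : ℤ) : ℂ) * (t : ℂ) + t = z + ((-(m : ℤ) : ℤ) : ℂ) * (t : ℂ) by
      push_cast; ring, ih] at h
    rw [eq_sub_iff_add_eq] at h
    rw [← h]
    push_cast
    ring

theorem Z_add_lattice (z : ℂ) (t : ℍ) (hz : ∀ m n : ℤ, z + m * (t : ℂ) + n ≠ 0) (m n : ℤ) :
    Z (z + m * (t : ℂ) + n) t = Z z t - 2 * π * I * m := by
  rw [Z_add_int (z + m * (t : ℂ)) t (by simpa using hz_shift hz m 0) n, Z_add_int_tau z t hz m]

end Fermat.Agent.S16.ZW
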