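/-
S16, slice EV: the weight one Eisenstein–Kronecker family
`ev x y t = Z (x t + y) t + 2 π i x` at the real point `(x, y)` (not both integers), where `Z` is
the Eisenstein-summed Weierstrass zeta function of `ZW`.

* `Z_eq_Zc`        : `Z z t` equals the Lambert form `Zc z (ee t)` off the lattice;
* `ev_add_int`, `ev_neg`, `ev_T`, `ev_S`, `ev_SL2` : the transformation laws;
* `ev_Gamma0`      : the law for `(0, j / p)` under `Γ₀(p)`;
* `hasSum_ev_zero` : the `q`-expansion of `ev 0 y`.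
-/
import Mathlib
import Fermat.Agent.S16.ZW
import Fermat.Agent.S16.EVLambert

set_option autoImplicit false

open Complex Filter Topology
open UpperHalfPlane hiding I
open scoped Real MatrixGroups Manifold

noncomputable section

namespace Fermat.Agent.S16.EV

open Fermat.Agent.S16.EVLambert

/-- The weight one Eisenstein–Kronecker function at the point `x t + y`. -/
def ev (x y : ℝ) (t : ℍ) : ℂ := ZW.Z ((x : ℂ) * (t : ℂ) + (y : ℂ)) t + 2 * π * I * x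

/-- The point `(x, y)` is not in `ℤ²`. -/
def NotInt (x y : ℝ) : Prop := ¬ ((∃ a : ℤ, x = a) ∧ (∃ b : ℤ, y = b))

theorem notInt_zero_left {y : ℝ} (hy : ¬ ∃ b : ℤ, y = b) : NotInt 0 y := fun h => hy h.2

theorem offLattice {x y : ℝ} (hxy : NotInt x y) (t : ℍ) :
    ∀ m n : ℤ, (x : ℂ) * (t : ℂ) + (y : ℂ) + m * (t : ℂ) + n ≠ 0 := by
  intro m n h
  apply hxy
  have him := congrArg Complex.im h
  have hre := congrArg Complex.re h
  simp only [add_im, mul_im, ofReal_re, ofReal_im, zero_mul, add_zero, intCast_re, intCast_im,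
    zero_im, coe_im, coe_re, add_re, mul_re, sub_zero, zero_re] at him hre
  have ht : 0 < t.im := t.im_pos
  have hx : x = ((-m : ℤ) : ℝ) := by
    have h1 : (x + m) * t.im = 0 := by linarith
    rcases mul_eq_zero.mp h1 with h2 | h2
    · push_cast; linarith
    · exact absurd h2 ht.ne'
  refine ⟨⟨-m, hx⟩, ⟨-n, ?_⟩⟩
  have h3 : (x + m) * t.re + y + n = 0 := by linarith
  have h4 : x + m = 0 := by rw [hx]; push_cast; ring
  rw [h4] at h3
  push_cast; linarith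

theorem norm_ee_coe_lt_one (t : ℍ) : ‖ee (t : ℂ)‖ < 1 := by
  simpa [ee] using UpperHalfPlane.norm_exp_two_pi_I_lt_one t

/-- Off the lattice, `Z` is given by the Lambert form. -/
theorem Z_eq_Zc (z : ℂ) (t : ℍ) (hz : ∀ m n : ℤ, z + m * (t : ℂ) + n ≠ 0) :
    ZW.Z z t = Zc z (ee (t : ℂ)) := by
  have hz' : ∀ m : ℤ, ee (z + m * (t : ℂ)) ≠ 1 := by
    intro m h
    obtain ⟨n, hn⟩ := (ee_eq_one_iff _).mp h
    apply hz m (-n)
    rw [hn]; push_cast; ring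
  exact tendsto_nhds_unique (ZW.tendsto_cot z t hz)
    (tendsto_sum_Icc_cot z t (norm_ee_coe_lt_one t) hz')

theorem ev_eq_Zc {x y : ℝ} (hxy : NotInt x y) (t : ℍ) :
    ev x y t = Zc ((x : ℂ) * (t : ℂ) + (y : ℂ)) (ee (t : ℂ)) + 2 * π * I * x := by
  rw [ev, Z_eq_Zc _ t (offLattice hxy t)]

theorem ev_add_int {x y : ℝ} (hxy : NotInt x y) (a b : ℤ) (t : ℍ) :
    ev (x + a) (y + b) t = ev x y t := by
  unfold ev
  have h := ZW.Z_add_lattice _ t (offLattice hxy t) a b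
  have e : (((x + a : ℝ) : ℂ)) * (t : ℂ) + ((y + b : ℝ) : ℂ)
      = (x : ℂ) * t + y + a * t + b := by push_cast; ring
  rw [e, h]; push_cast; ring

theorem ev_neg (x y : ℝ) (t : ℍ) : ev (-x) (-y) t = -ev x y t := by
  unfold ev
  have e : (((-x : ℝ) : ℂ)) * (t : ℂ) + ((-y : ℝ) : ℂ) = -((x : ℂ) * t + y) := by
    push_cast; ring
  rw [e, ZW.Z_neg]; push_cast; ring

theorem ev_T (x y : ℝ) (t : ℍ) : ev x y (ModularGroup.T • t) = ev x (x + y) t := by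
  unfold ev
  rw [ZW.Z_T, ZW.coe_T_smul]
  congr 2
  push_cast; ring

theorem ev_S (x y : ℝ) (t : ℍ) : ev x y (ModularGroup.S • t) = t * ev y (-x) t := by
  unfold ev
  have ht : (t : ℂ) ≠ 0 := ne_zero t
  have h := ZW.Z_S ((y : ℂ) * t - x) t
  have e : (x : ℂ) * ((ModularGroup.S • t : ℍ) : ℂ) + (y : ℂ) = ((y : ℂ) * t - x) / t := by
    rw [ZW.coe_S_smul]
    field_simp
    ring
  rw [e, h]
  have e2 : (y : ℂ) * (t : ℂ) + ((-x : ℝ) : ℂ) = (y : ℂ) * t - x := by push_cast; ring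
  rw [e2]
  ring

theorem denom_mul_smul (g h : SL(2, ℤ)) (t : ℍ) :
    denom ((g * h : SL(2, ℤ)) : GL (Fin 2) ℝ) t = denom g ((h • t : ℍ) : ℂ) * denom h t := by
  have hd : denom h t ≠ 0 := denom_ne_zero h t
  rw [ModularGroup.denom_apply, ModularGroup.denom_apply, ModularGroup.denom_apply,
    coe_specialLinearGroup_apply] at *
  simp only [Matrix.SpecialLinearGroup.coe_mul, Matrix.mul_apply, Fin.sum_univ_two, algebraMap_int_eq, eq_intCast,
    Int.cast_add, Int.cast_mul, ofReal_intCast]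
  field_simp
  ring

/-- The transformation law of `ev` under `SL(2, ℤ)` (weight one, row vector action). -/
theorem ev_SL2 (γ : SL(2, ℤ)) : ∀ (x y : ℝ) (t : ℍ),
    ev x y (γ • t) = denom γ t *
      ev (x * ((γ 0 0 : ℤ) : ℝ) + y * ((γ 1 0 : ℤ) : ℝ))
        (x * ((γ 0 1 : ℤ) : ℝ) + y * ((γ 1 1 : ℤ) : ℝ)) t := by
  have hγ : γ ∈ Subgroup.closure {ModularGroup.S, ModularGroup.T} := by
    simp [SpecialLinearGroup.SL2Z_generators]
  induction hγ using Subgroup.closure_induction with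
  | one => intro x y t; simp
  | mem g hg =>
    simp only [Set.mem_insert_iff, Set.mem_singleton_iff] at hg
    rcases hg with rfl | rfl
    · intro x y t
      rw [ev_S, ModularGroup.denom_S]
      congr 2 <;> simp [ModularGroup.S]
    · intro x y t
      rw [ev_T, ModularGroup.denom_apply]
      simp [ModularGroup.T]
  | mul g h _ _ ig ih =>
    intro x y t
    rw [mul_smul, ig, ih, denom_mul_smul, mul_assoc]
    congr 3
    · simp only [Matrix.SpecialLinearGroup.coe_mul, Matrix.mul_apply, Fin.sum_univ_two]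
      push_cast; ring
    · simp only [Matrix.SpecialLinearGroup.coe_mul, Matrix.mul_apply, Fin.sum_univ_two]
      push_cast; ring
  | inv g _ ig =>
    intro x y t
    have hdet := Matrix.SpecialLinearGroup.det_coe g
    rw [Matrix.det_fin_two] at hdet
    have hdetR : ((g 0 0 : ℤ) : ℝ) * (g 1 1 : ℤ) - ((g 0 1 : ℤ) : ℝ) * (g 1 0 : ℤ) = 1 := by
      exact_mod_cast hdet
    have h1 := ig (x * ((g⁻¹ 0 0 : ℤ) : ℝ) + y * ((g⁻¹ 1 0 : ℤ) : ℝ))
        (x * ((g⁻¹ 0 1 : ℤ) : ℝ) + y * ((g⁻¹ 1 1 : ℤ) : ℝ)) (g⁻¹ • t)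
    rw [smul_inv_smul] at h1
    have h2 := denom_mul_smul g g⁻¹ t
    rw [mul_inv_cancel] at h2
    have h3 : denom ((1 : SL(2, ℤ)) : GL (Fin 2) ℝ) t = 1 := by
      rw [ModularGroup.denom_apply]; simp
    rw [h3] at h2
    have e00 : ((g⁻¹ 0 0 : ℤ) : ℝ) = ((g 1 1 : ℤ) : ℝ) := by
      simp [Matrix.SpecialLinearGroup.coe_inv, Matrix.adjugate_fin_two]
    have e01 : ((g⁻¹ 0 1 : ℤ) : ℝ) = -((g 0 1 : ℤ) : ℝ) := by
      simp [Matrix.SpecialLinearGroup.coe_inv, Matrix.adjugate_fin_two]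
    have e10 : ((g⁻¹ 1 0 : ℤ) : ℝ) = -((g 1 0 : ℤ) : ℝ) := by
      simp [Matrix.SpecialLinearGroup.coe_inv, Matrix.adjugate_fin_two]
    have e11 : ((g⁻¹ 1 1 : ℤ) : ℝ) = ((g 0 0 : ℤ) : ℝ) := by
      simp [Matrix.SpecialLinearGroup.coe_inv, Matrix.adjugate_fin_two]
    have ex : (x * ((g⁻¹ 0 0 : ℤ) : ℝ) + y * ((g⁻¹ 1 0 : ℤ) : ℝ)) * ((g 0 0 : ℤ) : ℝ)
        + (x * ((g⁻¹ 0 1 : ℤ) : ℝ) + y * ((g⁻¹ 1 1 : ℤ) : ℝ)) * ((g 1 0 : ℤ) : ℝ) = x := by
      rw [e00, e01, e10, e11]; linear_combination x * hdetR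
    have ey : (x * ((g⁻¹ 0 0 : ℤ) : ℝ) + y * ((g⁻¹ 1 0 : ℤ) : ℝ)) * ((g 0 1 : ℤ) : ℝ)
        + (x * ((g⁻¹ 0 1 : ℤ) : ℝ) + y * ((g⁻¹ 1 1 : ℤ) : ℝ)) * ((g 1 1 : ℤ) : ℝ) = y := by
      rw [e00, e01, e10, e11]; linear_combination y * hdetR
    rw [ex, ey] at h1
    rw [h1]
    linear_combination (ev x y (g⁻¹ • t)) * h2

theorem not_int_div {p : ℕ} (hp : p ≠ 0) {j : ℤ} (hj : ¬ (p : ℤ) ∣ j) :
    ¬ ∃ b : ℤ, ((j : ℝ) / p) = b := by
  rintro ⟨b, hb⟩
  apply hj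
  have hp' : (p : ℝ) ≠ 0 := Nat.cast_ne_zero.mpr hp
  rw [div_eq_iff hp'] at hb
  refine ⟨b, ?_⟩
  have : ((j : ℤ) : ℝ) = ((p * b : ℤ) : ℝ) := by push_cast; rw [hb]; ring
  exact_mod_cast this

theorem ev_congr_int {x y x' y' : ℝ} (hxy : NotInt x y) (hx : ∃ a : ℤ, x' = x + a)
    (hy : ∃ b : ℤ, y' = y + b) (t : ℍ) : ev x' y' t = ev x y t := by
  obtain ⟨a, rfl⟩ := hx
  obtain ⟨b, rfl⟩ := hy
  exact ev_add_int hxy a b t

theorem ev_Gamma0 {p : ℕ} (hp : p ≠ 0) (γ : SL(2, ℤ)) (hγ : γ ∈ CongruenceSubgroup.Gamma0 p)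
    (j : ℤ) (hj : ¬ (p : ℤ) ∣ j) (t : ℍ) :
    ev 0 ((j : ℝ) / p) (γ • t) = denom γ t * ev 0 (((γ 1 1 : ℤ) : ℝ) * j / p) t := by
  have hp' : (p : ℝ) ≠ 0 := Nat.cast_ne_zero.mpr hp
  have hc : ((γ 1 0 : ℤ) : ZMod p) = 0 := CongruenceSubgroup.Gamma0_mem.mp hγ
  obtain ⟨c, hc⟩ := (ZMod.intCast_zmod_eq_zero_iff_dvd _ _).mp hc
  have hdet := Matrix.SpecialLinearGroup.det_coe γ
  rw [Matrix.det_fin_two, hc] at hdet
  have hcop : IsCoprime (p : ℤ) (γ 1 1 : ℤ) := ⟨-(γ 0 1 * c), γ 0 0, by linear_combination hdet⟩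
  have hj' : ¬ (p : ℤ) ∣ (γ 1 1 : ℤ) * j := fun h => hj (hcop.dvd_of_dvd_mul_left h)
  rw [ev_SL2]
  congr 1
  refine ev_congr_int (notInt_zero_left ?_) ⟨j * c, ?_⟩ ⟨0, ?_⟩ t
  · have := not_int_div hp hj'
    push_cast at this
    exact this
  · rw [hc]; push_cast; field_simp; ring
  · push_cast; ring

theorem hasSum_ev_zero (y : ℝ) (hy : ¬ ∃ b : ℤ, y = b) (t : ℍ) :
    HasSum (fun n : ℕ => cZ y n * Function.Periodic.qParam 1 (t : ℂ) ^ n) (ev 0 y t) := by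
  have h := hasSum_Zc_ofReal y (norm_ee_coe_lt_one t)
  have e : ev 0 y t = Zc (y : ℂ) (ee (t : ℂ)) := by
    rw [ev_eq_Zc (notInt_zero_left hy)]
    simp
  have e2 : Function.Periodic.qParam 1 (t : ℂ) = ee (t : ℂ) := by
    simp [Function.Periodic.qParam, ee]
  rw [e, e2]
  exact h

theorem differentiableOn_Zc (y : ℝ) :
    DifferentiableOn ℂ (fun t : ℂ => Zc (y : ℂ) (ee t)) {t : ℂ | 0 < t.im} := by
  intro t ht
  apply DifferentiableAt.differentiableWithinAt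
  have hq : ‖ee t‖ < 1 := by
    rw [norm_ee]
    have : 0 < t.im := ht
    have h0 : -2 * π * t.im < 0 := by nlinarith [Real.pi_pos]
    simpa using Real.exp_lt_exp.mpr h0
  have hee : DifferentiableAt ℂ ee t := by
    unfold ee
    fun_prop
  have hu : ‖ee (y : ℂ)‖ ≤ 1 := (norm_ee_ofReal y).le
  have hu' : ‖(ee (y : ℂ))⁻¹‖ ≤ 1 := by rw [norm_inv, norm_ee_ofReal]; simp
  have h1 : DifferentiableAt ℂ (fun t : ℂ => A (ee (y : ℂ)) (ee t)) t :=
    (differentiableAt_A _ hu hq).comp t hee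
  have h2 : DifferentiableAt ℂ (fun t : ℂ => A (ee (y : ℂ))⁻¹ (ee t)) t :=
    (differentiableAt_A _ hu' hq).comp t hee
  unfold Zc
  exact (differentiableAt_const _).sub ((differentiableAt_const _).mul (h1.sub h2))

theorem mdifferentiable_ev_zero (y : ℝ) (hy : ¬ ∃ b : ℤ, y = b) : MDiff (ev 0 y) := by
  rw [UpperHalfPlane.mdifferentiable_iff]
  refine (differentiableOn_Zc y).congr fun z hz => ?_
  have hz' : 0 < z.im := hz
  rw [Function.comp_apply, ev_eq_Zc (notInt_zero_left hy)]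
  rw [UpperHalfPlane.ofComplex_apply_of_im_pos hz']
  simp

end Fermat.Agent.S16.EV
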