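/-
S16, slice EV (second half, helper9): boundedness of `Zc (x t + y) (e t)` for `0 ≤ x < 1` as
`Im t ≥ 1`, and holomorphy of `t ↦ Zc y (e t)` on the upper half plane, for the Lambert form
`EVLambert.Zc` of the Eisenstein-ordered cotangent sum.
-/
import Mathlib
import Fermat.Agent.S16.EVLambert

set_option autoImplicit false

noncomputable section

open Fermat.Agent.S16.EVLambert Complex
open scoped Real

namespace Fermat.Agent.S16.EVBound

theorem norm_ee_lt_one {t : ℂ} (ht : 0 < t.im) : ‖ee t‖ < 1 := by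
  rw [norm_ee, Real.exp_lt_one_iff]
  have := Real.pi_pos
  nlinarith

theorem differentiable_ee : Differentiable ℂ ee := by
  unfold ee
  fun_prop

/-- Holomorphy of `t ↦ Zc y (e t)` on the upper half plane, for real `y`. -/
theorem differentiableOn_Zc (y : ℝ) :
    DifferentiableOn ℂ (fun t : ℂ => Zc (y : ℂ) (ee t)) {t : ℂ | 0 < t.im} := by
  intro t ht
  have hq : ‖ee t‖ < 1 := norm_ee_lt_one ht
  have h1 : DifferentiableAt ℂ (fun t : ℂ => A (ee (y : ℂ)) (ee t)) t :=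
    DifferentiableAt.comp (g := fun q => A (ee (y : ℂ)) q) t
      (differentiableAt_A _ (norm_ee_ofReal y).le hq) (differentiable_ee t)
  have h2 : DifferentiableAt ℂ (fun t : ℂ => A (ee (y : ℂ))⁻¹ (ee t)) t :=
    DifferentiableAt.comp (g := fun q => A (ee (y : ℂ))⁻¹ q) t
      (differentiableAt_A _ (by rw [norm_inv, norm_ee_ofReal, inv_one]) hq) (differentiable_ee t)
  apply DifferentiableAt.differentiableWithinAt
  unfold Zc
  exact (differentiableAt_const _).sub ((differentiableAt_const _).mul (h1.sub h2))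

theorem im_lin (x y : ℝ) (t : ℂ) : ((x : ℂ) * t + (y : ℂ)).im = x * t.im := by
  simp

/-- Boundedness of `Zc (x t + y) (e t)` on `Im t ≥ 1` for `0 ≤ x < 1`. -/
theorem bounded_Zc (x y : ℝ) (hx0 : 0 ≤ x) (hx1 : x < 1) :
    ∃ M : ℝ, ∀ t : ℂ, 1 ≤ t.im → ‖Zc ((x : ℂ) * t + (y : ℂ)) (ee t)‖ ≤ M := by
  have hpi := Real.pi_pos
  set r : ℝ := Real.exp (-2 * π) with hr
  set s : ℝ := Real.exp (-2 * π * (1 - x)) with hs
  have hr1 : r < 1 := by
    rw [hr, Real.exp_lt_one_iff]; linarith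
  have hs1 : s < 1 := by
    rw [hs, Real.exp_lt_one_iff]; nlinarith
  -- the bound for the cotangent term
  obtain ⟨C, hC⟩ : ∃ C : ℝ, ∀ t : ℂ, 1 ≤ t.im →
      ‖(π : ℂ) * cot (π * ((x : ℂ) * t + (y : ℂ)))‖ ≤ C := by
    rcases hx0.eq_or_lt with rfl | hxpos
    · refine ⟨‖(π : ℂ) * cot (π * (y : ℂ))‖, fun t _ => ?_⟩
      simp
    · set a : ℝ := Real.exp (-2 * π * x) with ha
      have ha1 : a < 1 := by
        rw [ha, Real.exp_lt_one_iff]; nlinarith
      have ha0 : 0 < a := Real.exp_pos _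
      refine ⟨π + 2 * π * (a / (1 - a)), fun t ht => ?_⟩
      set u : ℂ := ee ((x : ℂ) * t + (y : ℂ)) with hu
      have hun : ‖u‖ ≤ a := by
        rw [hu, norm_ee, im_lin, ha, Real.exp_le_exp]
        have h5 : 0 ≤ x * (t.im - 1) := mul_nonneg hxpos.le (by linarith)
        have h6 : 0 ≤ π * (x * (t.im - 1)) := mul_nonneg hpi.le h5
        nlinarith
      have hu1 : u ≠ 1 := by
        intro h
        rw [h, norm_one] at hun
        linarith
      have hden : 1 - a ≤ ‖1 - u‖ := by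
        have h3 := norm_sub_norm_le (1 : ℂ) u
        rw [norm_one] at h3
        linarith
      have hfrac : ‖u / (1 - u)‖ ≤ a / (1 - a) := by
        rw [norm_div]
        exact div_le_div₀ ha0.le hun (by linarith) hden
      rw [cotp_eq_neg _ hu1]
      calc ‖-((π : ℂ) * I) - 2 * π * I * (u / (1 - u))‖
          ≤ ‖-((π : ℂ) * I)‖ + ‖2 * π * I * (u / (1 - u))‖ := norm_sub_le _ _
        _ = π + 2 * π * ‖u / (1 - u)‖ := by
            rw [norm_neg, norm_mul, norm_mul, norm_mul, Complex.norm_I, mul_one, mul_one]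
            simp [abs_of_pos hpi]
        _ ≤ π + 2 * π * (a / (1 - a)) := by gcongr
  refine ⟨C + 2 * π * (r / ((1 - r) * (1 - r)) + s / ((1 - s) * (1 - r))), fun t ht => ?_⟩
  set u : ℂ := ee ((x : ℂ) * t + (y : ℂ)) with hu
  have hqn : ‖ee t‖ ≤ r := by
    rw [norm_ee, hr, Real.exp_le_exp]
    nlinarith
  have hun : ‖u‖ ≤ 1 := by
    rw [hu, norm_ee, im_lin, Real.exp_le_one_iff]
    have : 0 ≤ x * t.im := mul_nonneg hx0 (by linarith)
    nlinarith
  have h1 : ‖u * ee t‖ ≤ r := by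
    rw [norm_mul]
    calc ‖u‖ * ‖ee t‖ ≤ 1 * r := by gcongr
      _ = r := one_mul r
  have h2 : ‖u⁻¹ * ee t‖ ≤ s := by
    rw [norm_mul, norm_inv, hu, norm_ee, norm_ee, im_lin, ← Real.exp_neg, ← Real.exp_add, hs,
      Real.exp_le_exp]
    have h5 : 0 ≤ (1 - x) * (t.im - 1) := mul_nonneg (by linarith) (by linarith)
    have h6 : 0 ≤ π * ((1 - x) * (t.im - 1)) := mul_nonneg hpi.le h5
    nlinarith
  have hA1 := norm_A_le u (ee t) h1 hr1 hqn hr1
  have hA2 := norm_A_le u⁻¹ (ee t) h2 hs1 hqn hr1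
  unfold Zc
  rw [← hu]
  calc ‖(π : ℂ) * cot (π * ((x : ℂ) * t + (y : ℂ))) - 2 * π * I * (A u (ee t) - A u⁻¹ (ee t))‖
      ≤ ‖(π : ℂ) * cot (π * ((x : ℂ) * t + (y : ℂ)))‖
        + ‖2 * π * I * (A u (ee t) - A u⁻¹ (ee t))‖ := norm_sub_le _ _
    _ = ‖(π : ℂ) * cot (π * ((x : ℂ) * t + (y : ℂ)))‖
        + 2 * π * ‖A u (ee t) - A u⁻¹ (ee t)‖ := by
        rw [norm_mul, norm_mul, norm_mul, Complex.norm_I, mul_one]
        simp [abs_of_pos hpi]
    _ ≤ C + 2 * π * (r / ((1 - r) * (1 - r)) + s / ((1 - s) * (1 - r))) := by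
        have h3 : ‖A u (ee t) - A u⁻¹ (ee t)‖
            ≤ r / ((1 - r) * (1 - r)) + s / ((1 - s) * (1 - r)) :=
          (norm_sub_le _ _).trans (add_le_add hA1 hA2)
        have := hC t ht
        gcongr

end Fermat.Agent.S16.EVBound
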