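/-
S16, slice EV, wrappers (helper9): for real `(x, y)` off `ℤ²`, the Eisenstein-summed zeta function
`t ↦ ZW.Z (x t + y) t` is bounded at `i∞`, and for real `y ∉ ℤ` the function `t ↦ ZW.Z y t` is
holomorphic on the upper half plane.  (Consequences of `EVGlue.Zc_eq_Z`, `EVBound.bounded_Zc`,
`EVBound.differentiableOn_Zc` and `ZW.Z_add_lattice`.)
-/
import Mathlib
import Fermat.Agent.S16.ZW
import Fermat.Agent.S16.EVLambert
import Fermat.Agent.S16.EVGlue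
import Fermat.Agent.S16.EVBound

set_option autoImplicit false

noncomputable section

open Complex Filter Topology
open UpperHalfPlane hiding I
open scoped Real Manifold

namespace Fermat.Agent.S16.EVWrap

open Fermat.Agent.S16.ZW Fermat.Agent.S16.EVLambert

/-- A real point `(x, y)` off `ℤ²` gives a point `x t + y` off the lattice `ℤ t + ℤ`. -/
theorem offLattice_real (x y : ℝ) (t : ℍ)
    (hxy : ¬ ((∃ m : ℤ, x = m) ∧ ∃ n : ℤ, y = n)) :
    ∀ m n : ℤ, ((x : ℂ) * (t : ℂ) + (y : ℂ)) + m * (t : ℂ) + n ≠ 0 := by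
  intro m n h
  apply hxy
  have him := congrArg Complex.im h
  have hre := congrArg Complex.re h
  simp only [add_im, mul_im, ofReal_re, ofReal_im, zero_mul, add_zero, intCast_re, intCast_im,
    zero_im, add_re, mul_re, sub_zero, zero_re, coe_im, coe_re] at him hre
  have h1 : x + m = 0 := by
    have h2 : (x + m) * t.im = 0 := by linarith
    rcases mul_eq_zero.mp h2 with h3 | h3
    · exact h3
    · exact absurd h3 t.im_pos.ne'
  have h4 : y + n = 0 := by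
    have h5 : (x + m) * t.re + (y + n) = 0 := by linarith
    rw [h1, zero_mul, zero_add] at h5
    exact h5
  exact ⟨⟨-m, by push_cast; linarith⟩, ⟨-n, by push_cast; linarith⟩⟩

/-- Boundedness at `i∞` for `0 ≤ x < 1`. -/
theorem isBoundedAtImInfty_Z_frac (x y : ℝ) (hx0 : 0 ≤ x) (hx1 : x < 1)
    (hxy : ¬ ((∃ m : ℤ, x = m) ∧ ∃ n : ℤ, y = n)) :
    IsBoundedAtImInfty (fun t : ℍ => Z ((x : ℂ) * (t : ℂ) + (y : ℂ)) t) := by
  obtain ⟨M, hM⟩ := EVBound.bounded_Zc x y hx0 hx1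
  rw [isBoundedAtImInfty_iff]
  refine ⟨M, 1, fun t ht => ?_⟩
  rw [← EVGlue.Zc_eq_Z _ t (offLattice_real x y t hxy)]
  exact hM (t : ℂ) ht

/-- Boundedness at `i∞` for every real `(x, y)` off `ℤ²`. -/
theorem isBoundedAtImInfty_Z (x y : ℝ) (hxy : ¬ ((∃ m : ℤ, x = m) ∧ ∃ n : ℤ, y = n)) :
    IsBoundedAtImInfty (fun t : ℍ => Z ((x : ℂ) * (t : ℂ) + (y : ℂ)) t) := by
  have hxy' : ¬ ((∃ m : ℤ, Int.fract x = m) ∧ ∃ n : ℤ, y = n) := by
    rintro ⟨⟨m, hm⟩, hn⟩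
    refine hxy ⟨⟨⌊x⌋ + m, ?_⟩, hn⟩
    have := Int.floor_add_fract x
    push_cast
    linarith
  have h := isBoundedAtImInfty_Z_frac (Int.fract x) y (Int.fract_nonneg x) (Int.fract_lt_one x) hxy'
  rw [isBoundedAtImInfty_iff] at h ⊢
  obtain ⟨M, A, hMA⟩ := h
  refine ⟨M + ‖2 * (π : ℂ) * I * (⌊x⌋ : ℂ)‖, A, fun t ht => ?_⟩
  have hz := offLattice_real (Int.fract x) y t hxy'
  have hlat := Z_add_lattice _ t hz ⌊x⌋ 0
  have harg : ((Int.fract x : ℝ) : ℂ) * (t : ℂ) + (y : ℂ) + (⌊x⌋ : ℂ) * (t : ℂ) + ((0 : ℤ) : ℂ)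
      = (x : ℂ) * (t : ℂ) + (y : ℂ) := by
    have h1 : (x : ℂ) = ((⌊x⌋ : ℝ) : ℂ) + ((Int.fract x : ℝ) : ℂ) := by
      rw [← ofReal_add, Int.floor_add_fract]
    rw [h1]
    push_cast
    ring
  rw [harg] at hlat
  show ‖Z ((x : ℂ) * (t : ℂ) + (y : ℂ)) t‖ ≤ _
  rw [hlat]
  exact (norm_sub_le _ _).trans (add_le_add (hMA t ht) le_rfl)

/-- Holomorphy of `t ↦ Z y t` for real `y ∉ ℤ`. -/
theorem mdifferentiable_Z_real (y : ℝ) (hy : ∀ n : ℤ, y ≠ n) :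
    MDiff (fun t : ℍ => Z (y : ℂ) t) := by
  rw [UpperHalfPlane.mdifferentiable_iff]
  refine (EVBound.differentiableOn_Zc y).congr fun z hz => ?_
  have hz' : 0 < z.im := hz
  simp only [Function.comp_apply, ofComplex_apply_of_im_pos hz']
  have hoff : ∀ m n : ℤ, (y : ℂ) + m * ((⟨z, hz'⟩ : ℍ) : ℂ) + n ≠ 0 := by
    have h := offLattice_real 0 y ⟨z, hz'⟩ (fun ⟨_, ⟨n, hn⟩⟩ => hy n hn)
    intro m n
    have := h m n
    simpa using this
  rw [← EVGlue.Zc_eq_Z _ _ hoff]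

end Fermat.Agent.S16.EVWrap
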