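/-
S16 (index of the Eisenstein ideal), shared definitions.

* `sigmaP p m`   : the sum of the divisors of `m` prime to `p` (Eisenstein eigenvalue system);
* `EisCong p m`  : some weight-2 cusp form of level `p` with integer `q`-expansion is congruent to
                   `∑ σ'(j) q^j` modulo `m`;
* `dedS p a b`, `dedN p a b` : the Dedekind-type sums giving the constant terms of the products of
                   weight-one Eisenstein series;
* `redHom ℓ`, `iotaC ℓ` : reduction `ℤ_(ℓ) → 𝔽_ℓ` and the inclusion `ℤ_(ℓ) → ℂ`.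
-/
import Mathlib
import Fermat.Prelude.Def_CuspForm_IntegralStructure
import Fermat.Prelude.Def_GaloisRep_Flat

set_option autoImplicit false

noncomputable section

namespace Fermat.Agent.S16

/-- `σ'(m)`: the sum of the divisors of `m` which are prime to `p`. -/
def sigmaP (p m : ℕ) : ℕ := ∑ d ∈ m.divisors.filter (fun d => ¬ p ∣ d), d

/-- Some weight-2 cusp form of level `p` with integer `q`-expansion has `a_j ≡ σ'(j) mod m` for
all `j ≥ 1`. -/
def EisCong (p m : ℕ) : Prop :=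
  ∃ f : CuspForm (CongruenceSubgroup.Gamma0 p) 2, ∃ a : ℕ → ℤ,
    (∀ j : ℕ, ModularFormClass.qCoeff f j = (a j : ℂ)) ∧
    ∀ j : ℕ, 1 ≤ j → (a j ≡ (sigmaP p j : ℤ) [ZMOD (m : ℤ)])

/-- `S(a,b) = ∑_{j=1}^{p-1} (a j mod p) (b j mod p)`. -/
def dedS (p a b : ℕ) : ℕ := ∑ j ∈ Finset.Ico 1 p, (a * j % p) * (b * j % p)

/-- `N(a,b) = 12 S(a,b)/p - 3 p (p-1)` (an integer for `p ≥ 5`, `a b` prime to `p`). -/
def dedN (p a b : ℕ) : ℚ := 12 * (dedS p a b : ℚ) / p - 3 * p * (p - 1)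

section Local

variable (ℓ : ℕ)

/-- The inclusion `ℤ_(ℓ) → ℂ`. -/
def iotaC : ↥(GaloisRep.ratLocalizedAt ℓ) →+* ℂ :=
  (algebraMap ℚ ℂ).comp (GaloisRep.ratLocalizedAt ℓ).subtype

theorem iotaC_apply (x : ↥(GaloisRep.ratLocalizedAt ℓ)) : iotaC ℓ x = ((x : ℚ) : ℂ) := rfl

theorem iotaC_injective : Function.Injective (iotaC ℓ) := by
  intro x y h
  apply Subtype.ext
  have h' : ((x : ℚ) : ℂ) = ((y : ℚ) : ℂ) := h
  exact_mod_cast h'

variable [Fact ℓ.Prime]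

theorem den_ne_zero (x : ↥(GaloisRep.ratLocalizedAt ℓ)) : (((x : ℚ).den : ℕ) : ZMod ℓ) ≠ 0 := by
  intro h
  rw [ZMod.natCast_eq_zero_iff] at h
  have hx : (x : ℚ).den.Coprime ℓ := x.2
  have h1 : ℓ ∣ Nat.gcd (x : ℚ).den ℓ := Nat.dvd_gcd h dvd_rfl
  rw [hx] at h1
  exact (Fact.out : ℓ.Prime).one_lt.ne' (Nat.dvd_one.mp h1)

/-- Reduction modulo `ℓ` on `ℤ_(ℓ)`. -/
def redHom : ↥(GaloisRep.ratLocalizedAt ℓ) →+* ZMod ℓ where
  toFun x := ((x : ℚ) : ZMod ℓ)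
  map_one' := by simp
  map_zero' := by simp
  map_add' x y := by
    show (((x + y : ↥(GaloisRep.ratLocalizedAt ℓ)) : ℚ) : ZMod ℓ) = _
    rw [Subring.coe_add]
    exact Rat.cast_add_of_ne_zero (den_ne_zero ℓ x) (den_ne_zero ℓ y)
  map_mul' x y := by
    show (((x * y : ↥(GaloisRep.ratLocalizedAt ℓ)) : ℚ) : ZMod ℓ) = _
    rw [Subring.coe_mul]
    exact Rat.cast_mul_of_ne_zero (den_ne_zero ℓ x) (den_ne_zero ℓ y)

theorem redHom_apply (x : ↥(GaloisRep.ratLocalizedAt ℓ)) : redHom ℓ x = ((x : ℚ) : ZMod ℓ) := rfl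

end Local

end Fermat.Agent.S16
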