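/-
S16 slice DED (helper22): the arithmetic of the Dedekind-type sums
`S(a,b) = ∑_{j=1}^{p-1} (a j mod p)(b j mod p)` and `N(a,b) = 12 S(a,b)/p - 3p(p-1)`.

* `dvd_dedS`       : `p ∣ S(a,b)` for a prime `p ≥ 5`; `dedNZ` is the integer `N(a,b)`.
* `dedS_two`       : closed form of `S(2,b)` for `p = b t + 1`, `b` odd:
                     `N(2,b) = t (p - 4 - b²)/2`.
* `odd_dedS_one`   : for `p ≡ 1 mod 4` and an odd quadratic non-residue `h`, `S(1,h)` is odd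
                     (Eisenstein's lemma).
* `gcd_mem_closure`, `exists_combination` : `gcd(p-1,12)` is an integer combination of `p - 1`
                     and finitely many `N(a,b)`.
-/
import Mathlib
import Fermat.Agent.S16.Defs

set_option autoImplicit false

open Finset

namespace Fermat.Agent.S16.Ded

/-! ### elementary sums -/

theorem sum_Ico_sq (n : ℕ) : 6 * ∑ j ∈ Ico 1 (n + 1), j ^ 2 = n * (n + 1) * (2 * n + 1) := by
  induction n with
  | zero => simp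
  | succ n ih =>
    rw [Finset.sum_Ico_succ_top (by omega), mul_add, ih]
    ring

theorem dvd_sum_Ico_sq (p : ℕ) (hp : p.Prime) (h5 : 5 ≤ p) : p ∣ ∑ j ∈ Ico 1 p, j ^ 2 := by
  obtain ⟨n, rfl⟩ : ∃ n, p = n + 1 := ⟨p - 1, by omega⟩
  have h := sum_Ico_sq n
  have hcop : Nat.Coprime (n + 1) 6 := by
    rw [Nat.Prime.coprime_iff_not_dvd hp]
    intro h6
    have := Nat.le_of_dvd (by norm_num) h6
    have h2 : n + 1 = 5 ∨ n + 1 = 6 := by omega
    rcases h2 with h2 | h2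
    · rw [h2] at h6; omega
    · rw [h2] at hp; exact absurd hp (by decide)
  have hdvd : (n + 1) ∣ 6 * ∑ j ∈ Ico 1 (n + 1), j ^ 2 := by
    rw [h]
    exact Dvd.intro_left (n * (2 * n + 1)) (by ring)
  exact hcop.dvd_of_dvd_mul_left hdvd

/-- `p ∣ S(a,b)` for a prime `p ≥ 5`. -/
theorem dvd_dedS (p : ℕ) (hp : p.Prime) (h5 : 5 ≤ p) (a b : ℕ) : p ∣ dedS p a b := by
  rw [← ZMod.natCast_eq_zero_iff]
  unfold dedS
  have h1 : ((∑ j ∈ Ico 1 p, a * j % p * (b * j % p) : ℕ) : ZMod p) =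
      (a : ZMod p) * b * ((∑ j ∈ Ico 1 p, j ^ 2 : ℕ) : ZMod p) := by
    push_cast
    rw [Finset.mul_sum]
    refine Finset.sum_congr rfl fun j _ => ?_
    rw [ZMod.natCast_mod, ZMod.natCast_mod]
    push_cast
    ring
  rw [h1, (ZMod.natCast_eq_zero_iff _ _).mpr (dvd_sum_Ico_sq p hp h5), mul_zero]

/-- The integer `N(a,b) = 12 S(a,b)/p - 3 p (p-1)`. -/
def dedNZ (p a b : ℕ) : ℤ := 12 * ((dedS p a b / p : ℕ) : ℤ) - 3 * p * (p - 1)

theorem dedN_eq (p : ℕ) (hp : p.Prime) (h5 : 5 ≤ p) (a b : ℕ) :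
    dedN p a b = ((dedNZ p a b : ℤ) : ℚ) := by
  unfold dedN dedNZ
  have hp0 : (p : ℚ) ≠ 0 := by exact_mod_cast hp.ne_zero
  have h1 : (((dedS p a b / p : ℕ) : ℤ) : ℚ) = (dedS p a b : ℚ) / p := by
    rw [Int.cast_natCast, Nat.cast_div (dvd_dedS p hp h5 a b) hp0]
  rw [Int.cast_sub, Int.cast_mul, h1]
  push_cast
  ring

theorem mul_dedNZ (p : ℕ) (hp : p.Prime) (h5 : 5 ≤ p) (a b : ℕ) :
    (p : ℤ) * dedNZ p a b = 12 * (dedS p a b : ℤ) - 3 * p ^ 2 * (p - 1) := by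
  unfold dedNZ
  obtain ⟨k, hk⟩ := dvd_dedS p hp h5 a b
  rw [hk, Nat.mul_div_cancel_left k hp.pos]
  push_cast
  ring

/-! ### block sums -/

theorem sum_range_mul_block (F : ℕ → ℚ) (n t : ℕ) :
    ∑ i ∈ range (n * t), F i = ∑ q ∈ range n, ∑ s ∈ range t, F (q * t + s) := by
  induction n with
  | zero => simp
  | succ n ih => rw [Nat.succ_mul, Finset.sum_range_add, ih, Finset.sum_range_succ]

theorem sum_quad (α β γ : ℚ) (n : ℕ) :
    ∑ s ∈ range n, (α + β * ((s : ℚ) + 1) + γ * ((s : ℚ) + 1) ^ 2) =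
      α * n + β * (n * (n + 1) / 2) + γ * (n * (n + 1) * (2 * n + 1) / 6) := by
  induction n with
  | zero => simp
  | succ n ih =>
    rw [Finset.sum_range_succ, ih]
    push_cast
    ring

theorem sum_quad' (A B C : ℚ) (n : ℕ) :
    ∑ q ∈ range n, (A + B * (q : ℚ) + C * (q : ℚ) ^ 2) =
      A * n + B * (n * (n - 1) / 2) + C * ((n - 1) * n * (2 * n - 1) / 6) := by
  induction n with
  | zero => simp
  | succ n ih =>
    rw [Finset.sum_range_succ, ih]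
    push_cast
    ring

/-- `(b * j) % p` for `p = b * t + 1`, `j = q * t + s + 1`, `s < t`, `q < b`. -/
theorem mul_mod_block (b t q s : ℕ) (hs : s < t) (hq : q < b) :
    ((b * (q * t + s + 1) % (b * t + 1) : ℕ) : ℚ) =
      (b : ℚ) * ((q : ℚ) * t + s + 1) - ((b : ℚ) * t + 1) * q := by
  have hle : q ≤ b * (s + 1) := by nlinarith
  have hlt : b * (s + 1) - q < b * t + 1 := by
    have : b * (s + 1) ≤ b * t := Nat.mul_le_mul_left b hs
    omega
  have h1 : b * (q * t + s + 1) = (b * t + 1) * q + (b * (s + 1) - q) := by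
    zify [hle]
    ring
  rw [h1, Nat.mul_add_mod, Nat.mod_eq_of_lt hlt, Nat.cast_sub hle]
  push_cast
  ring

/-- the function `B(i) = (b (i+1)) % p` summed over `n ≤ b` full blocks -/
theorem sum_B_blocks (b t n : ℕ) (hn : n ≤ b) :
    ∑ i ∈ range (n * t), ((b * (i + 1) % (b * t + 1) : ℕ) : ℚ) =
      (b : ℚ) * t * (t + 1) / 2 * n + ((b : ℚ) * t - (b * t + 1)) * t * (n * (n - 1) / 2) := by
  rw [sum_range_mul_block]
  have h1 : ∀ q ∈ range n, ∑ s ∈ range t, ((b * (q * t + s + 1) % (b * t + 1) : ℕ) : ℚ) =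
      (b : ℚ) * t * (t + 1) / 2 + ((b : ℚ) * t - (b * t + 1)) * t * (q : ℚ) + 0 * (q : ℚ) ^ 2 := by
    intro q hq
    have hq' : q < b := lt_of_lt_of_le (Finset.mem_range.mp hq) hn
    have h2 : ∀ s ∈ range t, ((b * (q * t + s + 1) % (b * t + 1) : ℕ) : ℚ) =
        ((b : ℚ) * q * t - (b * t + 1) * q) + (b : ℚ) * ((s : ℚ) + 1) + 0 * ((s : ℚ) + 1) ^ 2 := by
      intro s hs
      rw [mul_mod_block b t q s (Finset.mem_range.mp hs) hq']
      ring
    rw [Finset.sum_congr rfl h2, sum_quad]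
    ring
  rw [Finset.sum_congr rfl h1, sum_quad']
  ring


/-- the sum `U = ∑ 2 (i+1) B(i)` over all `b` blocks -/
theorem sum_U (b t : ℕ) :
    ∑ i ∈ range (b * t), 2 * ((i : ℚ) + 1) * ((b * (i + 1) % (b * t + 1) : ℕ) : ℚ) =
      (2 * (b : ℚ) * (t * (t + 1) * (2 * t + 1) / 6)) * b
        + ((2 * (b : ℚ) * t - (b * t + 1)) * t * (t + 1)) * (b * (b - 1) / 2)
        + (2 * (t : ℚ) ^ 2 * ((b : ℚ) * t - (b * t + 1))) * ((b - 1) * b * (2 * b - 1) / 6) := by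
  rw [sum_range_mul_block]
  have h1 : ∀ q ∈ range b, ∑ s ∈ range t,
      2 * (((q * t + s : ℕ) : ℚ) + 1) * ((b * (q * t + s + 1) % (b * t + 1) : ℕ) : ℚ) =
      (2 * (b : ℚ) * (t * (t + 1) * (2 * t + 1) / 6))
        + ((2 * (b : ℚ) * t - (b * t + 1)) * t * (t + 1)) * (q : ℚ)
        + (2 * (t : ℚ) ^ 2 * ((b : ℚ) * t - (b * t + 1))) * (q : ℚ) ^ 2 := by
    intro q hq
    have hq' : q < b := Finset.mem_range.mp hq
    have h2 : ∀ s ∈ range t,
        2 * (((q * t + s : ℕ) : ℚ) + 1) * ((b * (q * t + s + 1) % (b * t + 1) : ℕ) : ℚ) =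
        (2 * ((q : ℚ) * t) * ((b : ℚ) * ((q : ℚ) * t) - (b * t + 1) * q))
          + (2 * (2 * (b : ℚ) * ((q : ℚ) * t) - (b * t + 1) * q)) * ((s : ℚ) + 1)
          + (2 * (b : ℚ)) * ((s : ℚ) + 1) ^ 2 := by
      intro s hs
      rw [mul_mod_block b t q s (Finset.mem_range.mp hs) hq']
      push_cast
      ring
    rw [Finset.sum_congr rfl h2, sum_quad]
    ring
  rw [Finset.sum_congr rfl h1, sum_quad']

theorem sum_Ico_one (F : ℕ → ℚ) (n : ℕ) :
    ∑ j ∈ Ico 1 (n + 1), F j = ∑ i ∈ range n, F (i + 1) := by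
  rw [Finset.sum_Ico_eq_sum_range, Nat.add_sub_cancel]
  exact Finset.sum_congr rfl (fun i _ => by rw [add_comm])

/-- **Closed form** of `S(2, b)` for `p = b t + 1`, `b` odd, `t` even. -/
theorem dedS_two (b t p c u : ℕ) (hb : b = 2 * c + 1) (ht : t = 2 * u) (hp : p = b * t + 1) :
    24 * (dedS p 2 b : ℚ) = p * (t * ((p : ℚ) - 4 - (b : ℚ) ^ 2) + 6 * p * ((p : ℚ) - 1)) := by
  subst hp
  have hm : c * t + u ≤ b * t := by
    rw [hb, ht]
    nlinarith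
  have hcb : c ≤ b := by omega
  have hcb' : c < b := by omega
  have hut : u ≤ t := by omega
  -- reindex
  have h0 : (dedS (b * t + 1) 2 b : ℚ) = ∑ i ∈ range (b * t),
      ((2 * (i + 1) % (b * t + 1) : ℕ) : ℚ) * ((b * (i + 1) % (b * t + 1) : ℕ) : ℚ) := by
    unfold dedS
    rw [Nat.cast_sum, ← sum_Ico_one (fun j => ((2 * j % (b * t + 1) : ℕ) : ℚ) *
      ((b * j % (b * t + 1) : ℕ) : ℚ))]
    exact Finset.sum_congr rfl (fun j _ => by rw [Nat.cast_mul])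
  -- split at the middle
  have h1 : ∑ i ∈ range (b * t),
      ((2 * (i + 1) % (b * t + 1) : ℕ) : ℚ) * ((b * (i + 1) % (b * t + 1) : ℕ) : ℚ) =
      ∑ i ∈ range (b * t), 2 * ((i : ℚ) + 1) * ((b * (i + 1) % (b * t + 1) : ℕ) : ℚ)
        - ((b : ℚ) * t + 1) * (∑ i ∈ range (b * t), ((b * (i + 1) % (b * t + 1) : ℕ) : ℚ)
          - ∑ i ∈ range (c * t + u), ((b * (i + 1) % (b * t + 1) : ℕ) : ℚ)) := by
    rw [← Finset.sum_Ico_eq_sub _ hm, ← Finset.sum_range_add_sum_Ico _ hm,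
      ← Finset.sum_range_add_sum_Ico (fun i => 2 * ((i : ℚ) + 1) *
        ((b * (i + 1) % (b * t + 1) : ℕ) : ℚ)) hm, Finset.mul_sum, add_sub_assoc,
      ← Finset.sum_sub_distrib]
    congr 1
    · refine Finset.sum_congr rfl fun i hi => ?_
      have hi' : i < c * t + u := Finset.mem_range.mp hi
      have hlt : 2 * (i + 1) < b * t + 1 := by
        rw [hb, ht] at *
        nlinarith
      rw [Nat.mod_eq_of_lt hlt]
      push_cast
      ring
    · refine Finset.sum_congr rfl fun i hi => ?_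
      obtain ⟨hi1, hi2⟩ := Finset.mem_Ico.mp hi
      have hge : b * t + 1 ≤ 2 * (i + 1) := by
        rw [hb, ht] at *
        nlinarith
      have hlt : 2 * (i + 1) - (b * t + 1) < b * t + 1 := by omega
      rw [Nat.mod_eq_sub_mod hge, Nat.mod_eq_of_lt hlt, Nat.cast_sub hge]
      push_cast
      ring
  -- the three sums
  have hW : ∑ i ∈ range (c * t + u), ((b * (i + 1) % (b * t + 1) : ℕ) : ℚ) =
      ((b : ℚ) * t * (t + 1) / 2 * c + ((b : ℚ) * t - (b * t + 1)) * t * (c * (c - 1) / 2))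
        + (((b : ℚ) * c * t - (b * t + 1) * c) * u + (b : ℚ) * (u * (u + 1) / 2)) := by
    rw [Finset.sum_range_add, sum_B_blocks b t c hcb]
    congr 1
    have h2 : ∀ s ∈ range u, ((b * (c * t + s + 1) % (b * t + 1) : ℕ) : ℚ) =
        ((b : ℚ) * c * t - (b * t + 1) * c) + (b : ℚ) * ((s : ℚ) + 1) + 0 * ((s : ℚ) + 1) ^ 2 := by
      intro s hs
      rw [mul_mod_block b t c s (lt_of_lt_of_le (Finset.mem_range.mp hs) hut) hcb']
      ring
    rw [Finset.sum_congr rfl h2, sum_quad]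
    ring
  rw [h0, h1, sum_U, sum_B_blocks b t b le_rfl, hW, hb, ht]
  push_cast
  ring

/-! ### parity of `S(1,h)` -/

/-- reflection of the floor: for `p ∤ h j`, `⌊h (p - j)/p⌋ + ⌊h j/p⌋ + 1 = h`. -/
theorem div_reflect (p h j : ℕ) (hj : j ≤ p) (hnd : ¬ p ∣ h * j) :
    h * (p - j) / p + h * j / p + 1 = h := by
  have hp : 0 < p := by
    rcases Nat.eq_zero_or_pos p with h0 | h0
    · exfalso
      apply hnd
      subst h0
      have hj0 : j = 0 := Nat.le_zero.mp hj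
      subst hj0
      simp
    · exact h0
  set q := h * j / p with hq
  set r := h * j % p with hr
  have e1 : p * q + r = h * j := Nat.div_add_mod (h * j) p
  have hrlt : r < p := Nat.mod_lt _ hp
  have hr0 : 0 < r := by
    rcases Nat.eq_zero_or_pos r with h0 | h0
    · exact absurd (Nat.dvd_of_mod_eq_zero h0) hnd
    · exact h0
  have e2 : h * (p - j) + h * j = h * p := by
    rw [← Nat.mul_add, Nat.sub_add_cancel hj]
  have hqh : q + 1 ≤ h := by
    by_contra hcon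
    have h1 : h ≤ q := by omega
    have h2 : h * p ≤ p * q := by nlinarith
    have h3 : h * j ≤ h * p := Nat.mul_le_mul_left h hj
    omega
  obtain ⟨k, hk⟩ := Nat.exists_eq_add_of_le hqh
  have e3 : h * p = p * q + p + k * p := by
    rw [hk]
    ring
  have e4 : h * (p - j) / p = k := by
    apply Nat.div_eq_of_lt_le
    · omega
    · have : (k + 1) * p = k * p + p := by ring
      omega
  rw [e4]
  omega

theorem zmod_two_mul_self (x : ZMod 2) : x * x = x := by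
  revert x
  decide

/-- For `p ≡ 1 mod 4` and `h` odd prime to `p`, `S(1,h) ≡ ∑_{x ≤ p/2} ⌊x h / p⌋ mod 2`. -/
theorem dedS_one_zmod_two (p h : ℕ) (hp : p.Prime) (hp4 : p % 4 = 1) (hh : h % 2 = 1)
    (hnd : ¬ p ∣ h) :
    ((dedS p 1 h : ℕ) : ZMod 2) = ((∑ x ∈ Ico 1 (p / 2).succ, x * h / p : ℕ) : ZMod 2) := by
  have hp2 : ((p : ℕ) : ZMod 2) = 1 := by
    rw [ZMod.natCast_eq_one_iff_odd, Nat.odd_iff]
    omega
  have hh2 : ((h : ℕ) : ZMod 2) = 1 := by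
    rw [ZMod.natCast_eq_one_iff_odd, Nat.odd_iff]
    exact hh
  -- step 1: termwise
  have h1 : ∀ j ∈ Ico 1 p, (((1 * j % p) * (h * j % p) : ℕ) : ZMod 2) =
      (j : ZMod 2) + (j : ZMod 2) * ((h * j / p : ℕ) : ZMod 2) := by
    intro j hj
    obtain ⟨hj1, hj2⟩ := Finset.mem_Ico.mp hj
    rw [one_mul, Nat.mod_eq_of_lt hj2]
    have e := congrArg (Nat.cast : ℕ → ZMod 2) (Nat.mod_add_div (h * j) p)
    push_cast at e
    rw [hp2, hh2, one_mul, one_mul] at e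
    have e' : ((h * j % p : ℕ) : ZMod 2) = (j : ZMod 2) + ((h * j / p : ℕ) : ZMod 2) := by
      rw [← e]
      have := CharTwo.add_self_eq_zero (((h * j / p : ℕ) : ZMod 2))
      rw [add_assoc, this, add_zero]
    rw [Nat.cast_mul, e', mul_add, zmod_two_mul_self]
  -- step 2: the linear sum vanishes
  have h2 : ∑ j ∈ Ico 1 p, (j : ZMod 2) = 0 := by
    have e : ∑ j ∈ Ico 1 p, (j : ZMod 2) = ((∑ j ∈ range p, j : ℕ) : ZMod 2) := by
      rw [Finset.range_eq_Ico, Finset.sum_eq_sum_Ico_succ_bot hp.pos]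
      push_cast
      simp
    rw [e, ZMod.natCast_eq_zero_iff_even]
    have h3 := Finset.sum_range_id_mul_two p
    obtain ⟨k, hk⟩ : ∃ k, p = 4 * k + 1 := ⟨p / 4, by omega⟩
    have h4 : (∑ i ∈ range p, i) = (4 * k + 1) * (2 * k) := by
      have : (4 * k + 1) * (4 * k + 1 - 1) = (4 * k + 1) * (2 * k) * 2 := by
        rw [Nat.add_sub_cancel]
        ring
      rw [hk] at h3 ⊢
      omega
    rw [h4]
    exact ⟨(4 * k + 1) * k, by ring⟩
  -- step 3: pairing `j ↔ p - j`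
  have hhalf1 : 1 ≤ p / 2 + 1 := by omega
  have hhalf2 : p / 2 + 1 ≤ p := by omega
  have h3 : ∑ j ∈ Ico 1 p, (j : ZMod 2) * ((h * j / p : ℕ) : ZMod 2) =
      ∑ x ∈ Ico 1 (p / 2 + 1), ((h * x / p : ℕ) : ZMod 2) := by
    rw [← Finset.sum_Ico_consecutive _ hhalf1 hhalf2]
    have e : ∑ j ∈ Ico (p / 2 + 1) p, (j : ZMod 2) * ((h * j / p : ℕ) : ZMod 2) =
        ∑ j ∈ Ico 1 (p / 2 + 1), ((p - j : ℕ) : ZMod 2) * ((h * (p - j) / p : ℕ) : ZMod 2) := by
      rw [Finset.sum_Ico_reflect (fun j => (j : ZMod 2) * ((h * j / p : ℕ) : ZMod 2)) 1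
        (show p / 2 + 1 ≤ p + 1 by omega)]
      have e1 : p + 1 - (p / 2 + 1) = p / 2 + 1 := by omega
      rw [e1, Nat.add_sub_cancel]
    rw [e, ← Finset.sum_add_distrib]
    refine Finset.sum_congr rfl fun j hj => ?_
    obtain ⟨hj1, hj2⟩ := Finset.mem_Ico.mp hj
    have hjp : j ≤ p := by omega
    have hndj : ¬ p ∣ h * j := by
      intro hd
      rcases (Nat.Prime.dvd_mul hp).mp hd with hd | hd
      · exact hnd hd
      · have := Nat.le_of_dvd (by omega) hd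
        omega
    have e1 := congrArg (Nat.cast : ℕ → ZMod 2) (div_reflect p h j hjp hndj)
    push_cast at e1
    rw [hh2] at e1
    have e2 : ((h * (p - j) / p : ℕ) : ZMod 2) = ((h * j / p : ℕ) : ZMod 2) := by
      rw [← CharTwo.add_eq_zero]
      have := add_right_cancel (b := (1 : ZMod 2)) (a := ((h * (p - j) / p : ℕ) : ZMod 2) +
        ((h * j / p : ℕ) : ZMod 2)) (c := 0) (by rw [zero_add]; exact e1)
      exact this
    rw [e2, Nat.cast_sub hjp, hp2, CharTwo.sub_eq_add, ← add_mul]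
    have : (j : ZMod 2) + (1 + (j : ZMod 2)) = 1 := by
      rw [add_comm 1, ← add_assoc, CharTwo.add_self_eq_zero, zero_add]
    rw [this, one_mul]
  -- assemble
  unfold dedS
  rw [Nat.cast_sum, Finset.sum_congr rfl h1, Finset.sum_add_distrib, h2, zero_add, h3,
    Nat.cast_sum]
  exact Finset.sum_congr rfl (fun x _ => by rw [mul_comm])

/-- For `p ≡ 1 mod 4`, `S(1,h)` is odd when `h` is an odd quadratic non-residue. -/
theorem odd_dedS_one (p h : ℕ) [Fact p.Prime] (hp4 : p % 4 = 1) (hh : h % 2 = 1)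
    (hns : legendreSym p h = -1) : Odd (dedS p 1 h) := by
  have hp : p.Prime := Fact.out
  have hp2 : p ≠ 2 := by omega
  have h0 : ((h : ℕ) : ZMod p) ≠ 0 := by
    intro h0
    have := (legendreSym.eq_zero_iff p (h : ℤ)).mpr (by exact_mod_cast h0)
    rw [this] at hns
    exact absurd hns (by decide)
  have hnd : ¬ p ∣ h := by
    rwa [← ZMod.natCast_eq_zero_iff]
  have h1 := ZMod.eisenstein_lemma hp2 hh h0
  rw [hns] at h1
  have h2 : Odd (∑ x ∈ Ico 1 (p / 2).succ, x * h / p) :=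
    (neg_one_pow_eq_neg_one_iff_odd (R := ℤ) (by decide)).mp h1.symm
  rw [← ZMod.natCast_eq_one_iff_odd] at h2 ⊢
  rw [dedS_one_zmod_two p h hp hp4 hh hnd, h2]

theorem exists_odd_nonresidue (p : ℕ) [Fact p.Prime] (hp2 : p ≠ 2) :
    ∃ h : ℕ, h % 2 = 1 ∧ legendreSym p h = -1 := by
  have hp : p.Prime := Fact.out
  have hodd : p % 2 = 1 := by
    rcases hp.eq_two_or_odd with h | h
    · exact absurd h hp2
    · exact h
  obtain ⟨a, ha⟩ := FiniteField.exists_nonsquare (F := ZMod p) (by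
    rw [ZMod.ringChar_zmod_n]
    exact hp2)
  by_cases hv : a.val % 2 = 1
  · refine ⟨a.val, hv, ?_⟩
    rw [legendreSym.eq_neg_one_iff', ZMod.natCast_zmod_val]
    exact ha
  · refine ⟨a.val + p, by omega, ?_⟩
    rw [legendreSym.eq_neg_one_iff']
    push_cast
    rw [ZMod.natCast_zmod_val, ZMod.natCast_self, add_zero]
    exact ha

/-! ### the closed form of `N(2,b)` -/

theorem two_mul_dedNZ (b t p c u : ℕ) (hpp : p.Prime) (h5 : 5 ≤ p) (hb : b = 2 * c + 1)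
    (ht : t = 2 * u) (hp : p = b * t + 1) :
    2 * dedNZ p 2 b = (t : ℤ) * ((p : ℤ) - 4 - (b : ℤ) ^ 2) := by
  have h1 := mul_dedNZ p hpp h5 2 b
  have h2 := dedS_two b t p c u hb ht hp
  have h2' : 24 * (dedS p 2 b : ℤ) =
      (p : ℤ) * ((t : ℤ) * ((p : ℤ) - 4 - (b : ℤ) ^ 2) + 6 * p * ((p : ℤ) - 1)) := by
    exact_mod_cast h2
  have hp0 : (p : ℤ) ≠ 0 := by exact_mod_cast hpp.ne_zero
  apply mul_left_cancel₀ hp0
  linear_combination 2 * h1 + h2'

/-! ### the gcd -/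

/-- `gcd(p-1, 12)` lies in the subgroup of `ℤ` generated by `p - 1` and the `N(a,b)`. -/
theorem gcd_mem_closure (p : ℕ) (hp : p.Prime) (h5 : 5 ≤ p) :
    ((Nat.gcd (p - 1) 12 : ℕ) : ℤ) ∈ AddSubgroup.closure
      ({(p : ℤ) - 1} ∪ {n : ℤ | ∃ a b : ℕ, ¬ p ∣ a ∧ ¬ p ∣ b ∧ n = dedNZ p a b}) := by
  have : Fact p.Prime := ⟨hp⟩
  set s : Set ℤ := {(p : ℤ) - 1} ∪ {n : ℤ | ∃ a b : ℕ, ¬ p ∣ a ∧ ¬ p ∣ b ∧ n = dedNZ p a b}
    with hs
  rw [← Submodule.span_int_eq_addSubgroupClosure]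
  show ((Nat.gcd (p - 1) 12 : ℕ) : ℤ) ∈ Ideal.span s
  set I : Ideal ℤ := Ideal.span s with hI
  set g : ℤ := Submodule.IsPrincipal.generator I with hg
  have hmem : ∀ x : ℤ, x ∈ I ↔ g ∣ x := fun x => Submodule.IsPrincipal.mem_iff_generator_dvd I
  have hg1 : g ∣ (p : ℤ) - 1 :=
    (hmem _).mp (Ideal.subset_span (Set.mem_union_left _ rfl))
  have hgN : ∀ a b : ℕ, ¬ p ∣ a → ¬ p ∣ b → g ∣ dedNZ p a b := fun a b ha hb =>
    (hmem _).mp (Ideal.subset_span (Set.mem_union_right _ ⟨a, b, ha, hb, rfl⟩))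
  rw [hmem, ← Int.natAbs_dvd, Int.natCast_dvd_natCast]
  have hcast : (p : ℤ) - 1 = ((p - 1 : ℕ) : ℤ) := by
    rw [Nat.cast_sub hp.one_le, Nat.cast_one]
  have hG1 : g.natAbs ∣ p - 1 := by
    rw [← Int.natCast_dvd_natCast, Int.natAbs_dvd, ← hcast]
    exact hg1
  have hGN : ∀ a b : ℕ, ¬ p ∣ a → ¬ p ∣ b → (g.natAbs : ℤ) ∣ dedNZ p a b := fun a b ha hb =>
    Int.natAbs_dvd.mpr (hgN a b ha hb)
  refine Nat.dvd_gcd hG1 ?_
  rw [Nat.dvd_iff_prime_pow_dvd_dvd]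
  intro ℓ k hℓ hk
  rcases Nat.eq_zero_or_pos k with hk0 | hk0
  · rw [hk0, pow_zero]
    exact one_dvd _
  have hkp : ℓ ^ k ∣ p - 1 := dvd_trans hk hG1
  have hp1 : p - 1 ≠ 0 := by omega
  rcases hℓ.eq_two_or_odd with h2 | hodd
  · -- the prime 2
    subst h2
    by_cases hk2 : k ≤ 2
    · exact dvd_trans (pow_dvd_pow 2 hk2) (by norm_num)
    exfalso
    have h8G : 8 ∣ g.natAbs := dvd_trans (show 8 ∣ 2 ^ k from
      dvd_trans (by norm_num) (pow_dvd_pow 2 (show 3 ≤ k by omega))) hk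
    have h8p : 8 ∣ p - 1 := dvd_trans h8G hG1
    have hp4 : p % 4 = 1 := by omega
    obtain ⟨h, hh, hns⟩ := exists_odd_nonresidue p (by omega)
    have hodd := odd_dedS_one p h hp4 hh hns
    have hnd : ¬ p ∣ h := by
      intro hd
      have h0 : ((h : ℤ) : ZMod p) = 0 := by
        rw [Int.cast_natCast]
        exact (ZMod.natCast_eq_zero_iff _ _).mpr hd
      rw [(legendreSym.eq_zero_iff p (h : ℤ)).mpr h0] at hns
      exact absurd hns (by decide)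
    have hnd1 : ¬ p ∣ 1 := by
      intro hd
      have := Nat.le_of_dvd one_pos hd
      omega
    have h8N : (8 : ℤ) ∣ dedNZ p 1 h :=
      dvd_trans (by exact_mod_cast h8G) (hGN 1 h hnd1 hnd)
    have hmul := mul_dedNZ p hp h5 1 h
    have h8p' : (8 : ℤ) ∣ (p : ℤ) - 1 := by
      rw [hcast]
      exact_mod_cast h8p
    have h8S : (8 : ℤ) ∣ 12 * (dedS p 1 h : ℤ) := by
      have e : 12 * (dedS p 1 h : ℤ) = (p : ℤ) * dedNZ p 1 h + 3 * (p : ℤ) ^ 2 * ((p : ℤ) - 1) := by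
        rw [hmul]
        ring
      rw [e]
      exact dvd_add (Dvd.dvd.mul_left h8N _) (Dvd.dvd.mul_left h8p' _)
    have h8S' : 8 ∣ 12 * dedS p 1 h := by exact_mod_cast h8S
    obtain ⟨m, hm⟩ := hodd
    omega
  · -- odd primes
    have hℓ1 : ℓ ≠ 1 := hℓ.one_lt.ne'
    obtain ⟨e, t, hℓt, hpe⟩ := Nat.exists_eq_pow_mul_and_not_dvd hp1 ℓ hℓ1
    have hcop : Nat.Coprime (ℓ ^ k) t :=
      Nat.Coprime.pow_left k ((Nat.Prime.coprime_iff_not_dvd hℓ).mpr hℓt)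
    have hkb : ℓ ^ k ∣ ℓ ^ e := by
      apply hcop.dvd_of_dvd_mul_right
      rw [← hpe]
      exact hkp
    have hbodd : ℓ ^ e % 2 = 1 := by
      have : Odd (ℓ ^ e) := (Nat.odd_iff.mpr hodd).pow
      exact Nat.odd_iff.mp this
    obtain ⟨c, hc⟩ : ∃ c, ℓ ^ e = 2 * c + 1 := ⟨ℓ ^ e / 2, by omega⟩
    have hpodd : p % 2 = 1 := by
      rcases hp.eq_two_or_odd with h | h
      · omega
      · exact h
    have hteven : t % 2 = 0 := by
      by_contra hcon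
      have ht1 : t % 2 = 1 := by omega
      have : (ℓ ^ e * t) % 2 = 1 := by
        rw [Nat.mul_mod, hbodd, ht1]
      omega
    obtain ⟨u, hu⟩ : ∃ u, t = 2 * u := ⟨t / 2, by omega⟩
    have hpbt : p = ℓ ^ e * t + 1 := by omega
    have hnd2 : ¬ p ∣ 2 := by
      intro hd
      have := Nat.le_of_dvd (by norm_num) hd
      omega
    have hndb : ¬ p ∣ ℓ ^ e := by
      intro hd
      have hle := Nat.le_of_dvd (pow_pos hℓ.pos e) hd
      have hbp : ℓ ^ e ∣ p - 1 := ⟨t, hpe⟩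
      have := Nat.le_of_dvd (by omega) hbp
      omega
    have hN := hGN 2 (ℓ ^ e) hnd2 hndb
    have hform := two_mul_dedNZ (ℓ ^ e) t p c u hp h5 hc hu hpbt
    -- `ℓ^k ∣ t (p - 4 - b²)`
    have h1 : ((ℓ ^ k : ℕ) : ℤ) ∣ (t : ℤ) * ((p : ℤ) - 4 - ((ℓ ^ e : ℕ) : ℤ) ^ 2) := by
      rw [← hform]
      exact Dvd.dvd.mul_left (dvd_trans (by exact_mod_cast hk) hN) _
    have h2 : ((ℓ ^ k : ℕ) : ℤ) ∣ (p : ℤ) - 4 - ((ℓ ^ e : ℕ) : ℤ) ^ 2 := by
      have hcop' : IsCoprime ((ℓ ^ k : ℕ) : ℤ) (t : ℤ) := Nat.isCoprime_iff_coprime.mpr hcop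
      exact hcop'.dvd_of_dvd_mul_left h1
    have h3 : ((ℓ ^ k : ℕ) : ℤ) ∣ (p : ℤ) - 1 := by
      rw [hcast]
      exact_mod_cast hkp
    have h4 : ((ℓ ^ k : ℕ) : ℤ) ∣ ((ℓ ^ e : ℕ) : ℤ) ^ 2 :=
      Dvd.dvd.pow (by exact_mod_cast hkb) (by norm_num)
    have h5' : ((ℓ ^ k : ℕ) : ℤ) ∣ 3 := by
      have e3 : (3 : ℤ) = ((p : ℤ) - 1) - ((p : ℤ) - 4 - ((ℓ ^ e : ℕ) : ℤ) ^ 2)
          - ((ℓ ^ e : ℕ) : ℤ) ^ 2 := by ring
      rw [e3]
      exact dvd_sub (dvd_sub h3 h2) h4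
    have h6 : ℓ ^ k ∣ 3 := by exact_mod_cast h5'
    exact dvd_trans h6 (by norm_num)

/-- `gcd(p-1, 12)` as an explicit integer combination of `p - 1` and finitely many `N(a,b)`. -/
theorem exists_combination (p : ℕ) (hp : p.Prime) (h5 : 5 ≤ p) :
    ∃ (k : ℕ) (a b : Fin k → ℕ) (x₀ : ℤ) (x : Fin k → ℤ),
      (∀ i, ¬ p ∣ a i) ∧ (∀ i, ¬ p ∣ b i) ∧
      (x₀ : ℚ) * ((p : ℚ) - 1) + ∑ i, (x i : ℚ) * dedN p (a i) (b i) =
        ((Nat.gcd (p - 1) 12 : ℕ) : ℚ) := by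
  have h := gcd_mem_closure p hp h5
  rw [AddSubgroup.closure_union, AddSubgroup.mem_sup] at h
  obtain ⟨y, hy, z, hz, hyz⟩ := h
  obtain ⟨x₀, hx₀⟩ := AddSubgroup.mem_closure_singleton.mp hy
  rw [← Submodule.span_int_eq_addSubgroupClosure] at hz
  obtain ⟨k, f, g, hfg⟩ := Submodule.mem_span_set'.mp hz
  choose a b ha hb hab using fun i => (g i).2
  refine ⟨k, a, b, x₀, f, ha, hb, ?_⟩
  have e1 : (y : ℚ) = (x₀ : ℚ) * ((p : ℚ) - 1) := by
    have e0 : y = x₀ * ((p : ℤ) - 1) := by rw [← hx₀, smul_eq_mul]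
    rw [e0]
    push_cast
    ring
  have e2 : (z : ℚ) = ∑ i, (f i : ℚ) * dedN p (a i) (b i) := by
    rw [← hfg]
    push_cast
    refine Finset.sum_congr rfl fun i _ => ?_
    rw [dedN_eq p hp h5, ← hab i]
    simp
  rw [← e1, ← e2]
  exact_mod_cast hyz

end Fermat.Agent.S16.Ded
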