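/-
S16, slice W (Atkin–Lehner identity at prime level, weight 2).

For `G ∈ M₂(Γ₀(p))` and `H := U_p G`:

* `slash_S_eq`      : `G ∣[2] S = -(H ∣[2] α₀)`, i.e. `(G ∣[2] S)(τ) = -p⁻¹ H(τ/p)`;
* `heckeU_heckeU`   : `U_p (U_p G) = G`.

Both are deduced from the vanishing of the trace to level one
(`F + ∑_{j<p} F ∣[2] (S T^j) = 0` for every `F ∈ M₂(Γ₀(p))`), which is taken as a hypothesis
`TraceZero p` here (it is proved in the coset file of the S16 wave).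
-/
import Mathlib
import Fermat.Prelude.Def_ModularForm_HeckeOperatorForms
import Fermat.Agent.S23.Dilate

set_option autoImplicit false

noncomputable section

namespace Fermat.Agent.S16.AtkinLehner

open UpperHalfPlane ModularForm Matrix.SpecialLinearGroup
open scoped MatrixGroups ModularForm

/-- The trace to level one of every weight-2 form of level `Γ₀(p)` vanishes, written with the
explicit coset representatives `1, S, S T, …, S T^(p-1)`. -/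
def TraceZero (p : ℕ) : Prop :=
  ∀ F : ModularForm (CongruenceSubgroup.Gamma0 p) 2,
    (⇑F : ℍ → ℂ) + ∑ j ∈ Finset.range p,
      (⇑F) ∣[(2 : ℤ)] (mapGL ℝ (ModularGroup.S * ModularGroup.T ^ j)) = 0


variable {p : ℕ}

theorem mapGL_entry (g : SL(2, ℤ)) (i j : Fin 2) :
    (mapGL ℝ g : GL (Fin 2) ℝ) i j = ((g i j : ℤ) : ℝ) := by
  simp

theorem coe_T_pow (j : ℕ) :
    ((ModularGroup.T ^ j : SL(2, ℤ)) : Matrix (Fin 2) (Fin 2) ℤ) = !![1, (j : ℤ); 0, 1] := by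
  rw [← zpow_natCast, ModularGroup.coe_T_zpow]

theorem T_pow_entries (j : ℕ) :
    (ModularGroup.T ^ j : SL(2, ℤ)) 0 0 = 1 ∧ (ModularGroup.T ^ j : SL(2, ℤ)) 0 1 = (j : ℤ) ∧
      (ModularGroup.T ^ j : SL(2, ℤ)) 1 0 = 0 ∧ (ModularGroup.T ^ j : SL(2, ℤ)) 1 1 = 1 := by
  have h := coe_T_pow j
  refine ⟨?_, ?_, ?_, ?_⟩ <;> rw [h] <;> rfl

theorem S_entries :
    (ModularGroup.S : SL(2, ℤ)) 0 0 = 0 ∧ (ModularGroup.S : SL(2, ℤ)) 0 1 = -1 ∧
      (ModularGroup.S : SL(2, ℤ)) 1 0 = 1 ∧ (ModularGroup.S : SL(2, ℤ)) 1 1 = 0 := by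
  have h := ModularGroup.coe_S
  refine ⟨?_, ?_, ?_, ?_⟩ <;> rw [h] <;> rfl

/-- `α₀ T^j = α_j`. -/
theorem heckeMatrix_zero_mul_T (hp : p ≠ 0) (j : ℕ) :
    heckeMatrix p 0 * mapGL ℝ (ModularGroup.T ^ j) = heckeMatrix p j := by
  obtain ⟨h00, h01, h10, h11⟩ := T_pow_entries j
  generalize ModularGroup.T ^ j = g at h00 h01 h10 h11
  ext a b
  fin_cases a <;> fin_cases b <;>
    simp [hp, Matrix.mul_apply, Fin.sum_univ_two, h00, h01, h10, h11]

/-- `α₀ S = S β`. -/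
theorem heckeMatrix_zero_mul_S (hp : p ≠ 0) :
    heckeMatrix p 0 * mapGL ℝ ModularGroup.S = mapGL ℝ ModularGroup.S * heckeDiagMatrix p := by
  obtain ⟨h00, h01, h10, h11⟩ := S_entries
  generalize ModularGroup.S = g at h00 h01 h10 h11
  ext a b
  fin_cases a <;> fin_cases b <;>
    simp [hp, Matrix.mul_apply, Fin.sum_univ_two, h00, h01, h10, h11]

/-- `β T^j = T^(p j) β`. -/
theorem heckeDiagMatrix_mul_T (hp : p ≠ 0) (j : ℕ) :
    heckeDiagMatrix p * mapGL ℝ (ModularGroup.T ^ j) =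
      mapGL ℝ (ModularGroup.T ^ (p * j)) * heckeDiagMatrix p := by
  obtain ⟨h00, h01, h10, h11⟩ := T_pow_entries j
  obtain ⟨k00, k01, k10, k11⟩ := T_pow_entries (p * j)
  generalize ModularGroup.T ^ j = g at h00 h01 h10 h11
  generalize ModularGroup.T ^ (p * j) = g' at k00 k01 k10 k11
  ext a b
  fin_cases a <;> fin_cases b <;>
    simp [hp, Matrix.mul_apply, Fin.sum_univ_two, h00, h01, h10, h11, k00, k01, k10, k11]

/-- The lower unipotent matrix `[[1,0],[n,1]]`. -/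
def lowerUni (n : ℤ) : SL(2, ℤ) := ⟨!![1, 0; n, 1], by simp [Matrix.det_fin_two_of]⟩

theorem lowerUni_entries (n : ℤ) :
    (lowerUni n) 0 0 = 1 ∧ (lowerUni n) 0 1 = 0 ∧ (lowerUni n) 1 0 = n ∧ (lowerUni n) 1 1 = 1 :=
  ⟨rfl, rfl, rfl, rfl⟩

theorem lowerUni_mem (n : ℤ) (h : (p : ℤ) ∣ n) : lowerUni n ∈ CongruenceSubgroup.Gamma0 p := by
  rw [CongruenceSubgroup.Gamma0_mem, (lowerUni_entries n).2.2.1]
  exact (ZMod.intCast_zmod_eq_zero_iff_dvd _ _).mpr h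

/-- `S T^(p j) = g S` with `g ∈ Γ₀(p)`. -/
theorem S_mul_T_pow (j : ℕ) :
    ModularGroup.S * ModularGroup.T ^ (p * j) = lowerUni (-((p : ℤ) * j)) * ModularGroup.S := by
  obtain ⟨h00, h01, h10, h11⟩ := S_entries
  obtain ⟨k00, k01, k10, k11⟩ := T_pow_entries (p * j)
  obtain ⟨l00, l01, l10, l11⟩ := lowerUni_entries (-((p : ℤ) * j))
  generalize ModularGroup.T ^ (p * j) = g' at k00 k01 k10 k11
  generalize ModularGroup.S = g at h00 h01 h10 h11
  generalize lowerUni (-((p : ℤ) * j)) = l at l00 l01 l10 l11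
  ext a b
  fin_cases a <;> fin_cases b <;>
    simp [Matrix.mul_apply, Fin.sum_univ_two, h00, h01, h10, h11, k00, k01, k10, k11,
      l00, l01, l10, l11]

/-- Slash by the scalar matrix `β α₀ = p` is trivial in weight 2. -/
theorem slash_diag_mul_zero (hp : p ≠ 0) (f : ℍ → ℂ) :
    (f ∣[(2 : ℤ)] heckeDiagMatrix p) ∣[(2 : ℤ)] heckeMatrix p 0 = f := by
  funext τ
  have hp' : (p : ℂ) ≠ 0 := by exact_mod_cast hp
  rw [slash_heckeMatrix_apply 2 hp, slash_heckeDiagMatrix_apply 2 hp]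
  have hτ : heckeDiagMatrix p • heckeMatrix p 0 • τ = τ := by
    apply UpperHalfPlane.ext
    rw [coe_heckeDiagMatrix_smul hp, coe_heckeMatrix_smul hp, Nat.cast_zero, add_zero]
    field_simp
  rw [hτ]
  norm_num
  field_simp

section negInv

variable (p : ℕ) [Fact p.Prime]

/-- The index `i'` with `i i' ≡ -1 mod p`. -/
def negInv (i : ℕ) : ℕ := (-((i : ZMod p))⁻¹).val

variable {p}

theorem natCast_ne_zero_of_mem {i : ℕ} (hi : i ∈ Finset.Ico 1 p) : (i : ZMod p) ≠ 0 := by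
  rw [Finset.mem_Ico] at hi
  rw [Ne, ZMod.natCast_eq_zero_iff]
  exact Nat.not_dvd_of_pos_of_lt hi.1 hi.2

theorem natCast_negInv (i : ℕ) : ((negInv p i : ℕ) : ZMod p) = -((i : ZMod p))⁻¹ :=
  ZMod.natCast_zmod_val _

theorem negInv_mem {i : ℕ} (hi : i ∈ Finset.Ico 1 p) : negInv p i ∈ Finset.Ico 1 p := by
  rw [Finset.mem_Ico]
  refine ⟨Nat.pos_of_ne_zero fun h => ?_, ZMod.val_lt _⟩
  have h0 : ((negInv p i : ℕ) : ZMod p) = 0 := by rw [h, Nat.cast_zero]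
  rw [natCast_negInv, neg_eq_zero, inv_eq_zero] at h0
  exact natCast_ne_zero_of_mem hi h0

theorem negInv_negInv {i : ℕ} (hi : i ∈ Finset.Ico 1 p) : negInv p (negInv p i) = i := by
  have h : negInv p (negInv p i) = ((i : ZMod p)).val := by
    unfold negInv
    rw [ZMod.natCast_zmod_val, inv_neg, neg_neg, inv_inv]
  rw [h, ZMod.val_natCast, Nat.mod_eq_of_lt (Finset.mem_Ico.mp hi).2]

theorem negInv_spec {i : ℕ} (hi : i ∈ Finset.Ico 1 p) :
    ∃ e : ℤ, (-1 : ℤ) = (negInv p i : ℤ) * i + p * e := by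
  have h : (p : ℤ) ∣ -1 - (negInv p i : ℤ) * i := by
    rw [← ZMod.intCast_zmod_eq_zero_iff_dvd]
    push_cast
    rw [natCast_negInv, neg_mul, inv_mul_cancel₀ (natCast_ne_zero_of_mem hi)]
    ring
  obtain ⟨e, he⟩ := h
  exact ⟨e, by linear_combination he⟩

/-- `α_i S = γ α_{i'}` with `γ ∈ Γ₀(p)`, for `0 < i < p`. -/
theorem heckeMatrix_mul_S {i : ℕ} (hi : i ∈ Finset.Ico 1 p) :
    ∃ g : SL(2, ℤ), g ∈ CongruenceSubgroup.Gamma0 p ∧
      heckeMatrix p i * mapGL ℝ ModularGroup.S = mapGL ℝ g * heckeMatrix p (negInv p i) := by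
  obtain ⟨e, he⟩ := negInv_spec hi
  obtain ⟨h00, h01, h10, h11⟩ := S_entries
  obtain ⟨g, hg, h⟩ :=
    P2MW.S_ModularForm_heckeU_slash_eq_self_of_mem_Gamma0.ModularForm.HeckeSlashInvariance.heckeMatrix_mul_of_eq
      (Fact.out : p.Prime).ne_zero ModularGroup.S i (negInv p i) e
      (by rw [h00, h01, h10, h11]; linear_combination he)
  refine ⟨g, ?_, h⟩
  rw [CongruenceSubgroup.Gamma0_mem, hg, h10]
  simp

end negInv

section main

variable {p : ℕ} [Fact p.Prime]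

omit [Fact p.Prime] in
theorem slash_mapGL_of_mem {k : ℤ} (G : ModularForm (CongruenceSubgroup.Gamma0 p) k)
    (γ : SL(2, ℤ)) (hγ : γ ∈ CongruenceSubgroup.Gamma0 p) :
    (⇑G) ∣[k] (mapGL ℝ γ) = ⇑G :=
  SlashInvariantFormClass.slash_action_eq G _ (Subgroup.mem_map_of_mem (mapGL ℝ) hγ)

theorem T_pow_mem (j : ℕ) : ModularGroup.T ^ j ∈ CongruenceSubgroup.Gamma0 p := by
  rw [CongruenceSubgroup.Gamma0_mem, (T_pow_entries j).2.2.1]
  simp

theorem heckeU_eq_add_sum (g : ℍ → ℂ) :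
    heckeU 2 p g = g ∣[(2 : ℤ)] heckeMatrix p 0 +
      ∑ i ∈ Finset.Ico 1 p, g ∣[(2 : ℤ)] heckeMatrix p i := by
  rw [heckeU_def, Finset.range_eq_Ico,
    Finset.sum_eq_sum_Ico_succ_bot (Fact.out : p.Prime).pos]

/-- **Atkin–Lehner at prime level, weight 2**: `G ∣ S = -(U_p G) ∣ α₀`. -/
theorem slash_S_eq (htr : TraceZero p) (G : ModularForm (CongruenceSubgroup.Gamma0 p) 2) :
    (⇑G) ∣[(2 : ℤ)] (mapGL ℝ ModularGroup.S) =
      -((heckeU 2 p ⇑G) ∣[(2 : ℤ)] heckeMatrix p 0) := by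
  have : NeZero p := ⟨(Fact.out : p.Prime).ne_zero⟩
  have hp0 : p ≠ 0 := (Fact.out : p.Prime).ne_zero
  set g : ℍ → ℂ := ⇑G with hg
  set S' : GL (Fin 2) ℝ := mapGL ℝ ModularGroup.S with hS'
  set H : ℍ → ℂ := heckeU 2 p g with hH
  set K : ℍ → ℂ := (g ∣[(2 : ℤ)] S') ∣[(2 : ℤ)] heckeDiagMatrix p with hK
  -- Step 1
  have h1 : H ∣[(2 : ℤ)] S' = K + H + -(g ∣[(2 : ℤ)] heckeMatrix p 0) := by
    have e1 : ∑ i ∈ Finset.Ico 1 p, (g ∣[(2 : ℤ)] heckeMatrix p i) ∣[(2 : ℤ)] S' =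
        ∑ i ∈ Finset.Ico 1 p, g ∣[(2 : ℤ)] heckeMatrix p i := by
      calc ∑ i ∈ Finset.Ico 1 p, (g ∣[(2 : ℤ)] heckeMatrix p i) ∣[(2 : ℤ)] S'
          = ∑ i ∈ Finset.Ico 1 p, g ∣[(2 : ℤ)] heckeMatrix p (negInv p i) := by
            refine Finset.sum_congr rfl fun i hi => ?_
            obtain ⟨γ, hγ, h⟩ := heckeMatrix_mul_S hi
            rw [← SlashAction.slash_mul, h, SlashAction.slash_mul, slash_mapGL_of_mem G γ hγ]
        _ = ∑ i ∈ Finset.Ico 1 p, g ∣[(2 : ℤ)] heckeMatrix p i :=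
            Finset.sum_nbij' (negInv p) (negInv p) (fun i hi => negInv_mem hi)
              (fun i hi => negInv_mem hi) (fun i hi => negInv_negInv hi)
              (fun i hi => negInv_negInv hi) (fun i _ => rfl)
    have e0 : (g ∣[(2 : ℤ)] heckeMatrix p 0) ∣[(2 : ℤ)] S' = K := by
      rw [← SlashAction.slash_mul, heckeMatrix_zero_mul_S hp0, SlashAction.slash_mul]
    rw [hH, heckeU_eq_add_sum g, SlashAction.add_slash, SlashAction.sum_slash, e0, e1]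
    abel
  -- Step 2
  have hKT : ∀ j : ℕ, K ∣[(2 : ℤ)] (mapGL ℝ (ModularGroup.T ^ j)) = K := by
    intro j
    rw [hK, ← SlashAction.slash_mul, heckeDiagMatrix_mul_T hp0, SlashAction.slash_mul]
    congr 1
    rw [hS', ← SlashAction.slash_mul, ← map_mul, S_mul_T_pow, map_mul, SlashAction.slash_mul,
      slash_mapGL_of_mem G _ (lowerUni_mem _ (Dvd.intro _ rfl).neg_right)]
  have hHT : ∀ j : ℕ, H ∣[(2 : ℤ)] (mapGL ℝ (ModularGroup.T ^ j)) = H := fun j =>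
    slash_mapGL_of_mem (heckeULin 2 (dvd_refl p) G) _ (T_pow_mem j)
  have h2 : ∀ j : ℕ, H ∣[(2 : ℤ)] (mapGL ℝ (ModularGroup.S * ModularGroup.T ^ j)) =
      K + H + -(g ∣[(2 : ℤ)] heckeMatrix p j) := by
    intro j
    rw [map_mul, SlashAction.slash_mul, ← hS', h1, SlashAction.add_slash, SlashAction.add_slash,
      SlashAction.neg_slash, hKT, hHT, ← SlashAction.slash_mul, heckeMatrix_zero_mul_T hp0]
  -- Step 3
  have h3 := htr (heckeULin 2 (dvd_refl p) G)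
  rw [coe_heckeULin_apply, ← hg, ← hH, Finset.sum_congr rfl fun j _ => h2 j,
    Finset.sum_add_distrib, Finset.sum_neg_distrib, ← heckeU_def, ← hH, Finset.sum_const,
    Finset.card_range] at h3
  have h4 : p • (K + H) = 0 := by
    rw [← h3]
    abel
  have h5 : K + H = 0 := by
    rcases smul_eq_zero.mp h4 with h | h
    · exact absurd h hp0
    · exact h
  -- Step 4
  have h6 : K = -H := eq_neg_of_add_eq_zero_left h5
  calc g ∣[(2 : ℤ)] S' = K ∣[(2 : ℤ)] heckeMatrix p 0 := (slash_diag_mul_zero hp0 _).symm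
    _ = -(H ∣[(2 : ℤ)] heckeMatrix p 0) := by rw [h6, SlashAction.neg_slash]

/-- `U_p² = 1` on `M₂(Γ₀(p))`. -/
theorem heckeU_heckeU (htr : TraceZero p) (G : ModularForm (CongruenceSubgroup.Gamma0 p) 2) :
    heckeU 2 p (heckeU 2 p ⇑G) = ⇑G := by
  have hp0 : p ≠ 0 := (Fact.out : p.Prime).ne_zero
  have h := htr G
  have e : ∀ j ∈ Finset.range p,
      (heckeU 2 p ⇑G) ∣[(2 : ℤ)] heckeMatrix p j =
        -((⇑G) ∣[(2 : ℤ)] (mapGL ℝ (ModularGroup.S * ModularGroup.T ^ j))) := by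
    intro j _
    rw [← heckeMatrix_zero_mul_T hp0 j, SlashAction.slash_mul, map_mul, SlashAction.slash_mul,
      slash_S_eq htr G, SlashAction.neg_slash, neg_neg]
  rw [heckeU_def, Finset.sum_congr rfl e, Finset.sum_neg_distrib]
  exact (eq_neg_of_add_eq_zero_left h).symm

end main


/-! ### Pairs -/

/-- `Φ` and `Φt` are *paired* in weight `w` at level `p`: `(Φ ∣[w] S)(τ) = Φt(τ/p)`
(here `τ/p = heckeMatrix p 0 • τ`). -/
def IsPair (p : ℕ) (w : ℤ) (Φ Φt : ℍ → ℂ) : Prop :=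
  ∀ τ : ℍ, (Φ ∣[w] (mapGL ℝ ModularGroup.S)) τ = Φt (heckeMatrix p 0 • τ)

namespace IsPair

variable {p : ℕ} {w w' w₁ w₂ : ℤ} {Φ Φt Ψ Ψt : ℍ → ℂ}

theorem congr_weight (h : IsPair p w Φ Φt) (hw : w = w') : IsPair p w' Φ Φt := hw ▸ h

theorem add (h₁ : IsPair p w Φ Φt) (h₂ : IsPair p w Ψ Ψt) : IsPair p w (Φ + Ψ) (Φt + Ψt) := by
  intro τ
  rw [SlashAction.add_slash, Pi.add_apply, Pi.add_apply, h₁ τ, h₂ τ]

theorem neg (h : IsPair p w Φ Φt) : IsPair p w (-Φ) (-Φt) := by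
  intro τ
  rw [SlashAction.neg_slash, Pi.neg_apply, Pi.neg_apply, h τ]

theorem sub (h₁ : IsPair p w Φ Φt) (h₂ : IsPair p w Ψ Ψt) : IsPair p w (Φ - Ψ) (Φt - Ψt) := by
  rw [sub_eq_add_neg, sub_eq_add_neg]
  exact h₁.add h₂.neg

theorem smul (c : ℂ) (h : IsPair p w Φ Φt) : IsPair p w (c • Φ) (c • Φt) := by
  intro τ
  have e : (c • Φ) ∣[w] (mapGL ℝ ModularGroup.S) = c • (Φ ∣[w] (mapGL ℝ ModularGroup.S)) :=
    SL_smul_slash w ModularGroup.S Φ c
  rw [e, Pi.smul_apply, Pi.smul_apply, h τ]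

theorem mul (h₁ : IsPair p w₁ Φ Φt) (h₂ : IsPair p w₂ Ψ Ψt) :
    IsPair p (w₁ + w₂) (Φ * Ψ) (Φt * Ψt) := by
  intro τ
  have e : (Φ * Ψ) ∣[w₁ + w₂] (mapGL ℝ ModularGroup.S) =
      Φ ∣[w₁] (mapGL ℝ ModularGroup.S) * Ψ ∣[w₂] (mapGL ℝ ModularGroup.S) :=
    mul_slash_SL2 w₁ w₂ ModularGroup.S Φ Ψ
  rw [e, Pi.mul_apply, Pi.mul_apply, h₁ τ, h₂ τ]

theorem const (c : ℂ) : IsPair p 0 (fun _ => c) (fun _ => c) := by
  intro τ
  have e : (Function.const ℍ c) ∣[(0 : ℤ)] (mapGL ℝ ModularGroup.S) = Function.const ℍ c :=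
    is_invariant_const ModularGroup.S c
  exact congrFun e τ

theorem pow (h : IsPair p w Φ Φt) (n : ℕ) : IsPair p (n * w) (Φ ^ n) (Φt ^ n) := by
  induction n with
  | zero =>
    have h0 : IsPair p 0 (1 : ℍ → ℂ) 1 := const 1
    simpa [pow_zero] using h0
  | succ n ih =>
    have h1 := ih.mul h
    rw [pow_succ, pow_succ]
    exact h1.congr_weight (by push_cast; ring)

/-- The translates `Φ ∣ S T^j` of a pair are `τ ↦ Φt((τ + j)/p)`. -/
theorem slash_ST (hp : p ≠ 0) (h : IsPair p w Φ Φt) (j : ℕ) (τ : ℍ) :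
    (Φ ∣[w] (mapGL ℝ (ModularGroup.S * ModularGroup.T ^ j))) τ = Φt (heckeMatrix p j • τ) := by
  rw [map_mul, SlashAction.slash_mul, ← heckeMatrix_zero_mul_T hp j, mul_smul, ← h]
  obtain ⟨-, -, h10, h11⟩ := T_pow_entries j
  generalize ModularGroup.T ^ j = g at h10 h11
  have e := SL_slash_apply (k := w) (Φ ∣[w] (mapGL ℝ ModularGroup.S)) g τ
  have hd : denom (g : GL (Fin 2) ℝ) (τ : ℂ) = 1 := by
    simp [denom, h10, h11]
  rw [hd, one_zpow, mul_one] at e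
  exact e

end IsPair

section pairs

variable {p : ℕ} [Fact p.Prime]

/-- Pointwise form of the Atkin–Lehner identity. -/
theorem slash_S_apply (htr : TraceZero p) (G : ModularForm (CongruenceSubgroup.Gamma0 p) 2)
    (τ : ℍ) :
    ((⇑G) ∣[(2 : ℤ)] (mapGL ℝ ModularGroup.S)) τ =
      -(p : ℂ)⁻¹ * heckeU 2 p ⇑G (heckeMatrix p 0 • τ) := by
  rw [slash_S_eq htr G, Pi.neg_apply, slash_heckeMatrix_apply 2 (Fact.out : p.Prime).ne_zero]
  ring

/-- `(G, -p⁻¹ U_p G)` is a pair (weight 2). -/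
theorem isPair_heckeU (htr : TraceZero p) (G : ModularForm (CongruenceSubgroup.Gamma0 p) 2) :
    IsPair p 2 ⇑G ⇑((-(p : ℂ)⁻¹) • ModularForm.heckeULin 2 (dvd_refl p) G) := by
  intro τ
  rw [slash_S_apply htr G τ]
  rfl

/-- A level-one form restricted to `Γ₀(p)` is paired with its dilate `τ ↦ f(pτ)`. -/
theorem isPair_levelOne {k : ℤ} (f : ModularForm 𝒮ℒ k) :
    IsPair p k ⇑f ⇑(Fermat.Agent.S23.Dilate.dilate p f) := by
  intro τ
  have hp0 : p ≠ 0 := (Fact.out : p.Prime).ne_zero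
  have e : (⇑f) ∣[k] (mapGL ℝ ModularGroup.S) = ⇑f :=
    SlashInvariantFormClass.slash_action_eq f _ ⟨ModularGroup.S, rfl⟩
  have hτ : heckeDiagMatrix p • heckeMatrix p 0 • τ = τ := by
    apply UpperHalfPlane.ext
    rw [coe_heckeDiagMatrix_smul hp0, coe_heckeMatrix_smul hp0, Nat.cast_zero, add_zero]
    have hp' : (p : ℂ) ≠ 0 := by exact_mod_cast hp0
    field_simp
  rw [e, Fermat.Agent.S23.Dilate.dilate_apply, hτ]

end pairs

end Fermat.Agent.S16.AtkinLehner
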