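/-
S16: the predicate `IsPair p w Φ Φ'` : `(Φ ∣[w] S) τ = Φ' (τ / p)` for two modular forms of
weight `w` on `Γ₀(p)` (`Φ'` is the Atkin–Lehner transform of `Φ` up to normalisation).
-/
import Mathlib
import Fermat.Prelude.Def_ModularForm_HeckeOperatorForms

set_option autoImplicit false

noncomputable section

open UpperHalfPlane ModularForm CongruenceSubgroup
open scoped MatrixGroups ModularForm

namespace Fermat.Agent.S16

/-- `IsPair p w Φ Φ'` : `(Φ ∣[w] S) τ = Φ' (τ / p)`, where `τ / p = heckeMatrix p 0 • τ`. -/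
def IsPair (p : ℕ) (w : ℤ) (Φ Φ' : ModularForm (Gamma0 p) w) : Prop :=
  ∀ τ : ℍ, ((Φ : ℍ → ℂ) ∣[w] ModularGroup.S) τ = Φ' (ModularForm.heckeMatrix p 0 • τ)

end Fermat.Agent.S16
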