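/-
S16, slice W (glue): the Atkin–Lehner identity of `S16/AtkinLehner.lean` in the shapes used by the
other slices (`IsPair` of `S16/PairDef.lean`, the `SL(2,ℤ)`-slash form, `heckeULin` form), and the
adapter from the pointwise / `zpow` shape of the trace identity.
-/
import Mathlib
import Fermat.Agent.S16.PairDef
import Fermat.Agent.S16.AtkinLehner

set_option autoImplicit false

noncomputable section

open UpperHalfPlane ModularForm CongruenceSubgroup Matrix.SpecialLinearGroup
open scoped MatrixGroups ModularForm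

namespace Fermat.Agent.S16.ALGlue

variable {p : ℕ} [Fact p.Prime]

omit [Fact p.Prime] in
/-- The trace identity in pointwise form with `T ^ (j : ℤ)` implies `AtkinLehner.TraceZero`. -/
theorem traceZero_of_zpow
    (h : ∀ (F : ModularForm (Gamma0 p) 2) (τ : ℍ),
      F τ + ∑ j ∈ Finset.range p,
        ((F : ℍ → ℂ) ∣[(2 : ℤ)] (ModularGroup.S * ModularGroup.T ^ (j : ℤ))) τ = 0) :
    AtkinLehner.TraceZero p := by
  intro F
  funext τ
  have h1 := h F τ
  simp only [zpow_natCast] at h1
  rw [Pi.add_apply, Finset.sum_apply]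
  exact h1

omit [Fact p.Prime] in
/-- The trace identity in pointwise form with `T ^ (j : ℕ)` implies `AtkinLehner.TraceZero`. -/
theorem traceZero_of_pow
    (h : ∀ (F : ModularForm (Gamma0 p) 2) (τ : ℍ),
      F τ + ∑ j ∈ Finset.range p,
        ((F : ℍ → ℂ) ∣[(2 : ℤ)] (ModularGroup.S * ModularGroup.T ^ j)) τ = 0) :
    AtkinLehner.TraceZero p := by
  intro F
  funext τ
  have h1 := h F τ
  rw [Pi.add_apply, Finset.sum_apply]
  exact h1

variable (htr : AtkinLehner.TraceZero p)
include htr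

/-- Atkin–Lehner, `SL(2,ℤ)`-slash form: `G ∣[2] S = -(U_p G) ∣[2] α₀`. -/
theorem slash_S (G : ModularForm (Gamma0 p) 2) :
    (⇑G) ∣[(2 : ℤ)] ModularGroup.S = -((heckeU 2 p ⇑G) ∣[(2 : ℤ)] heckeMatrix p 0) :=
  AtkinLehner.slash_S_eq htr G

/-- `(G, -p⁻¹ U_p G)` is a pair in the sense of `S16/PairDef.lean`. -/
theorem isPair_heckeU (G : ModularForm (Gamma0 p) 2) :
    IsPair p 2 G (-(p : ℂ)⁻¹ • ModularForm.heckeULin (N := p) (p := p) 2 dvd_rfl G) :=
  fun τ => AtkinLehner.isPair_heckeU htr G τ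

/-- `U_p² = 1` on `M₂(Γ₀(p))`, as an identity of modular forms. -/
theorem heckeULin_heckeULin (G : ModularForm (Gamma0 p) 2) :
    ModularForm.heckeULin (N := p) (p := p) 2 dvd_rfl
      (ModularForm.heckeULin (N := p) (p := p) 2 dvd_rfl G) = G :=
  DFunLike.coe_injective (AtkinLehner.heckeU_heckeU htr G)

end Fermat.Agent.S16.ALGlue
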