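/-
S16, slice COS: the cosets of `Γ₀(p)` in `SL(2,ℤ)`.

* `exists_coset`            : `SL(2,ℤ) = Γ₀(p) ⊔ ⨆_{j<p} Γ₀(p) S T^j`;
* `slash_S_mul_T_pow_*`     : how `S`, `T` permute the translates `F|S T^j` of a `Γ₀(p)`-invariant `F`;
* `traceForm`, `traceZero`  : the trace `F + ∑_{j<p} F|S T^j` is a level-one form (zero in weight 2);
* `normForm`                : the norm `Φ · ∏_{j<p} Φ|S T^j` is a level-one form of weight `w (p+1)`;
* `mkModularForm`, `mkCuspForm` : boundedness / vanishing need only be checked at the cusps `∞`, `0`.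
-/
import Mathlib

set_option autoImplicit false

noncomputable section

open scoped MatrixGroups ModularForm Manifold
open UpperHalfPlane ModularGroup CongruenceSubgroup Matrix.SpecialLinearGroup

namespace Fermat.Agent.S16.Cos

/-- The matrix of `S * T ^ j`. -/
theorem coe_S_mul_T_pow (j : ℕ) :
    ((S * T ^ j : SL(2, ℤ)) : Matrix (Fin 2) (Fin 2) ℤ) = !![0, -1; 1, (j : ℤ)] := by
  have h := ModularGroup.coe_T_zpow (j : ℤ)
  rw [zpow_natCast] at h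
  rw [Matrix.SpecialLinearGroup.coe_mul, h, ModularGroup.coe_S]
  ext a b
  fin_cases a <;> fin_cases b <;> simp [Matrix.mul_apply, Fin.sum_univ_two]

/-- The matrix of `(S * T ^ j)⁻¹`. -/
theorem coe_S_mul_T_pow_inv (j : ℕ) :
    (((S * T ^ j)⁻¹ : SL(2, ℤ)) : Matrix (Fin 2) (Fin 2) ℤ) = !![(j : ℤ), 1; -1, 0] := by
  rw [Matrix.SpecialLinearGroup.coe_inv, coe_S_mul_T_pow, Matrix.adjugate_fin_two_of]
  simp

variable (p : ℕ)

/-- The coset representatives `1, S T^j (j < p)` of `Γ₀(p) \ SL(2,ℤ)`. -/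
def rep : Option (Fin p) → SL(2, ℤ)
  | none => 1
  | some j => S * T ^ (j : ℕ)

@[simp] theorem rep_none : rep p none = 1 := rfl

@[simp] theorem rep_some (j : Fin p) : rep p (some j) = S * T ^ (j : ℕ) := rfl

variable [Fact p.Prime]

/-- (i) Coset decomposition `SL(2,ℤ) = Γ₀(p) ⊔ ⨆_{j<p} Γ₀(p) S T^j`. -/
theorem exists_coset (g : SL(2, ℤ)) :
    g ∈ Gamma0 p ∨ ∃ g₀ ∈ Gamma0 p, ∃ j < p, g = g₀ * S * T ^ j := by
  have : NeZero p := ⟨(Fact.out : p.Prime).ne_zero⟩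
  by_cases hc : ((g 1 0 : ℤ) : ZMod p) = 0
  · exact Or.inl (Gamma0_mem.mpr hc)
  · right
    set j : ℕ := (((g 1 1 : ℤ) : ZMod p) * ((g 1 0 : ℤ) : ZMod p)⁻¹).val with hj
    refine ⟨g * (S * T ^ j)⁻¹, ?_, j, ZMod.val_lt _, ?_⟩
    · rw [Gamma0_mem]
      have h1 : ((g * (S * T ^ j)⁻¹ : SL(2, ℤ)) : Matrix (Fin 2) (Fin 2) ℤ) 1 0
          = g 1 0 * j - g 1 1 := by
        rw [Matrix.SpecialLinearGroup.coe_mul, coe_S_mul_T_pow_inv]
        simp [Matrix.mul_apply, Fin.sum_univ_two]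
        ring
      rw [h1]
      push_cast
      rw [hj, ZMod.natCast_zmod_val, mul_comm (((g 1 1 : ℤ) : ZMod p)), ← mul_assoc,
        mul_inv_cancel₀ hc, one_mul, sub_self]
    · rw [mul_assoc, inv_mul_cancel_right]

theorem S_mul_T_pow_not_mem (j : ℕ) : S * T ^ j ∉ Gamma0 p := by
  have hp : 1 < p := (Fact.out : p.Prime).one_lt
  rw [Gamma0_mem, coe_S_mul_T_pow]
  simp

theorem S_mul_T_pow_inv_not_mem (j : ℕ) : (S * T ^ j)⁻¹ ∉ Gamma0 p := fun h =>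
  S_mul_T_pow_not_mem p j (by simpa using inv_mem h)

theorem S_mul_T_pow_mul_inv_mem_iff (i j : ℕ) :
    (S * T ^ i) * (S * T ^ j)⁻¹ ∈ Gamma0 p ↔ (i : ZMod p) = j := by
  rw [Gamma0_mem]
  have h1 : (((S * T ^ i) * (S * T ^ j)⁻¹ : SL(2, ℤ)) : Matrix (Fin 2) (Fin 2) ℤ) 1 0
      = (j : ℤ) - i := by
    rw [Matrix.SpecialLinearGroup.coe_mul, coe_S_mul_T_pow_inv, coe_S_mul_T_pow]
    simp [Matrix.mul_apply, Fin.sum_univ_two]
    ring
  rw [h1]
  push_cast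
  rw [sub_eq_zero, eq_comm]

theorem rep_eq_of_mem : ∀ i i' : Option (Fin p), rep p i * (rep p i')⁻¹ ∈ Gamma0 p → i = i' := by
  have : NeZero p := ⟨(Fact.out : p.Prime).ne_zero⟩
  intro i i' h
  rcases i with _ | i <;> rcases i' with _ | i'
  · rfl
  · exact absurd (by simpa using h) (S_mul_T_pow_inv_not_mem p i')
  · exact absurd (by simpa using h) (S_mul_T_pow_not_mem p i)
  · simp only [rep_some] at h
    rw [S_mul_T_pow_mul_inv_mem_iff] at h
    have := congrArg ZMod.val h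
    rw [ZMod.val_natCast_of_lt i.2, ZMod.val_natCast_of_lt i'.2] at this
    exact congrArg some (Fin.ext this)

/-- Every `g` lies in exactly one coset `Γ₀(p) · rep i`. -/
theorem exists_rep (g : SL(2, ℤ)) : ∃ i : Option (Fin p), g * (rep p i)⁻¹ ∈ Gamma0 p := by
  rcases exists_coset p g with h | ⟨g₀, hg₀, j, hj, rfl⟩
  · exact ⟨none, by simpa using h⟩
  · exact ⟨some ⟨j, hj⟩, by simpa [mul_assoc] using hg₀⟩

/-- The map from the coset representatives to Mathlib's coset space. -/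
def cosetMap (i : Option (Fin p)) :
    𝒮ℒ ⧸ ((Gamma0 p : Subgroup (GL (Fin 2) ℝ)).subgroupOf 𝒮ℒ) :=
  QuotientGroup.mk ⟨mapGL ℝ (rep p i)⁻¹, ⟨_, rfl⟩⟩

theorem cosetMap_bijective : Function.Bijective (cosetMap p) := by
  constructor
  · intro i i' h
    rw [cosetMap, cosetMap, QuotientGroup.eq, Subgroup.mem_subgroupOf] at h
    have h' : mapGL ℝ (rep p i * (rep p i')⁻¹) ∈ (Gamma0 p).map (mapGL ℝ) := by
      simpa using h
    rw [Subgroup.mem_map_iff_mem mapGL_injective] at h'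
    exact rep_eq_of_mem p i i' h'
  · intro q
    induction q using QuotientGroup.induction_on with
    | H g =>
      obtain ⟨g, γ, rfl⟩ := g
      obtain ⟨i, hi⟩ := exists_rep p γ⁻¹
      refine ⟨i, ?_⟩
      rw [cosetMap, QuotientGroup.eq, Subgroup.mem_subgroupOf]
      have h' : mapGL ℝ (rep p i * γ) ∈ (Gamma0 p).map (mapGL ℝ) := by
        rw [Subgroup.mem_map_iff_mem mapGL_injective]
        have := inv_mem hi
        simpa using this
      simpa using h'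

/-- The coset space is `Option (Fin p)`. -/
def cosetEquiv : Option (Fin p) ≃
    𝒮ℒ ⧸ ((Gamma0 p : Subgroup (GL (Fin 2) ℝ)).subgroupOf 𝒮ℒ) :=
  Equiv.ofBijective (cosetMap p) (cosetMap_bijective p)

theorem card_coset :
    Nat.card (𝒮ℒ ⧸ ((Gamma0 p : Subgroup (GL (Fin 2) ℝ)).subgroupOf 𝒮ℒ)) = p + 1 := by
  rw [← Nat.card_congr (cosetEquiv p)]
  simp

omit [Fact p.Prime] in
theorem quotientFunc_cosetMap {k : ℤ} (F : ModularForm (Gamma0 p) k) (i : Option (Fin p)) :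
    SlashInvariantForm.quotientFunc F (cosetMap p i) = (⇑F) ∣[k] (rep p i) := by
  rw [cosetMap]
  show (⇑F) ∣[k] (mapGL ℝ (rep p i)⁻¹)⁻¹ = _
  rw [← map_inv, inv_inv]
  rfl

/-- (iii) The trace of a level-`p` form down to level one. -/
def traceForm {k : ℤ} (F : ModularForm (Gamma0 p) k) : ModularForm 𝒮ℒ k :=
  ModularForm.trace 𝒮ℒ F

theorem coe_traceForm {k : ℤ} (F : ModularForm (Gamma0 p) k) :
    ⇑(traceForm p F) = ⇑F + ∑ j ∈ Finset.range p, (⇑F) ∣[k] (S * T ^ j) := by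
  rw [traceForm, ModularForm.coe_trace]
  letI := Fintype.ofFinite (𝒮ℒ ⧸ ((Gamma0 p : Subgroup (GL (Fin 2) ℝ)).subgroupOf 𝒮ℒ))
  have h := Fintype.sum_equiv (cosetEquiv p) (fun i => (⇑F) ∣[k] (rep p i))
    (SlashInvariantForm.quotientFunc F) (fun i => (quotientFunc_cosetMap p F i).symm)
  rw [← h, Fintype.sum_option, rep_none, SlashAction.slash_one]
  congr 1
  exact Fin.sum_univ_eq_sum_range (fun j => (⇑F) ∣[k] (S * T ^ j)) p

theorem traceForm_apply {k : ℤ} (F : ModularForm (Gamma0 p) k) (t : ℍ) :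
    traceForm p F t = F t + ∑ j ∈ Finset.range p, ((⇑F) ∣[k] (S * T ^ j)) t := by
  rw [coe_traceForm, Pi.add_apply, Finset.sum_apply]

/-- (iii) Weight two: the trace vanishes. -/
theorem traceZero (F : ModularForm (Gamma0 p) 2) :
    ⇑F + ∑ j ∈ Finset.range p, (⇑F) ∣[(2 : ℤ)] (S * T ^ j) = 0 := by
  rw [← coe_traceForm]
  have h := rank_zero_iff_forall_zero.mp ModularForm.levelOne_weight_two_rank_zero (traceForm p F)
  rw [h]
  rfl

theorem traceZero_apply (F : ModularForm (Gamma0 p) 2) (t : ℍ) :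
    F t + ∑ j ∈ Finset.range p, ((⇑F) ∣[(2 : ℤ)] (S * T ^ j)) t = 0 := by
  have h := congrFun (traceZero p F) t
  rwa [Pi.add_apply, Finset.sum_apply] at h

/-- (iv) The norm of a level-`p` form down to level one. -/
def normForm {w : ℤ} (Φ : ModularForm (Gamma0 p) w) : ModularForm 𝒮ℒ (w * (p + 1)) :=
  ModularForm.mcast (by rw [card_coset p]; push_cast; ring) (ModularForm.norm 𝒮ℒ Φ)

theorem coe_normForm {w : ℤ} (Φ : ModularForm (Gamma0 p) w) :
    ⇑(normForm p Φ) = ⇑Φ * ∏ j ∈ Finset.range p, (⇑Φ) ∣[w] (S * T ^ j) := by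
  rw [normForm, ModularForm.coe_mcast, ModularForm.coe_norm]
  letI := Fintype.ofFinite (𝒮ℒ ⧸ ((Gamma0 p : Subgroup (GL (Fin 2) ℝ)).subgroupOf 𝒮ℒ))
  have h := Fintype.prod_equiv (cosetEquiv p) (fun i => (⇑Φ) ∣[w] (rep p i))
    (SlashInvariantForm.quotientFunc Φ) (fun i => (quotientFunc_cosetMap p Φ i).symm)
  rw [← h, Fintype.prod_option, rep_none, SlashAction.slash_one]
  congr 1
  exact Fin.prod_univ_eq_prod_range (fun j => (⇑Φ) ∣[w] (S * T ^ j)) p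

theorem normForm_apply {w : ℤ} (Φ : ModularForm (Gamma0 p) w) (t : ℍ) :
    normForm p Φ t = Φ t * ∏ j ∈ Finset.range p, ((⇑Φ) ∣[w] (S * T ^ j)) t := by
  rw [coe_normForm, Pi.mul_apply, Finset.prod_apply]

/-! ### (ii) Slash relations -/

omit [Fact p.Prime] in
/-- Level-`p` forms are invariant under `Γ₀(p) ⊆ SL(2,ℤ)`. -/
theorem slash_of_mem {k : ℤ} (F : ModularForm (Gamma0 p) k) (γ : SL(2, ℤ)) (hγ : γ ∈ Gamma0 p) :
    (⇑F) ∣[k] γ = ⇑F :=
  SlashInvariantFormClass.slash_action_eq F (mapGL ℝ γ) (Subgroup.mem_map_of_mem _ hγ)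

theorem slash_T_pow_apply {k : ℤ} (F : ℍ → ℂ) (j : ℕ) (t : ℍ) :
    (F ∣[k] (T ^ j)) t = F ((j : ℝ) +ᵥ t) := by
  rw [ModularForm.SL_slash_apply]
  have h1 : (T ^ j : SL(2, ℤ)) • t = (j : ℝ) +ᵥ t := by
    have := modular_T_zpow_smul t (j : ℤ)
    rwa [zpow_natCast, Int.cast_natCast] at this
  have h2 : denom (T ^ j : SL(2, ℤ)) t = 1 := by
    have h := ModularGroup.coe_T_zpow (j : ℤ)
    rw [zpow_natCast] at h
    rw [ModularGroup.denom_apply, h]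
    simp
  rw [h1, h2, one_zpow, mul_one]

theorem slash_S_mul_T_pow_apply {k : ℤ} (F : ℍ → ℂ) (j : ℕ) (t : ℍ) :
    (F ∣[k] (S * T ^ j)) t = (F ∣[k] S) ((j : ℝ) +ᵥ t) := by
  rw [SlashAction.slash_mul, slash_T_pow_apply]

theorem slash_S_mul_T_pow_T {k : ℤ} (F : ℍ → ℂ) (j : ℕ) :
    (F ∣[k] (S * T ^ j)) ∣[k] T = F ∣[k] (S * T ^ (j + 1)) := by
  rw [← SlashAction.slash_mul, mul_assoc, ← pow_succ]

variable {p}

/-- `F|S T^i` only depends on `i` modulo `p`. -/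
theorem slash_S_mul_T_pow_congr {k : ℤ} {F : ℍ → ℂ} (hF : ∀ γ ∈ Gamma0 p, F ∣[k] γ = F)
    {i j : ℕ} (h : (i : ZMod p) = j) : F ∣[k] (S * T ^ i) = F ∣[k] (S * T ^ j) := by
  have hm := (S_mul_T_pow_mul_inv_mem_iff p i j).mpr h
  calc F ∣[k] (S * T ^ i) = F ∣[k] ((S * T ^ i) * (S * T ^ j)⁻¹ * (S * T ^ j)) := by
        rw [inv_mul_cancel_right]
    _ = F ∣[k] (S * T ^ j) := by rw [SlashAction.slash_mul, hF _ hm]

theorem slash_S_mul_T_pow_p {k : ℤ} {F : ℍ → ℂ} (hF : ∀ γ ∈ Gamma0 p, F ∣[k] γ = F) :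
    F ∣[k] (S * T ^ p) = F ∣[k] S := by
  have h := slash_S_mul_T_pow_congr (k := k) hF (i := p) (j := 0) (by simp)
  simpa using h

theorem slash_S_mul_T_pow_mod {k : ℤ} {F : ℍ → ℂ} (hF : ∀ γ ∈ Gamma0 p, F ∣[k] γ = F) (j : ℕ) :
    F ∣[k] (S * T ^ j) = F ∣[k] (S * T ^ (j % p)) :=
  slash_S_mul_T_pow_congr hF (by simp)

/-- `(F|S T^j)|S = F|S T^j'` when `j j' ≡ -1 mod p`. -/
theorem slash_S_mul_T_pow_S {k : ℤ} {F : ℍ → ℂ} (hF : ∀ γ ∈ Gamma0 p, F ∣[k] γ = F)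
    {j j' : ℕ} (h : (j : ZMod p) * j' = -1) :
    (F ∣[k] (S * T ^ j)) ∣[k] S = F ∣[k] (S * T ^ j') := by
  have hm : (S * T ^ j) * S * (S * T ^ j')⁻¹ ∈ Gamma0 p := by
    rw [Gamma0_mem]
    have h1 : (((S * T ^ j) * S * (S * T ^ j')⁻¹ : SL(2, ℤ)) : Matrix (Fin 2) (Fin 2) ℤ) 1 0
        = (j : ℤ) * j' + 1 := by
      rw [Matrix.SpecialLinearGroup.coe_mul, Matrix.SpecialLinearGroup.coe_mul,
        coe_S_mul_T_pow_inv, coe_S_mul_T_pow, ModularGroup.coe_S]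
      simp [Matrix.mul_apply, Fin.sum_univ_two]
    rw [h1]
    push_cast
    rw [h, neg_add_cancel]
  calc (F ∣[k] (S * T ^ j)) ∣[k] S
      = F ∣[k] ((S * T ^ j) * S * (S * T ^ j')⁻¹ * (S * T ^ j')) := by
        rw [inv_mul_cancel_right, ← SlashAction.slash_mul]
    _ = F ∣[k] (S * T ^ j') := by rw [SlashAction.slash_mul, hF _ hm]

/-- `(F|S)|S = F` for even or odd weight alike (`S² = -1 ∈ Γ₀(p)`). -/
theorem slash_S_S {k : ℤ} {F : ℍ → ℂ} (hF : ∀ γ ∈ Gamma0 p, F ∣[k] γ = F) :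
    (F ∣[k] S) ∣[k] S = F := by
  rw [← SlashAction.slash_mul]
  apply hF
  rw [Gamma0_mem, Matrix.SpecialLinearGroup.coe_mul, ModularGroup.coe_S]
  simp [Matrix.mul_apply, Fin.sum_univ_two]

variable (p)

/-! ### (v) Cusp criteria: the two cusps `∞` and `0` of `Γ₀(p)` -/

omit [Fact p.Prime] in
theorem mapGL_apply_apply (g : SL(2, ℤ)) (a b : Fin 2) :
    (mapGL ℝ g : GL (Fin 2) ℝ) a b = ((g a b : ℤ) : ℝ) := by
  simp

omit [Fact p.Prime] in
theorem mapGL_T_pow_apply_one_zero (j : ℕ) : (mapGL ℝ (T ^ j : SL(2, ℤ))) 1 0 = 0 := by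
  have h := ModularGroup.coe_T_zpow (j : ℤ)
  rw [zpow_natCast] at h
  rw [mapGL_apply_apply, h]
  simp

variable {p}

/-- A `Γ₀(p)`-invariant function which is bounded at `∞` together with its `S`-translate is
bounded at `∞` after every `SL(2,ℤ)`-translate. -/
theorem isBoundedAtImInfty_slash {k : ℤ} {F : ℍ → ℂ} (hF : ∀ γ ∈ Gamma0 p, F ∣[k] γ = F)
    (hinf : IsBoundedAtImInfty F) (h0 : IsBoundedAtImInfty (F ∣[k] S)) (γ : SL(2, ℤ)) :
    IsBoundedAtImInfty (F ∣[k] γ) := by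
  rcases exists_coset p γ with h | ⟨g₀, hg₀, j, -, rfl⟩
  · rwa [hF γ h]
  · rw [SlashAction.slash_mul, SlashAction.slash_mul, hF g₀ hg₀]
    exact h0.slash k (mapGL_T_pow_apply_one_zero j)

/-- The same for vanishing. -/
theorem isZeroAtImInfty_slash {k : ℤ} {F : ℍ → ℂ} (hF : ∀ γ ∈ Gamma0 p, F ∣[k] γ = F)
    (hinf : IsZeroAtImInfty F) (h0 : IsZeroAtImInfty (F ∣[k] S)) (γ : SL(2, ℤ)) :
    IsZeroAtImInfty (F ∣[k] γ) := by
  rcases exists_coset p γ with h | ⟨g₀, hg₀, j, -, rfl⟩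
  · rwa [hF γ h]
  · rw [SlashAction.slash_mul, SlashAction.slash_mul, hF g₀ hg₀]
    exact h0.slash k (mapGL_T_pow_apply_one_zero j)

/-- A holomorphic `Γ₀(p)`-invariant function which is bounded at `∞` together with its
`S`-translate is a modular form of level `p`. -/
def mkModularForm (k : ℤ) (F : ℍ → ℂ) (hF : ∀ γ ∈ Gamma0 p, F ∣[k] γ = F)
    (hol : MDiff F) (hinf : IsBoundedAtImInfty F) (h0 : IsBoundedAtImInfty (F ∣[k] S)) :
    ModularForm (Gamma0 p) k where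
  toFun := F
  slash_action_eq' γ hγ := by
    obtain ⟨γ', hγ', rfl⟩ := hγ
    exact hF γ' hγ'
  holo' := hol
  bdd_at_cusps' {c} hc := by
    rw [Subgroup.IsArithmetic.isCusp_iff_isCusp_SL2Z] at hc
    rw [OnePoint.isBoundedAt_iff_forall_SL2Z hc]
    exact fun γ _ => isBoundedAtImInfty_slash hF hinf h0 γ

@[simp] theorem coe_mkModularForm (k : ℤ) (F : ℍ → ℂ) (hF : ∀ γ ∈ Gamma0 p, F ∣[k] γ = F)
    (hol : MDiff F) (hinf : IsBoundedAtImInfty F) (h0 : IsBoundedAtImInfty (F ∣[k] S)) :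
    ⇑(mkModularForm k F hF hol hinf h0) = F := rfl

/-- A level-`p` modular form vanishing at `∞` together with its `S`-translate is a cusp form. -/
def mkCuspForm {k : ℤ} (f : ModularForm (Gamma0 p) k) (hinf : IsZeroAtImInfty f)
    (h0 : IsZeroAtImInfty ((⇑f) ∣[k] S)) : CuspForm (Gamma0 p) k where
  toFun := f
  slash_action_eq' := f.slash_action_eq'
  holo' := f.holo'
  zero_at_cusps' {c} hc := by
    rw [Subgroup.IsArithmetic.isCusp_iff_isCusp_SL2Z] at hc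
    rw [OnePoint.isZeroAt_iff_forall_SL2Z hc]
    exact fun γ _ => isZeroAtImInfty_slash (slash_of_mem p f) hinf h0 γ

@[simp] theorem coe_mkCuspForm {k : ℤ} (f : ModularForm (Gamma0 p) k) (hinf : IsZeroAtImInfty f)
    (h0 : IsZeroAtImInfty ((⇑f) ∣[k] S)) : ⇑(mkCuspForm f hinf h0) = ⇑f := rfl

variable (p)

end Fermat.Agent.S16.Cos
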