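import Mathlib

/-!
# S16, piece NQ (formal half): the formal norm `Ndet`

For a power series `ψ ∈ A⟦x⟧` and `p ≥ 1`, the ring `A⟦x⟧` is free over `A⟦x^p⟧` with basis
`1, x, …, x^{p-1}`.  `Mmat p ψ` is the matrix of multiplication by `ψ` in this basis (written
with the variable `X = x^p`), and `Ndet p ψ := det (Mmat p ψ)` is the norm of `ψ`, a power
series in `X`.  Over `ℂ` it is `∏_{j<p} ψ(ζ^j x)` (see `Fermat.Agent.S16.NQ`).

* `map_Ndet` : `Ndet` commutes with coefficient maps;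
* `Ndet_expand` : `Ndet p (ξ(x^p)) = ξ ^ p`;
* `map_Ndet_eq_pow` : if `ψ` reduces to `ξ(x^p)` then `Ndet p ψ` reduces to `ξ ^ p`.
-/

set_option autoImplicit false

namespace Fermat.Agent.S16.NDet

variable {A B : Type*} [CommRing A] [CommRing B] (p : ℕ)

/-- The `r`-th section of `ψ` modulo `p`: `∑ₙ ψ_{pn+r} Xⁿ`. -/
noncomputable def sect (r : ℕ) (ψ : PowerSeries A) : PowerSeries A :=
  PowerSeries.mk fun n => PowerSeries.coeff (p * n + r) ψ

@[simp]
theorem coeff_sect (r n : ℕ) (ψ : PowerSeries A) :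
    PowerSeries.coeff n (sect p r ψ) = PowerSeries.coeff (p * n + r) ψ := by
  simp [sect]

/-- The matrix of multiplication by `ψ(x)` on `A⟦x⟧` over `A⟦x^p⟧` in the basis
`1, x, …, x^{p-1}`, written with `X = x^p`: the `(b, a)` entry is the coefficient of `x^b` in
`ψ · x^a`. -/
noncomputable def Mmat (ψ : PowerSeries A) : Matrix (Fin p) (Fin p) (PowerSeries A) :=
  fun b a => if (a : ℕ) ≤ (b : ℕ) then sect p ((b : ℕ) - (a : ℕ)) ψ
    else PowerSeries.X * sect p (p + (b : ℕ) - (a : ℕ)) ψ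

theorem Mmat_apply (ψ : PowerSeries A) (b a : Fin p) :
    Mmat p ψ b a = if (a : ℕ) ≤ (b : ℕ) then sect p ((b : ℕ) - (a : ℕ)) ψ
      else PowerSeries.X * sect p (p + (b : ℕ) - (a : ℕ)) ψ := rfl

/-- The formal norm of `ψ(x)` from `A⟦x⟧` to `A⟦x^p⟧`, as a power series in `X = x^p`. -/
noncomputable def Ndet (ψ : PowerSeries A) : PowerSeries A := (Mmat p ψ).det

theorem Ndet_def (ψ : PowerSeries A) : Ndet p ψ = (Mmat p ψ).det := rfl

theorem map_sect (f : A →+* B) (r : ℕ) (ψ : PowerSeries A) :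
    PowerSeries.map f (sect p r ψ) = sect p r (PowerSeries.map f ψ) := by
  ext n
  simp

theorem map_Mmat (f : A →+* B) (ψ : PowerSeries A) :
    (Mmat p ψ).map (PowerSeries.map f) = Mmat p (PowerSeries.map f ψ) := by
  ext1 b a
  rw [Matrix.map_apply, Mmat_apply, Mmat_apply]
  split_ifs
  · rw [map_sect]
  · rw [map_mul, PowerSeries.map_X, map_sect]

/-- `Ndet` commutes with coefficient maps. -/
theorem map_Ndet (f : A →+* B) (ψ : PowerSeries A) :
    PowerSeries.map f (Ndet p ψ) = Ndet p (PowerSeries.map f ψ) := by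
  rw [Ndet, RingHom.map_det, RingHom.mapMatrix_apply, map_Mmat, Ndet]

/-- Coefficientwise criterion: if `ψ = ξ(x^p)` then `Ndet p ψ = ξ ^ p`. -/
theorem Ndet_eq_pow_of_coeff (ψ ξ : PowerSeries A)
    (h : ∀ n, PowerSeries.coeff (p * n) ψ = PowerSeries.coeff n ξ)
    (h0 : ∀ n, ¬ p ∣ n → PowerSeries.coeff n ψ = 0) : Ndet p ψ = ξ ^ p := by
  have hs0 : sect p 0 ψ = ξ := by
    ext n
    rw [coeff_sect, add_zero, h]
  have hsr : ∀ r, 0 < r → r < p → sect p r ψ = 0 := by
    intro r hr hrp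
    ext n
    rw [coeff_sect, map_zero]
    refine h0 _ fun hdvd => ?_
    have h1 : p ∣ r := (Nat.dvd_add_right (dvd_mul_right p n)).mp hdvd
    exact absurd (Nat.le_of_dvd hr h1) (not_le.mpr hrp)
  have hM : Mmat p ψ = Matrix.diagonal fun _ => ξ := by
    ext1 b a
    rw [Mmat_apply, Matrix.diagonal_apply]
    have ha := a.isLt
    have hb := b.isLt
    by_cases hab : b = a
    · subst hab
      rw [if_pos le_rfl, if_pos rfl, Nat.sub_self, hs0]
    · rw [if_neg hab]
      have hab' : (b : ℕ) ≠ (a : ℕ) := fun h => hab (Fin.ext h)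
      split_ifs with hle
      · exact hsr _ (by omega) (by omega)
      · rw [hsr _ (by omega) (by omega), mul_zero]
  rw [Ndet, hM, Matrix.det_diagonal, Finset.prod_const, Finset.card_univ, Fintype.card_fin]

/-- `Ndet p (ξ(x^p)) = ξ ^ p`. -/
theorem Ndet_expand (hp : p ≠ 0) (ξ : PowerSeries A) :
    Ndet p (PowerSeries.expand p hp ξ) = ξ ^ p :=
  Ndet_eq_pow_of_coeff p _ ξ (fun n => PowerSeries.coeff_expand_mul p hp ξ n)
    (fun _ hn => PowerSeries.coeff_expand_of_not_dvd p hp ξ hn)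

/-- If `ψ` reduces to `ξ(x^p)`, then `Ndet p ψ` reduces to `ξ ^ p`. -/
theorem map_Ndet_eq_pow (f : A →+* B) (hp : p ≠ 0) (ψ : PowerSeries A) (ξ : PowerSeries B)
    (h : PowerSeries.map f ψ = PowerSeries.expand p hp ξ) :
    PowerSeries.map f (Ndet p ψ) = ξ ^ p := by
  rw [map_Ndet, h, Ndet_expand]

end Fermat.Agent.S16.NDet
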