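import Mathlib
import Fermat.Prelude.Def_ModularForm_HeckeOperator
import Fermat.Prelude.Thm_CongruenceSubgroup_one_mem_strictPeriods_Gamma0
import Fermat.Agent.S23.QCalc
import Fermat.Agent.S16.NDet

/-!
# S16, piece NQ (analytic half): the `q`-expansion of a norm

`HasQ f ψ` (S23/QCalc) says that `f : ℍ → ℂ` is the sum of the power series `ψ` in
`q = exp (2 π i t)`.  Main results:

* `hasQ_prod_heckeMatrix` : if `HasQ f ψ` then `t ↦ ∏_{j<p} f((t+j)/p)` is the sum of the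
  `q`-series `Ndet p ψ` (the formal norm of `ψ(x)` from `ℂ⟦x⟧` to `ℂ⟦x^p⟧`);
* `qExpansion_eq_mul_Ndet` : if a level-one form `N` is pointwise `Φ(t) · ∏_{j<p} Φ'((t+j)/p)`
  for `Φ, Φ'` of level `Γ₀(p)`, then `qExp N = qExp Φ · Ndet p (qExp Φ')`;
* `qExpansion_eq_mul_Ndet_of_slash` : the same with `N = Φ · ∏_{j<p} Φ ∣[w] S T^j` and
  `(Φ ∣[w] S)(τ) = Φ'(τ/p)`.

Proof: split the `q`-series of `f` at `(t+j)/p` into residue classes modulo `p`
(`apply_heckeMatrix_eq_sum`); the product over `j` of the resulting expressions is the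
determinant of the multiplication matrix (`det_Mnum`, by diagonalising with a Vandermonde
matrix), whose entries are sums of the formal sections.
-/

set_option autoImplicit false

noncomputable section

namespace Fermat.Agent.S16.NQ

open Fermat.Agent.S16.NDet Fermat.Agent.S23.QCalc UpperHalfPlane Function CongruenceSubgroup
open scoped MatrixGroups ModularForm

/-! ### Step A: the norm as a determinant, for complex numbers -/

/-- The numerical analogue of `Mmat`: the matrix of multiplication by `∑ r, s r * y ^ r` on the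
basis `1, y, …, y^{p-1}` when `y ^ p = q`. -/
def Mnum (p : ℕ) (s : ℕ → ℂ) (q : ℂ) : Matrix (Fin p) (Fin p) ℂ :=
  Matrix.of fun b a =>
    if (a : ℕ) ≤ (b : ℕ) then s ((b : ℕ) - (a : ℕ)) else q * s (p + (b : ℕ) - (a : ℕ))

theorem Mnum_apply (p : ℕ) (s : ℕ → ℂ) (q : ℂ) (b a : Fin p) :
    Mnum p s q b a =
      if (a : ℕ) ≤ (b : ℕ) then s ((b : ℕ) - (a : ℕ)) else q * s (p + (b : ℕ) - (a : ℕ)) := rfl

theorem sum_pow_mul_Mnum (p : ℕ) (s : ℕ → ℂ) (y : ℂ) (a : Fin p) :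
    ∑ b : Fin p, y ^ (b : ℕ) * Mnum p s (y ^ p) b a =
      (∑ r ∈ Finset.range p, y ^ r * s r) * y ^ (a : ℕ) := by
  have ha : (a : ℕ) ≤ p := a.isLt.le
  simp only [Mnum_apply]
  rw [Fin.sum_univ_eq_sum_range (fun b => y ^ b *
    (if (a : ℕ) ≤ b then s (b - (a : ℕ)) else y ^ p * s (p + b - (a : ℕ)))) p]
  rw [← Finset.sum_range_add_sum_Ico _ ha, Finset.sum_mul,
    ← Finset.sum_range_add_sum_Ico _ (Nat.sub_le p (a : ℕ))]
  rw [add_comm]
  congr 1
  · -- `b ≥ a`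
    rw [Finset.sum_Ico_eq_sum_range]
    refine Finset.sum_congr rfl fun k _ => ?_
    rw [if_pos (Nat.le_add_right _ _), Nat.add_sub_cancel_left, pow_add]
    ring
  · -- `b < a`
    rw [Finset.sum_Ico_eq_sum_range, Nat.sub_sub_self ha]
    refine Finset.sum_congr rfl fun k hk => ?_
    have hk' : k < (a : ℕ) := Finset.mem_range.mp hk
    rw [if_neg (not_le.mpr hk')]
    have h1 : p - (a : ℕ) + k = p + k - (a : ℕ) := by omega
    have h2 : y ^ (p - (a : ℕ) + k) * y ^ (a : ℕ) = y ^ p * y ^ k := by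
      rw [← pow_add, ← pow_add]
      congr 1
      omega
    rw [h1] at h2 ⊢
    calc y ^ k * (y ^ p * s (p + k - ↑a)) = (y ^ p * y ^ k) * s (p + k - ↑a) := by ring
      _ = y ^ (p + k - ↑a) * s (p + k - ↑a) * y ^ (a : ℕ) := by rw [← h2]; ring

/-- The determinant of `Mnum` is the product of the conjugates. -/
theorem det_Mnum {p : ℕ} (s : ℕ → ℂ) {x ζ : ℂ} (hx : x ≠ 0) (hζ : IsPrimitiveRoot ζ p) :
    (Mnum p s (x ^ p)).det = ∏ j ∈ Finset.range p, ∑ r ∈ Finset.range p, (ζ ^ j * x) ^ r * s r := by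
  set v : Fin p → ℂ := fun j => ζ ^ (j : ℕ) * x with hv
  have hvp : ∀ j : Fin p, v j ^ p = x ^ p := by
    intro j
    rw [hv, mul_pow, ← pow_mul, mul_comm (j : ℕ) p, pow_mul, hζ.pow_eq_one, one_pow, one_mul]
  have hinj : Function.Injective v := by
    intro i j hij
    have h1 : ζ ^ (i : ℕ) = ζ ^ (j : ℕ) := mul_right_cancel₀ hx hij
    exact Fin.ext (hζ.pow_inj i.isLt j.isLt h1)
  have hdet : (Matrix.vandermonde v).det ≠ 0 := Matrix.det_vandermonde_ne_zero_iff.mpr hinj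
  set lam : Fin p → ℂ := fun j => ∑ r ∈ Finset.range p, v j ^ r * s r with hlam
  have hVM : Matrix.vandermonde v * Mnum p s (x ^ p) = Matrix.diagonal lam * Matrix.vandermonde v := by
    ext j a
    rw [Matrix.mul_apply, Matrix.diagonal_mul]
    simp only [Matrix.vandermonde_apply]
    have := sum_pow_mul_Mnum p s (v j) a
    rw [hvp j] at this
    exact this
  have h2 := congrArg Matrix.det hVM
  rw [Matrix.det_mul, Matrix.det_mul, Matrix.det_diagonal, mul_comm] at h2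
  have h3 := mul_right_cancel₀ hdet h2
  rw [h3, ← Fin.prod_univ_eq_prod_range (fun j => ∑ r ∈ Finset.range p, (ζ ^ j * x) ^ r * s r) p]

/-! ### Step B: `HasQ` toolkit -/

theorem hasQ_qParam : HasQ (fun t : ℍ => Periodic.qParam 1 (t : ℂ)) PowerSeries.X := fun z => by
  have h := hasSum_ite_eq (1 : ℕ) (Periodic.qParam 1 (z : ℂ))
  refine h.congr_fun fun n => ?_
  by_cases hn : n = 1
  · subst hn
    simp
  · simp [PowerSeries.coeff_X, hn]

theorem hasQ_prod {ι : Type*} (s : Finset ι) {f : ι → ℍ → ℂ} {P : ι → PowerSeries ℂ}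
    (h : ∀ i ∈ s, HasQ (f i) (P i)) : HasQ (fun t => ∏ i ∈ s, f i t) (∏ i ∈ s, P i) := by
  classical
  induction s using Finset.induction_on with
  | empty =>
    refine hasQ_one.congr fun z => ?_
    simp
  | insert a s ha ih =>
    have h1 := (h a (Finset.mem_insert_self a s)).mul
      (ih fun i hi => h i (Finset.mem_insert_of_mem hi))
    rw [Finset.prod_insert ha]
    refine h1.congr fun z => ?_
    simp [Finset.prod_insert ha]

/-! ### Step C: sections of a `HasQ` function -/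

/-- The section functions `∑ₘ ψ_{pm+r} q^m`. -/
def sectFun (p : ℕ) (ψ : PowerSeries ℂ) (r : ℕ) (t : ℍ) : ℂ :=
  ∑' m : ℕ, PowerSeries.coeff (p * m + r) ψ * Periodic.qParam 1 (t : ℂ) ^ m

/-- `q((t+j)/p) = ζ^j · q(t/p)`. -/
theorem qParam_heckeMatrix {p : ℕ} (hp : p ≠ 0) (j : ℕ) (t : ℍ) :
    Periodic.qParam 1 ((ModularForm.heckeMatrix p j • t : ℍ) : ℂ) =
      Complex.exp (2 * Real.pi * Complex.I / p) ^ j *
        Periodic.qParam 1 ((ModularForm.heckeMatrix p 0 • t : ℍ) : ℂ) := by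
  have hp' : (p : ℂ) ≠ 0 := by exact_mod_cast hp
  rw [ModularForm.coe_heckeMatrix_smul hp, ModularForm.coe_heckeMatrix_smul hp]
  simp only [Periodic.qParam, ← Complex.exp_nat_mul, ← Complex.exp_add]
  congr 1
  push_cast
  field_simp
  ring

/-- `q(t/p)^p = q(t)`. -/
theorem qParam_heckeMatrix_zero_pow {p : ℕ} (hp : p ≠ 0) (t : ℍ) :
    Periodic.qParam 1 ((ModularForm.heckeMatrix p 0 • t : ℍ) : ℂ) ^ p =
      Periodic.qParam 1 (t : ℂ) := by
  have hp' : (p : ℂ) ≠ 0 := by exact_mod_cast hp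
  rw [ModularForm.coe_heckeMatrix_smul hp]
  simp only [Periodic.qParam, ← Complex.exp_nat_mul]
  congr 1
  push_cast
  field_simp
  ring

theorem summable_sect {p : ℕ} (hp : p ≠ 0) {f : ℍ → ℂ} {ψ : PowerSeries ℂ} (hf : HasQ f ψ)
    (r : ℕ) (t : ℍ) :
    Summable fun m : ℕ => PowerSeries.coeff (p * m + r) ψ * Periodic.qParam 1 (t : ℂ) ^ m := by
  set x : ℂ := Periodic.qParam 1 ((ModularForm.heckeMatrix p 0 • t : ℍ) : ℂ) with hx
  have hx0 : x ≠ 0 := Periodic.qParam_ne_zero _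
  have hxp : x ^ p = Periodic.qParam 1 (t : ℂ) := qParam_heckeMatrix_zero_pow hp t
  have hs : Summable fun n : ℕ => PowerSeries.coeff n ψ * x ^ n :=
    Summable.of_norm (hf.summable_norm (ModularForm.heckeMatrix p 0 • t))
  have hinj : Function.Injective fun m : ℕ => p * m + r := by
    intro a b hab
    have : p * a = p * b := Nat.add_right_cancel hab
    exact Nat.eq_of_mul_eq_mul_left (Nat.pos_of_ne_zero hp) this
  have hs' := (hs.comp_injective hinj).mul_right ((x ^ r)⁻¹)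
  refine hs'.congr fun m => ?_
  simp only [Function.comp_apply]
  rw [← hxp, pow_add, ← pow_mul]
  field_simp

theorem hasQ_sectFun {p : ℕ} (hp : p ≠ 0) {f : ℍ → ℂ} {ψ : PowerSeries ℂ} (hf : HasQ f ψ)
    (r : ℕ) : HasQ (sectFun p ψ r) (sect p r ψ) := fun t => by
  have h := (summable_sect hp hf r t).hasSum
  simpa only [coeff_sect, sectFun] using h

/-- Splitting the `q`-series of `f` at `(t+j)/p` into residue classes modulo `p`. -/
theorem apply_heckeMatrix_eq_sum {p : ℕ} (hp : p ≠ 0) {f : ℍ → ℂ} {ψ : PowerSeries ℂ}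
    (hf : HasQ f ψ) (j : ℕ) (t : ℍ) :
    f (ModularForm.heckeMatrix p j • t) = ∑ r ∈ Finset.range p,
      (Complex.exp (2 * Real.pi * Complex.I / p) ^ j *
        Periodic.qParam 1 ((ModularForm.heckeMatrix p 0 • t : ℍ) : ℂ)) ^ r * sectFun p ψ r t := by
  have : NeZero p := ⟨hp⟩
  set x : ℂ := Periodic.qParam 1 ((ModularForm.heckeMatrix p 0 • t : ℍ) : ℂ) with hx
  set ζ : ℂ := Complex.exp (2 * Real.pi * Complex.I / p) with hζ
  have hζp : ζ ^ p = 1 := (Complex.isPrimitiveRoot_exp p hp).pow_eq_one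
  have hxp : x ^ p = Periodic.qParam 1 (t : ℂ) := qParam_heckeMatrix_zero_pow hp t
  have hyp : (ζ ^ j * x) ^ p = Periodic.qParam 1 (t : ℂ) := by
    rw [mul_pow, ← pow_mul, mul_comm j p, pow_mul, hζp, one_pow, one_mul, hxp]
  have hsum := hf (ModularForm.heckeMatrix p j • t)
  rw [qParam_heckeMatrix hp j t] at hsum
  rw [← hsum.tsum_eq, Nat.sumByResidueClasses hsum.summable p]
  have hterm : ∀ k : ZMod p, ∑' m : ℕ, PowerSeries.coeff (k.val + p * m) ψ *
      (ζ ^ j * x) ^ (k.val + p * m) = (ζ ^ j * x) ^ k.val * sectFun p ψ k.val t := by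
    intro k
    rw [sectFun, ← tsum_mul_left]
    refine tsum_congr fun m => ?_
    rw [pow_add, pow_mul, hyp, add_comm k.val (p * m)]
    ring
  rw [Finset.sum_congr rfl fun k _ => hterm k]
  refine Finset.sum_nbij' (fun k : ZMod p => k.val) (fun r : ℕ => (r : ZMod p)) ?_ ?_ ?_ ?_ ?_
  · intro k _
    exact Finset.mem_range.mpr (ZMod.val_lt k)
  · intro r _
    exact Finset.mem_univ _
  · intro k _
    exact ZMod.natCast_zmod_val k
  · intro r hr
    exact ZMod.val_cast_of_lt (Finset.mem_range.mp hr)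
  · intro k _
    rfl

/-! ### Step D: the norm product and `Ndet` -/

theorem hasQ_Mnum_entry {p : ℕ} (hp : p ≠ 0) {f : ℍ → ℂ} {ψ : PowerSeries ℂ} (hf : HasQ f ψ)
    (b a : Fin p) :
    HasQ (fun t => Mnum p (fun r => sectFun p ψ r t) (Periodic.qParam 1 (t : ℂ)) b a)
      (Mmat p ψ b a) := by
  rw [Mmat_apply]
  split_ifs with h
  · refine (hasQ_sectFun hp hf _).congr fun t => ?_
    rw [Mnum_apply, if_pos h]
  · refine (hasQ_qParam.mul (hasQ_sectFun hp hf _)).congr fun t => ?_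
    rw [Mnum_apply, if_neg h]
    rfl

theorem hasQ_det_Mnum {p : ℕ} (hp : p ≠ 0) {f : ℍ → ℂ} {ψ : PowerSeries ℂ} (hf : HasQ f ψ) :
    HasQ (fun t => (Mnum p (fun r => sectFun p ψ r t) (Periodic.qParam 1 (t : ℂ))).det)
      (Ndet p ψ) := by
  rw [Ndet_def, Matrix.det_apply]
  have h1 : ∀ σ ∈ (Finset.univ : Finset (Equiv.Perm (Fin p))),
      HasQ (fun t => ((Equiv.Perm.sign σ : ℤ) : ℂ) * ∏ i : Fin p,
          Mnum p (fun r => sectFun p ψ r t) (Periodic.qParam 1 (t : ℂ)) (σ i) i)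
        (Equiv.Perm.sign σ • ∏ i : Fin p, Mmat p ψ (σ i) i) := by
    intro σ _
    have h2 := (hasQ_prod (Finset.univ : Finset (Fin p))
      (fun i _ => hasQ_Mnum_entry hp hf (σ i) i)).const_mul ((Equiv.Perm.sign σ : ℤ) : ℂ)
    have h3 : Equiv.Perm.sign σ • ∏ i : Fin p, Mmat p ψ (σ i) i =
        PowerSeries.C ((Equiv.Perm.sign σ : ℤ) : ℂ) * ∏ i : Fin p, Mmat p ψ (σ i) i := by
      rw [Units.smul_def, zsmul_eq_mul, map_intCast]
    rw [h3]
    exact h2
  refine (HasQ.sum _ h1).congr fun t => ?_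
  rw [Matrix.det_apply, Finset.sum_apply]
  refine Finset.sum_congr rfl fun σ _ => ?_
  rw [Units.smul_def, zsmul_eq_mul]

/-- **NQ, analytic core.**  If `f` is the sum of the `q`-series `ψ`, then
`t ↦ ∏_{j<p} f((t+j)/p)` is the sum of the `q`-series `Ndet p ψ`. -/
theorem hasQ_prod_heckeMatrix {p : ℕ} (hp : p ≠ 0) {f : ℍ → ℂ} {ψ : PowerSeries ℂ}
    (hf : HasQ f ψ) :
    HasQ (fun t => ∏ j ∈ Finset.range p, f (ModularForm.heckeMatrix p j • t)) (Ndet p ψ) := by
  refine (hasQ_det_Mnum hp hf).congr fun t => ?_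
  rw [← qParam_heckeMatrix_zero_pow hp t,
    det_Mnum (fun r => sectFun p ψ r t) (Periodic.qParam_ne_zero _)
      (Complex.isPrimitiveRoot_exp p hp)]
  refine Finset.prod_congr rfl fun j _ => ?_
  exact (apply_heckeMatrix_eq_sum hp hf j t).symm

/-! ### Step E: modular forms -/

/-- If `(f ∣[w] S)(τ) = g(τ/p)`, then `(f ∣[w] S T^j)(τ) = g((τ+j)/p)`. -/
theorem slash_S_mul_T_zpow_apply {p : ℕ} (hp : p ≠ 0) (w : ℤ) (f g : ℍ → ℂ)
    (h : ∀ τ : ℍ, (f ∣[w] ModularGroup.S) τ = g (ModularForm.heckeMatrix p 0 • τ))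
    (j : ℕ) (τ : ℍ) :
    (f ∣[w] (ModularGroup.S * ModularGroup.T ^ (j : ℤ))) τ =
      g (ModularForm.heckeMatrix p j • τ) := by
  have hden : denom ((ModularGroup.T ^ (j : ℤ) : SL(2, ℤ)) : GL (Fin 2) ℝ) τ = 1 := by
    rw [ModularGroup.denom_apply, ModularGroup.coe_T_zpow]
    simp
  rw [SlashAction.slash_mul, ModularForm.SL_slash_apply, h, hden, one_zpow, mul_one]
  congr 1
  apply UpperHalfPlane.ext
  rw [ModularForm.coe_heckeMatrix_smul hp, ModularForm.coe_heckeMatrix_smul hp,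
    ModularGroup.coe_T_zpow_smul_eq]
  push_cast
  ring

/-- **NQ, consumer form.**  If a level-one form `N` is pointwise `Φ(t) · ∏_{j<p} Φ'((t+j)/p)`
with `Φ, Φ'` of level `Γ₀(p)`, then its `q`-expansion is `qExp Φ · Ndet p (qExp Φ')`. -/
theorem qExpansion_eq_mul_Ndet {p : ℕ} [NeZero p] {w k : ℤ}
    (Φ Φt : ModularForm (Gamma0 p) w) (N : ModularForm 𝒮ℒ k)
    (hN : ∀ t : ℍ, N t = Φ t * ∏ j ∈ Finset.range p, Φt (ModularForm.heckeMatrix p j • t)) :
    qExpansion 1 N = qExpansion 1 Φ * Ndet p (qExpansion 1 Φt) := by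
  have hΦ : HasQ Φ (qExpansion 1 Φ) := hasQ_modularForm (one_mem_strictPeriods_Gamma0 p) Φ
  have hΦt : HasQ Φt (qExpansion 1 Φt) := hasQ_modularForm (one_mem_strictPeriods_Gamma0 p) Φt
  have h := hΦ.mul (hasQ_prod_heckeMatrix (NeZero.ne p) hΦt)
  exact (HasQ.eq_qExpansion one_mem_strictPeriods_SL N (h.congr fun t => (hN t).symm)).symm

/-- **NQ, slash form** (`normForm` / `IsPair` unfolded): if `N = Φ · ∏_{j<p} Φ ∣[w] S T^j` and
`(Φ ∣[w] S)(τ) = Φ'(τ/p)`, then `qExp N = qExp Φ · Ndet p (qExp Φ')`. -/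
theorem qExpansion_eq_mul_Ndet_of_slash {p : ℕ} [NeZero p] {w k : ℤ}
    (Φ Φt : ModularForm (Gamma0 p) w) (N : ModularForm 𝒮ℒ k)
    (hN : ∀ τ : ℍ, N τ = Φ τ * ∏ j ∈ Finset.range p,
      ((Φ : ℍ → ℂ) ∣[w] (ModularGroup.S * ModularGroup.T ^ (j : ℤ))) τ)
    (hpair : ∀ τ : ℍ, ((Φ : ℍ → ℂ) ∣[w] ModularGroup.S) τ =
      Φt (ModularForm.heckeMatrix p 0 • τ)) :
    qExpansion 1 N = qExpansion 1 Φ * Ndet p (qExpansion 1 Φt) := by
  refine qExpansion_eq_mul_Ndet Φ Φt N fun t => ?_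
  rw [hN t]
  congr 1
  refine Finset.prod_congr rfl fun j _ => ?_
  exact slash_S_mul_T_zpow_apply (NeZero.ne p) w _ _ hpair j t

end Fermat.Agent.S16.NQ
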