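/-
S16, slice PAIRS: calculus of pairs `(Φ, Φ')` of modular forms on `Γ₀(p)` with
`(Φ ∣[w] S) τ = Φ' (τ / p)`, together with their `q`-expansions.
-/
import Mathlib
import Fermat.Agent.S16.PairDef
import Fermat.Agent.S23.Dilate
import Fermat.Prelude.Thm_CongruenceSubgroup_one_mem_strictPeriods_Gamma0
import Fermat.Prelude.Thm_ModularFormClass_qCoeff_heckeU

set_option autoImplicit false

noncomputable section

open UpperHalfPlane ModularForm CongruenceSubgroup
open scoped MatrixGroups ModularForm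

namespace Fermat.Agent.S16

variable (p : ℕ) [NeZero p]

/-- A pair of modular forms of weight `w` on `Γ₀(p)` related by `(Φ ∣[w] S) τ = Φ' (τ / p)`. -/
structure QPair (w : ℤ) where
  Φ : ModularForm (Gamma0 p) w
  Φ' : ModularForm (Gamma0 p) w
  isPair : IsPair p w Φ Φ'

namespace QPair

variable {p}

/-- the `q`-expansion of the first form -/
def q {w : ℤ} (P : QPair p w) : PowerSeries ℂ := qExpansion 1 P.Φ

/-- the `q`-expansion of the second form -/
def q' {w : ℤ} (P : QPair p w) : PowerSeries ℂ := qExpansion 1 P.Φ'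

theorem one_mem : (1 : ℝ) ∈ ((Gamma0 p : Subgroup SL(2, ℤ)) : Subgroup (GL (Fin 2) ℝ)).strictPeriods :=
  CongruenceSubgroup.one_mem_strictPeriods_Gamma0 p

/-- sum of two pairs -/
def add {w : ℤ} (P₁ P₂ : QPair p w) : QPair p w where
  Φ := P₁.Φ + P₂.Φ
  Φ' := P₁.Φ' + P₂.Φ'
  isPair := fun τ => by
    have h1 := P₁.isPair τ
    have h2 := P₂.isPair τ
    rw [FunLike.coe_add, SlashAction.add_slash, Pi.add_apply, h1, h2]
    rfl

theorem add_q {w : ℤ} (P₁ P₂ : QPair p w) : (P₁.add P₂).q = P₁.q + P₂.q :=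
  ModularForm.qExpansion_add one_pos one_mem P₁.Φ P₂.Φ

theorem add_q' {w : ℤ} (P₁ P₂ : QPair p w) : (P₁.add P₂).q' = P₁.q' + P₂.q' :=
  ModularForm.qExpansion_add one_pos one_mem P₁.Φ' P₂.Φ'

/-- scalar multiple of a pair -/
def smul {w : ℤ} (c : ℂ) (P : QPair p w) : QPair p w where
  Φ := c • P.Φ
  Φ' := c • P.Φ'
  isPair := fun τ => by
    have h1 := P.isPair τ
    rw [FunLike.coe_smul, ModularForm.SL_smul_slash, Pi.smul_apply, h1]
    rfl

theorem smul_q {w : ℤ} (c : ℂ) (P : QPair p w) : (P.smul c).q = c • P.q :=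
  ModularForm.qExpansion_smul one_pos one_mem c P.Φ

theorem smul_q' {w : ℤ} (c : ℂ) (P : QPair p w) : (P.smul c).q' = c • P.q' :=
  ModularForm.qExpansion_smul one_pos one_mem c P.Φ'

/-- difference of two pairs -/
def sub {w : ℤ} (P₁ P₂ : QPair p w) : QPair p w := P₁.add (P₂.smul (-1))

theorem sub_q {w : ℤ} (P₁ P₂ : QPair p w) : (P₁.sub P₂).q = P₁.q - P₂.q := by
  rw [sub, add_q, smul_q]; simp [sub_eq_add_neg]

theorem sub_q' {w : ℤ} (P₁ P₂ : QPair p w) : (P₁.sub P₂).q' = P₁.q' - P₂.q' := by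
  rw [sub, add_q', smul_q']; simp [sub_eq_add_neg]

/-- product of two pairs -/
def mul {w₁ w₂ : ℤ} (P₁ : QPair p w₁) (P₂ : QPair p w₂) : QPair p (w₁ + w₂) where
  Φ := P₁.Φ.mul P₂.Φ
  Φ' := P₁.Φ'.mul P₂.Φ'
  isPair := fun τ => by
    have h1 := P₁.isPair τ
    have h2 := P₂.isPair τ
    rw [ModularForm.coe_mul, ModularForm.mul_slash_SL2, Pi.mul_apply, h1, h2]
    rfl

theorem mul_q {w₁ w₂ : ℤ} (P₁ : QPair p w₁) (P₂ : QPair p w₂) : (P₁.mul P₂).q = P₁.q * P₂.q :=
  ModularForm.qExpansion_mul one_pos one_mem P₁.Φ P₂.Φ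

theorem mul_q' {w₁ w₂ : ℤ} (P₁ : QPair p w₁) (P₂ : QPair p w₂) :
    (P₁.mul P₂).q' = P₁.q' * P₂.q' :=
  ModularForm.qExpansion_mul one_pos one_mem P₁.Φ' P₂.Φ'

/-- change of the weight along an equality -/
def cast {w₁ w₂ : ℤ} (h : w₁ = w₂) (P : QPair p w₁) : QPair p w₂ where
  Φ := ModularForm.mcast h P.Φ
  Φ' := ModularForm.mcast h P.Φ'
  isPair := fun τ => by
    subst h
    exact P.isPair τ

theorem cast_q {w₁ w₂ : ℤ} (h : w₁ = w₂) (P : QPair p w₁) : (P.cast h).q = P.q := rfl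

theorem cast_q' {w₁ w₂ : ℤ} (h : w₁ = w₂) (P : QPair p w₁) : (P.cast h).q' = P.q' := rfl

variable (p) in
/-- the pair `(f, f(p ·))` attached to a level-one form `f` -/
def ofLevelOne {k : ℤ} (f : ModularForm 𝒮ℒ k) : QPair p k where
  Φ := Fermat.Agent.S23.Dilate.restrict (Subgroup.map_le_range _ _) f
  Φ' := Fermat.Agent.S23.Dilate.dilate p f
  isPair := fun τ => by
    have hS : ((f : ℍ → ℂ) ∣[k] ModularGroup.S) = f := by
      rw [ModularForm.SL_slash]
      exact f.slash_action_eq' _ ⟨ModularGroup.S, rfl⟩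
    show ((f : ℍ → ℂ) ∣[k] ModularGroup.S) τ = _
    rw [hS, Fermat.Agent.S23.Dilate.dilate_apply]
    congr 1
    apply UpperHalfPlane.ext
    rw [ModularForm.coe_heckeDiagMatrix_smul (NeZero.ne p),
      ModularForm.coe_heckeMatrix_smul (NeZero.ne p)]
    have hp : (p : ℂ) ≠ 0 := Nat.cast_ne_zero.mpr (NeZero.ne p)
    field_simp
    simp

variable (p) in
theorem ofLevelOne_q {k : ℤ} (f : ModularForm 𝒮ℒ k) : (ofLevelOne p f).q = qExpansion 1 f := rfl

variable (p) in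
theorem ofLevelOne_q' {k : ℤ} (f : ModularForm 𝒮ℒ k) :
    (ofLevelOne p f).q' = PowerSeries.expand p (NeZero.ne p) (qExpansion 1 f) := by
  ext n
  rw [PowerSeries.coeff_expand]
  exact Fermat.Agent.S23.Dilate.coeff_qExpansion_dilate p f n

/-- the pair `(G, c • U_p G)` for a weight two form `G` (`c = -1/p`), given the Atkin–Lehner
identity as a hypothesis -/
def ofG (G : ModularForm (Gamma0 p) 2)
    (hG : IsPair p 2 G (-(p : ℂ)⁻¹ • ModularForm.heckeULin (N := p) (p := p) 2 dvd_rfl G)) :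
    QPair p 2 where
  Φ := G
  Φ' := -(p : ℂ)⁻¹ • ModularForm.heckeULin (N := p) (p := p) 2 dvd_rfl G
  isPair := hG

theorem ofG_q (G : ModularForm (Gamma0 p) 2) (hG) : (ofG G hG).q = qExpansion 1 G := rfl

/-- the `q`-expansion of `U_p G` -/
theorem coeff_qExpansion_heckeU (G : ModularForm (Gamma0 p) 2) (n : ℕ) :
    (qExpansion 1 (ModularForm.heckeULin (N := p) (p := p) 2 dvd_rfl G)).coeff n =
      (qExpansion 1 G).coeff (n * p) := by
  have h := ModularFormClass.qCoeff_heckeU (k := 2) G one_mem (NeZero.ne p) n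
  exact h

theorem ofG_q' (G : ModularForm (Gamma0 p) 2) (hG) :
    (ofG G hG).q' = -(p : ℂ)⁻¹ •
      qExpansion 1 (ModularForm.heckeULin (N := p) (p := p) 2 dvd_rfl G) :=
  ModularForm.qExpansion_smul one_pos one_mem (-(p : ℂ)⁻¹)
    (ModularForm.heckeULin (N := p) (p := p) 2 dvd_rfl G)

theorem coeff_ofG_q' (G : ModularForm (Gamma0 p) 2) (hG) (n : ℕ) :
    (ofG G hG).q'.coeff n = -(p : ℂ)⁻¹ * (qExpansion 1 G).coeff (n * p) := by
  rw [ofG_q', PowerSeries.coeff_smul, coeff_qExpansion_heckeU, smul_eq_mul]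

end QPair

end Fermat.Agent.S16
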