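/-
S16, slice ST: the Sturm bound modulo an ideal, at level one.

Let `R` be a commutative ring with an injective ring homomorphism `ι : R → ℂ`, let `f` be a modular
form of level one and weight `k`, and let `F ∈ R⟦X⟧` be a model of its `q`-expansion
(`PowerSeries.map ι F = qExpansion 1 f`).  If `red : R → κ` is a ring homomorphism and the
coefficients `n ≤ k / 12` of `F` die under `red`, then all coefficients of `F` die under `red`.

The proof is an induction on the weight, dividing by `Δ = q ∏ (1 - qⁿ)²⁴` over `R`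
(`f - a₀ E₄ ^ a E₆ ^ b = Δ f'`), using the integrality of the `q`-expansions of `E₄`, `E₆`, `Δ`.
-/
import Mathlib
import Fermat.Agent.S23.LevelOne
import Fermat.Agent.S24.JqBridge

set_option autoImplicit false

noncomputable section

open UpperHalfPlane ModularForm ModularFormClass EisensteinSeries Function
open scoped MatrixGroups ModularForm Manifold ArithmeticFunction.sigma

namespace Fermat.Agent.S16.Sturm

open Fermat.Agent.S23.LevelOne Fermat.Agent.S24.JqBridge

local notation "Δ" => ModularForm.discriminant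

/-- The integral `q`-expansion of `E₆`: `1 - 504 ∑ σ₅(n) qⁿ`. -/
def eisenstein6 : PowerSeries ℤ :=
  PowerSeries.mk fun n => if n = 0 then 1 else -504 * (ArithmeticFunction.sigma 5 n : ℤ)

theorem constantCoeff_eisenstein6 : PowerSeries.constantCoeff eisenstein6 = 1 := by
  rw [← PowerSeries.coeff_zero_eq_constantCoeff_apply]
  simp [eisenstein6]

/-- The `q`-expansion of `E₆` is integral. -/
theorem qExpansion_E₆ : qExpansion 1 E₆ = toC eisenstein6 := by
  ext m
  rw [show (E₆ : ModularForm 𝒮ℒ 6) = E (by norm_num : 3 ≤ 6) from rfl,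
    E_qExpansion_coeff (by norm_num : 3 ≤ 6) ⟨3, rfl⟩ m]
  simp only [toC, PowerSeries.coeff_map, eisenstein6, PowerSeries.coeff_mk]
  split_ifs with hm
  · simp
  · have hb : bernoulli 6 = 1 / 42 := by decide +kernel
    rw [hb, eq_intCast]
    push_cast
    ring

/-! ### Integral models over an arbitrary ring -/

section Models

variable {R : Type*} [CommRing R]

/-- The coefficient-wise map `ℤ⟦X⟧ → R⟦X⟧`. -/
abbrev toR (R : Type*) [CommRing R] : PowerSeries ℤ →+* PowerSeries R :=
  PowerSeries.map (Int.castRingHom R)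

theorem map_toR (ι : R →+* ℂ) (x : PowerSeries ℤ) : PowerSeries.map ι (toR R x) = toC x := by
  ext n
  simp [toR, toC, PowerSeries.coeff_map]

theorem map_toR' {κ : Type*} [CommRing κ] (red : R →+* κ) (x : PowerSeries ℤ) :
    PowerSeries.map red (toR R x) = toR κ x := by
  ext n
  simp [toR, PowerSeries.coeff_map]

/-- The model over `R` of the `q`-expansion of `E₄ ^ a * E₆ ^ b`. -/
def monoSeries (R : Type*) [CommRing R] (a b : ℕ) : PowerSeries R :=
  toR R ModularCurve.eisenstein4 ^ a * toR R eisenstein6 ^ b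

theorem map_monoSeries (ι : R →+* ℂ) (a b : ℕ) :
    PowerSeries.map ι (monoSeries R a b) = qExpansion 1 (monoFun a b) := by
  rw [qExpansion_monoFun, qExpansion_E₄, qExpansion_E₆, monoSeries, map_mul, map_pow, map_pow,
    map_toR, map_toR]

theorem constantCoeff_monoSeries (a b : ℕ) :
    PowerSeries.constantCoeff (monoSeries R a b) = 1 := by
  have h4 : PowerSeries.constantCoeff (toR R ModularCurve.eisenstein4) = 1 := by
    rw [← PowerSeries.coeff_zero_eq_constantCoeff_apply, PowerSeries.coeff_map,
      PowerSeries.coeff_zero_eq_constantCoeff_apply, ModularCurve.constantCoeff_eisenstein4,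
      map_one]
  have h6 : PowerSeries.constantCoeff (toR R eisenstein6) = 1 := by
    rw [← PowerSeries.coeff_zero_eq_constantCoeff_apply, PowerSeries.coeff_map,
      PowerSeries.coeff_zero_eq_constantCoeff_apply, constantCoeff_eisenstein6, map_one]
  rw [monoSeries, map_mul, map_pow, map_pow, h4, h6, one_pow, one_pow, one_mul]

theorem toR_unit_mul_inv :
    toR R ModularCurve.dedekindEtaUnit * toR R ModularCurve.dedekindEtaUnitInv = 1 := by
  rw [← map_mul, ModularCurve.dedekindEtaUnit_mul_inv, map_one]

/-- `∑ σ_j(n) qⁿ` over `ℤ`. -/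
def sigmaSeries (j : ℕ) : PowerSeries ℤ :=
  PowerSeries.mk fun n => (ArithmeticFunction.sigma j n : ℤ)

theorem coeff_sigmaSeries (j n : ℕ) :
    PowerSeries.coeff n (sigmaSeries j) = (ArithmeticFunction.sigma j n : ℤ) := by
  rw [sigmaSeries, PowerSeries.coeff_mk]

theorem constantCoeff_sigmaSeries (j : ℕ) : PowerSeries.constantCoeff (sigmaSeries j) = 0 := by
  rw [← PowerSeries.coeff_zero_eq_constantCoeff_apply, coeff_sigmaSeries]
  simp

theorem coeff_one_sigmaSeries (j : ℕ) : PowerSeries.coeff 1 (sigmaSeries j) = 1 := by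
  rw [coeff_sigmaSeries]
  simp

theorem eisenstein4_eq : ModularCurve.eisenstein4 = 1 + PowerSeries.C 240 * sigmaSeries 3 := by
  ext n
  rw [map_add, PowerSeries.coeff_C_mul, coeff_sigmaSeries, PowerSeries.coeff_one,
    ModularCurve.eisenstein4, PowerSeries.coeff_mk, ArithmeticFunction.sigma_apply]
  split_ifs with hn
  · subst hn; simp
  · push_cast; ring

theorem eisenstein6_eq : eisenstein6 = 1 - PowerSeries.C 504 * sigmaSeries 5 := by
  ext n
  rw [map_sub, PowerSeries.coeff_C_mul, coeff_sigmaSeries, PowerSeries.coeff_one,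
    eisenstein6, PowerSeries.coeff_mk]
  split_ifs with hn
  · subst hn; simp
  · ring

/-- Models over `R` of the `q`-expansions of `E₄`, `E₆`, `Δ`. -/
theorem map_toR_eisenstein4 (ι : R →+* ℂ) :
    PowerSeries.map ι (toR R ModularCurve.eisenstein4) = qExpansion 1 E₄ := by
  rw [map_toR, qExpansion_E₄]

theorem map_toR_eisenstein6 (ι : R →+* ℂ) :
    PowerSeries.map ι (toR R eisenstein6) = qExpansion 1 E₆ := by
  rw [map_toR, qExpansion_E₆]

theorem map_toR_discriminant (ι : R →+* ℂ) :
    PowerSeries.map ι (PowerSeries.X * toR R ModularCurve.dedekindEtaUnit) = qExpansion 1 Δ := by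
  rw [map_mul, PowerSeries.map_X, map_toR, qExpansion_discriminant]

end Models

/-! ### The Sturm bound -/

section Main

variable {R κ : Type*} [CommRing R] [CommRing κ]

/-- If the `q`-expansion of a level one form vanishes, so does any model of it over a ring
embedded in `ℂ`. -/
theorem eq_zero_of_form_eq_zero (ι : R →+* ℂ) (hι : Injective ι) {k : ℤ}
    (f : ModularForm 𝒮ℒ k) (F : PowerSeries R) (hF : PowerSeries.map ι F = qExpansion 1 f)
    (hf : (⇑f : ℍ → ℂ) = 0) : F = 0 := by
  apply PowerSeries.map_injective ι hι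
  rw [hF, hf, qExpansion_zero, map_zero]

/-- One division step: if `F` models `f` of weight `k = 4a + 6b` and `red (coeff 0 F) = 0`, there
are a form `f'` of weight `k - 12` and a model `F'` of it with
`map red F = X * unit * map red F'`. -/
theorem exists_div_step (ι : R →+* ℂ) (red : R →+* κ) {k : ℤ} (a b : ℕ)
    (hab : (4 * (a : ℤ) + 6 * (b : ℤ)) = k)
    (f : ModularForm 𝒮ℒ k) (F : PowerSeries R) (hF : PowerSeries.map ι F = qExpansion 1 f)
    (h0 : PowerSeries.coeff 0 (PowerSeries.map red F) = 0) :
    ∃ (f' : ModularForm 𝒮ℒ (k - 12)) (F' : PowerSeries R),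
      PowerSeries.map ι F' = qExpansion 1 f' ∧
      PowerSeries.map red F =
        PowerSeries.X * (toR κ ModularCurve.dedekindEtaUnit * PowerSeries.map red F') := by
  set a0 : R := PowerSeries.coeff 0 F with ha0
  have hred0 : red a0 = 0 := by
    rw [PowerSeries.coeff_map] at h0
    exact h0
  -- the numerator over `R`
  set num : PowerSeries R := F - PowerSeries.C a0 * monoSeries R a b with hnum
  have hnum0 : PowerSeries.constantCoeff num = 0 := by
    rw [hnum, map_sub, map_mul, constantCoeff_monoSeries, PowerSeries.constantCoeff_C, mul_one,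
      ← PowerSeries.coeff_zero_eq_constantCoeff_apply, sub_self]
  set num' : PowerSeries R := PowerSeries.mk fun p => PowerSeries.coeff (p + 1) num with hnum'
  have hsplit : num = PowerSeries.X * num' := by
    have h := PowerSeries.eq_X_mul_shift_add_const num
    rw [hnum0, map_zero, add_zero] at h
    exact h
  -- the corresponding cusp form
  set g : ModularForm 𝒮ℒ k := f - ι a0 • monoForm a b hab with hg
  have hgq : qExpansion 1 g = PowerSeries.map ι num := by
    rw [hg, FunLike.coe_sub, ModularForm.qExpansion_sub one_pos one_mem_strictPeriods_SL,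
      FunLike.coe_smul, ModularForm.qExpansion_smul one_pos one_mem_strictPeriods_SL,
      coe_monoForm, hnum, map_sub, map_mul, hF, map_monoSeries, PowerSeries.map_C,
      ← PowerSeries.smul_eq_C_mul]
  have hcusp : (qExpansion 1 g).coeff 0 = 0 := by
    rw [hgq, PowerSeries.coeff_map, PowerSeries.coeff_zero_eq_constantCoeff_apply, hnum0,
      map_zero]
  refine ⟨CuspForm.discriminantEquiv (toCuspForm g hcusp),
    toR R ModularCurve.dedekindEtaUnitInv * num', ?_, ?_⟩
  · have h1 := ModularForm.qExpansion_eq_qExpansion_discriminant_mul g hcusp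
    rw [hgq, hsplit, map_mul, PowerSeries.map_X, qExpansion_discriminant, mul_assoc] at h1
    have h2 := PowerSeries.X_mul_cancel h1
    rw [map_mul, h2, map_toR, ← mul_assoc, ← map_mul, mul_comm ModularCurve.dedekindEtaUnitInv,
      ModularCurve.dedekindEtaUnit_mul_inv, map_one, one_mul]
  · have h1 : PowerSeries.map red F = PowerSeries.map red num := by
      rw [hnum, map_sub, map_mul, PowerSeries.map_C, hred0, map_zero, zero_mul, sub_zero]
    rw [h1, hsplit, map_mul, map_mul, PowerSeries.map_X, map_toR', ← mul_assoc (toR κ _),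
      toR_unit_mul_inv, one_mul]

theorem sturm_map_aux (ι : R →+* ℂ) (hι : Injective ι) (red : R →+* κ) :
    ∀ (n : ℕ) (k : ℤ), k < n → ∀ (f : ModularForm 𝒮ℒ k) (F : PowerSeries R),
      PowerSeries.map ι F = qExpansion 1 f →
      (∀ m : ℕ, 12 * (m : ℤ) ≤ k → PowerSeries.coeff m (PowerSeries.map red F) = 0) →
      PowerSeries.map red F = 0 := by
  intro n
  induction n with
  | zero =>
    intro k hk f F hF _
    have hneg : k < 0 := by simpa using hk
    rw [eq_zero_of_form_eq_zero ι hι f F hF
      (ModularFormClass.levelOne_neg_weight_eq_zero hneg f), map_zero]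
  | succ n ih =>
    intro k hk f F hF h
    rcases lt_or_ge k 0 with hneg | hnn
    · rw [eq_zero_of_form_eq_zero ι hι f F hF
        (ModularFormClass.levelOne_neg_weight_eq_zero hneg f), map_zero]
    rcases Int.even_or_odd k with hev | hodd
    swap
    · have h0 : f = 0 := ModularForm.levelOne_odd_weight_eq_zero hodd f
      rw [eq_zero_of_form_eq_zero ι hι f F hF (by rw [h0]; rfl), map_zero]
    by_cases hk2 : k = 2
    · subst hk2
      have : Subsingleton (ModularForm 𝒮ℒ 2) :=
        rank_zero_iff.mp ModularForm.levelOne_weight_two_rank_zero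
      have h0 : f = 0 := Subsingleton.elim _ _
      rw [eq_zero_of_form_eq_zero ι hι f F hF (by rw [h0]; rfl), map_zero]
    obtain ⟨a, b, hab⟩ : ∃ a b : ℕ, (4 * (a : ℤ) + 6 * (b : ℤ)) = k := by
      rcases eq_or_lt_of_le hnn with h0 | hpos
      · exact ⟨0, 0, by simpa using h0⟩
      · exact exists_weight_decomp hev (by obtain ⟨m, hm⟩ := hev; omega)
    obtain ⟨f', F', hF', hdiv⟩ :=
      exists_div_step ι red a b hab f F hF (h 0 (by simpa using hnn))
    have hlow : ∀ m : ℕ, 12 * (m : ℤ) ≤ k - 12 →
        PowerSeries.coeff m (PowerSeries.map red F') = 0 := by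
      intro m hm
      have hshift : (PowerSeries.mk fun p => PowerSeries.coeff (p + 1) (PowerSeries.map red F)) =
          toR κ ModularCurve.dedekindEtaUnit * PowerSeries.map red F' := by
        ext p
        rw [PowerSeries.coeff_mk, hdiv, PowerSeries.coeff_succ_X_mul]
      have hF'eq : PowerSeries.map red F' = toR κ ModularCurve.dedekindEtaUnitInv *
          PowerSeries.mk fun p => PowerSeries.coeff (p + 1) (PowerSeries.map red F) := by
        rw [hshift, ← mul_assoc, mul_comm (toR κ ModularCurve.dedekindEtaUnitInv),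
          toR_unit_mul_inv, one_mul]
      rw [hF'eq, PowerSeries.coeff_mul]
      refine Finset.sum_eq_zero fun x hx => ?_
      have hx2 : x.1 + x.2 = m := Finset.HasAntidiagonal.mem_antidiagonal.mp hx
      rw [PowerSeries.coeff_mk, h (x.2 + 1) (by push_cast; omega), mul_zero]
    have hF'0 := ih (k - 12) (by push_cast at hk; omega) f' F' hF' hlow
    rw [hdiv, hF'0, mul_zero, mul_zero]

/-- **Sturm bound modulo a ring homomorphism, level one.**  Let `F ∈ R⟦X⟧` be a model of the
`q`-expansion of a modular form `f` of level one and weight `k` (via an injective `ι : R → ℂ`).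
If the coefficients `m` with `12 m ≤ k` of `F` are killed by `red : R → κ`, then all coefficients
are. -/
theorem sturm_map (ι : R →+* ℂ) (hι : Injective ι) (red : R →+* κ) {k : ℤ}
    (f : ModularForm 𝒮ℒ k) (F : PowerSeries R) (hF : PowerSeries.map ι F = qExpansion 1 f)
    (h : ∀ m : ℕ, 12 * (m : ℤ) ≤ k → PowerSeries.coeff m (PowerSeries.map red F) = 0) :
    PowerSeries.map red F = 0 :=
  sturm_map_aux ι hι red (k.toNat + 1) k (by push_cast; have := Int.self_le_toNat k; omega)
    f F hF h

/-- The same with a natural number weight and the bound written `m ≤ k / 12`. -/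
theorem sturm_map_nat (ι : R →+* ℂ) (hι : Injective ι) (red : R →+* κ) {k : ℕ}
    (f : ModularForm 𝒮ℒ (k : ℤ)) (F : PowerSeries R)
    (hF : PowerSeries.map ι F = qExpansion 1 f)
    (h : ∀ m : ℕ, m ≤ k / 12 → PowerSeries.coeff m (PowerSeries.map red F) = 0) :
    PowerSeries.map red F = 0 :=
  sturm_map ι hι red f F hF fun m hm => h m (by
    have h1 : 12 * m ≤ k := by exact_mod_cast hm
    omega)

/-- Contrapositive form: a nonzero reduction has a nonzero coefficient at some `m ≤ k / 12`. -/
theorem exists_coeff_ne_zero (ι : R →+* ℂ) (hι : Injective ι) (red : R →+* κ) {k : ℕ}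
    (f : ModularForm 𝒮ℒ (k : ℤ)) (F : PowerSeries R)
    (hF : PowerSeries.map ι F = qExpansion 1 f) (hne : PowerSeries.map red F ≠ 0) :
    ∃ m : ℕ, m ≤ k / 12 ∧ PowerSeries.coeff m (PowerSeries.map red F) ≠ 0 := by
  by_contra hcon
  refine hne (sturm_map_nat ι hι red f F hF fun m hm => ?_)
  by_contra hm'
  exact hcon ⟨m, hm, hm'⟩

/-- **Sturm bound modulo an ideal, level one.** -/
theorem sturm_ideal (ι : R →+* ℂ) (hι : Injective ι) (I : Ideal R) {k : ℤ}
    (f : ModularForm 𝒮ℒ k) (F : PowerSeries R) (hF : PowerSeries.map ι F = qExpansion 1 f)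
    (h : ∀ m : ℕ, 12 * (m : ℤ) ≤ k → PowerSeries.coeff m F ∈ I) (m : ℕ) :
    PowerSeries.coeff m F ∈ I := by
  have h1 := sturm_map ι hι (Ideal.Quotient.mk I) f F hF fun m hm => by
    rw [PowerSeries.coeff_map]
    exact Ideal.Quotient.eq_zero_iff_mem.mpr (h m hm)
  have h2 := congrArg (PowerSeries.coeff m) h1
  rw [PowerSeries.coeff_map, map_zero] at h2
  exact Ideal.Quotient.eq_zero_iff_mem.mp h2

/-- Order form: if the reduction of a model of a weight `k` form has order `> k / 12`, it is
zero. -/
theorem sturm_order (ι : R →+* ℂ) (hι : Injective ι) (red : R →+* κ) {k : ℕ}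
    (f : ModularForm 𝒮ℒ (k : ℤ)) (F : PowerSeries R)
    (hF : PowerSeries.map ι F = qExpansion 1 f)
    (h : ((k / 12 : ℕ) : ℕ∞) < (PowerSeries.map red F).order) :
    PowerSeries.map red F = 0 :=
  sturm_map_nat ι hι red f F hF fun m hm =>
    PowerSeries.coeff_of_lt_order m (lt_of_le_of_lt (by exact_mod_cast hm) h)

/-- Order form with an integer weight: if `X ^ N` divides the reduction and `k < 12 N`, the
reduction is zero. -/
theorem sturm_X_pow_dvd (ι : R →+* ℂ) (hι : Injective ι) (red : R →+* κ) {k : ℤ}
    (f : ModularForm 𝒮ℒ k) (F : PowerSeries R) (hF : PowerSeries.map ι F = qExpansion 1 f)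
    (N : ℕ) (hN : k < 12 * (N : ℤ)) (h : PowerSeries.X ^ N ∣ PowerSeries.map red F) :
    PowerSeries.map red F = 0 :=
  sturm_map ι hι red f F hF fun m hm =>
    (PowerSeries.X_pow_dvd_iff.mp h) m (by omega)

/-- Contradiction form over a domain: the reduction of a model of a weight `k` form cannot be
`X ^ N * G` with `G ≠ 0` and `k < 12 N`. -/
theorem sturm_false [IsDomain κ] (ι : R →+* ℂ) (hι : Injective ι) (red : R →+* κ) {k : ℤ}
    (f : ModularForm 𝒮ℒ k) (F : PowerSeries R) (hF : PowerSeries.map ι F = qExpansion 1 f)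
    (N : ℕ) (hN : k < 12 * (N : ℤ)) (G : PowerSeries κ) (hG : G ≠ 0)
    (h : PowerSeries.map red F = PowerSeries.X ^ N * G) : False := by
  have h0 := sturm_X_pow_dvd ι hι red f F hF N hN ⟨G, h⟩
  rw [h0] at h
  rcases mul_eq_zero.mp h.symm with h1 | h1
  · exact PowerSeries.X_ne_zero (eq_zero_of_pow_eq_zero h1)
  · exact hG h1

end Main

end Fermat.Agent.S16.Sturm

end
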