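/-
S16, slice ST (interface shape): the Sturm bound at level one for `ℤ_(ℓ) → 𝔽_ℓ`, in the exact
shape of the central interface (`iotaC ℓ`, `redHom ℓ` of `S16/Defs.lean`).
-/
import Mathlib
import Fermat.Agent.S16.Defs
import Fermat.Agent.S16.Sturm

set_option autoImplicit false

noncomputable section

open UpperHalfPlane ModularForm
open scoped MatrixGroups ModularForm

namespace Fermat.Agent.S16.Sturm

open Fermat.Agent.S16

/-- **Sturm bound mod `ℓ` at level one** (integer weight). -/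
theorem sturm_mod_int (ℓ : ℕ) [Fact ℓ.Prime] {k : ℤ} (f : ModularForm 𝒮ℒ k)
    (F : PowerSeries ↥(GaloisRep.ratLocalizedAt ℓ))
    (hF : PowerSeries.map (iotaC ℓ) F = qExpansion 1 f)
    (h0 : ∀ n : ℕ, 12 * (n : ℤ) ≤ k →
      PowerSeries.coeff n (PowerSeries.map (redHom ℓ) F) = 0) :
    PowerSeries.map (redHom ℓ) F = 0 :=
  sturm_map (iotaC ℓ) (iotaC_injective ℓ) (redHom ℓ) f F hF h0

/-- **Sturm bound mod `ℓ` at level one** (natural number weight). -/
theorem sturm_mod (ℓ : ℕ) [Fact ℓ.Prime] (k : ℕ) (f : ModularForm 𝒮ℒ (k : ℤ))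
    (F : PowerSeries ↥(GaloisRep.ratLocalizedAt ℓ))
    (hF : PowerSeries.map (iotaC ℓ) F = qExpansion 1 f)
    (h0 : ∀ n : ℕ, 12 * n ≤ k → PowerSeries.coeff n (PowerSeries.map (redHom ℓ) F) = 0) :
    PowerSeries.map (redHom ℓ) F = 0 :=
  sturm_mod_int ℓ f F hF fun n hn => h0 n (by exact_mod_cast hn)

/-- Contradiction form: the reduction mod `ℓ` of a model of a weight `k` form of level one is not
`X ^ N * G` with `G ≠ 0` and `k < 12 N`. -/
theorem sturm_mod_false (ℓ : ℕ) [Fact ℓ.Prime] {k : ℤ} (f : ModularForm 𝒮ℒ k)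
    (F : PowerSeries ↥(GaloisRep.ratLocalizedAt ℓ))
    (hF : PowerSeries.map (iotaC ℓ) F = qExpansion 1 f)
    (N : ℕ) (hN : k < 12 * (N : ℤ)) (G : PowerSeries (ZMod ℓ)) (hG : G ≠ 0)
    (h : PowerSeries.map (redHom ℓ) F = PowerSeries.X ^ N * G) : False :=
  sturm_false (iotaC ℓ) (iotaC_injective ℓ) (redHom ℓ) f F hF N hN G hG h

/-- Non-vanishing form: a model with nonzero reduction mod `ℓ` has a coefficient `n ≤ k / 12`
which is nonzero mod `ℓ`. -/
theorem sturm_mod_exists (ℓ : ℕ) [Fact ℓ.Prime] {k : ℤ} (f : ModularForm 𝒮ℒ k)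
    (F : PowerSeries ↥(GaloisRep.ratLocalizedAt ℓ))
    (hF : PowerSeries.map (iotaC ℓ) F = qExpansion 1 f)
    (hne : PowerSeries.map (redHom ℓ) F ≠ 0) :
    ∃ n : ℕ, 12 * (n : ℤ) ≤ k ∧ PowerSeries.coeff n (PowerSeries.map (redHom ℓ) F) ≠ 0 := by
  by_contra hcon
  refine hne (sturm_mod_int ℓ f F hF fun n hn => ?_)
  by_contra hn'
  exact hcon ⟨n, hn, hn'⟩

end Fermat.Agent.S16.Sturm

end
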