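/-
S16, slice MASTER: norm to level one + Sturm bound mod `ℓ`.

If `(Φ, Φ')` is a pair of weight `w` on `Γ₀(p)` with `ℓ`-integral `q`-expansions `φ`, `ψ`, and
`φ ≡ ξ₀`, `ψ ≡ ξ₁(X^p)` modulo `ℓ`, then `ξ₀ * ξ₁ ^ p` is the reduction of the `q`-expansion of a
level-one form of weight `w (p+1)`; hence it cannot be nonzero with all coefficients of index
`≤ w (p+1) / 12` equal to zero.

The existence of the norm form is the hypothesis `NormHyp p` (proved in the coset file).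
-/
import Mathlib
import Fermat.Agent.S16.Defs
import Fermat.Agent.S16.Pairs
import Fermat.Agent.S16.NQ
import Fermat.Agent.S16.SturmMod

set_option autoImplicit false

noncomputable section

open UpperHalfPlane ModularForm CongruenceSubgroup
open scoped MatrixGroups ModularForm

namespace Fermat.Agent.S16

/-- The norm to level one exists: `N = Φ · ∏_{j<p} Φ ∣[w] S T^j` is a level-one modular form of
weight `w (p+1)`. -/
def NormHyp (p : ℕ) : Prop :=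
  ∀ (w : ℤ) (Φ : ModularForm (Gamma0 p) w), ∃ N : ModularForm 𝒮ℒ (w * (p + 1)),
    ∀ τ : ℍ, N τ = Φ τ * ∏ j ∈ Finset.range p,
      ((Φ : ℍ → ℂ) ∣[w] (ModularGroup.S * ModularGroup.T ^ (j : ℤ))) τ

variable {p : ℕ} [NeZero p]

/-- **MASTER.** -/
theorem false_of_pair (hN : NormHyp p) (ℓ : ℕ) [Fact ℓ.Prime] (w : ℕ)
    (Φ Φ' : ModularForm (Gamma0 p) (w : ℤ)) (h : IsPair p w Φ Φ')
    (φ ψ : PowerSeries ↥(GaloisRep.ratLocalizedAt ℓ))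
    (hφ : PowerSeries.map (iotaC ℓ) φ = qExpansion 1 Φ)
    (hψ : PowerSeries.map (iotaC ℓ) ψ = qExpansion 1 Φ')
    (ξ₀ ξ₁ : PowerSeries (ZMod ℓ))
    (h0 : PowerSeries.map (redHom ℓ) φ = ξ₀)
    (h1 : PowerSeries.map (redHom ℓ) ψ = PowerSeries.expand p (NeZero.ne p) ξ₁)
    (hne : ξ₀ * ξ₁ ^ p ≠ 0)
    (hord : ∀ n : ℕ, 12 * n ≤ w * (p + 1) → PowerSeries.coeff n (ξ₀ * ξ₁ ^ p) = 0) : False := by
  obtain ⟨N, hNapp⟩ := hN (w : ℤ) Φ
  have hq : qExpansion 1 N = qExpansion 1 Φ * NDet.Ndet p (qExpansion 1 Φ') :=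
    NQ.qExpansion_eq_mul_Ndet_of_slash Φ Φ' N hNapp h
  have hF : PowerSeries.map (iotaC ℓ) (φ * NDet.Ndet p ψ) = qExpansion 1 N := by
    rw [hq, map_mul, hφ, NDet.map_Ndet, hψ]
  have hred : PowerSeries.map (redHom ℓ) (φ * NDet.Ndet p ψ) = ξ₀ * ξ₁ ^ p := by
    rw [map_mul, h0, NDet.map_Ndet_eq_pow p (redHom ℓ) (NeZero.ne p) ψ ξ₁ h1]
  have hz := Sturm.sturm_mod_int ℓ N (φ * NDet.Ndet p ψ) hF (by
    intro n hn
    rw [hred]
    refine hord n ?_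
    have : (12 : ℤ) * n ≤ ((w * (p + 1) : ℕ) : ℤ) := by push_cast; linarith
    exact_mod_cast this)
  rw [hred] at hz
  exact hne hz

/-- **MASTER**, for a `QPair`. -/
theorem false_of_qpair (hN : NormHyp p) (ℓ : ℕ) [Fact ℓ.Prime] (w : ℕ) (P : QPair p (w : ℤ))
    (φ ψ : PowerSeries ↥(GaloisRep.ratLocalizedAt ℓ))
    (hφ : PowerSeries.map (iotaC ℓ) φ = P.q)
    (hψ : PowerSeries.map (iotaC ℓ) ψ = P.q')
    (ξ₀ ξ₁ : PowerSeries (ZMod ℓ))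
    (h0 : PowerSeries.map (redHom ℓ) φ = ξ₀)
    (h1 : PowerSeries.map (redHom ℓ) ψ = PowerSeries.expand p (NeZero.ne p) ξ₁)
    (hne : ξ₀ * ξ₁ ^ p ≠ 0)
    (hord : ∀ n : ℕ, 12 * n ≤ w * (p + 1) → PowerSeries.coeff n (ξ₀ * ξ₁ ^ p) = 0) : False :=
  false_of_pair hN ℓ w P.Φ P.Φ' P.isPair φ ψ hφ hψ ξ₀ ξ₁ h0 h1 hne hord

/-- **MASTER**, order form: if `ξ₀ * ξ₁ ^ p = X ^ M * u` with `u ≠ 0` and `w (p+1) < 12 M`, we get
a contradiction. -/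
theorem false_of_qpair_order (hN : NormHyp p) (ℓ : ℕ) [Fact ℓ.Prime] (w : ℕ)
    (P : QPair p (w : ℤ))
    (φ ψ : PowerSeries ↥(GaloisRep.ratLocalizedAt ℓ))
    (hφ : PowerSeries.map (iotaC ℓ) φ = P.q)
    (hψ : PowerSeries.map (iotaC ℓ) ψ = P.q')
    (ξ₀ ξ₁ : PowerSeries (ZMod ℓ))
    (h0 : PowerSeries.map (redHom ℓ) φ = ξ₀)
    (h1 : PowerSeries.map (redHom ℓ) ψ = PowerSeries.expand p (NeZero.ne p) ξ₁)
    (M : ℕ) (u : PowerSeries (ZMod ℓ)) (hu : u ≠ 0)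
    (hM : ξ₀ * ξ₁ ^ p = PowerSeries.X ^ M * u) (hwM : w * (p + 1) < 12 * M) : False := by
  refine false_of_qpair hN ℓ w P φ ψ hφ hψ ξ₀ ξ₁ h0 h1 ?_ ?_
  · rw [hM]
    exact mul_ne_zero (pow_ne_zero _ PowerSeries.X_ne_zero) hu
  · intro n hn
    rw [hM, PowerSeries.coeff_X_pow_mul']
    rw [if_neg]
    omega

end Fermat.Agent.S16
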