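/-
S16, slice W (final, unconditional): the Atkin–Lehner identity at prime level in weight 2 and the
two hypotheses of the upper-bound machinery, discharged with the coset file `S16/Cos.lean`:

* `traceZero`           : `AtkinLehner.TraceZero p`;
* `normHyp`             : `NormHyp p` (hypothesis of `S16/Master.lean`);
* `isPair_heckeU`       : `(G, -p⁻¹ U_p G)` is a pair;
* `slash_S`             : `G ∣[2] S = -(U_p G) ∣[2] α₀`;
* `heckeULin_heckeULin` : `U_p² = 1` on `M₂(Γ₀(p))`.
-/
import Mathlib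
import Fermat.Agent.S16.ALGlue
import Fermat.Agent.S16.Cos
import Fermat.Agent.S16.Master

set_option autoImplicit false

noncomputable section

open UpperHalfPlane ModularForm CongruenceSubgroup Matrix.SpecialLinearGroup
open scoped MatrixGroups ModularForm

namespace Fermat.Agent.S16.ALFinal

variable (p : ℕ) [Fact p.Prime]

/-- The trace to level one of a weight-2 form of level `Γ₀(p)` vanishes. -/
theorem traceZero : AtkinLehner.TraceZero p := fun F => Cos.traceZero p F

/-- The norm to level one exists (hypothesis of the master lemma). -/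
theorem normHyp : NormHyp p := by
  intro w Φ
  refine ⟨Cos.normForm p Φ, fun τ => ?_⟩
  rw [Cos.normForm_apply]
  simp only [zpow_natCast]

variable {p}

/-- Atkin–Lehner: `G ∣[2] S = -(U_p G) ∣[2] α₀`. -/
theorem slash_S (G : ModularForm (Gamma0 p) 2) :
    (⇑G) ∣[(2 : ℤ)] ModularGroup.S = -((heckeU 2 p ⇑G) ∣[(2 : ℤ)] heckeMatrix p 0) :=
  ALGlue.slash_S (traceZero p) G

/-- Pointwise Atkin–Lehner: `(G ∣[2] S)(τ) = -p⁻¹ (U_p G)(τ/p)`. -/
theorem slash_S_apply (G : ModularForm (Gamma0 p) 2) (τ : ℍ) :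
    ((⇑G) ∣[(2 : ℤ)] ModularGroup.S) τ = -(p : ℂ)⁻¹ * heckeU 2 p ⇑G (heckeMatrix p 0 • τ) :=
  AtkinLehner.slash_S_apply (traceZero p) G τ

/-- `(G, -p⁻¹ U_p G)` is a pair. -/
theorem isPair_heckeU (G : ModularForm (Gamma0 p) 2) :
    IsPair p 2 G (-(p : ℂ)⁻¹ • ModularForm.heckeULin (N := p) (p := p) 2 dvd_rfl G) :=
  ALGlue.isPair_heckeU (traceZero p) G

/-- `U_p² = 1` on `M₂(Γ₀(p))`. -/
theorem heckeULin_heckeULin (G : ModularForm (Gamma0 p) 2) :
    ModularForm.heckeULin (N := p) (p := p) 2 dvd_rfl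
      (ModularForm.heckeULin (N := p) (p := p) 2 dvd_rfl G) = G :=
  ALGlue.heckeULin_heckeULin (traceZero p) G

/-- `U_p² = 1` on `M₂(Γ₀(p))`, function form. -/
theorem heckeU_heckeU (G : ModularForm (Gamma0 p) 2) : heckeU 2 p (heckeU 2 p ⇑G) = ⇑G :=
  AtkinLehner.heckeU_heckeU (traceZero p) G

end Fermat.Agent.S16.ALFinal
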