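/-
S16 (index of the Eisenstein ideal), slice E (helper23): the Eisenstein series of weight 2 and
level `p`,
  `E(τ) = (p E₂(p τ) - E₂(τ)) / 24 = (p - 1)/24 + ∑_{m ≥ 1} σ'(m) q^m`,
as a modular form for `Γ₀(p)` together with its `q`-expansion (`σ'(m)` = sum of the divisors of
`m` prime to `p`).
-/
import Mathlib
import Fermat.Prelude.Thm_CongruenceSubgroup_one_mem_strictPeriods_Gamma0
import Fermat.Agent.S16.Defs
import Fermat.Agent.S23.QCalc
import Fermat.Agent.S28.QDeriv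

set_option autoImplicit false

noncomputable section

namespace Fermat.Agent.S16.Eis

open UpperHalfPlane hiding I
open ModularForm CongruenceSubgroup EisensteinSeries Complex Filter Topology Function
open Fermat.Agent.S23.QCalc
open scoped MatrixGroups ModularForm Manifold ArithmeticFunction.sigma

/-! ### The `q`-expansion of `E₂` -/

/-- the `q`-series `1 - 24 ∑ σ(m) q^m` of `E₂` -/
def E2series : PowerSeries ℂ :=
  PowerSeries.mk fun m : ℕ => if m = 0 then (1 : ℂ) else -24 * (σ 1 m : ℂ)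

theorem coeff_E2series (m : ℕ) :
    PowerSeries.coeff m E2series = if m = 0 then (1 : ℂ) else -24 * (σ 1 m : ℂ) := by
  rw [E2series, PowerSeries.coeff_mk]

theorem hasQ_E2 : HasQ E2 E2series := by
  intro z
  have h := hasSum_qExpansion_E2 (z := z)
  simp only [smul_eq_mul] at h
  convert h using 2 with m
  rw [coeff_E2series]
  congr 2
  simp [Periodic.qParam]

/-! ### Multiplication by `p` on the upper half plane -/

section mulH

variable (p : ℕ) [NeZero p]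

/-- the point `p τ` -/
def mulH (τ : ℍ) : ℍ :=
  ⟨(p : ℂ) * (τ : ℂ), by
    have hp : (0 : ℝ) < p := Nat.cast_pos.mpr (NeZero.pos p)
    have := mul_pos hp τ.im_pos
    simpa using this⟩

@[simp] theorem coe_mulH (τ : ℍ) : ((mulH p τ : ℍ) : ℂ) = (p : ℂ) * (τ : ℂ) := rfl

theorem qParam_mulH (τ : ℍ) :
    Periodic.qParam 1 ((mulH p τ : ℍ) : ℂ) = Periodic.qParam 1 (τ : ℂ) ^ p := by
  rw [coe_mulH, Periodic.qParam, Periodic.qParam, ← Complex.exp_nat_mul]
  congr 1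
  ring

theorem hasQ_comp_mulH {f : ℍ → ℂ} {P : PowerSeries ℂ} (hf : HasQ f P) :
    HasQ (fun τ => f (mulH p τ)) (PowerSeries.expand p (NeZero.ne p) P) := by
  intro z
  have h := hf (mulH p z)
  rw [qParam_mulH] at h
  have hinj : Function.Injective fun n : ℕ => p * n :=
    fun a b hab => Nat.eq_of_mul_eq_mul_left (NeZero.pos p) hab
  have key : (fun n : ℕ => PowerSeries.coeff n P * (Periodic.qParam 1 (z : ℂ) ^ p) ^ n) =
      (fun m : ℕ => PowerSeries.coeff m (PowerSeries.expand p (NeZero.ne p) P) *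
        Periodic.qParam 1 (z : ℂ) ^ m) ∘ fun n : ℕ => p * n := by
    funext n
    simp only [Function.comp_apply]
    rw [PowerSeries.coeff_expand_mul, pow_mul]
  rw [key] at h
  refine (hinj.hasSum_iff ?_).mp h
  intro m hm
  have hnd : ¬ p ∣ m := fun ⟨k, hk⟩ => hm ⟨k, hk.symm⟩
  rw [PowerSeries.coeff_expand_of_not_dvd p (NeZero.ne p) P hnd, zero_mul]

end mulH

/-! ### The divisor sum identity -/

theorem sum_divisors_filter_dvd (p m : ℕ) [NeZero p] :
    ∑ d ∈ m.divisors.filter (fun d => p ∣ d), d = if p ∣ m then p * σ 1 (m / p) else 0 := by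
  split_ifs with h
  · obtain ⟨k, rfl⟩ := h
    rw [Nat.mul_div_cancel_left _ (NeZero.pos p), ArithmeticFunction.sigma_one_apply,
      Finset.mul_sum]
    by_cases hk : k = 0
    · subst hk; simp
    have hp0 : p ≠ 0 := NeZero.ne p
    have himg : (p * k).divisors.filter (fun d => p ∣ d) = k.divisors.image (fun d => p * d) := by
      ext d
      simp only [Finset.mem_filter, Nat.mem_divisors, Finset.mem_image]
      constructor
      · rintro ⟨⟨hd, -⟩, e, rfl⟩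
        exact ⟨e, ⟨(Nat.mul_dvd_mul_iff_left (NeZero.pos p)).mp hd, hk⟩, rfl⟩
      · rintro ⟨e, ⟨he, -⟩, rfl⟩
        exact ⟨⟨Nat.mul_dvd_mul_left p he, Nat.mul_ne_zero hp0 hk⟩, dvd_mul_right p e⟩
    rw [himg, Finset.sum_image]
    intro a _ b _ hab
    exact Nat.eq_of_mul_eq_mul_left (NeZero.pos p) hab
  · apply Finset.sum_eq_zero
    intro d hd
    rw [Finset.mem_filter, Nat.mem_divisors] at hd
    exact absurd (hd.2.trans hd.1.1) h

theorem sigma_one_eq (p m : ℕ) [NeZero p] :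
    σ 1 m = sigmaP p m + if p ∣ m then p * σ 1 (m / p) else 0 := by
  rw [← sum_divisors_filter_dvd, sigmaP, ArithmeticFunction.sigma_one_apply, add_comm]
  exact (Finset.sum_filter_add_sum_filter_not _ _ _).symm

/-! ### The function `E` and its `q`-expansion -/

section eis

variable (p : ℕ) [NeZero p]

/-- `E(τ) = (p E₂(p τ) - E₂(τ)) / 24` -/
def eisFun (τ : ℍ) : ℂ := ((p : ℂ) * E2 (mulH p τ) - E2 τ) / 24

/-- the `q`-series of `E` -/
def eisSeries : PowerSeries ℂ :=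
  PowerSeries.C (24⁻¹ : ℂ) *
    (PowerSeries.C (p : ℂ) * PowerSeries.expand p (NeZero.ne p) E2series - E2series)

theorem hasQ_eisFun : HasQ (eisFun p) (eisSeries p) := by
  have h1 := ((hasQ_comp_mulH p hasQ_E2).const_mul (p : ℂ)).sub hasQ_E2
  have h2 := h1.const_mul (24⁻¹ : ℂ)
  refine h2.congr fun z => ?_
  simp only [Pi.sub_apply, eisFun]
  ring

theorem coeff_eisSeries_zero : PowerSeries.coeff 0 (eisSeries p) = ((p : ℂ) - 1) / 24 := by
  rw [eisSeries, PowerSeries.coeff_C_mul, map_sub, PowerSeries.coeff_C_mul,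
    PowerSeries.coeff_expand]
  simp only [coeff_E2series]
  simp
  ring

theorem coeff_eisSeries (m : ℕ) (hm : 1 ≤ m) :
    PowerSeries.coeff m (eisSeries p) = (sigmaP p m : ℂ) := by
  have hm0 : m ≠ 0 := by omega
  rw [eisSeries, PowerSeries.coeff_C_mul, map_sub, PowerSeries.coeff_C_mul,
    PowerSeries.coeff_expand]
  simp only [coeff_E2series]
  rw [if_neg hm0]
  have key := sigma_one_eq p m
  by_cases h : p ∣ m
  · rw [if_pos h] at key ⊢
    have hmp : m / p ≠ 0 := by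
      obtain ⟨k, rfl⟩ := h
      rw [Nat.mul_div_cancel_left _ (NeZero.pos p)]
      rintro rfl
      simp at hm0
    rw [if_neg hmp]
    have key' : (σ 1 m : ℂ) = (sigmaP p m : ℂ) + (p : ℂ) * (σ 1 (m / p) : ℂ) := by
      exact_mod_cast key
    rw [key']
    ring
  · rw [if_neg h] at key ⊢
    rw [add_zero] at key
    rw [key]
    ring

end eis

/-! ### The transformation law -/

/-- the constant `1 / (2 ζ(2))` -/
local notation "c₀" => (1 / (2 * riemannZeta 2) : ℂ)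

/-- the pointwise form of the quasi-modularity of `E₂` -/
theorem E2_smul (γ : SL(2, ℤ)) (τ : ℍ) :
    E2 (γ • τ) = denom γ τ ^ 2 * (E2 τ - c₀ * (2 * Real.pi * I * (γ 1 0 : ℂ) / denom γ τ)) := by
  have h := congrFun (E2_slash_action γ) τ
  rw [SL_slash_apply] at h
  have hd : denom γ τ ≠ 0 := denom_ne_zero _ τ
  have h2 : (E2 - c₀ • D2 γ) τ = E2 τ - c₀ * (2 * Real.pi * I * (γ 1 0 : ℂ) / denom γ τ) := by
    simp [D2]
  rw [h2] at h
  rw [← h, zpow_neg, show (2 : ℤ) = ((2 : ℕ) : ℤ) from rfl, zpow_natCast]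
  field_simp

section slash

variable (p : ℕ) [NeZero p]

/-- for `γ ∈ Γ₀(p)`, the matrix `diag(p,1) γ diag(p,1)⁻¹` -/
def conjMat (γ : SL(2, ℤ)) (c' : ℤ) (hc : γ 1 0 = (p : ℤ) * c') : SL(2, ℤ) :=
  ⟨!![γ 0 0, (p : ℤ) * γ 0 1; c', γ 1 1], by
    have hdet := γ.det_coe
    rw [Matrix.det_fin_two] at hdet
    rw [Matrix.det_fin_two_of]
    rw [hc] at hdet
    linear_combination hdet⟩

theorem denom_conjMat (γ : SL(2, ℤ)) (c' : ℤ) (hc : γ 1 0 = (p : ℤ) * c') (τ : ℍ) :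
    denom (conjMat p γ c' hc) (mulH p τ) = denom γ τ := by
  rw [ModularGroup.denom_apply, ModularGroup.denom_apply, hc]
  simp [conjMat]
  ring

theorem mulH_smul (γ : SL(2, ℤ)) (c' : ℤ) (hc : γ 1 0 = (p : ℤ) * c') (τ : ℍ) :
    mulH p (γ • τ) = conjMat p γ c' hc • mulH p τ := by
  apply UpperHalfPlane.ext
  have hd : denom γ τ ≠ 0 := denom_ne_zero _ τ
  rw [ModularGroup.denom_apply] at hd
  have hd' : ((p : ℂ) * (c' : ℂ)) * (τ : ℂ) + (γ 1 1 : ℂ) ≠ 0 := by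
    have e : ((γ 1 0 : ℤ) : ℂ) = (p : ℂ) * (c' : ℂ) := by rw [hc]; push_cast; ring
    rwa [e] at hd
  rw [coe_mulH, coe_specialLinearGroup_apply, coe_specialLinearGroup_apply, coe_mulH]
  have e : ((γ 1 0 : ℤ) : ℂ) = (p : ℂ) * (c' : ℂ) := by rw [hc]; push_cast; ring
  simp only [conjMat, algebraMap_int_eq, eq_intCast, Complex.ofReal_intCast]
  simp only [Matrix.of_apply, Matrix.cons_val', Matrix.cons_val_zero,
    Matrix.cons_val_one, Matrix.cons_val_fin_one]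
  rw [e]
  have hd'' : (c' : ℂ) * ((p : ℂ) * (τ : ℂ)) + (γ 1 1 : ℂ) ≠ 0 := by
    have : (c' : ℂ) * ((p : ℂ) * (τ : ℂ)) + (γ 1 1 : ℂ) =
        ((p : ℂ) * (c' : ℂ)) * (τ : ℂ) + (γ 1 1 : ℂ) := by ring
    rwa [this]
  rw [mul_div_assoc', div_eq_div_iff hd' hd'']
  push_cast
  ring

theorem eisFun_slash (γ : SL(2, ℤ)) (hγ : γ ∈ Gamma0 p) :
    eisFun p ∣[(2 : ℤ)] γ = eisFun p := by
  have hdvd : (p : ℤ) ∣ γ 1 0 := by
    rw [Gamma0_mem] at hγ
    exact (ZMod.intCast_zmod_eq_zero_iff_dvd _ _).mp hγ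
  obtain ⟨c', hc⟩ := hdvd
  funext τ
  rw [SL_slash_apply]
  have hd : denom γ τ ≠ 0 := denom_ne_zero _ τ
  simp only [eisFun]
  rw [mulH_smul p γ c' hc τ, E2_smul, E2_smul, denom_conjMat]
  have e1 : (((conjMat p γ c' hc) 1 0 : ℤ) : ℂ) = (c' : ℂ) := by simp [conjMat]
  have e2 : ((γ 1 0 : ℤ) : ℂ) = (p : ℂ) * (c' : ℂ) := by rw [hc]; push_cast; ring
  rw [e1, e2, zpow_neg, show (2 : ℤ) = ((2 : ℕ) : ℤ) from rfl, zpow_natCast]
  field_simp
  ring

end slash

/-! ### The other cusp -/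

section cusp

variable (p : ℕ) [NeZero p]

/-- the point `τ / p` -/
def divH (τ : ℍ) : ℍ :=
  ⟨(τ : ℂ) / (p : ℂ), by
    have hp : (0 : ℝ) < p := Nat.cast_pos.mpr (NeZero.pos p)
    have := div_pos τ.im_pos hp
    simpa [Complex.div_natCast_im] using this⟩

@[simp] theorem coe_divH (τ : ℍ) : ((divH p τ : ℍ) : ℂ) = (τ : ℂ) / (p : ℂ) := rfl

theorem mulH_divH (τ : ℍ) : mulH p (divH p τ) = τ := by
  apply UpperHalfPlane.ext
  have hp : (p : ℂ) ≠ 0 := Nat.cast_ne_zero.mpr (NeZero.ne p)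
  rw [coe_mulH, coe_divH]
  field_simp

theorem im_divH (τ : ℍ) : (divH p τ).im = τ.im / p := by
  show ((τ : ℂ) / (p : ℂ)).im = τ.im / p
  simp [Complex.div_natCast_im]

theorem mulH_S_smul (τ : ℍ) : mulH p (ModularGroup.S • τ) = ModularGroup.S • divH p τ := by
  apply UpperHalfPlane.ext
  have hp : (p : ℂ) ≠ 0 := Nat.cast_ne_zero.mpr (NeZero.ne p)
  have hτ : (τ : ℂ) ≠ 0 := ne_zero τ
  rw [coe_mulH, modular_S_smul, modular_S_smul]
  show (p : ℂ) * (-(τ : ℂ))⁻¹ = (-((divH p τ : ℍ) : ℂ))⁻¹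
  rw [coe_divH]
  field_simp

/-- `(E ∣ S)(τ) = -p⁻¹ E(τ/p)` -/
theorem eisFun_slash_S (τ : ℍ) :
    (eisFun p ∣[(2 : ℤ)] ModularGroup.S) τ = -(p : ℂ)⁻¹ * eisFun p (divH p τ) := by
  have hp : (p : ℂ) ≠ 0 := Nat.cast_ne_zero.mpr (NeZero.ne p)
  have hτ : (τ : ℂ) ≠ 0 := ne_zero τ
  rw [SL_slash_apply]
  simp only [eisFun]
  rw [mulH_S_smul, mulH_divH, E2_smul, E2_smul]
  have hden1 : denom ModularGroup.S τ = (τ : ℂ) := by
    rw [ModularGroup.denom_apply]; simp [ModularGroup.S]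
  have hden2 : denom ModularGroup.S (divH p τ) = (τ : ℂ) / (p : ℂ) := by
    rw [ModularGroup.denom_apply]; simp [ModularGroup.S]
  have hS : ((ModularGroup.S 1 0 : ℤ) : ℂ) = 1 := by simp [ModularGroup.S]
  rw [hden1, hden2, hS, zpow_neg, show (2 : ℤ) = ((2 : ℕ) : ℤ) from rfl, zpow_natCast]
  field_simp
  ring

theorem isBoundedAtImInfty_eisFun : IsBoundedAtImInfty (eisFun p) :=
  Fermat.Agent.S28.QDeriv.isBoundedAtImInfty_of_hasQ (hasQ_eisFun p)

theorem isBoundedAtImInfty_eisFun_slash_S :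
    IsBoundedAtImInfty (eisFun p ∣[(2 : ℤ)] ModularGroup.S) := by
  obtain ⟨M, A, hMA⟩ := isBoundedAtImInfty_iff.mp (isBoundedAtImInfty_eisFun p)
  rw [isBoundedAtImInfty_iff]
  have hp : (0 : ℝ) < p := Nat.cast_pos.mpr (NeZero.pos p)
  refine ⟨(p : ℝ)⁻¹ * M, (p : ℝ) * A, fun z hz => ?_⟩
  rw [eisFun_slash_S, norm_mul, norm_neg, norm_inv, Complex.norm_natCast]
  have h1 : A ≤ (divH p z).im := by
    rw [im_divH, le_div_iff₀ hp]
    linarith
  exact mul_le_mul_of_nonneg_left (hMA _ h1) (inv_nonneg.mpr hp.le)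

end cusp

/-! ### Cosets of `Γ₀(p)` -/

/-- every element of `SL(2, ℤ)` outside `Γ₀(p)` lies in a coset `Γ₀(p) S T^j` -/
theorem exists_coset (p : ℕ) [Fact p.Prime] (γ : SL(2, ℤ)) (hγ : γ ∉ Gamma0 p) :
    ∃ γ₀ ∈ Gamma0 p, ∃ j : ℤ, γ = γ₀ * ModularGroup.S * ModularGroup.T ^ j := by
  have hp : p.Prime := Fact.out
  have hc : ¬ (p : ℤ) ∣ γ 1 0 := by
    intro h
    apply hγ
    rw [Gamma0_mem]
    exact (ZMod.intCast_zmod_eq_zero_iff_dvd _ _).mpr h
  have hp' : Prime (p : ℤ) := Nat.prime_iff_prime_int.mp hp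
  have hcop : IsCoprime (p : ℤ) (γ 1 0) := hp'.irreducible.coprime_iff_not_dvd.mpr hc
  obtain ⟨v, u, huv⟩ := hcop
  -- `v * p + u * c = 1`
  have hdet := γ.det_coe
  rw [Matrix.det_fin_two] at hdet
  let γ₀ : SL(2, ℤ) :=
    ⟨!![γ 0 0 * (u * γ 1 1) - γ 0 1, γ 0 0; γ 1 0 * (u * γ 1 1) - γ 1 1, γ 1 0], by
      rw [Matrix.det_fin_two_of]
      linear_combination hdet⟩
  have h00 : γ₀ 0 0 = γ 0 0 * (u * γ 1 1) - γ 0 1 := rfl
  have h01 : γ₀ 0 1 = γ 0 0 := rfl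
  have h10 : γ₀ 1 0 = γ 1 0 * (u * γ 1 1) - γ 1 1 := rfl
  have h11 : γ₀ 1 1 = γ 1 0 := rfl
  refine ⟨γ₀, ?_, u * γ 1 1, ?_⟩
  · rw [Gamma0_mem]
    refine (ZMod.intCast_zmod_eq_zero_iff_dvd _ _).mpr ⟨-v * γ 1 1, ?_⟩
    rw [h10]
    linear_combination (γ 1 1) * huv
  · apply Subtype.ext
    rw [Matrix.SpecialLinearGroup.coe_mul, Matrix.SpecialLinearGroup.coe_mul,
      ModularGroup.coe_T_zpow, ModularGroup.coe_S]
    ext a b
    fin_cases a <;> fin_cases b <;>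
      simp [Matrix.mul_apply, Fin.sum_univ_two, h00, h01, h10, h11]

/-! ### The modular form -/

section form

variable (p : ℕ) [Fact p.Prime]

/-- `p ≠ 0` for a prime `p` (local instance) -/
local instance neZeroOfFact : NeZero p := ⟨(Fact.out : p.Prime).ne_zero⟩

theorem slash_T_zpow_apply (k : ℤ) (g : ℍ → ℂ) (n : ℤ) (z : ℍ) :
    (g ∣[k] (ModularGroup.T ^ n)) z = g ((n : ℝ) +ᵥ z) := by
  rw [ModularForm.SL_slash_apply]
  have hd : denom (ModularGroup.T ^ n : SL(2, ℤ)) z = 1 := by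
    rw [ModularGroup.denom_apply, ModularGroup.coe_T_zpow]
    simp
  rw [hd, one_zpow, mul_one, UpperHalfPlane.modular_T_zpow_smul]

theorem isBoundedAtImInfty_eisFun_slash (γ : SL(2, ℤ)) :
    IsBoundedAtImInfty (eisFun p ∣[(2 : ℤ)] γ) := by
  by_cases hγ : γ ∈ Gamma0 p
  · rw [eisFun_slash p γ hγ]
    exact isBoundedAtImInfty_eisFun p
  · obtain ⟨γ₀, hγ₀, j, rfl⟩ := exists_coset p γ hγ
    rw [SlashAction.slash_mul, SlashAction.slash_mul, eisFun_slash p γ₀ hγ₀]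
    obtain ⟨M, A, hMA⟩ := isBoundedAtImInfty_iff.mp (isBoundedAtImInfty_eisFun_slash_S p)
    rw [isBoundedAtImInfty_iff]
    refine ⟨M, A, fun z hz => ?_⟩
    rw [slash_T_zpow_apply]
    exact hMA _ (by simpa using hz)

/-- the Eisenstein series `E = (p E₂(p τ) - E₂(τ))/24` of weight 2 and level `p` -/
def eisForm : ModularForm (Gamma0 p) 2 where
  toFun := eisFun p
  slash_action_eq' := by
    rintro _ ⟨γ, hγ, rfl⟩
    exact eisFun_slash p γ hγ
  holo' := Fermat.Agent.S28.QDeriv.mdifferentiable_of_hasQ (hasQ_eisFun p)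
  bdd_at_cusps' := fun {c} hc => by
    have hc' : IsCusp c 𝒮ℒ := (Subgroup.IsArithmetic.isCusp_iff_isCusp_SL2Z _).mp hc
    obtain ⟨g, rfl⟩ := isCusp_SL2Z_iff'.mp hc'
    exact (OnePoint.isBoundedAt_iff_exists_SL2Z hc').mpr
      ⟨g, rfl, isBoundedAtImInfty_eisFun_slash p g⟩

theorem coe_eisForm : (⇑(eisForm p) : ℍ → ℂ) = eisFun p := rfl

theorem eisForm_apply (τ : ℍ) :
    eisForm p τ = ((p : ℂ) * E2 (mulH p τ) - E2 τ) / 24 := rfl

theorem qExpansion_eisForm : qExpansion 1 (eisForm p) = eisSeries p :=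
  (HasQ.eq_qExpansion (CongruenceSubgroup.one_mem_strictPeriods_Gamma0 p) (eisForm p)
    (hasQ_eisFun p)).symm

/-- the constant term of `E` is `(p - 1)/24` -/
theorem coeff_zero_qExpansion_eisForm :
    PowerSeries.coeff 0 (qExpansion 1 (eisForm p)) = ((p : ℂ) - 1) / 24 := by
  rw [qExpansion_eisForm, coeff_eisSeries_zero]

/-- the higher coefficients of `E` are `σ'(m)` -/
theorem coeff_qExpansion_eisForm (m : ℕ) (hm : 1 ≤ m) :
    PowerSeries.coeff m (qExpansion 1 (eisForm p)) = (sigmaP p m : ℂ) := by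
  rw [qExpansion_eisForm, coeff_eisSeries p m hm]

theorem qCoeff_eisForm_zero : ModularFormClass.qCoeff (eisForm p) 0 = ((p : ℂ) - 1) / 24 :=
  coeff_zero_qExpansion_eisForm p

theorem qCoeff_eisForm (m : ℕ) (hm : 1 ≤ m) :
    ModularFormClass.qCoeff (eisForm p) m = (sigmaP p m : ℂ) :=
  coeff_qExpansion_eisForm p m hm

/-- `E ∣ S` in terms of `E(τ/p)` -/
theorem eisForm_slash_S (τ : ℍ) :
    ((eisForm p : ℍ → ℂ) ∣[(2 : ℤ)] ModularGroup.S) τ = -(p : ℂ)⁻¹ * eisForm p (divH p τ) :=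
  eisFun_slash_S p τ

/-- slice E in the shape consumed by the upper bound (`UA.dvd_eisensteinNumerator`, `hE`) -/
theorem exists_eisForm_qCoeff :
    ∃ E : ModularForm (Gamma0 p) 2,
      ModularFormClass.qCoeff E 0 = ((p : ℂ) - 1) / 24 ∧
      ∀ j : ℕ, 1 ≤ j → ModularFormClass.qCoeff E j = (sigmaP p j : ℂ) :=
  ⟨eisForm p, qCoeff_eisForm_zero p, qCoeff_eisForm p⟩

/-- slice E of the S16 wave: the Eisenstein series of level `p` exists -/
theorem exists_eisForm :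
    ∃ E : ModularForm (Gamma0 p) 2,
      PowerSeries.coeff 0 (qExpansion 1 E) = ((p : ℂ) - 1) / 24 ∧
      ∀ m : ℕ, 1 ≤ m → PowerSeries.coeff m (qExpansion 1 E) = (sigmaP p m : ℂ) :=
  ⟨eisForm p, coeff_zero_qExpansion_eisForm p, coeff_qExpansion_eisForm p⟩

end form

end Fermat.Agent.S16.Eis
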