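/-
S16, slice LBF (lower bound, assembly): from

* (E)    an Eisenstein series `E ∈ M₂(Γ₀(p))` with `a₀ = (p-1)/24`, `a_m = σ'(m)`;
* (PH)   for `a b` prime to `p` a form `P ∈ M₂(Γ₀(p))` with `a₀ = p(p-1)/4 - S(a,b)/p` and even
         integral higher coefficients;
* (DED)  `gcd(p-1,12)` is an integral combination of `p-1` and the `N(a,b) = 12 S(a,b)/p - 3p(p-1)`;
* (CUSP) a form of weight 2 and level `p` with `a₀ = 0` is a cusp form,

we get `EisCong p (eisensteinNumerator p)`: a cusp form with integral `q`-expansion congruent to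
`∑ σ'(j) q^j` modulo `n = (p-1)/gcd(p-1,12)`.
-/
import Mathlib
import Fermat.Agent.S16.Defs
import Fermat.Prelude.Def_ModularCurve_ModularUnit
import Fermat.Prelude.Thm_CongruenceSubgroup_one_mem_strictPeriods_Gamma0

set_option autoImplicit false

noncomputable section

open UpperHalfPlane CongruenceSubgroup ModularFormClass
open scoped MatrixGroups ModularForm

namespace Fermat.Agent.S16.LBF

variable (p : ℕ)

/-- (E): the Eisenstein series of weight 2 and level `p`. -/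
def HasE : Prop :=
  ∃ E : ModularForm (Gamma0 p) 2, qCoeff E 0 = ((p : ℂ) - 1) / 24 ∧
    ∀ m : ℕ, 1 ≤ m → qCoeff E m = (sigmaP p m : ℂ)

/-- (PH): the products of weight-one Eisenstein series. -/
def HasPH : Prop :=
  ∀ a b : ℕ, ¬ p ∣ a → ¬ p ∣ b → ∃ P : ModularForm (Gamma0 p) 2,
    qCoeff P 0 = (p : ℂ) * (p - 1) / 4 - (dedS p a b : ℂ) / p ∧
    ∀ m : ℕ, 1 ≤ m → ∃ c : ℤ, qCoeff P m = 2 * (c : ℂ)

/-- The generators of the lattice of constant terms (times 24). -/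
def dedGens : Set ℚ :=
  {q | q = (p : ℚ) - 1 ∨ ∃ a b : ℕ, ¬ p ∣ a ∧ ¬ p ∣ b ∧ q = dedN p a b}

/-- (DED): `gcd(p-1,12)` is an integral combination of `p-1` and the `N(a,b)`. -/
def HasDED : Prop :=
  ((Nat.gcd (p - 1) 12 : ℕ) : ℚ) ∈ AddSubgroup.closure (dedGens p)

/-- (CUSP): a form of weight 2 and level `p` whose constant term vanishes is a cusp form. -/
def HasCusp : Prop :=
  ∀ F : ModularForm (Gamma0 p) 2, qCoeff F 0 = 0 →
    ∃ f : CuspForm (Gamma0 p) 2, (f : ℍ → ℂ) = F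

/-- `Good p q`: some form in `M₂(Γ₀(p))` has constant term `q/24` and integral higher
coefficients. -/
def Good (q : ℚ) : Prop :=
  ∃ G : ModularForm (Gamma0 p) 2, qCoeff G 0 = (q : ℂ) / 24 ∧
    ∀ m : ℕ, 1 ≤ m → ∃ c : ℤ, qCoeff G m = (c : ℂ)

section lin

variable {p}

theorem qCoeff_add' (F G : ModularForm (Gamma0 p) 2) (n : ℕ) :
    qCoeff (F + G : ModularForm (Gamma0 p) 2) n = qCoeff F n + qCoeff G n := by
  unfold qCoeff
  rw [FunLike.coe_add,
    ModularForm.qExpansion_add one_pos (CongruenceSubgroup.one_mem_strictPeriods_Gamma0 p) F G,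
    map_add]

theorem qCoeff_sub' (F G : ModularForm (Gamma0 p) 2) (n : ℕ) :
    qCoeff (F - G : ModularForm (Gamma0 p) 2) n = qCoeff F n - qCoeff G n := by
  unfold qCoeff
  rw [FunLike.coe_sub,
    ModularForm.qExpansion_sub one_pos (CongruenceSubgroup.one_mem_strictPeriods_Gamma0 p) F G,
    map_sub]

theorem qCoeff_neg' (F : ModularForm (Gamma0 p) 2) (n : ℕ) :
    qCoeff (-F : ModularForm (Gamma0 p) 2) n = -qCoeff F n := by
  unfold qCoeff
  rw [FunLike.coe_neg,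
    ModularForm.qExpansion_neg one_pos (CongruenceSubgroup.one_mem_strictPeriods_Gamma0 p) F,
    map_neg]

theorem qCoeff_smul' (c : ℂ) (F : ModularForm (Gamma0 p) 2) (n : ℕ) :
    qCoeff (c • F : ModularForm (Gamma0 p) 2) n = c * qCoeff F n := by
  unfold qCoeff
  rw [FunLike.coe_smul,
    ModularForm.qExpansion_smul one_pos (CongruenceSubgroup.one_mem_strictPeriods_Gamma0 p) c F,
    PowerSeries.coeff_smul, smul_eq_mul]

theorem qCoeff_zero' (n : ℕ) : qCoeff (0 : ModularForm (Gamma0 p) 2) n = 0 := by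
  unfold qCoeff
  rw [FunLike.coe_zero, qExpansion_zero, map_zero]

end lin

variable {p}

theorem good_zero : Good p 0 :=
  ⟨0, by rw [qCoeff_zero']; simp, fun m _ => ⟨0, by rw [qCoeff_zero']; simp⟩⟩

theorem Good.add {q r : ℚ} (hq : Good p q) (hr : Good p r) : Good p (q + r) := by
  obtain ⟨G, hG0, hG⟩ := hq
  obtain ⟨H, hH0, hH⟩ := hr
  refine ⟨G + H, ?_, fun m hm => ?_⟩
  · rw [qCoeff_add', hG0, hH0]; push_cast; ring
  · obtain ⟨c, hc⟩ := hG m hm
    obtain ⟨d, hd⟩ := hH m hm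
    exact ⟨c + d, by rw [qCoeff_add', hc, hd]; push_cast; ring⟩

theorem Good.neg {q : ℚ} (hq : Good p q) : Good p (-q) := by
  obtain ⟨G, hG0, hG⟩ := hq
  refine ⟨-G, ?_, fun m hm => ?_⟩
  · rw [qCoeff_neg', hG0]; push_cast; ring
  · obtain ⟨c, hc⟩ := hG m hm
    exact ⟨-c, by rw [qCoeff_neg', hc]; push_cast; ring⟩

theorem good_of_hasE (hE : HasE p) : Good p ((p : ℚ) - 1) := by
  obtain ⟨E, hE0, hE⟩ := hE
  refine ⟨E, ?_, fun m hm => ⟨(sigmaP p m : ℤ), ?_⟩⟩
  · rw [hE0]; push_cast; ring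
  · rw [hE m hm]; push_cast; ring

theorem good_of_hasPH (hp : p ≠ 0) (hP : HasPH p) {a b : ℕ} (ha : ¬ p ∣ a) (hb : ¬ p ∣ b) :
    Good p (dedN p a b) := by
  obtain ⟨P, hP0, hP⟩ := hP a b ha hb
  have hp' : (p : ℂ) ≠ 0 := Nat.cast_ne_zero.mpr hp
  refine ⟨(-(1 / 2 : ℂ)) • P, ?_, fun m hm => ?_⟩
  · rw [qCoeff_smul', hP0]
    unfold dedN
    push_cast
    field_simp
    ring
  · obtain ⟨c, hc⟩ := hP m hm
    exact ⟨-c, by rw [qCoeff_smul', hc]; push_cast; ring⟩

theorem good_of_mem_closure (hp : p ≠ 0) (hE : HasE p) (hP : HasPH p) {q : ℚ}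
    (hq : q ∈ AddSubgroup.closure (dedGens p)) : Good p q := by
  induction hq using AddSubgroup.closure_induction with
  | mem x hx =>
    rcases hx with rfl | ⟨a, b, ha, hb, rfl⟩
    · exact good_of_hasE hE
    · exact good_of_hasPH hp hP ha hb
  | zero => exact good_zero
  | add x y _ _ hx hy => exact hx.add hy
  | neg x _ hx => exact hx.neg

/-- The lower bound, from the four inputs. -/
theorem eisCong_of (hp : 1 ≤ p) (hE : HasE p) (hP : HasPH p) (hD : HasDED p) (hC : HasCusp p) :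
    EisCong p (ModularCurve.eisensteinNumerator p) := by
  have hp0 : p ≠ 0 := by omega
  obtain ⟨G, hG0, hG⟩ := good_of_mem_closure hp0 hE hP hD
  obtain ⟨E, hE0, hE⟩ := hE
  choose! c hc using hG
  set n : ℕ := ModularCurve.eisensteinNumerator p with hn
  have hng : n * Nat.gcd (p - 1) 12 = p - 1 := by
    rw [hn]
    unfold ModularCurve.eisensteinNumerator
    exact Nat.div_mul_cancel (Nat.gcd_dvd_left _ _)
  have hngC : (n : ℂ) * ((Nat.gcd (p - 1) 12 : ℕ) : ℂ) = (p : ℂ) - 1 := by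
    have h1 : ((n * Nat.gcd (p - 1) 12 : ℕ) : ℂ) = ((p - 1 : ℕ) : ℂ) := by rw [hng]
    rw [Nat.cast_mul, Nat.cast_sub hp, Nat.cast_one] at h1
    exact h1
  obtain ⟨f, hf⟩ := hC (E - (n : ℂ) • G) (by
    rw [qCoeff_sub', qCoeff_smul', hE0, hG0]
    have : (((Nat.gcd (p - 1) 12 : ℕ) : ℚ) : ℂ) = ((Nat.gcd (p - 1) 12 : ℕ) : ℂ) := by
      push_cast; rfl
    rw [this, ← hngC]; ring)
  refine ⟨f, fun j => if j = 0 then 0 else (sigmaP p j : ℤ) - n * c j, fun j => ?_,
    fun j hj => ?_⟩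
  · have hfj : qCoeff f j = qCoeff (E - (n : ℂ) • G : ModularForm (Gamma0 p) 2) j := by
      unfold qCoeff; rw [hf]
    rw [hfj]
    beta_reduce
    by_cases h0 : j = 0
    · subst h0
      rw [if_pos rfl, qCoeff_sub', qCoeff_smul', hE0, hG0]
      have : (((Nat.gcd (p - 1) 12 : ℕ) : ℚ) : ℂ) = ((Nat.gcd (p - 1) 12 : ℕ) : ℂ) := by
        push_cast; rfl
      rw [this, ← hngC]; push_cast; ring
    · have h1 : 1 ≤ j := Nat.one_le_iff_ne_zero.mpr h0
      rw [if_neg h0, qCoeff_sub', qCoeff_smul', hE j h1, hc j h1]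
      push_cast; ring
  · have h0 : j ≠ 0 := by omega
    beta_reduce
    rw [if_neg h0]
    rw [Int.modEq_iff_dvd]
    exact ⟨c j, by ring⟩

end Fermat.Agent.S16.LBF
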