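/-
S16, slice LBF (cusp part): a modular form of weight 2 and level `p` whose constant term vanishes
is a cusp form, given the Atkin–Lehner relation `(G ∣[2] S)(τ) = -p⁻¹ (U_p G)(τ/p)` (slice W).
-/
import Mathlib
import Fermat.Agent.S16.LBF
import Fermat.Agent.S16.PairDef
import Fermat.Prelude.Thm_ModularFormClass_qCoeff_heckeU

set_option autoImplicit false

noncomputable section

open UpperHalfPlane CongruenceSubgroup ModularFormClass Filter Topology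
open scoped MatrixGroups ModularForm

namespace Fermat.Agent.S16.LBF

/-- Coset decomposition `SL(2,ℤ) = Γ₀(p) ⊔ ⨆_j Γ₀(p) S T^j`. -/
theorem coset_cases' (p : ℕ) [Fact p.Prime] (γ : SL(2, ℤ)) :
    γ ∈ Gamma0 p ∨ ∃ γ₀ ∈ Gamma0 p, ∃ j : ℤ, γ = γ₀ * ModularGroup.S * ModularGroup.T ^ j := by
  by_cases hγ : γ ∈ Gamma0 p
  · exact Or.inl hγ
  right
  rw [Gamma0_mem] at hγ
  -- `c = γ 1 0` is a unit mod `p`; choose `j` with `c * j = d`
  have hp : p.Prime := Fact.out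
  obtain ⟨j, hj⟩ : ∃ j : ℤ, ((γ 1 0 : ℤ) : ZMod p) * (j : ZMod p) = ((γ 1 1 : ℤ) : ZMod p) := by
    refine ⟨(((γ 1 0 : ℤ) : ZMod p)⁻¹ * ((γ 1 1 : ℤ) : ZMod p)).val, ?_⟩
    rw [Int.cast_natCast, ZMod.natCast_val, ZMod.cast_id', id, ← mul_assoc,
      mul_inv_cancel₀ hγ, one_mul]
  refine ⟨γ * (ModularGroup.T ^ j)⁻¹ * ModularGroup.S⁻¹, ?_, j, ?_⟩
  · rw [Gamma0_mem]
    have hentry : (γ * (ModularGroup.T ^ j)⁻¹ * ModularGroup.S⁻¹) 1 0 = γ 1 0 * j - γ 1 1 := by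
      rw [← zpow_neg]
      simp [Matrix.SpecialLinearGroup.coe_mul, Matrix.SpecialLinearGroup.coe_inv,
        ModularGroup.coe_T_zpow, ModularGroup.coe_S, Matrix.mul_apply, Fin.sum_univ_two,
        Matrix.adjugate_fin_two]
      ring
    rw [hentry]
    push_cast
    rw [hj, sub_self]
  · group

theorem mapGL_T_zpow_one_zero (j : ℤ) :
    (Matrix.SpecialLinearGroup.mapGL ℝ (ModularGroup.T ^ j) : GL (Fin 2) ℝ) 1 0 = 0 := by
  have h : ((ModularGroup.T ^ j : SL(2, ℤ)) : Matrix (Fin 2) (Fin 2) ℤ) 1 0 = 0 := by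
    rw [ModularGroup.coe_T_zpow]; simp
  have h2 : ((Matrix.SpecialLinearGroup.mapGL ℝ (ModularGroup.T ^ j) : GL (Fin 2) ℝ) :
      Matrix (Fin 2) (Fin 2) ℝ) 1 0 = (((ModularGroup.T ^ j : SL(2, ℤ)) :
        Matrix (Fin 2) (Fin 2) ℤ) 1 0 : ℝ) := rfl
  rw [h2, h]; simp

/-- A modular form on `Γ₀(p)` tends to its constant term at `i∞`. -/
theorem tendsto_qCoeff_zero (p : ℕ) (k : ℤ) (F : ModularForm (Gamma0 p) k) :
    Tendsto (F : ℍ → ℂ) atImInfty (𝓝 (qCoeff F 0)) := by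
  have hΓ := CongruenceSubgroup.one_mem_strictPeriods_Gamma0 p
  have hanal := ModularFormClass.analyticAt_cuspFunction_zero F one_pos hΓ
  have h0 : qCoeff F 0 = cuspFunction 1 F 0 := by
    unfold qCoeff
    rw [qExpansion_coeff]
    simp
  rw [h0]
  exact (hanal.continuousAt.tendsto.comp (qParam_tendsto_atImInfty one_pos)).congr
    (fun τ => SlashInvariantFormClass.eq_cuspFunction F τ hΓ one_ne_zero)

theorem isZeroAtImInfty_of_qCoeff_zero (p : ℕ) (k : ℤ) (F : ModularForm (Gamma0 p) k)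
    (h : qCoeff F 0 = 0) : IsZeroAtImInfty (F : ℍ → ℂ) := by
  have := tendsto_qCoeff_zero p k F
  rwa [h] at this

/-- The cusp criterion on `Γ₀(p)`: vanishing at `i∞` of `F` and of `F ∣ S` suffices. -/
theorem cuspForm_of_isZero (p : ℕ) [Fact p.Prime] (k : ℤ) (F : ModularForm (Gamma0 p) k)
    (hinf : IsZeroAtImInfty (F : ℍ → ℂ))
    (h0 : IsZeroAtImInfty ((F : ℍ → ℂ) ∣[k] ModularGroup.S)) :
    ∃ f : CuspForm (Gamma0 p) k, (f : ℍ → ℂ) = F := by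
  have : NeZero p := ⟨(Fact.out : p.Prime).ne_zero⟩
  refine ⟨⟨F.toSlashInvariantForm, F.holo', fun {c} hc => ?_⟩, rfl⟩
  rw [Subgroup.IsArithmetic.isCusp_iff_isCusp_SL2Z] at hc
  rw [OnePoint.isZeroAt_iff_forall_SL2Z hc]
  intro γ _
  have hinv : ∀ γ₀ ∈ Gamma0 p, (F : ℍ → ℂ) ∣[k] γ₀ = F := fun γ₀ hγ₀ =>
    SlashInvariantFormClass.slash_action_eq F _ ⟨γ₀, hγ₀, rfl⟩
  rcases coset_cases' p γ with hγ | ⟨γ₀, hγ₀, j, rfl⟩
  · show IsZeroAtImInfty ((F : ℍ → ℂ) ∣[k] γ)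
    rw [hinv γ hγ]
    exact hinf
  · show IsZeroAtImInfty ((F : ℍ → ℂ) ∣[k] (γ₀ * ModularGroup.S * ModularGroup.T ^ j))
    rw [SlashAction.slash_mul, SlashAction.slash_mul, hinv γ₀ hγ₀]
    exact IsZeroAtImInfty.slash k (mapGL_T_zpow_one_zero j) h0

section W

variable (p : ℕ) [Fact p.Prime]

local instance neZeroOfFactPrime : NeZero p := ⟨(Fact.out : p.Prime).ne_zero⟩

/-- (W): the Atkin–Lehner relation `(G ∣[2] S)(τ) = -p⁻¹ (U_p G)(τ/p)` in weight 2. -/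
def HasW : Prop :=
  ∀ G : ModularForm (Gamma0 p) 2,
    IsPair p 2 G (-(p : ℂ)⁻¹ • ModularForm.heckeULin (N := p) (p := p) 2 dvd_rfl G)

theorem hasCusp_of_hasW (hW : HasW p) : HasCusp p := by
  intro F hF0
  have hp0 : p ≠ 0 := (Fact.out : p.Prime).ne_zero
  refine cuspForm_of_isZero p 2 F (isZeroAtImInfty_of_qCoeff_zero p 2 F hF0) ?_
  have hH0 : qCoeff (ModularForm.heckeULin (N := p) (p := p) 2 dvd_rfl F) 0 = 0 := by
    have h := ModularFormClass.qCoeff_heckeU (k := 2) F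
      (CongruenceSubgroup.one_mem_strictPeriods_Gamma0 p) hp0 0
    rw [ModularForm.coeffHeckeU_apply, zero_mul, hF0] at h
    exact h
  have hHz := isZeroAtImInfty_of_qCoeff_zero p 2 _ hH0
  have hfun : ((F : ℍ → ℂ) ∣[(2 : ℤ)] ModularGroup.S) = fun τ : ℍ =>
      -(p : ℂ)⁻¹ * (ModularForm.heckeULin (N := p) (p := p) 2 dvd_rfl F)
        (ModularForm.heckeMatrix p 0 • τ) := by
    funext τ
    rw [hW F τ]
    rfl
  rw [hfun]
  have hg : (ModularForm.heckeMatrix p 0 : GL (Fin 2) ℝ) 1 0 = 0 := by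
    show ((ModularForm.heckeMatrix p 0 : GL (Fin 2) ℝ) : Matrix (Fin 2) (Fin 2) ℝ) 1 0 = 0
    rw [ModularForm.val_heckeMatrix hp0]
    simp
  have ht := (hHz.comp (UpperHalfPlane.tendsto_smul_atImInfty hg)).const_mul (-(p : ℂ)⁻¹)
  rw [mul_zero] at ht
  exact ht

/-- The lower bound from (E), (PH), (DED) and (W). -/
theorem eisCong_of_hasW (hE : HasE p) (hP : HasPH p) (hD : HasDED p) (hW : HasW p) :
    EisCong p (ModularCurve.eisensteinNumerator p) :=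
  eisCong_of (Fact.out : p.Prime).one_lt.le hE hP hD (hasCusp_of_hasW p hW)

end W

end Fermat.Agent.S16.LBF
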