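/-
S16, slice LBF (glue): the lower bound `EisCong p (eisensteinNumerator p)` with the landed slices
E (`Eis.exists_eisForm_qCoeff`) and W (`ALFinal.isPair_heckeU`) plugged in; what remains are the
two inputs PH (products of weight-one Eisenstein series) and DED (the gcd of the Dedekind-type
numbers), taken here in the shapes announced by their owners.
-/
import Mathlib
import Fermat.Agent.S16.LBFCusp
import Fermat.Agent.S16.Eis
import Fermat.Agent.S16.ALFinal

set_option autoImplicit false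

noncomputable section

open UpperHalfPlane CongruenceSubgroup ModularFormClass
open scoped MatrixGroups ModularForm

namespace Fermat.Agent.S16.LBF

variable {p : ℕ}

/-- (PH) in the `PowerSeries.coeff` shape of `PForm.exists_pform_of_family`. -/
theorem hasPH_of_coeff
    (h : ∀ a b : ℕ, ¬ p ∣ a → ¬ p ∣ b → ∃ P : ModularForm (Gamma0 p) 2,
      PowerSeries.coeff 0 (qExpansion 1 P) = (p : ℂ) * (p - 1) / 4 - (dedS p a b : ℂ) / p ∧
      ∀ m : ℕ, 1 ≤ m → ∃ k : ℤ, PowerSeries.coeff m (qExpansion 1 P) = 2 * k) :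
    HasPH p := h

/-- (DED) from an explicit integral combination. -/
theorem hasDED_of_combination
    (h : ∃ (k : ℕ) (a b : Fin k → ℕ) (x₀ : ℤ) (x : Fin k → ℤ),
      (∀ i, ¬ p ∣ a i) ∧ (∀ i, ¬ p ∣ b i) ∧
      (x₀ : ℚ) * ((p : ℚ) - 1) + ∑ i, (x i : ℚ) * dedN p (a i) (b i) =
        ((Nat.gcd (p - 1) 12 : ℕ) : ℚ)) :
    HasDED p := by
  obtain ⟨k, a, b, x₀, x, ha, hb, hsum⟩ := h
  unfold HasDED
  rw [← hsum]
  have h0 : ((p : ℚ) - 1) ∈ AddSubgroup.closure (dedGens p) :=
    AddSubgroup.subset_closure (Or.inl rfl)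
  have hi : ∀ i, dedN p (a i) (b i) ∈ AddSubgroup.closure (dedGens p) := fun i =>
    AddSubgroup.subset_closure (Or.inr ⟨a i, b i, ha i, hb i, rfl⟩)
  refine add_mem ?_ (sum_mem fun i _ => ?_)
  · rw [← zsmul_eq_mul]
    exact zsmul_mem h0 _
  · rw [← zsmul_eq_mul]
    exact zsmul_mem (hi i) _

/-- (DED) from membership of `gcd(p-1,12)` in the subgroup of `ℤ` generated by `p - 1` and
integers `N` with `dedN p a b = N`. -/
theorem hasDED_of_int_closure (N : ℕ → ℕ → ℤ)
    (hN : ∀ a b : ℕ, ¬ p ∣ a → ¬ p ∣ b → dedN p a b = ((N a b : ℤ) : ℚ))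
    (h : ((Nat.gcd (p - 1) 12 : ℕ) : ℤ) ∈ AddSubgroup.closure
      ({(p : ℤ) - 1} ∪ {n : ℤ | ∃ a b : ℕ, ¬ p ∣ a ∧ ¬ p ∣ b ∧ n = N a b})) :
    HasDED p := by
  unfold HasDED
  have key : ∀ z : ℤ, z ∈ AddSubgroup.closure
      ({(p : ℤ) - 1} ∪ {n : ℤ | ∃ a b : ℕ, ¬ p ∣ a ∧ ¬ p ∣ b ∧ n = N a b}) →
      (z : ℚ) ∈ AddSubgroup.closure (dedGens p) := by
    intro z hz
    induction hz using AddSubgroup.closure_induction with
    | mem x hx =>
      rcases hx with hx | ⟨a, b, ha, hb, rfl⟩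
      · rw [Set.mem_singleton_iff] at hx
        subst hx
        refine AddSubgroup.subset_closure (Or.inl ?_)
        push_cast; rfl
      · exact AddSubgroup.subset_closure (Or.inr ⟨a, b, ha, hb, (hN a b ha hb).symm⟩)
    | zero => rw [Int.cast_zero]; exact zero_mem _
    | add x y _ _ hx hy => rw [Int.cast_add]; exact add_mem hx hy
    | neg x _ hx => rw [Int.cast_neg]; exact neg_mem hx
  have := key _ h
  rwa [Int.cast_natCast] at this

variable (p) [Fact p.Prime]

/-- (E) holds (slice E). -/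
theorem hasE : HasE p := Eis.exists_eisForm_qCoeff p

/-- (W) holds (slice W). -/
theorem hasW : HasW p := fun G => ALFinal.isPair_heckeU G

/-- (CUSP) holds. -/
theorem hasCusp : HasCusp p := hasCusp_of_hasW p (hasW p)

/-- **The lower bound**, from (PH) and (DED). -/
theorem eisCong_of_hasPH_hasDED (hP : HasPH p) (hD : HasDED p) :
    EisCong p (ModularCurve.eisensteinNumerator p) :=
  eisCong_of_hasW p (hasE p) hP hD (hasW p)

end Fermat.Agent.S16.LBF
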