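/-
S16, slice LBF: (DED) plugged in (`Ded.exists_combination`).  The lower bound
`EisCong p (eisensteinNumerator p)` for `p ≥ 5` now only depends on (PH).
-/
import Mathlib
import Fermat.Agent.S16.LBFGlue
import Fermat.Agent.S16.Ded

set_option autoImplicit false

noncomputable section

namespace Fermat.Agent.S16.LBF

variable (p : ℕ) [Fact p.Prime]

/-- (DED) holds for `p ≥ 5` (slice DED). -/
theorem hasDED (h5 : 5 ≤ p) : HasDED p :=
  hasDED_of_combination (Ded.exists_combination p Fact.out h5)

/-- The lower bound for `p ≥ 5`, from (PH). -/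
theorem eisCong_of_hasPH (h5 : 5 ≤ p) (hP : HasPH p) :
    EisCong p (ModularCurve.eisensteinNumerator p) :=
  eisCong_of_hasPH_hasDED p hP (hasDED p h5)

end Fermat.Agent.S16.LBF
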