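/-
S16, slice PH, part A: finite Fourier analysis on `ZMod p` behind the `q`-expansion of
`∑_j e_{aj} e_{bj}`, where `e_x` is the weight one Eisenstein series attached to `(0, x/p)`.

* `saw p k`    : the sawtooth `k/p - 1/2` (`0` at `k = 0`);
* `sS p x`     : the constant term of `e_x`, i.e. `(ζ^x + 1) / (2 (ζ^x - 1))`, as a Fourier sum;
* `alphaS p x n` : the `n`-th coefficient of `e_x`, `∑_{d ∣ n} (ζ^{-xd} - ζ^{xd})`;
* `eS p x`     : the formal `q`-expansion of `e_x`.
-/
import Mathlib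
import Fermat.Agent.S16.Defs

set_option autoImplicit false

noncomputable section

namespace Fermat.Agent.S16.PForm

open Finset

variable (p : ℕ) [Fact p.Prime]

local instance neZeroP : NeZero p := ⟨(Fact.out : p.Prime).ne_zero⟩

/-- The standard additive character of `ZMod p`. -/
def chi : AddChar (ZMod p) ℂ := ZMod.stdAddChar

theorem sum_chi (b : ZMod p) : ∑ x : ZMod p, chi p (x * b) = if b = 0 then (p : ℂ) else 0 := by
  have h := AddChar.sum_mulShift (ψ := chi p) b (ZMod.isPrimitive_stdAddChar p)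
  rw [h, ZMod.card]
  split_ifs <;> simp

/-- The sawtooth function on `ZMod p`. -/
def saw (k : ZMod p) : ℂ := if k = 0 then 0 else (k.val : ℂ) / p - 1 / 2

theorem saw_zero : saw p 0 = 0 := by simp [saw]

theorem saw_neg (k : ZMod p) : saw p (-k) = - saw p k := by
  by_cases hk : k = 0
  · simp [hk, saw]
  · have hp : (p : ℂ) ≠ 0 := Nat.cast_ne_zero.mpr (Fact.out : p.Prime).ne_zero
    have hlt : k.val ≤ p := (ZMod.val_lt k).le
    simp only [saw, neg_eq_zero, hk, if_false, ZMod.neg_val, Nat.cast_sub hlt]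
    field_simp
    ring

theorem sum_saw : ∑ k : ZMod p, saw p k = 0 := by
  have h1 : ∑ k : ZMod p, saw p k = ∑ k : ZMod p, saw p (-k) :=
    (Equiv.sum_comp (Equiv.neg (ZMod p)) (saw p)).symm
  simp only [saw_neg, Finset.sum_neg_distrib] at h1
  have h2 : (2 : ℂ) * ∑ k : ZMod p, saw p k = 0 := by linear_combination h1
  simpa using h2

/-- The constant term of the weight one Eisenstein series, as a finite Fourier sum. -/
def sS (x : ZMod p) : ℂ := ∑ k : ZMod p, saw p k * chi p (x * k)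

theorem sS_zero : sS p 0 = 0 := by
  simp [sS, sum_saw]

theorem chi_ne_one {x : ZMod p} (hx : x ≠ 0) : chi p x ≠ 1 := by
  intro h
  have h1 := (ZMod.isPrimitive_stdAddChar p) hx
  apply h1
  ext y
  rw [AddChar.mulShift_apply, AddChar.one_apply]
  have h2 : x * y = y.val • x := by rw [nsmul_eq_mul, ZMod.natCast_zmod_val, mul_comm]
  rw [h2, AddChar.map_nsmul_eq_pow]
  have h3 : (ZMod.stdAddChar (N := p)) x = 1 := h
  rw [h3, one_pow]

theorem one_ne_zero_zmod : (1 : ZMod p) ≠ 0 := by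
  have : Fact (1 < p) := ⟨(Fact.out : p.Prime).one_lt⟩
  exact one_ne_zero

theorem saw_one : saw p 1 = 1 / (p : ℂ) - 1 / 2 := by
  have h1 : (1 : ZMod p).val = 1 := ZMod.val_one'' (Fact.out : p.Prime).ne_one
  simp [saw, one_ne_zero_zmod p, h1]

theorem saw_sub_one (k : ZMod p) :
    saw p (k - 1) - saw p k =
      -(1 / (p : ℂ)) + (if k = 0 then 1 / 2 else 0) + (if k = 1 then 1 / 2 else 0) := by
  have h1 : (1 : ZMod p).val = 1 := ZMod.val_one'' (Fact.out : p.Prime).ne_one
  by_cases hk0 : k = 0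
  · subst hk0
    rw [zero_sub, saw_neg, saw_one, saw_zero, if_pos rfl, if_neg (one_ne_zero_zmod p).symm]
    ring
  by_cases hk1 : k = 1
  · subst hk1
    rw [sub_self, saw_zero, saw_one, if_neg (one_ne_zero_zmod p), if_pos rfl]
    ring
  have hk1' : k - 1 ≠ 0 := sub_ne_zero.mpr hk1
  have hpos : 1 ≤ k.val := Nat.one_le_iff_ne_zero.mpr (fun h => hk0 ((ZMod.val_eq_zero k).mp h))
  have hv : (k - 1).val = k.val - 1 := by
    rw [ZMod.val_sub (by rw [h1]; exact hpos), h1]
  have hp : (p : ℂ) ≠ 0 := Nat.cast_ne_zero.mpr (Fact.out : p.Prime).ne_zero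
  simp only [saw, hk0, hk1, hk1', if_false, hv, Nat.cast_sub hpos, Nat.cast_one]
  field_simp
  ring

/-- The constant term in closed form: `(ζ^x + 1) / (2 (ζ^x - 1))`. -/
theorem sS_eq (x : ZMod p) (hx : x ≠ 0) :
    sS p x = (chi p x + 1) / (2 * (chi p x - 1)) := by
  have hp : (p : ℂ) ≠ 0 := Nat.cast_ne_zero.mpr (Fact.out : p.Prime).ne_zero
  have hw : chi p x - 1 ≠ 0 := sub_ne_zero.mpr (chi_ne_one p hx)
  rw [eq_div_iff (mul_ne_zero two_ne_zero hw)]
  -- shift the summation index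
  have h1 : chi p x * sS p x = ∑ k : ZMod p, saw p (k - 1) * chi p (x * k) := by
    rw [sS, Finset.mul_sum]
    rw [← Equiv.sum_comp (Equiv.addRight (1 : ZMod p))
      (fun k => saw p (k - 1) * chi p (x * k))]
    refine Finset.sum_congr rfl fun k _ => ?_
    simp only [Equiv.coe_addRight, add_sub_cancel_right]
    rw [mul_add, mul_one, add_comm (x * k) x, AddChar.map_add_eq_mul]
    ring
  have h2 : (chi p x - 1) * sS p x = ∑ k : ZMod p, (saw p (k - 1) - saw p k) * chi p (x * k) := by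
    rw [sub_mul, h1, one_mul, sS, ← Finset.sum_sub_distrib]
    refine Finset.sum_congr rfl fun k _ => ?_
    ring
  have h3 : ∑ k : ZMod p, chi p (x * k) = 0 := by
    have := sum_chi p x
    rw [if_neg hx] at this
    rw [← this]
    refine Finset.sum_congr rfl fun k _ => ?_
    rw [mul_comm]
  have h4 : ∑ k : ZMod p, (saw p (k - 1) - saw p k) * chi p (x * k) = (chi p x + 1) / 2 := by
    simp only [saw_sub_one, add_mul, Finset.sum_add_distrib, ← Finset.mul_sum, h3, ite_mul,
      zero_mul, Finset.sum_ite_eq', Finset.mem_univ, if_true, mul_zero, mul_one,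
      AddChar.map_zero_eq_one]
    ring
  linear_combination 2 * h2 + 2 * h4

/-- Fourier inversion for `sS`. -/
theorem sum_sS_mul_chi (a : ZMod p) (ha : a ≠ 0) (M : ZMod p) :
    ∑ j : ZMod p, sS p (a * j) * chi p (j * M) = p * saw p (-(M * a⁻¹)) := by
  simp only [sS, Finset.sum_mul]
  rw [Finset.sum_comm]
  have h1 : ∀ k : ZMod p, ∑ j : ZMod p, saw p k * chi p (a * j * k) * chi p (j * M) =
      saw p k * (if a * k + M = 0 then (p : ℂ) else 0) := by
    intro k
    rw [← sum_chi p (a * k + M), Finset.mul_sum]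
    refine Finset.sum_congr rfl fun j _ => ?_
    rw [mul_assoc, ← AddChar.map_add_eq_mul]
    congr 2
    ring
  have hiff : ∀ k : ZMod p, a * k + M = 0 ↔ k = -(M * a⁻¹) := by
    intro k
    constructor
    · intro h
      have h2 : a * k = -M := eq_neg_of_add_eq_zero_left h
      calc k = a⁻¹ * (a * k) := by field_simp
        _ = -(M * a⁻¹) := by rw [h2]; ring
    · rintro rfl
      field_simp
      ring
  simp only [h1, hiff, mul_ite, mul_zero, Finset.sum_ite_eq', Finset.mem_univ, if_true]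
  ring

theorem sum_sS_mul_sub (a : ZMod p) (ha : a ≠ 0) (M : ZMod p) :
    ∑ j : ZMod p, sS p (a * j) * (chi p (-(j * M)) - chi p (j * M)) =
      2 * p * saw p (M * a⁻¹) := by
  have h1 := sum_sS_mul_chi p a ha M
  have h2 := sum_sS_mul_chi p a ha (-M)
  simp only [mul_sub, Finset.sum_sub_distrib]
  rw [h1]
  have h3 : ∀ j : ZMod p, -(j * M) = j * -M := fun j => by ring
  simp only [h3]
  rw [h2]
  have e1 : saw p (-(-M * a⁻¹)) = saw p (M * a⁻¹) := by
    congr 1
    ring
  rw [e1, saw_neg]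
  ring

theorem sum_sub_mul_sub (u v : ZMod p) :
    ∑ j : ZMod p, (chi p (-(j * u)) - chi p (j * u)) * (chi p (-(j * v)) - chi p (j * v)) =
      2 * p * ((if u + v = 0 then 1 else 0) - (if u - v = 0 then 1 else 0)) := by
  have h : ∀ j : ZMod p,
      (chi p (-(j * u)) - chi p (j * u)) * (chi p (-(j * v)) - chi p (j * v)) =
        chi p (j * (-(u + v))) - chi p (j * (v - u)) - chi p (j * (u - v)) + chi p (j * (u + v)) := by
    intro j
    have e1 : j * (-(u + v)) = -(j * u) + -(j * v) := by ring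
    have e2 : j * (v - u) = -(j * u) + j * v := by ring
    have e3 : j * (u - v) = j * u + -(j * v) := by ring
    have e4 : j * (u + v) = j * u + j * v := by ring
    rw [e1, e2, e3, e4]
    simp only [AddChar.map_add_eq_mul]
    ring
  simp only [h, Finset.sum_add_distrib, Finset.sum_sub_distrib, sum_chi]
  have c1 : (-(u + v) = 0) ↔ (u + v = 0) := neg_eq_zero
  have c2 : (v - u = 0) ↔ (u - v = 0) := by
    rw [sub_eq_zero, sub_eq_zero, eq_comm]
  simp only [c1, c2]
  split_ifs <;> ring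

/-- `∑_j s(aj) s(bj)` as a sum of products of sawtooth values. -/
theorem sum_sS_mul_sS (a b : ZMod p) (ha : a ≠ 0) (hb : b ≠ 0) :
    ∑ j : ZMod p, sS p (a * j) * sS p (b * j) =
      -((p : ℂ) * ∑ k : ZMod p, saw p (a * k) * saw p (b * k)) := by
  have h1 : ∀ j : ZMod p, sS p (a * j) * sS p (b * j) =
      ∑ l : ZMod p, saw p l * (sS p (a * j) * chi p (j * (b * l))) := by
    intro j
    conv_lhs => rw [sS.eq_def p (b * j)]
    rw [Finset.mul_sum]
    refine Finset.sum_congr rfl fun l _ => ?_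
    have : b * j * l = j * (b * l) := by ring
    rw [this]
    ring
  simp only [h1]
  rw [Finset.sum_comm]
  simp only [← Finset.mul_sum, sum_sS_mul_chi p a ha]
  rw [← Equiv.sum_comp (Equiv.mulLeft₀ a ha)
    (fun l => saw p l * ((p : ℂ) * saw p (-(b * l * a⁻¹))))]
  rw [Finset.mul_sum, ← Finset.sum_neg_distrib]
  refine Finset.sum_congr rfl fun k _ => ?_
  simp only [Equiv.mulLeft₀_apply]
  have : b * (a * k) * a⁻¹ = b * k := by field_simp
  rw [this, saw_neg]
  ring

/-- Even integers, inside `ℂ`. -/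
def IsEvenC (z : ℂ) : Prop := ∃ k : ℤ, z = 2 * k

theorem IsEvenC.zero : IsEvenC 0 := ⟨0, by simp⟩

theorem IsEvenC.add {z w : ℂ} (hz : IsEvenC z) (hw : IsEvenC w) : IsEvenC (z + w) := by
  obtain ⟨k, rfl⟩ := hz
  obtain ⟨l, rfl⟩ := hw
  exact ⟨k + l, by push_cast; ring⟩

theorem IsEvenC.sum {ι : Type*} (s : Finset ι) (f : ι → ℂ) (h : ∀ i ∈ s, IsEvenC (f i)) :
    IsEvenC (∑ i ∈ s, f i) := by
  classical
  induction s using Finset.induction_on with
  | empty => simpa using IsEvenC.zero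
  | insert a s ha ih =>
    rw [Finset.sum_insert ha]
    exact (h a (Finset.mem_insert_self a s)).add (ih fun i hi => h i (Finset.mem_insert_of_mem hi))

theorem isEvenC_saw_add (u v : ZMod p) (h : u = 0 ↔ v = 0) :
    IsEvenC (2 * p * saw p u + 2 * p * saw p v) := by
  have hp : (p : ℂ) ≠ 0 := Nat.cast_ne_zero.mpr (Fact.out : p.Prime).ne_zero
  by_cases hu : u = 0
  · have hv : v = 0 := h.mp hu
    subst hu
    subst hv
    simpa [saw_zero] using IsEvenC.zero
  · have hv : v ≠ 0 := fun hv => hu (h.mpr hv)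
    refine ⟨(u.val : ℤ) + v.val - p, ?_⟩
    simp only [saw, hu, hv, if_false]
    push_cast
    field_simp
    ring

theorem isEvenC_sum_sub_mul_sub (u v : ZMod p) :
    IsEvenC (∑ j : ZMod p, (chi p (-(j * u)) - chi p (j * u)) *
      (chi p (-(j * v)) - chi p (j * v))) := by
  rw [sum_sub_mul_sub]
  refine ⟨(p : ℤ) * ((if u + v = 0 then 1 else 0) - (if u - v = 0 then 1 else 0)), ?_⟩
  push_cast
  split_ifs <;> ring

/-- The higher `q`-coefficients of the weight one Eisenstein series. -/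
def alphaS (x : ZMod p) (n : ℕ) : ℂ := ∑ d ∈ n.divisors, (chi p (-(x * d)) - chi p (x * d))

/-- The formal `q`-expansion of the weight one Eisenstein series. -/
def eS (x : ZMod p) : PowerSeries ℂ :=
  PowerSeries.mk fun n => if n = 0 then sS p x else alphaS p x n

theorem alphaS_zero_right (x : ZMod p) : alphaS p x 0 = 0 := by simp [alphaS]

theorem coeff_eS_zero (x : ZMod p) : PowerSeries.coeff 0 (eS p x) = sS p x := by
  simp [eS]

theorem coeff_eS_of_ne_zero (x : ZMod p) {n : ℕ} (hn : n ≠ 0) :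
    PowerSeries.coeff n (eS p x) = alphaS p x n := by
  simp [eS, hn]

theorem eS_eq (x : ZMod p) :
    eS p x = PowerSeries.C (sS p x) + PowerSeries.mk (alphaS p x) := by
  ext n
  rw [eS, PowerSeries.coeff_mk, map_add, PowerSeries.coeff_C, PowerSeries.coeff_mk]
  by_cases hn : n = 0
  · subst hn
    simp [alphaS_zero_right]
  · simp [hn]

theorem eS_mul_eS (x y : ZMod p) :
    eS p x * eS p y = PowerSeries.C (sS p x * sS p y) +
      PowerSeries.C (sS p x) * PowerSeries.mk (alphaS p y) +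
      PowerSeries.C (sS p y) * PowerSeries.mk (alphaS p x) +
      PowerSeries.mk (alphaS p x) * PowerSeries.mk (alphaS p y) := by
  rw [eS_eq, eS_eq, map_mul]
  ring

theorem sum_sS_mul_alphaS (a b : ZMod p) (ha : a ≠ 0) (m : ℕ) :
    ∑ j : ZMod p, sS p (a * j) * alphaS p (b * j) m =
      ∑ d ∈ m.divisors, 2 * p * saw p (b * d * a⁻¹) := by
  simp only [alphaS, Finset.mul_sum]
  rw [Finset.sum_comm]
  refine Finset.sum_congr rfl fun d _ => ?_
  rw [← sum_sS_mul_sub p a ha (b * d)]
  refine Finset.sum_congr rfl fun j _ => ?_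
  have : b * j * (d : ZMod p) = j * (b * d) := by ring
  rw [this]

/-- The constant term of `∑_j e_{aj} e_{bj}`. -/
theorem coeff_zero_sum_eS (a b : ZMod p) (ha : a ≠ 0) (hb : b ≠ 0) :
    PowerSeries.coeff 0 (∑ j : ZMod p, eS p (a * j) * eS p (b * j)) =
      -((p : ℂ) * ∑ k : ZMod p, saw p (a * k) * saw p (b * k)) := by
  rw [map_sum, ← sum_sS_mul_sS p a b ha hb]
  refine Finset.sum_congr rfl fun j _ => ?_
  rw [PowerSeries.coeff_zero_eq_constantCoeff_apply, map_mul,
    ← PowerSeries.coeff_zero_eq_constantCoeff_apply, ← PowerSeries.coeff_zero_eq_constantCoeff_apply,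
    coeff_eS_zero, coeff_eS_zero]

/-- The higher coefficients of `∑_j e_{aj} e_{bj}` are even integers. -/
theorem isEvenC_coeff_sum_eS (a b : ZMod p) (ha : a ≠ 0) (hb : b ≠ 0) (m : ℕ) (hm : m ≠ 0) :
    IsEvenC (PowerSeries.coeff m (∑ j : ZMod p, eS p (a * j) * eS p (b * j))) := by
  have h1 : PowerSeries.coeff m (∑ j : ZMod p, eS p (a * j) * eS p (b * j)) =
      (∑ j : ZMod p, sS p (a * j) * alphaS p (b * j) m +
        ∑ j : ZMod p, sS p (b * j) * alphaS p (a * j) m) +
      ∑ j : ZMod p, ∑ kl ∈ Finset.HasAntidiagonal.antidiagonal m, alphaS p (a * j) kl.1 * alphaS p (b * j) kl.2 := by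
    rw [map_sum, ← Finset.sum_add_distrib, ← Finset.sum_add_distrib]
    refine Finset.sum_congr rfl fun j _ => ?_
    rw [eS_mul_eS, map_add, map_add, map_add, PowerSeries.coeff_C, if_neg hm,
      PowerSeries.coeff_C_mul, PowerSeries.coeff_C_mul, PowerSeries.coeff_mk, PowerSeries.coeff_mk,
      PowerSeries.coeff_mul, zero_add]
    simp only [PowerSeries.coeff_mk]
  rw [h1]
  refine IsEvenC.add ?_ ?_
  · rw [sum_sS_mul_alphaS p a b ha, sum_sS_mul_alphaS p b a hb, ← Finset.sum_add_distrib]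
    refine IsEvenC.sum _ _ fun d _ => ?_
    refine isEvenC_saw_add p _ _ ?_
    simp only [mul_eq_zero, inv_eq_zero, ha, hb, or_false, false_or]
  · rw [Finset.sum_comm]
    refine IsEvenC.sum _ _ fun kl _ => ?_
    simp only [alphaS, Finset.sum_mul_sum]
    rw [Finset.sum_comm]
    refine IsEvenC.sum _ _ fun d _ => ?_
    rw [Finset.sum_comm]
    refine IsEvenC.sum _ _ fun d' _ => ?_
    have h := isEvenC_sum_sub_mul_sub p (a * d) (b * d')
    have e : ∀ j : ZMod p, (chi p (-(a * j * d)) - chi p (a * j * d)) *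
        (chi p (-(b * j * d')) - chi p (b * j * d')) =
        (chi p (-(j * (a * d))) - chi p (j * (a * d))) *
          (chi p (-(j * (b * d'))) - chi p (j * (b * d'))) := by
      intro j
      have e1 : a * j * (d : ZMod p) = j * (a * d) := by ring
      have e2 : b * j * (d' : ZMod p) = j * (b * d') := by ring
      rw [e1, e2]
    simp only [e]
    exact h

theorem sum_zmod_val (g : ℕ → ℂ) : ∑ k : ZMod p, g k.val = ∑ j ∈ Finset.range p, g j := by
  refine Finset.sum_nbij' (fun k => k.val) (fun j => (j : ZMod p)) ?_ ?_ ?_ ?_ ?_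
  · intro k _
    exact Finset.mem_range.mpr (ZMod.val_lt k)
  · intro j _
    exact Finset.mem_univ _
  · intro k _
    exact ZMod.natCast_zmod_val k
  · intro j hj
    rw [ZMod.val_natCast]
    exact Nat.mod_eq_of_lt (Finset.mem_range.mp hj)
  · intro k _
    rfl

theorem val_natCast_mul (a : ℕ) (k : ZMod p) : ((a : ZMod p) * k).val = a * k.val % p := by
  rw [ZMod.val_mul, ZMod.val_natCast, Nat.mod_mul_mod]

theorem sum_val_mul (a : ZMod p) (ha : a ≠ 0) :
    ∑ k : ZMod p, ((a * k).val : ℂ) = (p : ℂ) * (p - 1) / 2 := by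
  have h0 := Equiv.sum_comp (Equiv.mulLeft₀ a ha) (fun k : ZMod p => (k.val : ℂ))
  simp only [Equiv.mulLeft₀_apply] at h0
  rw [h0, sum_zmod_val p (fun j => (j : ℂ))]
  have h := Finset.sum_range_id_mul_two p
  have hp1 : 1 ≤ p := (Fact.out : p.Prime).one_lt.le
  have h2 := congrArg (Nat.cast : ℕ → ℂ) h
  push_cast [Nat.cast_sub hp1] at h2
  linear_combination h2 / 2

theorem sum_val_mul_val (a b : ℕ) :
    ∑ k : ZMod p, ((((a : ZMod p) * k).val : ℂ) * (((b : ZMod p) * k).val : ℂ)) =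
      (dedS p a b : ℂ) := by
  simp only [val_natCast_mul]
  rw [sum_zmod_val p (fun j => ((a * j % p : ℕ) : ℂ) * ((b * j % p : ℕ) : ℂ))]
  rw [dedS, Finset.range_eq_Ico, Finset.sum_eq_sum_Ico_succ_bot (Fact.out : p.Prime).pos]
  simp

/-- The constant term in terms of the Dedekind-type sum `dedS`. -/
theorem neg_sum_saw_mul_saw (a b : ℕ) (ha : ¬ p ∣ a) (hb : ¬ p ∣ b) :
    -((p : ℂ) * ∑ k : ZMod p, saw p ((a : ZMod p) * k) * saw p ((b : ZMod p) * k)) =
      (p : ℂ) * (p - 1) / 4 - (dedS p a b : ℂ) / p := by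
  have hp : (p : ℂ) ≠ 0 := Nat.cast_ne_zero.mpr (Fact.out : p.Prime).ne_zero
  have ha' : (a : ZMod p) ≠ 0 := fun h => ha ((ZMod.natCast_eq_zero_iff a p).mp h)
  have hb' : (b : ZMod p) ≠ 0 := fun h => hb ((ZMod.natCast_eq_zero_iff b p).mp h)
  have h1 : ∀ k : ZMod p, saw p ((a : ZMod p) * k) * saw p ((b : ZMod p) * k) =
      ((((a : ZMod p) * k).val : ℂ) * (((b : ZMod p) * k).val : ℂ)) / (p : ℂ) ^ 2
        - ((((a : ZMod p) * k).val : ℂ) + (((b : ZMod p) * k).val : ℂ)) / (2 * p)
        + 1 / 4 - (if k = 0 then 1 / 4 else 0) := by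
    intro k
    by_cases hk : k = 0
    · subst hk
      simp [saw_zero]
    · have hak : (a : ZMod p) * k ≠ 0 := mul_ne_zero ha' hk
      have hbk : (b : ZMod p) * k ≠ 0 := mul_ne_zero hb' hk
      simp only [saw, hak, hbk, hk, if_false]
      field_simp
      ring
  simp only [h1, Finset.sum_add_distrib, Finset.sum_sub_distrib, ← Finset.sum_div,
    sum_val_mul p _ ha', sum_val_mul p _ hb', sum_val_mul_val, Finset.sum_ite_eq',
    Finset.mem_univ, if_true, Finset.sum_const, Finset.card_univ, ZMod.card, nsmul_eq_mul]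
  field_simp
  ring

/-- **Part A of PH**: the formal `q`-expansion of `∑_j e_{aj} e_{bj}` has constant term
`p (p-1)/4 - S(a,b)/p` and even integers as higher coefficients. -/
theorem sum_eS_main (a b : ℕ) (ha : ¬ p ∣ a) (hb : ¬ p ∣ b) :
    PowerSeries.coeff 0 (∑ j : ZMod p, eS p ((a : ZMod p) * j) * eS p ((b : ZMod p) * j)) =
        (p : ℂ) * (p - 1) / 4 - (dedS p a b : ℂ) / p ∧
      ∀ m : ℕ, 1 ≤ m → ∃ k : ℤ,
        PowerSeries.coeff m (∑ j : ZMod p, eS p ((a : ZMod p) * j) * eS p ((b : ZMod p) * j)) =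
          2 * k := by
  have ha' : (a : ZMod p) ≠ 0 := fun h => ha ((ZMod.natCast_eq_zero_iff a p).mp h)
  have hb' : (b : ZMod p) ≠ 0 := fun h => hb ((ZMod.natCast_eq_zero_iff b p).mp h)
  refine ⟨?_, fun m hm => ?_⟩
  · rw [coeff_zero_sum_eS p _ _ ha' hb', neg_sum_saw_mul_saw p a b ha hb]
  · exact isEvenC_coeff_sum_eS p _ _ ha' hb' m (Nat.one_le_iff_ne_zero.mp hm)

end Fermat.Agent.S16.PForm
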