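/-
S16, slice PH, part B: the weight two forms `P_{a,b} = ∑_j e_{aj} e_{bj}` of level `Γ₀(p)`, built
from a family `e_x` (`x : ZMod p`, `x ≠ 0`) of weight one Eisenstein series.

`exists_pform_of_family` is stated for an abstract family with the four properties it uses
(holomorphy, the `Γ₀(p)`-transformation law, boundedness at all cusps, and the `q`-expansion
`eS p x` of `PSums`).
-/
import Mathlib
import Fermat.Agent.S16.PSums
import Fermat.Agent.S23.QCalc
import Fermat.Prelude.Thm_CongruenceSubgroup_one_mem_strictPeriods_Gamma0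

set_option autoImplicit false

noncomputable section

open UpperHalfPlane Filter Topology
open scoped MatrixGroups ModularForm Manifold

namespace Fermat.Agent.S16.PForm

open CongruenceSubgroup Matrix.SpecialLinearGroup Fermat.Agent.S23.QCalc

variable (p : ℕ) [Fact p.Prime]

theorem alphaS_zero_left (n : ℕ) : alphaS p 0 n = 0 := by
  simp [alphaS]

theorem eS_zero : eS p 0 = 0 := by
  ext n
  by_cases hn : n = 0
  · subst hn
    rw [coeff_eS_zero, sS_zero, map_zero]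
  · rw [coeff_eS_of_ne_zero p 0 hn, alphaS_zero_left, map_zero]

/-- The lower right entry of an element of `Γ₀(p)` is a unit modulo `p`. -/
theorem Gamma0_entry_ne_zero (γ : SL(2, ℤ)) (hγ : γ ∈ Gamma0 p) :
    ((γ 1 1 : ℤ) : ZMod p) ≠ 0 := by
  intro h
  have hdet := Matrix.SpecialLinearGroup.det_coe γ
  rw [Matrix.det_fin_two] at hdet
  have hc : ((γ 1 0 : ℤ) : ZMod p) = 0 := Gamma0_mem.mp hγ
  have h1 : (((γ 0 0 * γ 1 1 - γ 0 1 * γ 1 0 : ℤ)) : ZMod p) = 1 := by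
    rw [hdet]; simp
  push_cast at h1
  rw [h, hc] at h1
  simp at h1

/-- **PH, abstract form.** -/
theorem exists_pform_of_family (e : ZMod p → ℍ → ℂ)
    (hmd : ∀ x : ZMod p, x ≠ 0 → MDiff (e x))
    (hslash : ∀ x : ZMod p, x ≠ 0 → ∀ γ : SL(2, ℤ), γ ∈ Gamma0 p →
      (e x) ∣[(1 : ℤ)] γ = e (x * ((γ 1 1 : ℤ) : ZMod p)))
    (hbdd : ∀ x : ZMod p, x ≠ 0 → ∀ σ : SL(2, ℤ), IsBoundedAtImInfty ((e x) ∣[(1 : ℤ)] σ))
    (hq : ∀ x : ZMod p, x ≠ 0 → HasQ (e x) (eS p x))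
    (a b : ℕ) (ha : ¬ p ∣ a) (hb : ¬ p ∣ b) :
    ∃ P : ModularForm (Gamma0 p) 2,
      PowerSeries.coeff 0 (qExpansion 1 P) = (p : ℂ) * (p - 1) / 4 - (dedS p a b : ℂ) / p ∧
      ∀ m : ℕ, 1 ≤ m → ∃ k : ℤ, PowerSeries.coeff m (qExpansion 1 P) = 2 * k := by
  classical
  have ha' : (a : ZMod p) ≠ 0 := fun h => ha ((ZMod.natCast_eq_zero_iff a p).mp h)
  have hb' : (b : ZMod p) ≠ 0 := fun h => hb ((ZMod.natCast_eq_zero_iff b p).mp h)
  -- extend the family by zero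
  set E : ZMod p → ℍ → ℂ := fun x => if x = 0 then 0 else e x with hE
  have hE0 : E 0 = 0 := by simp [hE]
  have hEne : ∀ x : ZMod p, x ≠ 0 → E x = e x := fun x hx => by simp [hE, hx]
  have hEmd : ∀ x : ZMod p, MDiff (E x) := by
    intro x
    by_cases hx : x = 0
    · rw [hx, hE0]; exact mdifferentiable_const
    · rw [hEne x hx]; exact hmd x hx
  have hEslash : ∀ x : ZMod p, ∀ γ : SL(2, ℤ), γ ∈ Gamma0 p →
      (E x) ∣[(1 : ℤ)] γ = E (x * ((γ 1 1 : ℤ) : ZMod p)) := by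
    intro x γ hγ
    by_cases hx : x = 0
    · rw [hx, zero_mul, hE0]; exact SlashAction.zero_slash _ _
    · rw [hEne x hx, hEne _ (mul_ne_zero hx (Gamma0_entry_ne_zero p γ hγ))]
      exact hslash x hx γ hγ
  have hEbdd : ∀ x : ZMod p, ∀ σ : SL(2, ℤ), IsBoundedAtImInfty ((E x) ∣[(1 : ℤ)] σ) := by
    intro x σ
    by_cases hx : x = 0
    · rw [hx, hE0, SlashAction.zero_slash]
      exact zero_form_isBoundedAtImInfty
    · rw [hEne x hx]; exact hbdd x hx σ
  have hEq : ∀ x : ZMod p, HasQ (E x) (eS p x) := by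
    intro x
    by_cases hx : x = 0
    · rw [hx, hE0, eS_zero]; exact hasQ_zero
    · rw [hEne x hx]; exact hq x hx
  -- the function
  set F : ℍ → ℂ := ∑ j : ZMod p, E ((a : ZMod p) * j) * E ((b : ZMod p) * j) with hF
  have hFslash : ∀ σ : SL(2, ℤ), F ∣[(2 : ℤ)] σ =
      ∑ j : ZMod p, (E ((a : ZMod p) * j) ∣[(1 : ℤ)] σ) * (E ((b : ZMod p) * j) ∣[(1 : ℤ)] σ) := by
    intro σ
    rw [hF, SlashAction.sum_slash]
    refine Finset.sum_congr rfl fun j _ => ?_
    exact ModularForm.mul_slash_SL2 1 1 σ _ _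
  have hFinv : ∀ γ : SL(2, ℤ), γ ∈ Gamma0 p → F ∣[(2 : ℤ)] γ = F := by
    intro γ hγ
    have hδ := Gamma0_entry_ne_zero p γ hγ
    rw [hFslash γ]
    simp only [hEslash _ γ hγ]
    have h1 := Equiv.sum_comp (Equiv.mulRight₀ ((γ 1 1 : ℤ) : ZMod p) hδ)
      (fun j => E ((a : ZMod p) * j) * E ((b : ZMod p) * j))
    simp only [Equiv.mulRight₀_apply] at h1
    rw [hF, ← h1]
    refine Finset.sum_congr rfl fun j _ => ?_
    rw [mul_assoc, mul_assoc]
  have hFmd : MDiff F := by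
    rw [hF]
    exact MDifferentiable.sum fun j _ => (hEmd _).mul (hEmd _)
  have hFbdd : ∀ σ : SL(2, ℤ), IsBoundedAtImInfty (F ∣[(2 : ℤ)] σ) := by
    intro σ
    rw [hFslash σ]
    exact (boundedFilterSubmodule ℂ atImInfty).sum_mem
      fun j _ => BoundedAtFilter.mul (hEbdd _ σ) (hEbdd _ σ)
  have hFq : HasQ F (∑ j : ZMod p, eS p ((a : ZMod p) * j) * eS p ((b : ZMod p) * j)) :=
    HasQ.sum _ fun j _ => (hEq _).mul (hEq _)
  let P : ModularForm ((Gamma0 p : Subgroup SL(2, ℤ)) : Subgroup (GL (Fin 2) ℝ)) 2 :=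
    { toFun := F
      slash_action_eq' := by
        intro γ hγ
        obtain ⟨γ', hγ', rfl⟩ := Subgroup.mem_map.mp hγ
        exact hFinv γ' hγ'
      holo' := hFmd
      bdd_at_cusps' := fun {c} hc => by
        have hc' : IsCusp c 𝒮ℒ := (Subgroup.IsArithmetic.isCusp_iff_isCusp_SL2Z _).mp hc
        obtain ⟨g, rfl⟩ := isCusp_SL2Z_iff'.mp hc'
        exact (OnePoint.isBoundedAt_iff_exists_SL2Z hc').mpr ⟨g, rfl, hFbdd g⟩ }
  have hqe := HasQ.eq_qExpansion (CongruenceSubgroup.one_mem_strictPeriods_Gamma0 p) P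
    (hFq.congr fun z => rfl)
  refine ⟨P, ?_, ?_⟩
  · rw [← hqe]
    exact (sum_eS_main p a b ha hb).1
  · intro m hm
    rw [← hqe]
    exact (sum_eS_main p a b ha hb).2 m hm

end Fermat.Agent.S16.PForm
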