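/-
S16, slice PH, part C: the concrete family of weight one Eisenstein series

  `eZ p x t = Zc (x/p) (e(t)) / (2πi)`     (`x : ZMod p`, `Zc` the Lambert form of `EVLambert`),

its `q`-expansion `eS p x` and its holomorphy.
-/
import Mathlib
import Fermat.Agent.S16.PForm
import Fermat.Agent.S16.EVLambert

set_option autoImplicit false

noncomputable section

open Filter Topology Complex
open UpperHalfPlane hiding I
open scoped MatrixGroups ModularForm Manifold Real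

namespace Fermat.Agent.S16.PForm

open CongruenceSubgroup Matrix.SpecialLinearGroup Fermat.Agent.S23.QCalc
open Fermat.Agent.S16.EVLambert

variable (p : ℕ) [Fact p.Prime]

/-- The real number `x/p` attached to a residue class `x`. -/
def yOf (x : ZMod p) : ℝ := (x.val : ℝ) / p

theorem chi_eq_ee (x : ZMod p) : chi p x = ee ((yOf p x : ℝ) : ℂ) := by
  have : NeZero p := ⟨(Fact.out : p.Prime).ne_zero⟩
  have h1 : x = (((x.val : ℕ) : ℤ) : ZMod p) := by simp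
  conv_lhs => rw [h1]
  rw [chi, ZMod.stdAddChar_coe, ee, yOf]
  congr 1
  push_cast
  ring

theorem chi_mul_nat (x : ZMod p) (d : ℕ) : chi p (x * d) = chi p x ^ d := by
  have h : x * (d : ZMod p) = d • x := by rw [nsmul_eq_mul, mul_comm]
  rw [h, AddChar.map_nsmul_eq_pow]

theorem two_pi_I_ne_zero' : (2 * π * I : ℂ) ≠ 0 := by
  simp [Real.pi_ne_zero]

theorem cZ_zero_div (x : ZMod p) (hx : x ≠ 0) :
    cZ (yOf p x) 0 / (2 * π * I) = sS p x := by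
  have hu : ee ((yOf p x : ℝ) : ℂ) ≠ 1 := by
    rw [← chi_eq_ee]; exact chi_ne_one p hx
  rw [cZ_zero, cotp_eq_neg _ hu, sS_eq p x hx, chi_eq_ee]
  have h1 : (1 : ℂ) - ee ((yOf p x : ℝ) : ℂ) ≠ 0 := sub_ne_zero.mpr (Ne.symm hu)
  have h2 : ee ((yOf p x : ℝ) : ℂ) - 1 ≠ 0 := sub_ne_zero.mpr hu
  have h3 := two_pi_I_ne_zero'
  have hpi : (π : ℂ) ≠ 0 := by exact_mod_cast Real.pi_ne_zero
  have hI : (I : ℂ) ≠ 0 := I_ne_zero
  field_simp
  ring

theorem cZ_pos_div (x : ZMod p) {n : ℕ} (hn : n ≠ 0) :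
    cZ (yOf p x) n / (2 * π * I) = alphaS p x n := by
  have h3 := two_pi_I_ne_zero'
  rw [cZ_of_ne_zero _ hn, alphaS, dsum, dsum, ← Finset.sum_sub_distrib]
  rw [neg_mul, neg_div, mul_div_cancel_left₀ _ h3, ← Finset.sum_neg_distrib]
  refine Finset.sum_congr rfl fun d _ => ?_
  rw [AddChar.map_neg_eq_inv, chi_mul_nat, chi_eq_ee, inv_pow]
  ring

/-- The weight one Eisenstein series attached to `(0, x/p)`, in Lambert form, normalised. -/
def eZ (x : ZMod p) (t : ℍ) : ℂ := Zc ((yOf p x : ℝ) : ℂ) (ee (t : ℂ)) / (2 * π * I)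

theorem norm_ee_lt_one (t : ℍ) : ‖ee (t : ℂ)‖ < 1 := by
  rw [norm_ee, Real.exp_lt_one_iff]
  have := t.im_pos
  have hpi := Real.pi_pos
  have h : (t : ℂ).im = t.im := rfl
  rw [h]
  nlinarith

theorem hasQ_eZ (x : ZMod p) (hx : x ≠ 0) : HasQ (eZ p x) (eS p x) := by
  intro t
  have hq : ‖ee (t : ℂ)‖ < 1 := norm_ee_lt_one t
  have h := (hasSum_Zc_ofReal (yOf p x) hq).div_const (2 * π * I)
  have hqp : Function.Periodic.qParam 1 (t : ℂ) = ee (t : ℂ) := by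
    simp [Function.Periodic.qParam, ee]
  rw [hqp]
  refine h.congr_fun fun n => ?_
  by_cases hn : n = 0
  · subst hn
    rw [coeff_eS_zero, ← cZ_zero_div p x hx]
    ring
  · rw [coeff_eS_of_ne_zero p x hn, ← cZ_pos_div p x hn]
    ring

omit [Fact p.Prime] in
theorem mdifferentiable_eZ (x : ZMod p) : MDiff (eZ p x) := by
  rw [UpperHalfPlane.mdifferentiable_iff]
  have hu : ‖ee ((yOf p x : ℝ) : ℂ)‖ ≤ 1 := (norm_ee_ofReal _).le
  have hu' : ‖(ee ((yOf p x : ℝ) : ℂ))⁻¹‖ ≤ 1 := by rw [norm_inv, norm_ee_ofReal, inv_one]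
  have hG : ∀ z : ℂ, 0 < z.im → DifferentiableAt ℂ
      (fun w : ℂ => Zc ((yOf p x : ℝ) : ℂ) (ee w) / (2 * π * I)) z := by
    intro z hz
    have hq : ‖ee z‖ < 1 := norm_ee_lt_one ⟨z, hz⟩
    have hee : DifferentiableAt ℂ ee z := by
      unfold ee
      fun_prop
    have hA1 : DifferentiableAt ℂ (fun w => A (ee ((yOf p x : ℝ) : ℂ)) (ee w)) z :=
      (differentiableAt_A _ hu hq).comp z hee
    have hA2 : DifferentiableAt ℂ (fun w => A (ee ((yOf p x : ℝ) : ℂ))⁻¹ (ee w)) z :=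
      (differentiableAt_A _ hu' hq).comp z hee
    unfold Zc
    exact (((differentiableAt_const _).sub ((hA1.sub hA2).const_mul _))).div_const _
  intro z hz
  have hz' : 0 < z.im := hz
  refine ((hG z hz').differentiableWithinAt).congr (fun w hw => ?_) ?_
  · have hw' : 0 < w.im := hw
    simp only [Function.comp_apply, eZ, ofComplex_apply_of_im_pos hw']
  · simp only [Function.comp_apply, eZ, ofComplex_apply_of_im_pos hz']

theorem val_pos_of_ne_zero (x : ZMod p) (hx : x ≠ 0) : 0 < x.val :=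
  Nat.pos_of_ne_zero fun h => hx ((ZMod.val_eq_zero x).mp h)

theorem yOf_not_int (x : ZMod p) (hx : x ≠ 0) : ¬ ∃ n : ℤ, yOf p x = n := by
  rintro ⟨n, hn⟩
  have hp : (0 : ℝ) < p := Nat.cast_pos.mpr (Fact.out : p.Prime).pos
  have h1 : (0 : ℝ) < yOf p x := div_pos (Nat.cast_pos.mpr (val_pos_of_ne_zero p x hx)) hp
  have h2 : yOf p x < 1 := by
    rw [yOf, div_lt_one hp]
    exact_mod_cast ZMod.val_lt x
  rw [hn] at h1 h2
  have h3 : (0 : ℤ) < n := by exact_mod_cast h1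
  have h4 : n < (1 : ℤ) := by exact_mod_cast h2
  omega

/-- If `(x.val / p) * c` is an integer then `x * c = 0` in `ZMod p`. -/
theorem mul_eq_zero_of_yOf_mul_int (x : ZMod p) (c : ℤ) (h : ∃ m : ℤ, yOf p x * (c : ℝ) = m) :
    x * (c : ZMod p) = 0 := by
  obtain ⟨m, hm⟩ := h
  have hp : (p : ℝ) ≠ 0 := Nat.cast_ne_zero.mpr (Fact.out : p.Prime).ne_zero
  have h1 : ((x.val : ℤ) : ℝ) * (c : ℝ) = ((p : ℤ) : ℝ) * (m : ℝ) := by
    rw [yOf] at hm
    field_simp at hm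
    push_cast
    linarith
  have h2 : (x.val : ℤ) * c = (p : ℤ) * m := by exact_mod_cast h1
  have h3 := congrArg (Int.cast : ℤ → ZMod p) h2
  push_cast at h3
  rw [ZMod.natCast_zmod_val, ZMod.natCast_self, zero_mul] at h3
  exact h3

theorem not_both_int (x : ZMod p) (hx : x ≠ 0) (σ : SL(2, ℤ)) :
    ¬ ((∃ m : ℤ, yOf p x * ((σ 1 0 : ℤ) : ℝ) = m) ∧ (∃ n : ℤ, yOf p x * ((σ 1 1 : ℤ) : ℝ) = n)) := by
  rintro ⟨h1, h2⟩
  have e1 := mul_eq_zero_of_yOf_mul_int p x _ h1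
  have e2 := mul_eq_zero_of_yOf_mul_int p x _ h2
  have c1 : ((σ 1 0 : ℤ) : ZMod p) = 0 := (mul_eq_zero.mp e1).resolve_left hx
  have c2 : ((σ 1 1 : ℤ) : ZMod p) = 0 := (mul_eq_zero.mp e2).resolve_left hx
  have hdet := Matrix.SpecialLinearGroup.det_coe σ
  rw [Matrix.det_fin_two] at hdet
  have h3 : (((σ 0 0 * σ 1 1 - σ 0 1 * σ 1 0 : ℤ)) : ZMod p) = 1 := by
    rw [hdet]; simp
  push_cast at h3
  rw [c1, c2] at h3
  have : Fact (1 < p) := ⟨(Fact.out : p.Prime).one_lt⟩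
  simp at h3

/-- `(x.val / p) * d = (x * d).val / p + b` for an integer `b`. -/
theorem yOf_mul_int (x : ZMod p) (d : ℤ) :
    ∃ b : ℤ, yOf p x * (d : ℝ) = yOf p (x * (d : ZMod p)) + b := by
  have hp : (p : ℝ) ≠ 0 := Nat.cast_ne_zero.mpr (Fact.out : p.Prime).ne_zero
  have h1 : (((x.val : ℤ) * d - ((x * (d : ZMod p)).val : ℤ) : ℤ) : ZMod p) = 0 := by
    push_cast
    rw [ZMod.natCast_zmod_val, ZMod.natCast_zmod_val, sub_self]
  obtain ⟨b, hb⟩ := (ZMod.intCast_zmod_eq_zero_iff_dvd _ p).mp h1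
  refine ⟨b, ?_⟩
  have h2 : ((x.val : ℤ) : ℝ) * (d : ℝ) - (((x * (d : ZMod p)).val : ℤ) : ℝ) = (p : ℝ) * b := by
    exact_mod_cast congrArg (Int.cast : ℤ → ℝ) hb
  rw [yOf, yOf]
  field_simp
  push_cast at h2
  linarith

/-- **PH from an `ev`-interface**: `ev x y` is the weight one Eisenstein series attached to
`(x, y)`; for `x = 0` it is the Lambert form `Zc y (e(t))`. -/
theorem exists_pform_of_ev (ev : ℝ → ℝ → ℍ → ℂ)
    (h0 : ∀ (y : ℝ), (¬ ∃ n : ℤ, y = n) → ∀ t : ℍ, ev 0 y t = Zc (y : ℂ) (ee (t : ℂ)))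
    (hSL : ∀ (γ : SL(2, ℤ)) (y : ℝ), (¬ ∃ n : ℤ, y = n) → ∀ t : ℍ,
        ev 0 y (γ • t) =
          denom γ t * ev (y * ((γ 1 0 : ℤ) : ℝ)) (y * ((γ 1 1 : ℤ) : ℝ)) t)
    (hint : ∀ (x y : ℝ) (a b : ℤ), ¬ ((∃ m : ℤ, x = m) ∧ (∃ n : ℤ, y = n)) → ∀ t : ℍ,
        ev (x + a) (y + b) t = ev x y t)
    (hbd : ∀ (x y : ℝ), ¬ ((∃ m : ℤ, x = m) ∧ (∃ n : ℤ, y = n)) →
        IsBoundedAtImInfty (ev x y))
    (a b : ℕ) (ha : ¬ p ∣ a) (hb : ¬ p ∣ b) :
    ∃ P : ModularForm (Gamma0 p) 2,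
      PowerSeries.coeff 0 (qExpansion 1 P) = (p : ℂ) * (p - 1) / 4 - (dedS p a b : ℂ) / p ∧
      ∀ m : ℕ, 1 ≤ m → ∃ k : ℤ, PowerSeries.coeff m (qExpansion 1 P) = 2 * k := by
  -- slash formula
  have hsl : ∀ (x : ZMod p), x ≠ 0 → ∀ (σ : SL(2, ℤ)) (t : ℍ),
      ((eZ p x) ∣[(1 : ℤ)] σ) t =
        (2 * π * I)⁻¹ * ev (yOf p x * ((σ 1 0 : ℤ) : ℝ)) (yOf p x * ((σ 1 1 : ℤ) : ℝ)) t := by
    intro x hx σ t
    rw [ModularForm.SL_slash_apply, eZ, ← h0 _ (yOf_not_int p x hx), hSL σ _ (yOf_not_int p x hx) t]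
    have hd : denom σ t ≠ 0 := denom_ne_zero _ t
    rw [zpow_neg, zpow_one]
    field_simp
  refine exists_pform_of_family p (eZ p) (fun x _ => mdifferentiable_eZ p x) ?_ ?_
    (hasQ_eZ p) a b ha hb
  · -- the `Γ₀(p)`-law
    intro x hx γ hγ
    funext t
    rw [hsl x hx γ t]
    obtain ⟨b', hb'⟩ := yOf_mul_int p x (γ 1 1)
    have hc : ((γ 1 0 : ℤ) : ZMod p) = 0 := Gamma0_mem.mp hγ
    obtain ⟨c', hc'⟩ := (ZMod.intCast_zmod_eq_zero_iff_dvd _ p).mp hc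
    have hp : (p : ℝ) ≠ 0 := Nat.cast_ne_zero.mpr (Fact.out : p.Prime).ne_zero
    have h1 : yOf p x * ((γ 1 0 : ℤ) : ℝ) = (0 : ℝ) + (((x.val : ℤ) * c' : ℤ) : ℝ) := by
      rw [hc', yOf]
      push_cast
      field_simp
      ring
    have hnot : ¬ ((∃ m : ℤ, (0 : ℝ) = m) ∧
        (∃ n : ℤ, yOf p (x * ((γ 1 1 : ℤ) : ZMod p)) = n)) :=
      fun h => yOf_not_int p _ (mul_ne_zero hx (Gamma0_entry_ne_zero p γ hγ)) h.2
    rw [h1, hb', hint 0 _ _ _ hnot t,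
      h0 _ (yOf_not_int p _ (mul_ne_zero hx (Gamma0_entry_ne_zero p γ hγ))), eZ]
    ring
  · -- boundedness at all cusps
    intro x hx σ
    have h1 : (eZ p x) ∣[(1 : ℤ)] σ = fun t =>
        (2 * π * I)⁻¹ * ev (yOf p x * ((σ 1 0 : ℤ) : ℝ)) (yOf p x * ((σ 1 1 : ℤ) : ℝ)) t := by
      funext t
      rw [hsl x hx σ t]
    rw [h1]
    exact (hbd _ _ (not_both_int p x hx σ)).const_mul_left _

end Fermat.Agent.S16.PForm
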