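/-
S16, slice LBF (final): the lower bound

  `EisCong p (eisensteinNumerator p)`   for every prime `p ≥ 5`,

with all inputs plugged in: E (`Eis`), W (`ALFinal`), DED (`Ded`), and PH via the weight-one
Eisenstein series `EV.ev` (`PForm.exists_pform_of_ev`, `EV`, `EVWrap`).
-/
import Mathlib
import Fermat.Agent.S16.LBFDed
import Fermat.Agent.S16.PFormEV
import Fermat.Agent.S16.EV
import Fermat.Agent.S16.EVWrap

set_option autoImplicit false

noncomputable section

open UpperHalfPlane CongruenceSubgroup ModularFormClass
open scoped MatrixGroups ModularForm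

namespace Fermat.Agent.S16.LBF

variable (p : ℕ) [Fact p.Prime]

/-- (PH) holds (slices ZW, EV, PH). -/
theorem hasPH : HasPH p := fun a b ha hb =>
  PForm.exists_pform_of_ev p EV.ev
    (fun y hy t => by
      have h := EV.ev_eq_Zc (EV.notInt_zero_left hy) t
      simpa using h)
    (fun γ y hy t => by
      have h := EV.ev_SL2 γ 0 y t
      simpa using h)
    (fun x y a b hxy t => EV.ev_add_int hxy a b t)
    (fun x y hxy => by
      have h1 := EVWrap.isBoundedAtImInfty_Z x y hxy
      exact h1.add (Filter.const_boundedAtFilter _ _))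
    a b ha hb

/-- **Slice LBF.** The lower bound for `p ≥ 5`: some cusp form of weight 2 and level `p` with
integral `q`-expansion is congruent to `∑ σ'(j) q^j` modulo `(p-1)/gcd(p-1,12)`. -/
theorem eisCong (h5 : 5 ≤ p) : EisCong p (ModularCurve.eisensteinNumerator p) :=
  eisCong_of_hasPH p h5 (hasPH p)

end Fermat.Agent.S16.LBF
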