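/-
S16, slice R: reduction of the index of the Eisenstein ideal to congruences of cusp forms.

`card_eq_of_bounds`: if some integral weight-2 cusp form of level `p` is congruent to the Eisenstein
series modulo `n = eisensteinNumerator p` (lower bound) and every modulus `m > 0` carrying such a
congruence divides `n` (upper bound), then the quotient of the integral Hecke algebra by the
Eisenstein ideal has exactly `n` elements.

Route: `𝕋/I` is a quotient of `ℤ`, say `ℤ/k` (`exists_ker_eq_span`).  For `m > 0` one has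
`EisCong p m ↔ m ∣ k`:
* `dvd_of_eisCong`: a congruence `f ≡ E' mod m` makes `𝕋` act on `f mod m` through the Eisenstein
  character, so every integer in `I` is divisible by `m`;
* `eisCong_of_ker_le`: duality `L ≃ Hom(𝕋, ℤ)`, `f ↦ (t ↦ a_1(t f))` (`exists_form_of_dual`, by
  a rank count and saturation of the lattice), applied to an additive lift of `𝕋 → ℤ/m`.
-/
import Mathlib
import Fermat.Prelude.Def_CuspForm_HeckeLocal
import Fermat.Prelude.Def_CuspForm_HeckeEvalForms
import Fermat.Prelude.Def_HeckeGalois_EichlerShimura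
import Fermat.Prelude.Def_ModularCurve_ModularUnit
import Fermat.Agent.S16.Defs
import Fermat.Agent.S49.Forms

set_option autoImplicit false
open ModularCurve CuspForm CongruenceSubgroup ModularFormClass

noncomputable section

namespace Fermat.Agent.S16.Reduce

open Fermat.Agent.S16 Fermat.Agent.S49

theorem sigmaP_one (p : ℕ) (hp : p.Prime) : sigmaP p 1 = 1 := by
  unfold sigmaP
  rw [Nat.divisors_one, Finset.filter_singleton, if_pos (by simpa using hp.one_lt.ne'), Finset.sum_singleton]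

/-- The auxiliary sum over divisors prime to `p` and to `ℓ`. -/
def sigmaPP (p ℓ m : ℕ) : ℕ := ∑ d ∈ m.divisors.filter (fun d => ¬ p ∣ d ∧ ¬ ℓ ∣ d), d

theorem sigmaPP_mul (p ℓ m : ℕ) (hℓ : ℓ.Prime) (hm : m ≠ 0) :
    sigmaPP p ℓ (m * ℓ) = sigmaPP p ℓ m := by
  unfold sigmaPP
  congr 1
  ext d
  simp only [Finset.mem_filter, Nat.mem_divisors]
  constructor
  · rintro ⟨⟨hd, -⟩, hpd, hℓd⟩
    refine ⟨⟨?_, hm⟩, hpd, hℓd⟩
    exact (Nat.Coprime.dvd_of_dvd_mul_right ((Nat.Prime.coprime_iff_not_dvd hℓ).mpr hℓd).symm hd)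
  · rintro ⟨⟨hd, -⟩, hpd, hℓd⟩
    exact ⟨⟨Dvd.dvd.mul_right hd ℓ, mul_ne_zero hm hℓ.ne_zero⟩, hpd, hℓd⟩

theorem sigmaPP_of_not_dvd (p ℓ m : ℕ) (h : ¬ ℓ ∣ m) : sigmaPP p ℓ m = sigmaP p m := by
  unfold sigmaPP sigmaP
  congr 1
  ext d
  simp only [Finset.mem_filter, Nat.mem_divisors]
  constructor
  · rintro ⟨hd, hpd, -⟩
    exact ⟨hd, hpd⟩
  · rintro ⟨hd, hpd⟩
    exact ⟨hd, hpd, fun hℓd => h (hℓd.trans hd.1)⟩

theorem sigmaP_mul_prime_aux (p ℓ m : ℕ) (hp : p.Prime) (hℓ : ℓ.Prime) (hne : ℓ ≠ p)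
    (hm : m ≠ 0) : sigmaP p (m * ℓ) = sigmaPP p ℓ m + ℓ * sigmaP p m := by
  have hsplit : sigmaP p (m * ℓ) =
      ∑ d ∈ ((m * ℓ).divisors.filter (fun d => ¬ p ∣ d)).filter (fun d => ¬ ℓ ∣ d), d +
      ∑ d ∈ ((m * ℓ).divisors.filter (fun d => ¬ p ∣ d)).filter (fun d => ¬ ¬ ℓ ∣ d), d := by
    unfold sigmaP
    exact (Finset.sum_filter_add_sum_filter_not _ _ _).symm
  rw [hsplit]
  congr 1
  · have := sigmaPP_mul p ℓ m hℓ hm
    unfold sigmaPP at this ⊢
    rw [← this, Finset.filter_filter]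
  · unfold sigmaP
    rw [Finset.mul_sum]
    have himg : ((m * ℓ).divisors.filter (fun d => ¬ p ∣ d)).filter (fun d => ¬ ¬ ℓ ∣ d) =
        (m.divisors.filter (fun d => ¬ p ∣ d)).image (fun e => ℓ * e) := by
      ext d
      simp only [Finset.mem_filter, Nat.mem_divisors, Finset.mem_image, not_not]
      constructor
      · rintro ⟨⟨⟨hd, -⟩, hpd⟩, e, rfl⟩
        refine ⟨e, ⟨⟨?_, hm⟩, fun hpe => hpd (Dvd.dvd.mul_left hpe ℓ)⟩, rfl⟩
        rw [mul_comm m ℓ] at hd
        exact (Nat.mul_dvd_mul_iff_left hℓ.pos).mp hd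
      · rintro ⟨e, ⟨⟨he, -⟩, hpe⟩, rfl⟩
        refine ⟨⟨⟨?_, mul_ne_zero hm hℓ.ne_zero⟩, ?_⟩, dvd_mul_right ℓ e⟩
        · rw [mul_comm m ℓ]
          exact Nat.mul_dvd_mul_left ℓ he
        · intro hpd
          rcases (Nat.Prime.dvd_mul hp).mp hpd with h | h
          · exact hne ((Nat.prime_dvd_prime_iff_eq hp hℓ).mp h).symm
          · exact hpe h
    rw [himg, Finset.sum_image]
    intro a _ b _ hab
    exact Nat.eq_of_mul_eq_mul_left hℓ.pos hab

theorem sigmaP_mul_prime (p ℓ m : ℕ) (hp : p.Prime) (hℓ : ℓ.Prime) (hne : ℓ ≠ p) (hm : m ≠ 0) :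
    (sigmaP p (m * ℓ) : ℤ) =
      (1 + (ℓ : ℤ)) * sigmaP p m - (if ℓ ∣ m then (ℓ : ℤ) * sigmaP p (m / ℓ) else 0) := by
  rw [sigmaP_mul_prime_aux p ℓ m hp hℓ hne hm]
  by_cases h : ℓ ∣ m
  · rw [if_pos h]
    obtain ⟨m', rfl⟩ := h
    have hm' : m' ≠ 0 := fun h0 => hm (by rw [h0, mul_zero])
    rw [Nat.mul_div_cancel_left m' hℓ.pos]
    have h1 := sigmaP_mul_prime_aux p ℓ m' hp hℓ hne hm'
    have h2 := sigmaPP_mul p ℓ m' hℓ hm'
    rw [mul_comm ℓ m', h2, h1]
    push_cast
    ring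
  · rw [if_neg h, sigmaPP_of_not_dvd p ℓ m h]
    push_cast
    ring

theorem sigmaP_mul_self (p m : ℕ) (hp : p.Prime) (hm : m ≠ 0) :
    sigmaP p (m * p) = sigmaP p m := by
  unfold sigmaP
  congr 1
  ext d
  simp only [Finset.mem_filter, Nat.mem_divisors]
  constructor
  · rintro ⟨⟨hd, -⟩, hpd⟩
    exact ⟨⟨Nat.Coprime.dvd_of_dvd_mul_right
      ((Nat.Prime.coprime_iff_not_dvd hp).mpr hpd).symm hd, hm⟩, hpd⟩
  · rintro ⟨⟨hd, -⟩, hpd⟩
    exact ⟨⟨Dvd.dvd.mul_right hd p, mul_ne_zero hm hp.ne_zero⟩, hpd⟩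

variable (p : ℕ) [Fact p.Prime]

/-- The action of the abstract Hecke algebra on weight-2 cusp forms of level `p`. -/
def actHom : HeckeAlg →+* Module.End ℂ (CuspForm (Gamma0 p) 2) :=
  (heckeAlgebra p 2 ∅).val.toRingHom.comp (heckeEvalForms p 2)

theorem actHom_apply (P : HeckeAlg) :
    actHom p P = ((heckeEvalForms p 2 P : heckeAlgebra p 2 ∅) :
      Module.End ℂ (CuspForm (Gamma0 p) 2)) := rfl

theorem actHom_X_of_dvd {q : Nat.Primes} (h : (q : ℕ) ∣ p) :
    actHom p (MvPolynomial.X q) = CuspForm.heckeULin 2 h := by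
  rw [actHom_apply]
  have := heckeEvalForms_heckeGen_of_dvd (k := 2) h
  rw [show heckeGen q = MvPolynomial.X q from rfl] at this
  rw [this]
  rfl

theorem actHom_X_of_not_dvd {ℓ : Nat.Primes} (h : ¬ (ℓ : ℕ) ∣ p) :
    actHom p (MvPolynomial.X ℓ) = CuspForm.heckeTLin 2 ℓ.2 h := by
  rw [actHom_apply]
  have := heckeEvalForms_heckeGen_of_not_dvd (k := 2) h
  rw [show heckeGen ℓ = MvPolynomial.X ℓ from rfl] at this
  rw [this]
  rfl

theorem actHom_C (a : ℤ) (f : CuspForm (Gamma0 p) 2) :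
    actHom p (MvPolynomial.C a) f = a • f := by
  rw [actHom_apply, heckeEvalForms_C]
  simp

omit [Fact p.Prime] in
theorem qcLin_zsmul (n : ℕ) (a : ℤ) (f : CuspForm (Gamma0 p) 2) :
    qcLin p n (a • f) = (a : ℂ) * qcLin p n f := by
  rw [map_zsmul, zsmul_eq_mul]

/-- Hecke polynomials: `P_n` with `a_1(P_n f) = a_n(f)` whose Eisenstein eigenvalue is `σ'(n)`. -/
theorem exists_heckePoly (n : ℕ) (hn : 1 ≤ n) :
    ∃ P : HeckeAlg, (∀ f : CuspForm (Gamma0 p) 2, qcLin p 1 (actHom p P f) = qcLin p n f) ∧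
      MvPolynomial.aeval (eisensteinSystem p) P = (sigmaP p n : ℤ) := by
  have hp : p.Prime := Fact.out
  induction n using Nat.strong_induction_on with
  | _ n ih =>
    rcases eq_or_lt_of_le hn with h1 | h1
    · refine ⟨1, fun f => ?_, ?_⟩
      · rw [map_one, ← h1]; rfl
      · rw [map_one, ← h1, sigmaP_one p hp]; rfl
    · obtain ⟨q, hqdef⟩ : ∃ q : Nat.Primes, (q : ℕ) = n.minFac :=
        ⟨⟨n.minFac, Nat.minFac_prime (by omega)⟩, rfl⟩
      have hℓ : (q : ℕ).Prime := q.2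
      obtain ⟨m, hm⟩ : (q : ℕ) ∣ n := hqdef ▸ Nat.minFac_dvd n
      have hm0 : m ≠ 0 := by rintro rfl; omega
      have hmn : m < n := by
        rw [hm]; exact lt_mul_of_one_lt_left (Nat.pos_of_ne_zero hm0) hℓ.one_lt
      have hnm : n = m * (q : ℕ) := by rw [hm, mul_comm]
      obtain ⟨Pm, hPm1, hPm2⟩ := ih m hmn (Nat.pos_of_ne_zero hm0)
      by_cases hℓp : (q : ℕ) = p
      · have hdvd : (q : ℕ) ∣ p := hℓp ▸ dvd_rfl
        refine ⟨Pm * MvPolynomial.X q, fun f => ?_, ?_⟩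
        · rw [map_mul, Module.End.mul_apply, hPm1, actHom_X_of_dvd p hdvd, qcLin_apply,
            qc_heckeU hℓ hdvd, hnm]
          rfl
        · rw [map_mul, hPm2, MvPolynomial.aeval_X, eisensteinSystem_of_dvd hdvd, mul_one, hnm,
            hℓp, sigmaP_mul_self p m hp hm0]
      · have hndvd : ¬ (q : ℕ) ∣ p := fun h =>
          hℓp ((Nat.prime_dvd_prime_iff_eq hℓ hp).mp h)
        have hσ := sigmaP_mul_prime p q m hp hℓ hℓp hm0
        by_cases hℓm : (q : ℕ) ∣ m
        · obtain ⟨m', hm'⟩ := hℓm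
          have hm'0 : m' ≠ 0 := by rintro rfl; omega
          have hm'n : m' < n := by
            refine lt_of_le_of_lt ?_ hmn
            rw [hm']; exact Nat.le_mul_of_pos_left m' hℓ.pos
          obtain ⟨P', hP'1, hP'2⟩ := ih m' hm'n (Nat.pos_of_ne_zero hm'0)
          have hdiv : m / (q : ℕ) = m' := by rw [hm', Nat.mul_div_cancel_left m' hℓ.pos]
          have hℓm : (q : ℕ) ∣ m := ⟨m', hm'⟩
          refine ⟨Pm * MvPolynomial.X q - MvPolynomial.C ((q : ℕ) : ℤ) * P', fun f => ?_, ?_⟩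
          · rw [map_sub, LinearMap.sub_apply, map_sub, map_mul, map_mul, Module.End.mul_apply,
              Module.End.mul_apply, hPm1, actHom_X_of_not_dvd p hndvd, actHom_C, qcLin_zsmul,
              hP'1, qcLin_apply, qc_heckeT hℓ hndvd, if_pos hℓm, hdiv, hnm]
            simp only [qcLin_apply]
            push_cast
            ring
          · rw [map_sub, map_mul, map_mul, hPm2, hP'2, MvPolynomial.aeval_X, MvPolynomial.aeval_C,
              eisensteinSystem_of_not_dvd hndvd, hnm, hσ, if_pos hℓm, hdiv]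
            simp
            ring
        · refine ⟨Pm * MvPolynomial.X q, fun f => ?_, ?_⟩
          · rw [map_mul, Module.End.mul_apply, hPm1, actHom_X_of_not_dvd p hndvd, qcLin_apply,
              qc_heckeT hℓ hndvd, if_neg hℓm, add_zero, hnm]
            rfl
          · rw [map_mul, hPm2, MvPolynomial.aeval_X, eisensteinSystem_of_not_dvd hndvd, hnm, hσ,
              if_neg hℓm]
            simp
            ring


/-! ### The lattice, the Hecke algebra and the pairing -/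

/-- Integer `q`-coefficients on the integral lattice. -/
def aInt (j : ℕ) : ↥(intLattice p 2) →ₗ[ℤ] ℤ where
  toFun f := Classical.choose (qc_int_of_mem_intLattice f.2 j)
  map_add' f g := by
    apply Int.cast_injective (α := ℂ)
    rw [← Classical.choose_spec (qc_int_of_mem_intLattice (f + g).2 j), Int.cast_add,
      ← Classical.choose_spec (qc_int_of_mem_intLattice f.2 j),
      ← Classical.choose_spec (qc_int_of_mem_intLattice g.2 j), Submodule.coe_add, qc_add]
  map_smul' c f := by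
    apply Int.cast_injective (α := ℂ)
    rw [← Classical.choose_spec (qc_int_of_mem_intLattice (c • f).2 j), RingHom.id_apply,
      smul_eq_mul, Int.cast_mul, ← Classical.choose_spec (qc_int_of_mem_intLattice f.2 j),
      Submodule.coe_smul, ← qcLin_apply, qcLin_zsmul, qcLin_apply]

theorem aInt_spec (j : ℕ) (f : ↥(intLattice p 2)) :
    ((aInt p j f : ℤ) : ℂ) = qcLin p j (f : CuspForm (Gamma0 p) 2) :=
  (Classical.choose_spec (qc_int_of_mem_intLattice f.2 j)).symm

theorem aInt_zero (f : ↥(intLattice p 2)) : aInt p 0 f = 0 := by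
  apply Int.cast_injective (α := ℂ)
  rw [aInt_spec, qcLin_apply, qc_zero, Int.cast_zero]

theorem eq_zero_of_aInt (f : ↥(intLattice p 2)) (h : ∀ j, 1 ≤ j → aInt p j f = 0) : f = 0 := by
  apply Subtype.ext
  apply eq_zero_of_qc
  intro n
  rw [← qcLin_apply, ← aInt_spec]
  rcases Nat.eq_zero_or_pos n with rfl | hn
  · rw [aInt_zero, Int.cast_zero]
  · rw [h n hn, Int.cast_zero]

/-- The map from the abstract Hecke algebra to the integral Hecke algebra of level `p`. -/
def phi : HeckeAlg →+* ↥(heckeLatticeAlgebra p ∅) :=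
  (latticeRestrictHom p ∅).toRingHom.comp (heckeEvalForms p 2)

theorem phi_apply_coe (P : HeckeAlg) (f : ↥(intLattice p 2)) :
    ((((phi p P : ↥(heckeLatticeAlgebra p ∅)) : Module.End ℤ ↥(intLattice p 2)) f :
      ↥(intLattice p 2)) : CuspForm (Gamma0 p) 2) = actHom p P (f : CuspForm (Gamma0 p) 2) := rfl

theorem heckeEvalForms_surjective : Function.Surjective (heckeEvalForms p 2) := by
  have hp : p.Prime := Fact.out
  intro x
  obtain ⟨y, hy⟩ := x
  suffices h : ∀ (y : Module.End ℂ (CuspForm (Gamma0 p) 2)) (hy : y ∈ heckeAlgebra p 2 ∅),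
      ∃ P, heckeEvalForms p 2 P = ⟨y, hy⟩ from h y hy
  intro y hy
  unfold heckeAlgebra at hy
  induction hy using Algebra.adjoin_induction with
  | mem z hz =>
    rcases hz with ⟨ℓ, hℓ, hℓN, -, rfl⟩ | ⟨q, hqN, hq, -, rfl⟩
    · refine ⟨heckeGen ⟨ℓ, hℓ⟩, ?_⟩
      rw [heckeEvalForms_heckeGen_of_not_dvd (k := 2) (ℓ := ⟨ℓ, hℓ⟩) hℓN]
      rfl
    · refine ⟨heckeGen ⟨q, hq⟩, ?_⟩
      rw [heckeEvalForms_heckeGen_of_dvd (k := 2) (q := ⟨q, hq⟩) hqN]
      rfl
  | algebraMap r =>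
    refine ⟨MvPolynomial.C r, ?_⟩
    rw [heckeEvalForms_C]
    rfl
  | add a b ha hb iha ihb =>
    obtain ⟨P, hP⟩ := iha
    obtain ⟨Q, hQ⟩ := ihb
    refine ⟨P + Q, ?_⟩
    rw [map_add, hP, hQ]
    rfl
  | mul a b ha hb iha ihb =>
    obtain ⟨P, hP⟩ := iha
    obtain ⟨Q, hQ⟩ := ihb
    refine ⟨P * Q, ?_⟩
    rw [map_mul, hP, hQ]
    rfl

theorem phi_surjective : Function.Surjective (phi p) :=
  (latticeRestrictHom_surjective p ∅).comp (heckeEvalForms_surjective p)

/-- The image of the Eisenstein ideal in the integral Hecke algebra. -/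
abbrev eisJ : Ideal ↥(heckeLatticeAlgebra p ∅) := Ideal.map (phi p) (eisensteinIdeal p)

theorem mk_phi (P : HeckeAlg) :
    Ideal.Quotient.mk (eisJ p) (phi p P) =
      ((MvPolynomial.aeval (eisensteinSystem p) P : ℤ) : ↥(heckeLatticeAlgebra p ∅) ⧸ eisJ p) := by
  set a : ℤ := MvPolynomial.aeval (eisensteinSystem p) P with ha
  have hmem : P - MvPolynomial.C a ∈ eisensteinIdeal p := by
    unfold eisensteinIdeal
    rw [mem_eigenIdeal_iff, map_sub, MvPolynomial.aeval_C, ← ha]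
    simp
  have h1 : phi p (P - MvPolynomial.C a) ∈ eisJ p := Ideal.mem_map_of_mem _ hmem
  have h2 : phi p (MvPolynomial.C a) = (a : ↥(heckeLatticeAlgebra p ∅)) := by
    rw [show (MvPolynomial.C a : HeckeAlg) = ((a : ℤ) : HeckeAlg) from (map_intCast _ a), map_intCast]
  rw [map_sub, h2] at h1
  have h3 := (Ideal.Quotient.eq (I := eisJ p)).mpr h1
  rw [h3, map_intCast]

theorem intCast_surjective :
    Function.Surjective (Int.castRingHom (↥(heckeLatticeAlgebra p ∅) ⧸ eisJ p)) := by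
  intro x
  obtain ⟨t, rfl⟩ := Ideal.Quotient.mk_surjective x
  obtain ⟨P, rfl⟩ := phi_surjective p t
  exact ⟨_, (mk_phi p P).symm⟩

/-- The quotient by the Eisenstein ideal is `ℤ/k`, `k` its cardinality. -/
theorem exists_ker_eq_span :
    ∃ k : ℕ, RingHom.ker (Int.castRingHom (↥(heckeLatticeAlgebra p ∅) ⧸ eisJ p)) =
        Ideal.span {(k : ℤ)} ∧ Nat.card (↥(heckeLatticeAlgebra p ∅) ⧸ eisJ p) = k := by
  set K := RingHom.ker (Int.castRingHom (↥(heckeLatticeAlgebra p ∅) ⧸ eisJ p)) with hK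
  have hpr : K = Ideal.span {((Submodule.IsPrincipal.generator K).natAbs : ℤ)} := by
    rw [Int.span_natAbs, Ideal.span_singleton_generator]
  refine ⟨(Submodule.IsPrincipal.generator K).natAbs, hpr, ?_⟩
  set k := (Submodule.IsPrincipal.generator K).natAbs
  have e1 : (ℤ ⧸ K) ≃+* (↥(heckeLatticeAlgebra p ∅) ⧸ eisJ p) :=
    RingHom.quotientKerEquivOfSurjective (intCast_surjective p)
  have e2 : (ℤ ⧸ Ideal.span {(k : ℤ)}) ≃+* ZMod k := Int.quotientSpanNatEquivZMod k
  rw [← Nat.card_congr e1.toEquiv, hpr, Nat.card_congr e2.toEquiv, Nat.card_zmod]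


/-! ### Congruences force divisibility (lower bound direction) -/

omit [Fact p.Prime] in
theorem exists_smul_of_qc (m : ℕ) (hm : 0 < m) (g : CuspForm (Gamma0 p) 2)
    (h : ∀ j, ∃ b : ℤ, qcLin p j g = (m : ℂ) * b) :
    ∃ g' ∈ intLattice p 2, g = (m : ℤ) • g' := by
  have hm0 : (m : ℂ) ≠ 0 := by exact_mod_cast hm.ne'
  refine ⟨((m : ℂ)⁻¹) • g, mem_intLattice_of_qc_int (fun n => ?_), ?_⟩
  · obtain ⟨b, hb⟩ := h n
    refine ⟨b, ?_⟩
    rw [qc_smul, ← qcLin_apply, hb, ← mul_assoc, inv_mul_cancel₀ hm0, one_mul]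
  · rw [← Int.cast_smul_eq_zsmul ℂ, smul_smul, Int.cast_natCast, mul_inv_cancel₀ hm0, one_smul]

theorem dvd_of_eisCong (m : ℕ) (hm : 0 < m) (h : EisCong p m) (c : ℤ)
    (hc : ((c : ℤ) : ↥(heckeLatticeAlgebra p ∅) ⧸ eisJ p) = 0) : (m : ℤ) ∣ c := by
  have hp : p.Prime := Fact.out
  obtain ⟨f, a, ha, hcong⟩ := h
  have hfL : f ∈ intLattice p 2 := mem_intLattice_of_qc_int (fun n => ⟨a n, ha n⟩)
  have ha0 : a 0 = 0 := by
    apply Int.cast_injective (α := ℂ)
    rw [← ha 0, qc_zero, Int.cast_zero]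
  -- the submodule `m • L`
  have hMadd : ∀ g₁ g₂ : CuspForm (Gamma0 p) 2,
      (∃ g' ∈ intLattice p 2, g₁ = (m : ℤ) • g') → (∃ g' ∈ intLattice p 2, g₂ = (m : ℤ) • g') →
      ∃ g' ∈ intLattice p 2, g₁ + g₂ = (m : ℤ) • g' := by
    rintro g₁ g₂ ⟨x, hx, rfl⟩ ⟨y, hy, rfl⟩
    exact ⟨x + y, add_mem hx hy, (smul_add _ _ _).symm⟩
  have hMsmul : ∀ (e : ℤ) (g : CuspForm (Gamma0 p) 2),
      (∃ g' ∈ intLattice p 2, g = (m : ℤ) • g') → ∃ g' ∈ intLattice p 2, e • g = (m : ℤ) • g' := by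
    rintro e g ⟨x, hx, rfl⟩
    exact ⟨e • x, Submodule.smul_mem _ e hx, smul_comm _ _ _⟩
  have hMact : ∀ (P : HeckeAlg) (g : CuspForm (Gamma0 p) 2),
      (∃ g' ∈ intLattice p 2, g = (m : ℤ) • g') →
      ∃ g' ∈ intLattice p 2, actHom p P g = (m : ℤ) • g' := by
    rintro P g ⟨x, hx, rfl⟩
    exact ⟨actHom p P x, mem_intLattice_of_mem_heckeAlgebra one_le_two (heckeEvalForms p 2 P).2 hx,
      map_zsmul _ _ _⟩
  have hgen : ∀ q : Nat.Primes, ∃ g' ∈ intLattice p 2,
      actHom p (MvPolynomial.X q) f - (eisensteinSystem p q) • f = (m : ℤ) • g' := by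
    intro q
    apply exists_smul_of_qc p m hm
    intro j
    by_cases hq : (q : ℕ) ∣ p
    · have hqp : (q : ℕ) = p := (Nat.prime_dvd_prime_iff_eq q.2 hp).mp hq
      rw [map_sub, actHom_X_of_dvd p hq, qcLin_apply, qc_heckeU q.2 hq,
        eisensteinSystem_of_dvd hq, one_smul, qcLin_apply, ha, ha]
      rcases Nat.eq_zero_or_pos j with rfl | hj
      · exact ⟨0, by simp⟩
      · have h1 := hcong (j * q) (Nat.mul_pos hj q.2.pos)
        have h2 := hcong j hj
        rw [hqp, sigmaP_mul_self p j hp hj.ne'] at h1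
        rw [hqp]
        obtain ⟨b, hb⟩ := (Int.modEq_iff_dvd.mp (h1.trans h2.symm).symm)
        refine ⟨b, ?_⟩
        rw [← Int.cast_sub, hb]
        push_cast
        ring
    · have hqp : (q : ℕ) ≠ p := fun h => hq (h ▸ dvd_rfl)
      rw [map_sub, actHom_X_of_not_dvd p hq, qcLin_apply, qc_heckeT q.2 hq,
        eisensteinSystem_of_not_dvd hq, qcLin_zsmul, qcLin_apply]
      simp only [ha]
      rcases Nat.eq_zero_or_pos j with rfl | hj
      · refine ⟨0, ?_⟩
        rw [zero_mul, if_pos (dvd_zero _), Nat.zero_div, ha0]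
        simp
      · have h1 := hcong (j * q) (Nat.mul_pos hj q.2.pos)
        have h2 := hcong j hj
        have hσ := sigmaP_mul_prime p q j hp q.2 hqp hj.ne'
        by_cases hqj : (q : ℕ) ∣ j
        · rw [if_pos hqj]
          rw [if_pos hqj] at hσ
          have hj' : 1 ≤ j / (q : ℕ) := Nat.div_pos (Nat.le_of_dvd hj hqj) q.2.pos
          have h3 := hcong (j / q) hj'
          have hmod : a (j * q) + (q : ℤ) * a (j / q) - (1 + (q : ℤ)) * a j ≡ 0 [ZMOD (m : ℤ)] := by
            have := ((h1.add (h3.mul_left (q : ℤ))).sub (h2.mul_left (1 + (q : ℤ))))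
            refine this.trans ?_
            rw [hσ]
            ring_nf
            rfl
          obtain ⟨b, hb⟩ := Int.modEq_zero_iff_dvd.mp hmod
          refine ⟨b, ?_⟩
          have hb' := congrArg (Int.cast : ℤ → ℂ) hb
          push_cast at hb' ⊢
          linear_combination hb'
        · rw [if_neg hqj, add_zero]
          rw [if_neg hqj, sub_zero] at hσ
          have hmod : a (j * q) - (1 + (q : ℤ)) * a j ≡ 0 [ZMOD (m : ℤ)] := by
            have := (h1.sub (h2.mul_left (1 + (q : ℤ))))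
            refine this.trans ?_
            rw [hσ]
            ring_nf
            rfl
          obtain ⟨b, hb⟩ := Int.modEq_zero_iff_dvd.mp hmod
          refine ⟨b, ?_⟩
          have hb' := congrArg (Int.cast : ℤ → ℂ) hb
          push_cast at hb' ⊢
          linear_combination hb'
  have hall : ∀ P : HeckeAlg, ∃ g' ∈ intLattice p 2,
      actHom p P f - (MvPolynomial.aeval (eisensteinSystem p) P : ℤ) • f = (m : ℤ) • g' := by
    intro P
    induction P using MvPolynomial.induction_on with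
    | C e =>
      refine ⟨0, zero_mem _, ?_⟩
      rw [actHom_C, MvPolynomial.aeval_C, smul_zero]
      exact sub_self _
    | add P Q hP hQ =>
      have := hMadd _ _ hP hQ
      rw [map_add, map_add, LinearMap.add_apply, add_smul]
      convert this using 2
      abel_nf
    | mul_X P q hP =>
      have := hMadd _ _ (hMact P _ (hgen q)) (hMsmul (eisensteinSystem p q) _ hP)
      rw [map_mul, map_mul, Module.End.mul_apply, MvPolynomial.aeval_X]
      convert this using 2
      rw [map_sub, map_zsmul, smul_sub, smul_smul, mul_comm]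
      abel_nf
  have hcJ : ((c : ℤ) : ↥(heckeLatticeAlgebra p ∅)) ∈ eisJ p := by
    apply Ideal.Quotient.eq_zero_iff_mem.mp
    rw [map_intCast]
    exact hc
  obtain ⟨P, hP, hPc⟩ := (Ideal.mem_map_iff_of_surjective (phi p) (phi_surjective p)).mp hcJ
  have haev : MvPolynomial.aeval (eisensteinSystem p) P = 0 := (mem_eigenIdeal_iff _ _).mp hP
  have h1 := hall P
  rw [haev, zero_smul, sub_zero] at h1
  have h2 : actHom p P f = c • f := by
    have h := phi_apply_coe p P ⟨f, hfL⟩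
    rw [hPc] at h
    rw [← h]
    simp
  obtain ⟨g', hg', hg'eq⟩ := h1
  obtain ⟨b, hb⟩ := qc_int_of_mem_intLattice hg' 1
  have h3 : (c : ℂ) * a 1 = (m : ℂ) * b := by
    have h := congrArg (qcLin p 1) (h2.symm.trans hg'eq)
    rw [qcLin_zsmul, qcLin_zsmul, qcLin_apply, qcLin_apply, ha 1, hb] at h
    exact_mod_cast h
  have hZ : c * a 1 = (m : ℤ) * b := by exact_mod_cast h3
  have h11 := hcong 1 le_rfl
  rw [sigmaP_one p hp] at h11
  obtain ⟨e, he⟩ := Int.modEq_iff_dvd.mp h11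
  refine ⟨b + c * e, ?_⟩
  push_cast at he
  linear_combination hZ + c * he

/-! ### Duality (upper bound direction) -/

/-- The pairing `(t, f) ↦ a_1(t f)`. -/
def pair : ↥(heckeLatticeAlgebra p ∅) →ₗ[ℤ] Module.Dual ℤ ↥(intLattice p 2) where
  toFun t := (aInt p 1).comp (t : Module.End ℤ ↥(intLattice p 2))
  map_add' s t := by
    ext f
    simp
  map_smul' c t := by
    ext f
    simp

theorem pair_apply (t : ↥(heckeLatticeAlgebra p ∅)) (f : ↥(intLattice p 2)) :
    pair p t f = aInt p 1 ((t : Module.End ℤ ↥(intLattice p 2)) f) := rfl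

theorem exists_pair_eq_aInt (j : ℕ) (hj : 1 ≤ j) :
    ∃ t : ↥(heckeLatticeAlgebra p ∅), ∀ f, pair p t f = aInt p j f := by
  obtain ⟨P, hP, -⟩ := exists_heckePoly p j hj
  refine ⟨phi p P, fun f => ?_⟩
  apply Int.cast_injective (α := ℂ)
  rw [pair_apply, aInt_spec, phi_apply_coe, hP, aInt_spec]

theorem pair_injective : Function.Injective (pair p) := by
  refine (injective_iff_map_eq_zero _).mpr fun t ht => ?_
  apply Subtype.ext
  refine LinearMap.ext fun f => ?_
  refine eq_zero_of_aInt p _ fun j hj => ?_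
  obtain ⟨s, hs⟩ := exists_pair_eq_aInt p j hj
  rw [← hs, pair_apply]
  have h1 : (s : Module.End ℤ ↥(intLattice p 2)) ((t : Module.End ℤ ↥(intLattice p 2)) f) =
      (t : Module.End ℤ ↥(intLattice p 2)) ((s : Module.End ℤ ↥(intLattice p 2)) f) := by
    have h := congrArg (fun u : ↥(heckeLatticeAlgebra p ∅) =>
      (u : Module.End ℤ ↥(intLattice p 2)) f) (mul_comm s t)
    simpa using h
  rw [h1, ← pair_apply, ht]
  rfl

theorem flip_injective : Function.Injective (pair p).flip := by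
  refine (injective_iff_map_eq_zero _).mpr fun f hf => ?_
  refine eq_zero_of_aInt p _ fun j hj => ?_
  obtain ⟨s, hs⟩ := exists_pair_eq_aInt p j hj
  rw [← hs]
  exact LinearMap.congr_fun hf s

theorem finrank_dual_int (M : Type) [AddCommGroup M] [Module ℤ M] [Module.Free ℤ M]
    [Module.Finite ℤ M] : Module.finrank ℤ (Module.Dual ℤ M) = Module.finrank ℤ M :=
  (LinearEquiv.finrank_eq (Module.Free.chooseBasis ℤ M).toDualEquiv).symm

theorem finrank_lattice_eq :
    Module.finrank ℤ ↥(intLattice p 2) = Module.finrank ℤ ↥(heckeLatticeAlgebra p ∅) := by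
  have := intLattice.moduleFinite p
  have := intLattice.moduleFree p
  apply le_antisymm
  · rw [← finrank_dual_int ↥(heckeLatticeAlgebra p ∅)]
    exact LinearMap.finrank_le_finrank_of_injective (flip_injective p)
  · rw [← finrank_dual_int ↥(intLattice p 2)]
    exact LinearMap.finrank_le_finrank_of_injective (pair_injective p)

theorem exists_nsmul_mem_range {M N : Type} [AddCommGroup M] [instM : Module ℤ M]
    [AddCommGroup N] [instN : Module ℤ N] [Module.Free ℤ N] [Module.Finite ℤ N] (Θ : M →ₗ[ℤ] N)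
    (hinj : Function.Injective Θ) (hrank : Module.finrank ℤ M = Module.finrank ℤ N) (ξ : N) :
    ∃ d : ℕ, 0 < d ∧ ∃ x : M, Θ x = d • ξ := by
  obtain rfl : instM = AddCommGroup.toIntModule M := Subsingleton.elim _ _
  obtain rfl : instN = AddCommGroup.toIntModule N := Subsingleton.elim _ _
  have hr : Module.finrank ℤ ↥(LinearMap.range Θ) = Module.finrank ℤ N := by
    rw [LinearMap.finrank_range_of_inj hinj, hrank]
  have hfin : Finite (N ⧸ LinearMap.range Θ) := Submodule.finiteQuotientOfFreeOfRankEq _ hr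
  refine ⟨Nat.card (N ⧸ LinearMap.range Θ), Nat.card_pos, ?_⟩
  have h := card_nsmul_eq_zero' (G := N ⧸ LinearMap.range Θ) (x := Submodule.Quotient.mk ξ)
  rw [← Submodule.Quotient.mk_smul] at h
  exact (Submodule.Quotient.mk_eq_zero _).mp h


set_option maxHeartbeats 1000000 in
/-- Duality: every additive functional on the Hecke algebra is `t ↦ a_1(t f)`. -/
theorem exists_form_of_dual (ξ : ↥(heckeLatticeAlgebra p ∅) →ₗ[ℤ] ℤ) :
    ∃ f : ↥(intLattice p 2), ∀ t, pair p t f = ξ t := by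
  have hrank : Module.finrank ℤ ↥(intLattice p 2) =
      Module.finrank ℤ (Module.Dual ℤ ↥(heckeLatticeAlgebra p ∅)) := by
    rw [finrank_dual_int, finrank_lattice_eq]
  obtain ⟨d, hd0, f, hf⟩ := exists_nsmul_mem_range (pair p).flip (flip_injective p) hrank ξ
  -- all coefficients of `f` are divisible by `d`
  have hdiv : ∀ j, ∃ b : ℤ, qcLin p j (f : CuspForm (Gamma0 p) 2) = (d : ℂ) * b := by
    intro j
    rcases Nat.eq_zero_or_pos j with rfl | hj
    · exact ⟨0, by rw [qcLin_apply, qc_zero]; simp⟩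
    · obtain ⟨s, hs⟩ := exists_pair_eq_aInt p j hj
      refine ⟨ξ s, ?_⟩
      rw [← aInt_spec, ← hs]
      have h : pair p s f = (d • ξ) s := by
        rw [← hf]; rfl
      rw [h, LinearMap.smul_apply, nsmul_eq_mul]
      push_cast
      ring
  obtain ⟨g, hg, hgf⟩ := exists_smul_of_qc p d hd0 _ hdiv
  refine ⟨⟨g, hg⟩, fun t => ?_⟩
  have hfg : f = (d : ℤ) • (⟨g, hg⟩ : ↥(intLattice p 2)) := Subtype.ext hgf
  have h : pair p t f = (d • ξ) t := by
    rw [← hf]; rfl
  rw [hfg, map_zsmul, LinearMap.smul_apply] at h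
  have h' : (d : ℤ) * pair p t ⟨g, hg⟩ = (d : ℤ) * ξ t := by
    rw [← smul_eq_mul, h, nsmul_eq_mul]
  exact mul_left_cancel₀ (by exact_mod_cast hd0.ne') h'


/-- A ring which is a quotient of `ℤ` maps to `ℤ/m` as soon as its kernel lies in `mℤ`. -/
theorem exists_ringHom_zmod {Q : Type} [CommRing Q]
    (hs : Function.Surjective (Int.castRingHom Q)) (m : ℕ)
    (h : ∀ c : ℤ, ((c : ℤ) : Q) = 0 → (m : ℤ) ∣ c) :
    ∃ ψ' : Q →+* ZMod m, ∀ a : ℤ, ψ' ((a : ℤ) : Q) = ((a : ℤ) : ZMod m) := by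
  have hle : RingHom.ker (Int.castRingHom Q) ≤ RingHom.ker (Int.castRingHom (ZMod m)) := by
    intro a ha
    rw [RingHom.mem_ker, eq_intCast] at ha ⊢
    exact (ZMod.intCast_zmod_eq_zero_iff_dvd a m).mpr (h a ha)
  refine ⟨(Int.castRingHom Q).liftOfSurjective hs ⟨Int.castRingHom (ZMod m), hle⟩, fun a => ?_⟩
  have h1 := RingHom.liftOfSurjective_comp_apply (Int.castRingHom Q) hs
    ⟨Int.castRingHom (ZMod m), hle⟩ a
  rw [eq_intCast] at h1
  rw [h1]
  exact eq_intCast _ a

/-- An additive lift to `ℤ` of a ring homomorphism from a free `ℤ`-module to `ℤ/m`. -/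
theorem exists_lift_zmod {T : Type} [CommRing T] [inst : Module ℤ T] [Module.Free ℤ T] (m : ℕ)
    (ψ : T →+* ZMod m) : ∃ ξ : T →ₗ[ℤ] ℤ, ∀ t, ((ξ t : ℤ) : ZMod m) = ψ t := by
  obtain rfl : inst = AddCommGroup.toIntModule T := Subsingleton.elim _ _
  have hfs : Function.Surjective (Int.castAddHom (ZMod m)).toIntLinearMap :=
    ZMod.intCast_surjective
  obtain ⟨ξ, hξ⟩ := Module.projective_lifting_property (Int.castAddHom (ZMod m)).toIntLinearMap
    ψ.toAddMonoidHom.toIntLinearMap hfs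
  exact ⟨ξ, fun t => LinearMap.congr_fun hξ t⟩

set_option maxHeartbeats 1000000 in
/-- Upper bound direction: if the kernel of `ℤ → 𝕋/I` lies in `mℤ`, an Eisenstein congruence
modulo `m` exists. -/
theorem eisCong_of_ker_le (m : ℕ)
    (h : ∀ c : ℤ, ((c : ℤ) : ↥(heckeLatticeAlgebra p ∅) ⧸ eisJ p) = 0 → (m : ℤ) ∣ c) :
    EisCong p m := by
  obtain ⟨ψ', hψ'⟩ := exists_ringHom_zmod (intCast_surjective p) m h
  obtain ⟨ξ, hξ⟩ := exists_lift_zmod m (ψ'.comp (Ideal.Quotient.mk (eisJ p)))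
  obtain ⟨fL, hfL⟩ := exists_form_of_dual p ξ
  refine ⟨(fL : CuspForm (Gamma0 p) 2), fun j => aInt p j fL, fun j => (aInt_spec p j fL).symm,
    fun j hj => ?_⟩
  obtain ⟨P, hP1, hP2⟩ := exists_heckePoly p j hj
  have h1 : aInt p j fL = ξ (phi p P) := by
    rw [← hfL]
    apply Int.cast_injective (α := ℂ)
    rw [aInt_spec, pair_apply, aInt_spec, phi_apply_coe, hP1]
  have h2 := hξ (phi p P)
  rw [RingHom.comp_apply, mk_phi, hψ', hP2, ← h1] at h2
  exact (ZMod.intCast_eq_intCast_iff _ _ _).mp h2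

/-- **Slice R.** The index of the Eisenstein ideal equals `eisensteinNumerator p` as soon as the
Eisenstein congruence exists modulo `n` and every modulus carrying such a congruence divides
`n`. -/
theorem card_eq_of_bounds
    (hLB : EisCong p (eisensteinNumerator p))
    (hUB : ∀ m : ℕ, 0 < m → EisCong p m → m ∣ eisensteinNumerator p) :
    Nat.card (↥(heckeLatticeAlgebra p ∅) ⧸
        Ideal.map ((latticeRestrictHom p ∅).toRingHom.comp (heckeEvalForms p 2))
          (eisensteinIdeal p)) =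
      eisensteinNumerator p := by
  have hp : p.Prime := Fact.out
  obtain ⟨k, hk, hcard⟩ := exists_ker_eq_span p
  show Nat.card (↥(heckeLatticeAlgebra p ∅) ⧸ eisJ p) = eisensteinNumerator p
  rw [hcard]
  have hn0 : 0 < eisensteinNumerator p := by
    unfold eisensteinNumerator
    have h2 := hp.two_le
    exact Nat.div_pos (Nat.le_of_dvd (by omega) (Nat.gcd_dvd_left _ _))
      (Nat.gcd_pos_of_pos_left _ (by omega))
  have hker : ∀ c : ℤ, ((c : ℤ) : ↥(heckeLatticeAlgebra p ∅) ⧸ eisJ p) = 0 ↔ (k : ℤ) ∣ c := by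
    intro c
    rw [← eq_intCast (Int.castRingHom (↥(heckeLatticeAlgebra p ∅) ⧸ eisJ p)) c, ← RingHom.mem_ker,
      hk, Ideal.mem_span_singleton]
  have h1 : eisensteinNumerator p ∣ k := by
    have h := dvd_of_eisCong p _ hn0 hLB (k : ℤ) ((hker _).mpr dvd_rfl)
    exact_mod_cast h
  have h2 : ∀ m : ℕ, 0 < m → m ∣ k → m ∣ eisensteinNumerator p := fun m hm hmk =>
    hUB m hm (eisCong_of_ker_le p m fun c hc =>
      (Int.natCast_dvd_natCast.mpr hmk).trans ((hker c).mp hc))
  rcases Nat.eq_zero_or_pos k with rfl | hk0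
  · have h3 := h2 (eisensteinNumerator p + 1) (Nat.succ_pos _) (dvd_zero _)
    have h4 := Nat.le_of_dvd hn0 h3
    omega
  · exact Nat.dvd_antisymm (h2 k hk0 dvd_rfl) h1

end Fermat.Agent.S16.Reduce
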