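/-
S16, slice L0: the primes `p = 2` and `p = 3`.

Every weight-2 cusp form on `Γ₀(2)` or `Γ₀(3)` vanishes (Sturm bound of the prelude: the index of
`Γ₀(p)` is at most `4`, so only the constant coefficient has to vanish).  Hence both targets of
the reduction (`EisCong p (eisensteinNumerator p)` and `EisCong p m → m ∣ eisensteinNumerator p`)
hold trivially for these two primes, where `eisensteinNumerator p = 1`.
-/
import Fermat.Agent.S16.Defs
import Fermat.Prelude.Thm_ModularForm_sturm_bound_Gamma0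
import Fermat.Prelude.Thm_CongruenceSubgroup_one_mem_strictPeriods_Gamma0
import Fermat.Prelude.Def_ModularCurve_ModularUnit

set_option autoImplicit false

open CuspForm ModularFormClass UpperHalfPlane ModularForm
open scoped MatrixGroups

namespace Fermat.Agent.S16.Small

/-- The matrix `[[1,0],[c,1]]` in `SL(2, ℤ)`. -/
def lowerUnip (c : ℤ) : SL(2, ℤ) := ⟨!![1, 0; c, 1], by simp [Matrix.det_fin_two]⟩

theorem inv_mul_apply_one_zero (h g : SL(2, ℤ)) :
    (h⁻¹ * g) 1 0 = h 0 0 * g 1 0 - h 1 0 * g 0 0 := by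
  rw [Matrix.SpecialLinearGroup.coe_mul, Matrix.SpecialLinearGroup.coe_inv,
    Matrix.adjugate_fin_two, Matrix.mul_apply, Fin.sum_univ_two]
  simp
  ring

theorem inv_mul_mem_gamma0_iff (N : ℕ) (h g : SL(2, ℤ)) :
    h⁻¹ * g ∈ CongruenceSubgroup.Gamma0 N ↔ (N : ℤ) ∣ h 0 0 * g 1 0 - h 1 0 * g 0 0 := by
  rw [CongruenceSubgroup.Gamma0_mem, inv_mul_apply_one_zero]
  exact (ZMod.intCast_zmod_eq_zero_iff_dvd _ N)

/-- For `p ∈ {2, 3}` the group `Γ₀(p)` has index at most `4` in `SL(2, ℤ)`. -/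
theorem gamma0_index_le (p : ℕ) (hp : p = 2 ∨ p = 3) : (CongruenceSubgroup.Gamma0 p).index ≤ 4 := by
  classical
  let F : Fin 4 → SL(2, ℤ) ⧸ CongruenceSubgroup.Gamma0 p :=
    ![((1 : SL(2, ℤ)) : SL(2, ℤ) ⧸ CongruenceSubgroup.Gamma0 p),
      ((ModularGroup.S : SL(2, ℤ)) : SL(2, ℤ) ⧸ CongruenceSubgroup.Gamma0 p),
      ((lowerUnip 1 : SL(2, ℤ)) : SL(2, ℤ) ⧸ CongruenceSubgroup.Gamma0 p),
      ((lowerUnip 2 : SL(2, ℤ)) : SL(2, ℤ) ⧸ CongruenceSubgroup.Gamma0 p)]
  have h100 : (1 : SL(2, ℤ)) 0 0 = 1 := by simp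
  have h110 : (1 : SL(2, ℤ)) 1 0 = 0 := by simp
  have hS00 : (ModularGroup.S : SL(2, ℤ)) 0 0 = 0 := by simp [ModularGroup.S]
  have hS10 : (ModularGroup.S : SL(2, ℤ)) 1 0 = 1 := by simp [ModularGroup.S]
  have hL00 : ∀ c : ℤ, (lowerUnip c : SL(2, ℤ)) 0 0 = 1 := fun c => by simp [lowerUnip]
  have hL10 : ∀ c : ℤ, (lowerUnip c : SL(2, ℤ)) 1 0 = c := fun c => by simp [lowerUnip]
  have hF : Function.Surjective F := by
    intro q
    induction q using QuotientGroup.induction_on with
    | H g =>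
      by_cases hc : (p : ℤ) ∣ g 1 0
      · refine ⟨0, ?_⟩
        show ((1 : SL(2, ℤ)) : SL(2, ℤ) ⧸ CongruenceSubgroup.Gamma0 p) = g
        rw [QuotientGroup.eq, inv_mul_mem_gamma0_iff, h100, h110]
        simpa using hc
      · by_cases ha : (p : ℤ) ∣ g 0 0
        · refine ⟨1, ?_⟩
          show ((ModularGroup.S : SL(2, ℤ)) : SL(2, ℤ) ⧸ CongruenceSubgroup.Gamma0 p) = g
          rw [QuotientGroup.eq, inv_mul_mem_gamma0_iff, hS00, hS10]
          simpa using ha
        · by_cases h1 : (p : ℤ) ∣ g 1 0 - g 0 0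
          · refine ⟨2, ?_⟩
            show ((lowerUnip 1 : SL(2, ℤ)) : SL(2, ℤ) ⧸ CongruenceSubgroup.Gamma0 p) = g
            rw [QuotientGroup.eq, inv_mul_mem_gamma0_iff, hL00, hL10]
            simpa using h1
          · refine ⟨3, ?_⟩
            show ((lowerUnip 2 : SL(2, ℤ)) : SL(2, ℤ) ⧸ CongruenceSubgroup.Gamma0 p) = g
            rw [QuotientGroup.eq, inv_mul_mem_gamma0_iff, hL00, hL10]
            rcases hp with rfl | rfl
            · exfalso
              push_cast at hc ha h1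
              omega
            · push_cast at hc ha h1 ⊢
              have hb : g 0 0 % 3 = 1 ∨ g 0 0 % 3 = 2 := by omega
              have ha' : g 1 0 % 3 = 1 ∨ g 1 0 % 3 = 2 := by omega
              rcases hb with hb | hb <;> rcases ha' with ha' | ha' <;> omega
  have := Nat.card_le_card_of_surjective F hF
  simpa [Subgroup.index] using this

/-- Every weight-2 cusp form on `Γ₀(2)` or `Γ₀(3)` is zero. -/
theorem cuspForm_eq_zero (p : ℕ) (hp : p = 2 ∨ p = 3)
    (f : CuspForm (CongruenceSubgroup.Gamma0 p) 2) : f = 0 := by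
  have : NeZero p := ⟨by rcases hp with rfl | rfl <;> norm_num⟩
  have h0 : (ModularFormClass.modularForm f :
      ModularForm (Subgroup.map (Matrix.SpecialLinearGroup.mapGL ℝ)
        (CongruenceSubgroup.Gamma0 p)) 2) = 0 := by
    apply ModularForm.sturm_bound_Gamma0 p
    intro n hn
    have hidx := gamma0_index_le p hp
    have hn0 : n = 0 := by
      have h12 : ((2 : ℤ) * (((CongruenceSubgroup.Gamma0 p).index : ℕ) : ℤ)).toNat
          = 2 * (CongruenceSubgroup.Gamma0 p).index := by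
        omega
      rw [h12] at hn
      omega
    subst hn0
    exact CuspFormClass.qExpansion_coeff_zero f one_pos
      (CongruenceSubgroup.one_mem_strictPeriods_Gamma0 p)
  ext z
  have hz := DFunLike.congr_fun h0 z
  simpa using hz

theorem qCoeff_zero_cuspForm (N : ℕ) (j : ℕ) :
    ModularFormClass.qCoeff (0 : CuspForm (CongruenceSubgroup.Gamma0 N) 2) j = 0 := by
  have hcoe : ((0 : CuspForm (CongruenceSubgroup.Gamma0 N) 2) : ℍ → ℂ) = (0 : ℍ → ℂ) := rfl
  rw [ModularFormClass.qCoeff, hcoe, qExpansion_zero]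
  simp

theorem eisensteinNumerator_small (p : ℕ) (hp : p = 2 ∨ p = 3) :
    ModularCurve.eisensteinNumerator p = 1 := by
  rcases hp with rfl | rfl <;> decide

theorem sigmaP_one (p : ℕ) (hp : 2 ≤ p) : sigmaP p 1 = 1 := by
  have h : ¬ p ∣ 1 := fun h => by
    have := Nat.le_of_dvd one_pos h
    omega
  rw [sigmaP, Nat.divisors_one, Finset.filter_singleton, if_pos h, Finset.sum_singleton]

/-- Lower bound target for `p ∈ {2, 3}` (the modulus is `1`). -/
theorem eisCong_numerator (p : ℕ) (hp : p = 2 ∨ p = 3) :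
    EisCong p (ModularCurve.eisensteinNumerator p) := by
  refine ⟨0, fun _ => 0, fun j => ?_, fun j _ => ?_⟩
  · rw [qCoeff_zero_cuspForm]; simp
  · rw [eisensteinNumerator_small p hp]
    exact Int.modEq_one

/-- Upper bound target for `p ∈ {2, 3}`: a congruence modulo `m` forces `m = 1`. -/
theorem dvd_numerator_of_eisCong (p : ℕ) (hp : p = 2 ∨ p = 3) (m : ℕ) (_hm : 0 < m)
    (h : EisCong p m) : m ∣ ModularCurve.eisensteinNumerator p := by
  obtain ⟨f, a, ha, hcong⟩ := h
  have hf : f = 0 := cuspForm_eq_zero p hp f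
  subst hf
  have ha1 : a 1 = 0 := by
    have h1 := ha 1
    rw [qCoeff_zero_cuspForm] at h1
    exact_mod_cast h1.symm
  have h2 : 2 ≤ p := by rcases hp with rfl | rfl <;> norm_num
  have hc := hcong 1 le_rfl
  rw [ha1, sigmaP_one p h2] at hc
  have hdvd : (m : ℤ) ∣ 1 := by
    have := hc.symm.dvd
    simpa using this
  rw [eisensteinNumerator_small p hp]
  exact_mod_cast hdvd

end Fermat.Agent.S16.Small

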