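/-
S16, slice COS, interface file: the statements of `Fermat/Agent/S16/Cos.lean` in the exact shapes of
the central S16 interface (explicit weight argument, `T ^ (j : ℤ)`, pointwise forms).
-/
import Mathlib
import Fermat.Agent.S16.Cos

set_option autoImplicit false

noncomputable section

open scoped MatrixGroups ModularForm Manifold
open UpperHalfPlane CongruenceSubgroup Matrix.SpecialLinearGroup

namespace Fermat.Agent.S16

variable (p : ℕ) [Fact p.Prime]

/-- Coset decomposition `SL(2,ℤ) = Γ₀(p) ⊔ ⨆_{j<p} Γ₀(p) S T^j` (integer exponent form). -/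
theorem coset_cases (γ : SL(2, ℤ)) :
    γ ∈ Gamma0 p ∨ ∃ γ₀ ∈ Gamma0 p, ∃ j < p,
      γ = γ₀ * ModularGroup.S * ModularGroup.T ^ (j : ℤ) := by
  rcases Cos.exists_coset p γ with h | ⟨γ₀, h₀, j, hj, rfl⟩
  · exact Or.inl h
  · exact Or.inr ⟨γ₀, h₀, j, hj, by rw [zpow_natCast]⟩

/-- The norm of a level-`p` form of weight `w`, a level-one form of weight `w (p + 1)`. -/
def normForm (w : ℤ) (Φ : ModularForm (Gamma0 p) w) : ModularForm 𝒮ℒ (w * (p + 1)) :=
  Cos.normForm p Φ

theorem normForm_apply (w : ℤ) (Φ : ModularForm (Gamma0 p) w) (τ : ℍ) :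
    normForm p w Φ τ = Φ τ * ∏ j ∈ Finset.range p,
      ((Φ : ℍ → ℂ) ∣[w] (ModularGroup.S * ModularGroup.T ^ (j : ℤ))) τ := by
  rw [normForm, Cos.normForm_apply]
  simp only [zpow_natCast]

/-- The trace of a level-`p` form of weight `k`, a level-one form of weight `k`. -/
def traceForm (k : ℤ) (F : ModularForm (Gamma0 p) k) : ModularForm 𝒮ℒ k :=
  Cos.traceForm p F

theorem traceForm_apply (k : ℤ) (F : ModularForm (Gamma0 p) k) (τ : ℍ) :
    traceForm p k F τ = F τ + ∑ j ∈ Finset.range p,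
      ((F : ℍ → ℂ) ∣[k] (ModularGroup.S * ModularGroup.T ^ (j : ℤ))) τ := by
  rw [traceForm, Cos.traceForm_apply]
  simp only [zpow_natCast]

theorem coe_traceForm (k : ℤ) (F : ModularForm (Gamma0 p) k) :
    (⇑(traceForm p k F) : ℍ → ℂ) = ⇑F + ∑ j ∈ Finset.range p,
      (⇑F) ∣[k] (ModularGroup.S * ModularGroup.T ^ j) :=
  Cos.coe_traceForm p F

/-- The trace exists in every weight (the shape used by the `Δ`-trick). -/
theorem exists_traceForm (k : ℤ) (F : ModularForm (Gamma0 p) k) :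
    ∃ T : ModularForm 𝒮ℒ k, (⇑T : ℍ → ℂ) = ⇑F + ∑ j ∈ Finset.range p,
      (⇑F) ∣[k] (ModularGroup.S * ModularGroup.T ^ j) :=
  ⟨Cos.traceForm p F, Cos.coe_traceForm p F⟩

/-- Weight two: the trace vanishes (pointwise, integer exponent form). -/
theorem traceZero (F : ModularForm (Gamma0 p) 2) (τ : ℍ) :
    F τ + ∑ j ∈ Finset.range p,
      ((F : ℍ → ℂ) ∣[(2 : ℤ)] (ModularGroup.S * ModularGroup.T ^ (j : ℤ))) τ = 0 := by
  have h := Cos.traceZero_apply p F τ
  simpa only [zpow_natCast] using h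

/-- Weight two: the trace vanishes (function form, `GL`-slash). -/
theorem traceZero_mapGL (F : ModularForm (Gamma0 p) 2) :
    ⇑F + ∑ j ∈ Finset.range p,
      (⇑F) ∣[(2 : ℤ)] (mapGL ℝ (ModularGroup.S * ModularGroup.T ^ j)) = 0 :=
  Cos.traceZero p F

end Fermat.Agent.S16
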