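/-
S16, slice COS, glue: the coset file discharges the hypotheses `AtkinLehner.TraceZero p`
(Atkin–Lehner slice) and `NormHyp p` (master slice).
-/
import Mathlib
import Fermat.Agent.S16.Coset
import Fermat.Agent.S16.AtkinLehner
import Fermat.Agent.S16.Master

set_option autoImplicit false

noncomputable section

open scoped MatrixGroups ModularForm Manifold
open UpperHalfPlane CongruenceSubgroup Matrix.SpecialLinearGroup

namespace Fermat.Agent.S16.CosetGlue

variable (p : ℕ) [Fact p.Prime]

/-- The trace hypothesis of the Atkin–Lehner slice holds. -/
theorem traceZero : AtkinLehner.TraceZero p :=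
  fun F => Fermat.Agent.S16.traceZero_mapGL p F

/-- The norm hypothesis of the master slice holds. -/
theorem normHyp : NormHyp p :=
  fun w Φ => ⟨normForm p w Φ, normForm_apply p w Φ⟩

end Fermat.Agent.S16.CosetGlue
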