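/-
S16, leaf for slice PH (glue step 4): the cotangent at a real point in terms of the exponential,

  `π cot(π y) / (2 π i) = (z + 1) / (2 (z - 1))`,   `z = exp(2 π i y)`,

the fact `z ≠ 1` for `y ∉ ℤ`, and the specialisation to `y = x.val / N`, `x : ZMod N`, where
`z = ZMod.stdAddChar x`.  Mathlib only.
-/
import Mathlib

set_option autoImplicit false

noncomputable section

open Complex
open scoped Real

namespace Fermat.Agent.S16.CotExp

/-- `π cot(π w) / (2 π i) = (z + 1) / (2 (z - 1))` with `z = exp(2 π i w)`, for every complex `w`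
(both sides are `0` at the integers, where `z = 1`). -/
theorem pi_cot_div (w : ℂ) :
    (π : ℂ) * Complex.cot (π * w) / (2 * π * I)
      = (Complex.exp (2 * π * I * w) + 1) / (2 * (Complex.exp (2 * π * I * w) - 1)) := by
  rw [Complex.cot_pi_eq_exp_ratio]
  have hpi : (π : ℂ) ≠ 0 := by exact_mod_cast Real.pi_ne_zero
  have hI : (I : ℂ) ≠ 0 := I_ne_zero
  by_cases h : Complex.exp (2 * π * I * w) = 1
  · rw [h]; simp
  · have h1 : Complex.exp (2 * π * I * w) - 1 ≠ 0 := sub_ne_zero.mpr h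
    have h2 : (1 : ℂ) - Complex.exp (2 * π * I * w) ≠ 0 := sub_ne_zero.mpr (Ne.symm h)
    generalize Complex.exp (2 * π * I * w) = u at h1 h2 ⊢
    field_simp
    have hI2 : (I : ℂ) ^ 2 = -1 := I_sq
    rw [hI2]
    ring

/-- The same identity at a real point (the shape used for the constant term of `ev 0 y`). -/
theorem pi_cot_div_ofReal (y : ℝ) :
    (π : ℂ) * Complex.cot (π * y) / (2 * π * I)
      = (Complex.exp (2 * π * I * y) + 1) / (2 * (Complex.exp (2 * π * I * y) - 1)) :=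
  pi_cot_div y

/-- `exp(2 π i w) = 1` iff `w` is an integer. -/
theorem exp_eq_one_iff (w : ℂ) : Complex.exp (2 * π * I * w) = 1 ↔ ∃ n : ℤ, w = n := by
  rw [Complex.exp_eq_one_iff]
  have h2 : (2 * π * I : ℂ) ≠ 0 := by simp [Real.pi_ne_zero]
  constructor
  · rintro ⟨n, hn⟩
    refine ⟨n, ?_⟩
    have h : (2 * π * I : ℂ) * w = (2 * π * I) * n := by rw [hn]; ring
    exact mul_left_cancel₀ h2 h
  · rintro ⟨n, rfl⟩
    exact ⟨n, by ring⟩

/-- `exp(2 π i y) ≠ 1` for a real non-integer `y`. -/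
theorem exp_ne_one (y : ℝ) (hy : ∀ n : ℤ, y ≠ n) : Complex.exp (2 * π * I * y) ≠ 1 := by
  intro h
  obtain ⟨n, hn⟩ := (exp_eq_one_iff y).mp h
  exact hy n (by exact_mod_cast hn)

/-- `x.val / N` is not an integer for `x ≠ 0` in `ZMod N`. -/
theorem val_div_ne_int {N : ℕ} [NeZero N] {x : ZMod N} (hx : x ≠ 0) (n : ℤ) :
    ((x.val : ℝ) / N) ≠ n := by
  have hN : (0 : ℝ) < N := Nat.cast_pos.mpr (NeZero.pos N)
  have h0 : (0 : ℝ) < (x.val : ℝ) / N := div_pos (Nat.cast_pos.mpr (ZMod.val_pos.mpr hx)) hN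
  have h1 : (x.val : ℝ) / N < 1 := by
    rw [div_lt_one hN]
    exact_mod_cast ZMod.val_lt x
  intro h
  rw [h] at h0 h1
  have h0' : (0 : ℤ) < n := by exact_mod_cast h0
  have h1' : n < (1 : ℤ) := by exact_mod_cast h1
  omega

/-- The standard additive character of `ZMod N` is `x ↦ exp(2 π i x.val / N)`. -/
theorem stdAddChar_eq_exp {N : ℕ} [NeZero N] (x : ZMod N) :
    ZMod.stdAddChar x = Complex.exp (2 * π * I * (((x.val : ℝ) / N : ℝ) : ℂ)) := by
  rw [ZMod.stdAddChar_apply, ZMod.toCircle_apply]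
  congr 1
  push_cast
  ring

theorem stdAddChar_ne_one {N : ℕ} [NeZero N] {x : ZMod N} (hx : x ≠ 0) :
    (ZMod.stdAddChar x : ℂ) ≠ 1 := by
  rw [stdAddChar_eq_exp]
  exact exp_ne_one _ (val_div_ne_int hx)

/-- The constant term of `ev 0 (x.val / N)`, divided by `2 π i`, in terms of the standard
additive character. -/
theorem pi_cot_div_stdAddChar {N : ℕ} [NeZero N] (x : ZMod N) :
    (π : ℂ) * Complex.cot (π * (((x.val : ℝ) / N : ℝ) : ℂ)) / (2 * π * I)
      = (ZMod.stdAddChar x + 1) / (2 * (ZMod.stdAddChar x - 1)) := by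
  rw [stdAddChar_eq_exp]
  exact pi_cot_div _

end Fermat.Agent.S16.CotExp
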