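/-
S16, slice U1 (the Delta trick).

For `G ∈ M₂(Γ₀(p))` with `q`-expansion `1 + ε ∑_{j ≥ 1} h_j q^j`, `h_j ∈ ℤ`, `ε ∈ ℚ`:
`p¹¹ (p + 1) ∈ ε ℤ`.

Proof: `F = G · Δ(p·)` has weight 14, and its trace to level one is a cusp form of weight 14,
hence zero. With the Atkin-Lehner identity `G|S = -(U_p G)|α₀` this reads
`p¹² G(z) Δ(pz) = U_p((U_p G) Δ)(z)`; compare the coefficients of `q` and `q^p` and use
`τ(p²) = τ(p)² - p¹¹`.
-/
import Mathlib
import Fermat.Agent.S16.Defs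
import Fermat.Prelude.Def_ModularForm_HeckeOperatorForms
import Fermat.Prelude.Thm_ModularFormClass_qCoeff_heckeT
import Fermat.Prelude.Thm_ModularFormClass_qCoeff_heckeU
import Fermat.Prelude.Thm_UpperHalfPlane_qCoeff_heckeU
import Fermat.Prelude.Thm_CongruenceSubgroup_one_mem_strictPeriods_Gamma0
import Fermat.Prelude.Thm_ModularForm_periodic_heckeU_comp_ofComplex
import Fermat.Prelude.Thm_ModularForm_isBoundedAtImInfty_heckeU
import Fermat.Prelude.Thm_ModularForm_mdifferentiable_heckeU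
import Fermat.Agent.S23.UV
import Fermat.Agent.S23.QNice
import Fermat.Agent.S24.Bridge

set_option autoImplicit false

noncomputable section

open UpperHalfPlane ModularForm CongruenceSubgroup
open scoped MatrixGroups ModularForm Manifold

namespace Fermat.Agent.S16.DeltaTrick

/-! ### The arithmetic core -/

/-- Splitting off the `i = 0` term. -/
theorem sum_antidiagonal_split (p : ℕ) (hp : 1 ≤ p) (g : ℕ → ℂ) (τ : ℕ → ℤ) (eps : ℚ) (h : ℕ → ℤ)
    (g0 : g 0 = 1) (gj : ∀ j, 1 ≤ j → g j = (eps : ℂ) * (h j : ℂ)) (n : ℕ) :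
    ∑ x ∈ Finset.HasAntidiagonal.antidiagonal n, g (x.1 * p) * (τ x.2 : ℂ) =
      (τ n : ℂ) + (eps : ℂ) *
        ((∑ k ∈ Finset.range n, h ((k + 1) * p) * τ (n - (k + 1)) : ℤ) : ℂ) := by
  rw [Finset.Nat.sum_antidiagonal_eq_sum_range_succ_mk, Finset.sum_range_succ']
  simp only [zero_mul, g0, one_mul, Nat.sub_zero]
  rw [add_comm]
  congr 1
  push_cast
  rw [Finset.mul_sum]
  refine Finset.sum_congr rfl fun k _ => ?_
  rw [gj ((k + 1) * p) (Nat.mul_pos (Nat.succ_pos k) hp)]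
  ring

theorem arith_core (p : ℕ) (hp : 2 ≤ p) (g : ℕ → ℂ) (τ : ℕ → ℤ) (eps : ℚ) (h : ℕ → ℤ)
    (g0 : g 0 = 1) (gj : ∀ j, 1 ≤ j → g j = (eps : ℂ) * (h j : ℂ))
    (τ0 : τ 0 = 0) (τ1 : τ 1 = 1) (τpp : τ (p * p) = τ p ^ 2 - (p : ℤ) ^ 11)
    (key : ∀ m : ℕ, (p : ℂ) ^ 12 *
        ∑ x ∈ Finset.HasAntidiagonal.antidiagonal m, g x.1 * (if p ∣ x.2 then (τ (x.2 / p) : ℂ) else 0)
        = ∑ x ∈ Finset.HasAntidiagonal.antidiagonal (m * p), g (x.1 * p) * (τ x.2 : ℂ)) :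
    ∃ z : ℤ, ((p : ℚ) ^ 11 * ((p : ℚ) + 1)) = eps * z := by
  have hp1 : 1 ≤ p := by omega
  have hp0 : 0 < p := by omega
  -- `m = 1`
  have k1 := key 1
  rw [one_mul, sum_antidiagonal_split p hp1 g τ eps h g0 gj p] at k1
  have hL1 : ∑ x ∈ Finset.HasAntidiagonal.antidiagonal 1, g x.1 * (if p ∣ x.2 then (τ (x.2 / p) : ℂ) else 0) = 0 := by
    refine Finset.sum_eq_zero fun x hx => ?_
    rw [Finset.HasAntidiagonal.mem_antidiagonal] at hx
    by_cases hd : p ∣ x.2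
    · have hx2 : x.2 = 0 := by
        rcases Nat.eq_zero_or_pos x.2 with h0 | hpos
        · exact h0
        · have := Nat.le_of_dvd hpos hd
          omega
      rw [if_pos hd, hx2, Nat.zero_div, τ0]
      simp
    · rw [if_neg hd, mul_zero]
  rw [hL1, mul_zero] at k1
  -- `m = p`
  have kp := key p
  rw [sum_antidiagonal_split p hp1 g τ eps h g0 gj (p * p)] at kp
  have hLp : ∑ x ∈ Finset.HasAntidiagonal.antidiagonal p, g x.1 * (if p ∣ x.2 then (τ (x.2 / p) : ℂ) else 0) = 1 := by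
    rw [Finset.sum_eq_single (0, p)]
    · simp [g0, Nat.div_self hp0, τ1]
    · intro x hx hne
      rw [Finset.HasAntidiagonal.mem_antidiagonal] at hx
      by_cases hd : p ∣ x.2
      · have hx2 : x.2 = 0 := by
          rcases Nat.eq_zero_or_pos x.2 with h0 | hpos
          · exact h0
          · exfalso
            have hle := Nat.le_of_dvd hpos hd
            have h2 : x.2 = p := by omega
            have h1 : x.1 = 0 := by omega
            exact hne (Prod.ext h1 h2)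
        rw [if_pos hd, hx2, Nat.zero_div, τ0]
        simp
      · rw [if_neg hd, mul_zero]
    · intro hne
      exact absurd (Finset.HasAntidiagonal.mem_antidiagonal.mpr (by simp)) hne
  rw [hLp, mul_one] at kp
  set A : ℤ := ∑ k ∈ Finset.range p, h ((k + 1) * p) * τ (p - (k + 1)) with hA
  set B : ℤ := ∑ k ∈ Finset.range (p * p), h ((k + 1) * p) * τ (p * p - (k + 1)) with hB
  have e1 : (0 : ℚ) = (τ p : ℚ) + eps * (A : ℚ) := by
    have : ((0 : ℚ) : ℂ) = (((τ p : ℚ) + eps * (A : ℚ) : ℚ) : ℂ) := by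
      push_cast
      exact k1
    exact_mod_cast this
  have e2 : ((p : ℚ) ^ 12) = (τ (p * p) : ℚ) + eps * (B : ℚ) := by
    have : (((p : ℚ) ^ 12 : ℚ) : ℂ) = (((τ (p * p) : ℚ) + eps * (B : ℚ) : ℚ) : ℂ) := by
      push_cast
      exact kp
    exact_mod_cast this
  refine ⟨B - A * τ p, ?_⟩
  have e3 : (τ (p * p) : ℚ) = (τ p : ℚ) ^ 2 - (p : ℚ) ^ 11 := by
    rw [τpp]
    push_cast
    ring
  rw [e3] at e2
  have e4 : (τ p : ℚ) = - (eps * (A : ℚ)) := by linarith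
  push_cast
  have : (p : ℚ) ^ 11 * ((p : ℚ) + 1) = (p : ℚ) ^ 12 + (p : ℚ) ^ 11 := by ring
  rw [this, e2]
  have : (τ p : ℚ) ^ 2 = (τ p : ℚ) * (-(eps * (A : ℚ))) := by
    rw [sq]
    nth_rewrite 2 [e4]
    rfl
  rw [this]
  ring


/-! ### Ramanujan's `τ` -/

open Fermat.Agent.S23

local notation "Δ" => ModularForm.discriminant

/-- Ramanujan's `τ`, as integers. -/
def tau (n : ℕ) : ℤ := PowerSeries.coeff n (PowerSeries.X * ModularCurve.dedekindEtaUnit)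

theorem qCoeff_discriminant (n : ℕ) : ModularFormClass.qCoeff Δ n = (tau n : ℂ) := by
  rw [ModularFormClass.qCoeff, Fermat.Agent.S24.Bridge.qExpansion_discriminant, tau,
    ← PowerSeries.map_X (Int.castRingHom ℂ), ← map_mul, PowerSeries.coeff_map]
  rfl

theorem tau_zero : tau 0 = 0 := by
  simp [tau]

theorem tau_one : tau 1 = 1 := by
  have h := qCoeff_discriminant 1
  rw [ModularFormClass.qCoeff, ModularForm.discriminant_qExpansion_coeff_one] at h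
  exact_mod_cast h.symm

theorem gamma0_one_le : Subgroup.map (Matrix.SpecialLinearGroup.mapGL ℝ) (Gamma0 1) ≤ 𝒮ℒ := by
  rintro x ⟨γ, -, rfl⟩
  exact ⟨γ, rfl⟩

theorem le_gamma0_one : 𝒮ℒ ≤ Subgroup.map (Matrix.SpecialLinearGroup.mapGL ℝ) (Gamma0 1) := by
  rintro x ⟨γ, rfl⟩
  refine ⟨γ, ?_, rfl⟩
  show γ ∈ Gamma0 1
  rw [Gamma0_mem]
  exact Subsingleton.elim _ _

/-- `T_p Δ`, as a level one modular form. -/
def heckeDelta (p : ℕ) (hp : p.Prime) : ModularForm 𝒮ℒ 12 :=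
  Dilate.restrict le_gamma0_one
    (ModularForm.heckeTLin 12 hp (by simpa using hp.one_lt.ne' : ¬ p ∣ 1)
      (Dilate.restrict gamma0_one_le UV.DeltaMF))

theorem coe_heckeDelta (p : ℕ) (hp : p.Prime) :
    (⇑(heckeDelta p hp) : ℍ → ℂ) = heckeT 12 p Δ := rfl

theorem qCoeff_heckeDelta (p : ℕ) (hp : p.Prime) (n : ℕ) :
    ModularFormClass.qCoeff (heckeDelta p hp) n =
      (tau (n * p) : ℂ) + if p ∣ n then (p : ℂ) ^ 11 * (tau (n / p) : ℂ) else 0 := by
  rw [coe_heckeDelta]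
  have h := ModularFormClass.qCoeff_heckeT UV.DeltaMF one_mem_strictPeriods_SL hp.ne_zero n
  have hc : (⇑UV.DeltaMF : ℍ → ℂ) = Δ := rfl
  rw [hc] at h
  rw [h, coeffHeckeT_apply, qCoeff_discriminant, qCoeff_discriminant]
  norm_num

theorem tau_sq (p : ℕ) (hp : p.Prime) : tau (p * p) = tau p ^ 2 - (p : ℤ) ^ 11 := by
  have h0 : (qExpansion 1 (heckeDelta p hp)).coeff 0 = 0 := by
    have := qCoeff_heckeDelta p hp 0
    rw [ModularFormClass.qCoeff] at this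
    rw [this]
    simp [tau_zero]
  obtain ⟨c, hc⟩ := CuspForm.exists_smul_discriminant_of_weight_eq_twelve
    (ModularForm.toCuspForm (heckeDelta p hp) h0)
  have hfun : (c • (Δ : ℍ → ℂ)) = ⇑(heckeDelta p hp) := by
    have := congrArg (fun f : CuspForm 𝒮ℒ 12 => (⇑f : ℍ → ℂ)) hc
    exact this
  have hq : ∀ n, ModularFormClass.qCoeff (heckeDelta p hp) n = c * (tau n : ℂ) := by
    intro n
    have hana : AnalyticAt ℂ (cuspFunction 1 (Δ : ℍ → ℂ)) 0 :=
      (QNice.nice_levelOne_cusp CuspForm.discriminant).analytic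
    rw [← hfun, ModularFormClass.qCoeff, UpperHalfPlane.qExpansion_smul hana,
      PowerSeries.coeff_smul, smul_eq_mul]
    congr 1
    exact qCoeff_discriminant n
  have h1 := hq 1
  rw [qCoeff_heckeDelta, one_mul, if_neg (by simpa using hp.one_lt.ne'), add_zero, tau_one] at h1
  have hp' := hq p
  rw [qCoeff_heckeDelta, if_pos dvd_rfl, Nat.div_self hp.pos, tau_one] at hp'
  have hc' : c = (tau p : ℂ) := by
    rw [h1]; simp
  rw [hc'] at hp'
  have : ((tau (p * p) : ℤ) : ℂ) = ((tau p ^ 2 - (p : ℤ) ^ 11 : ℤ) : ℂ) := by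
    push_cast
    linear_combination hp'
  exact_mod_cast this



/-! ### The trace identity -/

/-- The hypothesis supplied by slice W (Atkin–Lehner): `G|S = -(U_p G)|α₀`. -/
def AtkinLehner (p : ℕ) (G : ModularForm (Gamma0 p) 2) : Prop :=
  (⇑G) ∣[(2 : ℤ)] ModularGroup.S = -((heckeU 2 p ⇑G) ∣[(2 : ℤ)] heckeMatrix p 0)

/-- The hypothesis supplied by slice COS (trace to level one, weight `k`). -/
def TraceForm (p : ℕ) (k : ℤ) : Prop :=
  ∀ F : ModularForm (Gamma0 p) k, ∃ T : ModularForm 𝒮ℒ k,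
    (⇑T : ℍ → ℂ) = ⇑F + ∑ j ∈ Finset.range p, (⇑F) ∣[k] (ModularGroup.S * ModularGroup.T ^ j)

theorem discriminant_S_smul (w : ℍ) : Δ (ModularGroup.S • w) = Δ w * (w : ℂ) ^ 12 := by
  have h := congrFun ModularForm.discriminant_S_invariant w
  rw [SL_slash_apply, ModularGroup.denom_S] at h
  have hw : (w : ℂ) ≠ 0 := w.ne_zero
  rw [← h, mul_assoc, ← zpow_natCast, ← zpow_add₀ hw]
  simp

/-- A level one modular form of weight 14 with vanishing constant term is zero. -/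
theorem levelOne_weight14_eq_zero (T : ModularForm 𝒮ℒ 14) (h : (qExpansion 1 T).coeff 0 = 0) :
    T = 0 := by
  have hr : Module.rank ℂ (ModularForm 𝒮ℒ ((14 : ℤ) - 12)) = 0 := by
    have : ((14 : ℤ) - 12) = 2 := by norm_num
    rw [this]
    exact ModularForm.levelOne_weight_two_rank_zero
  have h1 := rank_zero_iff_forall_zero.mp hr
    (CuspForm.discriminantEquiv (ModularForm.toCuspForm T h))
  have h2 : ModularForm.toCuspForm T h = 0 := CuspForm.discriminantEquiv.map_eq_zero_iff.mp h1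
  ext z
  have := congrArg (fun f : CuspForm 𝒮ℒ 14 => f z) h2
  simpa using this

section Trace

variable (p : ℕ) [Fact p.Prime]

theorem heckeDiag_smul_S (τ : ℍ) :
    heckeDiagMatrix p • (ModularGroup.S • τ) = ModularGroup.S • (heckeMatrix p 0 • τ) := by
  have hp0 : p ≠ 0 := (Fact.out : p.Prime).ne_zero
  have hpc : (p : ℂ) ≠ 0 := by exact_mod_cast hp0
  have hτ : (τ : ℂ) ≠ 0 := τ.ne_zero
  apply UpperHalfPlane.ext
  rw [coe_heckeDiagMatrix_smul hp0, modular_S_smul, modular_S_smul]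
  show (p : ℂ) * (-(τ : ℂ))⁻¹ = (-((heckeMatrix p 0 • τ : ℍ) : ℂ))⁻¹
  rw [coe_heckeMatrix_smul hp0]
  simp only [Nat.cast_zero, add_zero]
  field_simp

theorem vForm_slash_S (τ : ℍ) :
    ((⇑(UV.vForm p) : ℍ → ℂ) ∣[(12 : ℤ)] ModularGroup.S) τ =
      ((p : ℂ) ^ 12)⁻¹ * Δ (heckeMatrix p 0 • τ) := by
  have hp0 : p ≠ 0 := (Fact.out : p.Prime).ne_zero
  have hpc : (p : ℂ) ≠ 0 := by exact_mod_cast hp0
  have hτ : (τ : ℂ) ≠ 0 := τ.ne_zero
  rw [SL_slash_apply, ModularGroup.denom_S, UV.vForm_apply, heckeDiag_smul_S, discriminant_S_smul,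
    coe_heckeMatrix_smul hp0, zpow_neg]
  have : (τ : ℂ) ^ (12 : ℤ) = (τ : ℂ) ^ (12 : ℕ) := by norm_cast
  rw [this]
  field_simp
  simp

theorem mulForm_slash_S (G : ModularForm (Gamma0 p) 2) (hW : AtkinLehner p G) (τ : ℍ) :
    ((⇑G * ⇑(UV.vForm p) : ℍ → ℂ) ∣[(14 : ℤ)] ModularGroup.S) τ =
      -((p : ℂ) ^ 13)⁻¹ * (heckeU 2 p ⇑G * (Δ : ℍ → ℂ)) (heckeMatrix p 0 • τ) := by
  have hp0 : p ≠ 0 := (Fact.out : p.Prime).ne_zero
  have hpc : (p : ℂ) ≠ 0 := by exact_mod_cast hp0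
  have h14 : ((⇑G * ⇑(UV.vForm p) : ℍ → ℂ) ∣[(14 : ℤ)] ModularGroup.S) =
      (⇑G ∣[(2 : ℤ)] ModularGroup.S) * (⇑(UV.vForm p) ∣[(12 : ℤ)] ModularGroup.S) :=
    mul_slash_SL2 2 12 ModularGroup.S _ _
  rw [h14, Pi.mul_apply, vForm_slash_S, hW, Pi.neg_apply, slash_heckeMatrix_apply 2 hp0,
    Pi.mul_apply]
  field_simp

theorem mulForm_slash_ST (G : ModularForm (Gamma0 p) 2) (hW : AtkinLehner p G) (j : ℕ) (τ : ℍ) :
    ((⇑G * ⇑(UV.vForm p) : ℍ → ℂ) ∣[(14 : ℤ)] (ModularGroup.S * ModularGroup.T ^ j)) τ =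
      -((p : ℂ) ^ 13)⁻¹ * (heckeU 2 p ⇑G * (Δ : ℍ → ℂ)) (heckeMatrix p j • τ) := by
  have hp0 : p ≠ 0 := (Fact.out : p.Prime).ne_zero
  have hden : denom ((ModularGroup.T ^ j : SL(2, ℤ)) : GL (Fin 2) ℝ) τ = 1 := by
    rw [show (ModularGroup.T ^ j : SL(2, ℤ)) = ModularGroup.T ^ (j : ℤ) from
      (zpow_natCast _ _).symm, ModularGroup.denom_apply, ModularGroup.coe_T_zpow]
    simp
  have hsmul : heckeMatrix p 0 • (ModularGroup.T ^ j • τ) = heckeMatrix p j • τ := by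
    apply UpperHalfPlane.ext
    rw [coe_heckeMatrix_smul hp0, coe_heckeMatrix_smul hp0, ← zpow_natCast,
      ModularGroup.coe_T_zpow_smul_eq]
    simp
  rw [SlashAction.slash_mul, SL_slash_apply, mulForm_slash_S p G hW, hden, hsmul]
  simp

theorem sum_slash_ST (G : ModularForm (Gamma0 p) 2) (hW : AtkinLehner p G) (τ : ℍ) :
    (∑ j ∈ Finset.range p,
        (⇑G * ⇑(UV.vForm p) : ℍ → ℂ) ∣[(14 : ℤ)] (ModularGroup.S * ModularGroup.T ^ j)) τ =
      -((p : ℂ) ^ 12)⁻¹ * heckeU 14 p (heckeU 2 p ⇑G * (Δ : ℍ → ℂ)) τ := by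
  have hp0 : p ≠ 0 := (Fact.out : p.Prime).ne_zero
  have hpc : (p : ℂ) ≠ 0 := by exact_mod_cast hp0
  rw [Finset.sum_apply, heckeU_apply 14 hp0]
  simp_rw [mulForm_slash_ST p G hW]
  rw [← Finset.mul_sum]
  field_simp

theorem nice_heckeU {f : ℍ → ℂ} (hf : QNice.Nice f) (k : ℤ) (q : ℕ) :
    QNice.Nice (heckeU k q f) :=
  ⟨periodic_heckeU_comp_ofComplex hf.per k q, mdifferentiable_heckeU hf.hol k q,
    isBoundedAtImInfty_heckeU hf.bdd k q⟩

theorem key_identity (hT : TraceForm p 14) (G : ModularForm (Gamma0 p) 2)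
    (hW : AtkinLehner p G) (m : ℕ) :
    (p : ℂ) ^ 12 * ∑ x ∈ Finset.HasAntidiagonal.antidiagonal m,
        ModularFormClass.qCoeff G x.1 * (if p ∣ x.2 then (tau (x.2 / p) : ℂ) else 0) =
      ∑ x ∈ Finset.HasAntidiagonal.antidiagonal (m * p),
        ModularFormClass.qCoeff G (x.1 * p) * (tau x.2 : ℂ) := by
  have hp0 : p ≠ 0 := (Fact.out : p.Prime).ne_zero
  have hpc : (p : ℂ) ≠ 0 := by exact_mod_cast hp0
  obtain ⟨T, hTeq⟩ := hT (ModularForm.mcast (by norm_num) (G.mul (UV.vForm p)))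
  have hFc : (⇑(ModularForm.mcast (by norm_num : (2 : ℤ) + 12 = 14) (G.mul (UV.vForm p)) :
      ModularForm (Gamma0 p) 14) : ℍ → ℂ) = ⇑G * ⇑(UV.vForm p) := rfl
  set K : ℍ → ℂ := heckeU 2 p ⇑G * (Δ : ℍ → ℂ) with hK
  set U : ℍ → ℂ := heckeU 14 p K with hU
  have hTfun : (⇑T : ℍ → ℂ) = ⇑G * ⇑(UV.vForm p) - ((p : ℂ) ^ 12)⁻¹ • U := by
    rw [hTeq, hFc]
    funext τ
    rw [Pi.add_apply, sum_slash_ST p G hW τ]
    simp only [Pi.sub_apply, Pi.mul_apply, Pi.smul_apply, smul_eq_mul, hU, hK]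
    ring
  -- niceness
  have nG : QNice.Nice (⇑G) := QNice.nice_gamma0 G
  have nv : QNice.Nice (⇑(UV.vForm p)) := QNice.nice_gamma0 _
  have nH : QNice.Nice (heckeU 2 p ⇑G) := nice_heckeU nG 2 p
  have nΔ : QNice.Nice (Δ : ℍ → ℂ) := QNice.nice_levelOne_cusp CuspForm.discriminant
  have nK : QNice.Nice K := nH.mul nΔ
  have nU : QNice.Nice U := nice_heckeU nK 14 p
  have nF : QNice.Nice (⇑G * ⇑(UV.vForm p)) := nG.mul nv
  have ncU : QNice.Nice (((p : ℂ) ^ 12)⁻¹ • U) :=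
    QNice.niceSub.smul_mem (x := U) nU _
  -- `q`-expansions
  have qT : qExpansion 1 (⇑T) = qExpansion 1 ⇑G * qExpansion 1 ⇑(UV.vForm p) -
      ((p : ℂ) ^ 12)⁻¹ • qExpansion 1 U := by
    rw [hTfun, qExpansion_sub nF.analytic ncU.analytic, qExpansion_smul nU.analytic,
      qExpansion_mul nG.analytic nv.analytic]
  have cΔ : ∀ n, (qExpansion 1 (Δ : ℍ → ℂ)).coeff n = (tau n : ℂ) := qCoeff_discriminant
  have cv : ∀ n, (qExpansion 1 ⇑(UV.vForm p)).coeff n =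
      if p ∣ n then (tau (n / p) : ℂ) else 0 := by
    intro n
    have h := Dilate.coeff_qExpansion_dilate p UV.DeltaMF n
    rw [show (UV.vForm p) = Dilate.dilate p UV.DeltaMF from rfl, h]
    split_ifs
    · exact qCoeff_discriminant _
    · rfl
  have cH : ∀ n, (qExpansion 1 (heckeU 2 p ⇑G)).coeff n = (qExpansion 1 ⇑G).coeff (n * p) :=
    fun n => UpperHalfPlane.qCoeff_heckeU nG.per nG.hol nG.bdd 2 hp0 n
  have cU : ∀ n, (qExpansion 1 U).coeff n = (qExpansion 1 K).coeff (n * p) :=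
    fun n => UpperHalfPlane.qCoeff_heckeU nK.per nK.hol nK.bdd 14 hp0 n
  have cK : qExpansion 1 K = qExpansion 1 (heckeU 2 p ⇑G) * qExpansion 1 (Δ : ℍ → ℂ) :=
    qExpansion_mul nH.analytic nΔ.analytic
  have hT0 : (qExpansion 1 ⇑T).coeff 0 = 0 := by
    rw [qT, map_sub, PowerSeries.coeff_smul, cU, cK, PowerSeries.coeff_mul, PowerSeries.coeff_mul]
    simp [cv, cΔ, tau_zero]
  have hTz : T = 0 := levelOne_weight14_eq_zero T hT0
  have hq : qExpansion 1 ⇑G * qExpansion 1 ⇑(UV.vForm p) = ((p : ℂ) ^ 12)⁻¹ • qExpansion 1 U := by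
    have h0 : qExpansion 1 (⇑T) = 0 := by
      rw [hTz]
      simpa using qExpansion_zero 1
    rw [qT] at h0
    exact sub_eq_zero.mp h0
  have hm := congrArg (PowerSeries.coeff m) hq
  rw [PowerSeries.coeff_mul, PowerSeries.coeff_smul, cU, cK, PowerSeries.coeff_mul] at hm
  simp only [cv, cH, cΔ, smul_eq_mul] at hm
  unfold ModularFormClass.qCoeff
  rw [hm]
  field_simp

end Trace

/-- **Slice U1** (the Delta trick). -/
theorem exists_int_of_eps (p : ℕ) [Fact p.Prime] (hT : TraceForm p 14)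
    (G : ModularForm (Gamma0 p) 2) (hW : AtkinLehner p G) (eps : ℚ) (h : ℕ → ℤ)
    (h0 : ModularFormClass.qCoeff G 0 = 1)
    (hj : ∀ j : ℕ, 1 ≤ j → ModularFormClass.qCoeff G j = (eps : ℂ) * (h j : ℂ)) :
    ∃ z : ℤ, ((p : ℚ) ^ 11 * ((p : ℚ) + 1)) = eps * z :=
  arith_core p (Fact.out : p.Prime).two_le (ModularFormClass.qCoeff G) tau eps h h0 hj
    tau_zero tau_one (tau_sq p Fact.out) (key_identity p hT G hW)

end Fermat.Agent.S16.DeltaTrick

end
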