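/-
S16, slice U1 (the Delta trick), final form: the two hypotheses of `DeltaTrick.exists_int_of_eps`
(trace to level one in weight 14, slice COS; Atkin–Lehner identity, slice W) are discharged.

For `G ∈ M₂(Γ₀(p))` with `q`-expansion `1 + ε ∑_{j ≥ 1} h_j q^j`, `h_j ∈ ℤ`, `ε ∈ ℚ`:
`p¹¹ (p + 1) ∈ ε ℤ`.
-/
import Mathlib
import Fermat.Agent.S16.DeltaTrick
import Fermat.Agent.S16.Coset
import Fermat.Agent.S16.ALFinal

set_option autoImplicit false

open UpperHalfPlane ModularForm CongruenceSubgroup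
open scoped MatrixGroups ModularForm

namespace Fermat.Agent.S16.DeltaFinal

/-- The trace hypothesis of the `Δ`-trick holds (slice COS). -/
theorem traceForm (p : ℕ) [Fact p.Prime] (k : ℤ) : DeltaTrick.TraceForm p k :=
  fun F => Fermat.Agent.S16.exists_traceForm p k F

/-- The Atkin–Lehner hypothesis of the `Δ`-trick holds (slice W). -/
theorem atkinLehner (p : ℕ) [Fact p.Prime] (G : ModularForm (Gamma0 p) 2) :
    DeltaTrick.AtkinLehner p G :=
  ALFinal.slash_S G

/-- **Slice U1** (the Delta trick), unconditional. -/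
theorem exists_int_of_eps (p : ℕ) [Fact p.Prime] (G : ModularForm (Gamma0 p) 2)
    (eps : ℚ) (h : ℕ → ℤ) (h0 : ModularFormClass.qCoeff G 0 = 1)
    (hj : ∀ j : ℕ, 1 ≤ j → ModularFormClass.qCoeff G j = (eps : ℂ) * (h j : ℂ)) :
    ∃ z : ℤ, ((p : ℚ) ^ 11 * ((p : ℚ) + 1)) = eps * z :=
  DeltaTrick.exists_int_of_eps p (traceForm p 14) G (atkinLehner p G) eps h h0 hj

end Fermat.Agent.S16.DeltaFinal
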