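/-
S16, bridge between slice EV (part 1, `EVLambert`: the function `Zc y q` and its `q`-expansion
coefficients `cZ y n`) and slice PH (part A, `PSums`: the formal series `eS p x`):

  `coeff n (eS p x) = cZ (x.val / p) n / (2 π i)`        (`x ≠ 0` in `ZMod p`),

hence `t ↦ Zc (x.val / p) (q(t)) / (2 π i)` has `q`-expansion `eS p x` (`HasQ`).
-/
import Mathlib
import Fermat.Agent.S16.CotExp
import Fermat.Agent.S16.PSums
import Fermat.Agent.S16.EVLambert
import Fermat.Agent.S23.QCalc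

set_option autoImplicit false
set_option linter.unusedSectionVars false

noncomputable section

open Complex
open UpperHalfPlane hiding I
open scoped Real

namespace Fermat.Agent.S16.EVBridge

open Fermat.Agent.S16.PForm Fermat.Agent.S16.EVLambert Fermat.Agent.S23.QCalc

variable (p : ℕ) [Fact p.Prime]

/-- The real number `x.val / p` attached to `x : ZMod p`. -/
def yy (x : ZMod p) : ℝ := (x.val : ℝ) / p

theorem yy_def (x : ZMod p) : yy p x = (x.val : ℝ) / p := rfl

theorem yy_ne_int {x : ZMod p} (hx : x ≠ 0) (n : ℤ) : yy p x ≠ n :=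
  CotExp.val_div_ne_int hx n

theorem chi_eq_ee (x : ZMod p) : chi p x = ee ((yy p x : ℝ) : ℂ) :=
  CotExp.stdAddChar_eq_exp x

theorem ee_yy_ne_one {x : ZMod p} (hx : x ≠ 0) : ee ((yy p x : ℝ) : ℂ) ≠ 1 := by
  rw [← chi_eq_ee]
  exact chi_ne_one p hx

/-- The coefficients of `eS p x` are those of `Zc (x.val / p) q`, divided by `2 π i`. -/
theorem coeff_eS_eq_cZ {x : ZMod p} (hx : x ≠ 0) (n : ℕ) :
    PowerSeries.coeff n (eS p x) = cZ (yy p x) n / (2 * π * I) := by
  have h2 : (2 * π * I : ℂ) ≠ 0 := by simp [Real.pi_ne_zero]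
  by_cases hn : n = 0
  · subst hn
    rw [coeff_eS_zero, cZ_zero, sS_eq p x hx, chi_eq_ee]
    exact (CotExp.pi_cot_div _).symm
  · rw [coeff_eS_of_ne_zero p x hn, cZ_of_ne_zero _ hn, neg_mul, neg_div,
      mul_div_cancel_left₀ _ h2]
    unfold alphaS dsum
    rw [← Finset.sum_sub_distrib, ← Finset.sum_neg_distrib]
    refine Finset.sum_congr rfl fun d _ => ?_
    have h1 : chi p (x * d) = ee ((yy p x : ℝ) : ℂ) ^ d := by
      rw [← chi_eq_ee, ← AddChar.map_nsmul_eq_pow, nsmul_eq_mul, mul_comm]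
    rw [AddChar.map_neg_eq_inv, h1, inv_pow]
    ring

theorem qParam_one_eq_ee (z : ℂ) : Function.Periodic.qParam 1 z = ee z := by
  simp [Function.Periodic.qParam, ee]

theorem norm_qParam_one_lt_one (t : ℍ) : ‖Function.Periodic.qParam 1 (t : ℂ)‖ < 1 :=
  Function.Periodic.norm_qParam_lt_one one_pos t.im_pos

/-- `t ↦ Zc (x.val / p) (q(t)) / (2 π i)` has `q`-expansion `eS p x`. -/
theorem hasQ_Zc {x : ZMod p} (hx : x ≠ 0) :
    HasQ (fun t : ℍ => Zc ((yy p x : ℝ) : ℂ) (Function.Periodic.qParam 1 (t : ℂ)) / (2 * π * I))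
      (eS p x) := by
  intro t
  have h := (hasSum_Zc_ofReal (yy p x) (norm_qParam_one_lt_one t)).div_const (2 * π * I)
  refine h.congr_fun fun n => ?_
  rw [coeff_eS_eq_cZ p hx]
  ring

/-- The same with `q(t)` written as `ee t`. -/
theorem hasQ_Zc_ee {x : ZMod p} (hx : x ≠ 0) :
    HasQ (fun t : ℍ => Zc ((yy p x : ℝ) : ℂ) (ee (t : ℂ)) / (2 * π * I)) (eS p x) :=
  (hasQ_Zc p hx).congr fun t => by rw [qParam_one_eq_ee]

/-- Generic form: any function agreeing with `Zc (x.val / p) (ee t) / (2 π i)` has `q`-expansion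
`eS p x`. -/
theorem hasQ_of_eq_Zc {x : ZMod p} (hx : x ≠ 0) (e : ℍ → ℂ)
    (he : ∀ t : ℍ, e t = Zc ((yy p x : ℝ) : ℂ) (ee (t : ℂ)) / (2 * π * I)) :
    HasQ e (eS p x) :=
  (hasQ_Zc_ee p hx).congr fun t => (he t).symm

end Fermat.Agent.S16.EVBridge
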