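/-
S16, slice EV, final part: boundedness of `ev x y` at `i∞` and the discharge of the `ev`-interface
of `PFormEV`, giving the products of weight one Eisenstein series (`LBF.HasPH p`).
-/
import Mathlib
import Fermat.Agent.S16.EV
import Fermat.Agent.S16.EVWrap
import Fermat.Agent.S16.PFormEV
import Fermat.Agent.S16.LBF

set_option autoImplicit false

open Complex Filter Topology
open UpperHalfPlane hiding I
open scoped Real MatrixGroups ModularForm Manifold

noncomputable section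

namespace Fermat.Agent.S16.EVFinal

open Fermat.Agent.S16.EVLambert Fermat.Agent.S16.EV CongruenceSubgroup

/-- `ev x y` is bounded at `i∞` for every real `(x, y)` off `ℤ²`. -/
theorem isBoundedAtImInfty_ev (x y : ℝ) (hxy : NotInt x y) : IsBoundedAtImInfty (ev x y) := by
  have h := EVWrap.isBoundedAtImInfty_Z x y hxy
  rw [isBoundedAtImInfty_iff] at h ⊢
  obtain ⟨M, A, hMA⟩ := h
  refine ⟨M + ‖2 * (π : ℂ) * I * (x : ℂ)‖, A, fun t ht => ?_⟩
  exact (norm_add_le _ _).trans (add_le_add (hMA t ht) le_rfl)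

theorem ev_zero_eq_Zc (y : ℝ) (hy : ¬ ∃ n : ℤ, y = n) (t : ℍ) :
    ev 0 y t = Zc (y : ℂ) (ee (t : ℂ)) := by
  rw [ev_eq_Zc (notInt_zero_left hy)]
  simp

theorem ev_zero_SL2 (γ : SL(2, ℤ)) (y : ℝ) (t : ℍ) :
    ev 0 y (γ • t) =
      denom γ t * ev (y * ((γ 1 0 : ℤ) : ℝ)) (y * ((γ 1 1 : ℤ) : ℝ)) t := by
  rw [ev_SL2]
  simp

/-- **PH**: the products of weight one Eisenstein series. -/
theorem exists_pform (p : ℕ) [Fact p.Prime] (a b : ℕ) (ha : ¬ p ∣ a) (hb : ¬ p ∣ b) :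
    ∃ P : ModularForm (Gamma0 p) 2,
      PowerSeries.coeff 0 (qExpansion 1 P) = (p : ℂ) * (p - 1) / 4 - (dedS p a b : ℂ) / p ∧
      ∀ m : ℕ, 1 ≤ m → ∃ k : ℤ, PowerSeries.coeff m (qExpansion 1 P) = 2 * k :=
  PForm.exists_pform_of_ev p ev ev_zero_eq_Zc (fun γ y _ t => ev_zero_SL2 γ y t)
    (fun _ _ a b hxy t => ev_add_int hxy a b t) isBoundedAtImInfty_ev a b ha hb

theorem hasPH (p : ℕ) [Fact p.Prime] : LBF.HasPH p :=
  fun a b ha hb => exists_pform p a b ha hb

end Fermat.Agent.S16.EVFinal
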