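/-
S16, glue between slice ZW (Weierstrass zeta, `ZW.Z = ζ_W - z G₂`) and slice EV part 1
(`EVLambert.Zc`, the Lambert form of the Eisenstein-ordered cotangent sum): off the lattice the
two functions agree, hence `Zc` satisfies the `S`-law, the `T`-law and oddness.
-/
import Mathlib
import Fermat.Agent.S16.ZW
import Fermat.Agent.S16.EVLambert

set_option autoImplicit false

open Complex Filter Topology
open UpperHalfPlane hiding I
open scoped Real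

noncomputable section

namespace Fermat.Agent.S16.EVGlue

open Fermat.Agent.S16.ZW Fermat.Agent.S16.EVLambert

theorem norm_ee_coe_lt_one (t : ℍ) : ‖ee (t : ℂ)‖ < 1 :=
  UpperHalfPlane.norm_exp_two_pi_I_lt_one t

theorem ee_ne_one_of_offLattice {z : ℂ} {t : ℍ} (hz : ∀ m n : ℤ, z + m * (t : ℂ) + n ≠ 0) :
    ∀ m : ℤ, ee (z + m * (t : ℂ)) ≠ 1 := by
  intro m h
  obtain ⟨n, hn⟩ := (ee_eq_one_iff _).mp h
  apply hz m (-n)
  rw [hn]
  push_cast
  ring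

/-- Off the lattice, the Lambert form `Zc` is the Eisenstein-summed zeta function `Z`. -/
theorem Zc_eq_Z (z : ℂ) (t : ℍ) (hz : ∀ m n : ℤ, z + m * (t : ℂ) + n ≠ 0) :
    Zc z (ee (t : ℂ)) = Z z t :=
  tendsto_nhds_unique
    (tendsto_sum_Icc_cot z (t : ℂ) (norm_ee_coe_lt_one t) (ee_ne_one_of_offLattice hz))
    (tendsto_cot z t hz)

theorem offLattice_S {z : ℂ} {t : ℍ} (hz : ∀ m n : ℤ, z + m * (t : ℂ) + n ≠ 0) :
    ∀ m n : ℤ, z / (t : ℂ) + m * ((ModularGroup.S • t : ℍ) : ℂ) + n ≠ 0 := by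
  have ht : (t : ℂ) ≠ 0 := ne_zero t
  intro m n h
  apply hz n (-m)
  rw [coe_S_smul] at h
  have h2 : (z / (t : ℂ) + m * (-(t : ℂ))⁻¹ + n) * (t : ℂ) = 0 := by rw [h, zero_mul]
  rw [← h2]
  push_cast
  field_simp
  ring

/-- **The `S`-law of `Zc`** (off the lattice). -/
theorem Zc_S (z : ℂ) (t : ℍ) (hz : ∀ m n : ℤ, z + m * (t : ℂ) + n ≠ 0) :
    Zc (z / (t : ℂ)) (ee ((ModularGroup.S • t : ℍ) : ℂ))
      = t * Zc z (ee (t : ℂ)) + 2 * π * I * z := by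
  rw [Zc_eq_Z z t hz, Zc_eq_Z (z / (t : ℂ)) (ModularGroup.S • t) (offLattice_S hz), Z_S]

/-- The same with the off-lattice hypothesis in the form `z ≠ m t + n`. -/
theorem Zc_S' (z : ℂ) (t : ℍ) (hz : ∀ m n : ℤ, z ≠ m * (t : ℂ) + n) :
    Zc (z / (t : ℂ)) (ee ((ModularGroup.S • t : ℍ) : ℂ))
      = t * Zc z (ee (t : ℂ)) + 2 * π * I * z :=
  Zc_S z t fun m n h => hz (-m) (-n) (by push_cast; linear_combination h)

/-- The same with `-1/t` spelled out. -/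
theorem Zc_S'' (z : ℂ) (t : ℍ) (hz : ∀ m n : ℤ, z ≠ m * (t : ℂ) + n) :
    Zc (z / (t : ℂ)) (ee (-(t : ℂ))⁻¹) = t * Zc z (ee (t : ℂ)) + 2 * π * I * z := by
  rw [← coe_S_smul]
  exact Zc_S' z t hz

end Fermat.Agent.S16.EVGlue
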