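/-
S16, shared helper: integral `q`-expansions of the level-one Eisenstein series `E₄`, `E₆`.

* `e4Z, e6Z : PowerSeries ℤ`  with  `e4Z = 1 + 240 ∑ σ₃(n) Xⁿ`, `e6Z = 1 - 504 ∑ σ₅(n) Xⁿ`;
* `qExpansion_E4`, `qExpansion_E6` : `qExpansion 1 E₄ = e4Z.map (Int.castRingHom ℂ)` etc.;
* `e4R ℓ`, `e6R ℓ : PowerSeries ℤ_(ℓ)` with `map (iotaC ℓ) (e4R ℓ) = qExpansion 1 E₄` and
  `map (redHom ℓ) (e4R ℓ) = e4Z.map (Int.castRingHom (ZMod ℓ))`.
-/
import Mathlib
import Fermat.Agent.S16.Defs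

set_option autoImplicit false

noncomputable section

namespace Fermat.Agent.S16.EisInt

open UpperHalfPlane ModularForm ModularFormClass EisensteinSeries
open scoped MatrixGroups ArithmeticFunction.sigma

/-- `1 + 240 ∑_{n ≥ 1} σ₃(n) Xⁿ`. -/
def e4Z : PowerSeries ℤ :=
  PowerSeries.mk fun n => if n = 0 then 1 else 240 * (ArithmeticFunction.sigma 3 n : ℤ)

/-- `1 - 504 ∑_{n ≥ 1} σ₅(n) Xⁿ`. -/
def e6Z : PowerSeries ℤ :=
  PowerSeries.mk fun n => if n = 0 then 1 else -504 * (ArithmeticFunction.sigma 5 n : ℤ)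

@[simp] theorem coeff_e4Z_zero : PowerSeries.coeff 0 e4Z = 1 := by simp [e4Z]
@[simp] theorem coeff_e6Z_zero : PowerSeries.coeff 0 e6Z = 1 := by simp [e6Z]
@[simp] theorem coeff_e4Z_one : PowerSeries.coeff 1 e4Z = 240 := by simp [e4Z]
@[simp] theorem coeff_e6Z_one : PowerSeries.coeff 1 e6Z = -504 := by simp [e6Z]

theorem coeff_e4Z (n : ℕ) :
    PowerSeries.coeff n e4Z = if n = 0 then 1 else 240 * (ArithmeticFunction.sigma 3 n : ℤ) := by
  simp [e4Z]

theorem coeff_e6Z (n : ℕ) :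
    PowerSeries.coeff n e6Z = if n = 0 then 1 else -504 * (ArithmeticFunction.sigma 5 n : ℤ) := by
  simp [e6Z]

theorem qExpansion_E4 : qExpansion 1 E₄ = e4Z.map (Int.castRingHom ℂ) := by
  ext n
  rw [PowerSeries.coeff_map, coeff_e4Z, E_qExpansion_coeff _ ⟨2, rfl⟩,
    show bernoulli 4 = -1 / 30 by decide +kernel]
  split_ifs with h
  · simp
  · push_cast
    norm_num

theorem qExpansion_E6 : qExpansion 1 E₆ = e6Z.map (Int.castRingHom ℂ) := by
  ext n
  rw [PowerSeries.coeff_map, coeff_e6Z, E_qExpansion_coeff _ ⟨3, rfl⟩,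
    show bernoulli 6 = 1 / 42 by decide +kernel]
  split_ifs with h
  · simp
  · push_cast
    norm_num

section Local

variable (ℓ : ℕ)

/-- The `q`-expansion of `E₄` over `ℤ_(ℓ)`. -/
def e4R : PowerSeries ↥(GaloisRep.ratLocalizedAt ℓ) :=
  e4Z.map (Int.castRingHom ↥(GaloisRep.ratLocalizedAt ℓ))

/-- The `q`-expansion of `E₆` over `ℤ_(ℓ)`. -/
def e6R : PowerSeries ↥(GaloisRep.ratLocalizedAt ℓ) :=
  e6Z.map (Int.castRingHom ↥(GaloisRep.ratLocalizedAt ℓ))

theorem map_map_intCast {A B : Type*} [CommRing A] [CommRing B] (f : A →+* B)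
    (F : PowerSeries ℤ) :
    PowerSeries.map f (PowerSeries.map (Int.castRingHom A) F) =
      PowerSeries.map (Int.castRingHom B) F := by
  ext n
  simp [PowerSeries.coeff_map]

theorem map_iotaC_e4R : PowerSeries.map (iotaC ℓ) (e4R ℓ) = qExpansion 1 E₄ := by
  rw [e4R, map_map_intCast, qExpansion_E4]

theorem map_iotaC_e6R : PowerSeries.map (iotaC ℓ) (e6R ℓ) = qExpansion 1 E₆ := by
  rw [e6R, map_map_intCast, qExpansion_E6]

variable [Fact ℓ.Prime]

theorem map_redHom_e4R :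
    PowerSeries.map (redHom ℓ) (e4R ℓ) = e4Z.map (Int.castRingHom (ZMod ℓ)) := by
  rw [e4R, map_map_intCast]

theorem map_redHom_e6R :
    PowerSeries.map (redHom ℓ) (e6R ℓ) = e6Z.map (Int.castRingHom (ZMod ℓ)) := by
  rw [e6R, map_map_intCast]

end Local

end Fermat.Agent.S16.EisInt
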