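/-
S16, shared leaf EQ: integral `q`-expansions of `E₄`, `E₆` and `Δ`.

* `sig k`            : `∑_{n ≥ 1} σ_k(n) Xⁿ` in `ℤ[[X]]`; `sig k = X * sigU k` with `sigU k` a unit;
* `E4Z`, `E6Z`       : `1 + 240 sig 3`, `1 - 504 sig 5`, with `map_E4Z`, `map_E6Z`
                       (`PowerSeries.map (Int.castRingHom ℂ) _ = qExpansion 1 _`);
* `DeltaZ`           : `sig12 + 100 sig 3 ^ 2 - 147 sig 5 ^ 2 + 8000 sig 3 ^ 3`, where
                       `12 * sig12 = 5 sig 3 + 7 sig 5`; `DeltaZ_mul : 1728 * DeltaZ = E4Z ^ 3 - E6Z ^ 2`,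
                       `map_DeltaZ`, `coeff_one_DeltaZ`, `DeltaZ = X * DeltaU` with `DeltaU` a unit;
* `sig_five_sub_sig_three : sig 5 - sig 3 = 24 * sigD`;
* `toLoc ℓ`          : transfer to `ℤ_(ℓ)`, with `map_iotaC_toLoc`, `map_redHom_toLoc`.
-/
import Mathlib
import Fermat.Agent.S16.Defs

set_option autoImplicit false

noncomputable section

open UpperHalfPlane ModularForm EisensteinSeries ModularFormClass
open scoped MatrixGroups ModularForm ArithmeticFunction.sigma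

namespace Fermat.Agent.S16.EisQ

/-- `S_k = ∑_{n ≥ 1} σ_k(n) Xⁿ` as an integral power series. -/
def sig (k : ℕ) : PowerSeries ℤ :=
  PowerSeries.mk fun n => ((ArithmeticFunction.sigma k n : ℕ) : ℤ)

@[simp] theorem coeff_sig (k n : ℕ) :
    PowerSeries.coeff n (sig k) = ((ArithmeticFunction.sigma k n : ℕ) : ℤ) := by
  simp [sig]

@[simp] theorem coeff_zero_sig (k : ℕ) : PowerSeries.coeff 0 (sig k) = 0 := by
  simp [sig]

@[simp] theorem constantCoeff_sig (k : ℕ) : PowerSeries.constantCoeff (sig k) = 0 := by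
  rw [← PowerSeries.coeff_zero_eq_constantCoeff_apply]; simp

@[simp] theorem coeff_one_sig (k : ℕ) : PowerSeries.coeff 1 (sig k) = 1 := by
  simp [sig]

/-- The integral `q`-expansion of `E₄`. -/
def E4Z : PowerSeries ℤ := 1 + 240 * sig 3

/-- The integral `q`-expansion of `E₆`. -/
def E6Z : PowerSeries ℤ := 1 - 504 * sig 5

theorem coeff_ofNat_mul (c : ℕ) [c.AtLeastTwo] (F : PowerSeries ℤ) (n : ℕ) :
    PowerSeries.coeff n ((OfNat.ofNat c : PowerSeries ℤ) * F)
      = (OfNat.ofNat c : ℤ) * PowerSeries.coeff n F := by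
  have h : (OfNat.ofNat c : PowerSeries ℤ) = PowerSeries.C (OfNat.ofNat c : ℤ) := by
    simp [map_ofNat]
  rw [h, PowerSeries.coeff_C_mul]

theorem coeff_E4Z (n : ℕ) : PowerSeries.coeff n E4Z
    = if n = 0 then 1 else 240 * ((ArithmeticFunction.sigma 3 n : ℕ) : ℤ) := by
  rw [E4Z, map_add, coeff_ofNat_mul, coeff_sig, PowerSeries.coeff_one]
  split_ifs with h
  · subst h; simp
  · simp

theorem coeff_E6Z (n : ℕ) : PowerSeries.coeff n E6Z
    = if n = 0 then 1 else -504 * ((ArithmeticFunction.sigma 5 n : ℕ) : ℤ) := by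
  rw [E6Z, map_sub, coeff_ofNat_mul, coeff_sig, PowerSeries.coeff_one]
  split_ifs with h
  · subst h; simp
  · simp

theorem bernoulli_four : bernoulli 4 = -1 / 30 := by decide +kernel
theorem bernoulli_six : bernoulli 6 = 1 / 42 := by decide +kernel

theorem map_E4Z : PowerSeries.map (Int.castRingHom ℂ) E4Z = qExpansion 1 E₄ := by
  ext m
  rw [E_qExpansion_coeff (by norm_num) ⟨2, rfl⟩ m, PowerSeries.coeff_map, coeff_E4Z]
  split_ifs with h
  · simp
  · simp [bernoulli_four]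
    norm_num

theorem map_E6Z : PowerSeries.map (Int.castRingHom ℂ) E6Z = qExpansion 1 E₆ := by
  ext m
  rw [E_qExpansion_coeff (by norm_num) ⟨3, rfl⟩ m, PowerSeries.coeff_map, coeff_E6Z]
  split_ifs with h
  · simp
  · simp [bernoulli_six]
    norm_num

/-! ### The discriminant -/

theorem twelve_dvd (d : ℕ) : 12 ∣ 5 * d ^ 3 + 7 * d ^ 5 := by
  have h : ∀ r < 12, (5 * r ^ 3 + 7 * r ^ 5) % 12 = 0 := by decide
  have h2 : (5 * d ^ 3 + 7 * d ^ 5) % 12 = (5 * (d % 12) ^ 3 + 7 * (d % 12) ^ 5) % 12 := by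
    conv_lhs => rw [Nat.add_mod, Nat.mul_mod, Nat.pow_mod, Nat.mul_mod 7, Nat.pow_mod d 5]
    conv_rhs => rw [Nat.add_mod, Nat.mul_mod, Nat.mul_mod 7]
  exact Nat.dvd_of_mod_eq_zero (h2.trans (h _ (Nat.mod_lt _ (by norm_num))))

theorem twelve_dvd_sigma (n : ℕ) :
    12 ∣ 5 * ArithmeticFunction.sigma 3 n + 7 * ArithmeticFunction.sigma 5 n := by
  rw [ArithmeticFunction.sigma_apply, ArithmeticFunction.sigma_apply, Finset.mul_sum,
    Finset.mul_sum, ← Finset.sum_add_distrib]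
  exact Finset.dvd_sum fun d _ => twelve_dvd d

/-- `(5 S₃ + 7 S₅) / 12`, an integral power series. -/
def sig12 : PowerSeries ℤ :=
  PowerSeries.mk fun n =>
    (((5 * ArithmeticFunction.sigma 3 n + 7 * ArithmeticFunction.sigma 5 n) / 12 : ℕ) : ℤ)

theorem sig12_mul : 12 * sig12 = 5 * sig 3 + 7 * sig 5 := by
  ext n
  rw [coeff_ofNat_mul, map_add, coeff_ofNat_mul, coeff_ofNat_mul, coeff_sig, coeff_sig, sig12,
    PowerSeries.coeff_mk]
  have h := Nat.mul_div_cancel' (twelve_dvd_sigma n)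
  exact_mod_cast h

/-- The integral `q`-expansion of `Δ`. -/
def DeltaZ : PowerSeries ℤ := sig12 + 100 * sig 3 ^ 2 - 147 * sig 5 ^ 2 + 8000 * sig 3 ^ 3

theorem DeltaZ_mul : 1728 * DeltaZ = E4Z ^ 3 - E6Z ^ 2 := by
  have h : 1728 * DeltaZ = 144 * (12 * sig12) + 1728 * (100 * sig 3 ^ 2 - 147 * sig 5 ^ 2
      + 8000 * sig 3 ^ 3) := by
    rw [DeltaZ]; ring
  rw [h, sig12_mul, E4Z, E6Z]
  ring

theorem qExpansion_discriminant :
    (1728 : PowerSeries ℂ) * qExpansion 1 ModularForm.discriminant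
      = qExpansion 1 E₄ ^ 3 - qExpansion 1 E₆ ^ 2 := by
  set F : ModularForm 𝒮ℒ 12 :=
    ModularForm.mcast (by decide) (E₄.pow 3) - ModularForm.mcast (by decide) (E₆.pow 2) with hF
  have hfun : (ModularForm.discriminant : ℍ → ℂ) = ⇑((1 / 1728 : ℂ) • F) := by
    ext z
    have h4 : (E₄.pow 3) z = E₄ z ^ 3 := by rw [ModularForm.coe_pow]; rfl
    have h6 : (E₆.pow 2) z = E₆ z ^ 2 := by rw [ModularForm.coe_pow]; rfl
    rw [discriminant_eq_E₄_cube_sub_E₆_sq z]
    simp [hF, coe_mcast, h4, h6]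
    ring
  have hq : qExpansion 1 F = qExpansion 1 E₄ ^ 3 - qExpansion 1 E₆ ^ 2 := by
    rw [hF, FunLike.coe_sub, ModularForm.qExpansion_sub one_pos one_mem_strictPeriods_SL,
      ModularForm.qExpansion_mcast, ModularForm.qExpansion_mcast,
      ModularForm.qExpansion_pow one_pos one_mem_strictPeriods_SL,
      ModularForm.qExpansion_pow one_pos one_mem_strictPeriods_SL]
  rw [hfun, FunLike.coe_smul, ModularForm.qExpansion_smul one_pos one_mem_strictPeriods_SL, hq]
  ext n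
  have h1728 : (1728 : PowerSeries ℂ) = PowerSeries.C (1728 : ℂ) := by simp [map_ofNat]
  rw [h1728, PowerSeries.coeff_C_mul, PowerSeries.coeff_smul]
  simp

theorem map_DeltaZ :
    PowerSeries.map (Int.castRingHom ℂ) DeltaZ = qExpansion 1 ModularForm.discriminant := by
  have h1 : (1728 : PowerSeries ℂ) * PowerSeries.map (Int.castRingHom ℂ) DeltaZ
      = (1728 : PowerSeries ℂ) * qExpansion 1 ModularForm.discriminant := by
    rw [qExpansion_discriminant, ← map_E4Z, ← map_E6Z, ← map_pow, ← map_pow, ← map_sub,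
      ← DeltaZ_mul, map_mul, map_ofNat]
  have h1728 : (1728 : PowerSeries ℂ) ≠ 0 := by
    intro h
    have h' := congrArg PowerSeries.constantCoeff h
    rw [map_ofNat, map_zero] at h'
    norm_num at h'
  exact mul_left_cancel₀ h1728 h1

theorem map_DeltaZ' :
    PowerSeries.map (Int.castRingHom ℂ) DeltaZ = qExpansion 1 CuspForm.discriminant := by
  rw [map_DeltaZ, CuspForm.coe_discriminant]

@[simp] theorem constantCoeff_sig12 : PowerSeries.constantCoeff sig12 = 0 := by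
  rw [← PowerSeries.coeff_zero_eq_constantCoeff_apply]; simp [sig12]

@[simp] theorem constantCoeff_DeltaZ : PowerSeries.constantCoeff DeltaZ = 0 := by
  simp [DeltaZ]

@[simp] theorem coeff_zero_DeltaZ : PowerSeries.coeff 0 DeltaZ = 0 := by
  rw [PowerSeries.coeff_zero_eq_constantCoeff_apply]; simp

@[simp] theorem coeff_one_DeltaZ : PowerSeries.coeff 1 DeltaZ = 1 := by
  have h := congrArg (PowerSeries.coeff 1) map_DeltaZ
  rw [discriminant_qExpansion_coeff_one, PowerSeries.coeff_map, eq_intCast] at h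
  exact_mod_cast h

theorem DeltaZ_eq : DeltaZ = sig12 + 100 * sig 3 ^ 2 - 147 * sig 5 ^ 2 + 8000 * sig 3 ^ 3 := rfl

@[simp] theorem constantCoeff_E4Z : PowerSeries.constantCoeff E4Z = 1 := by
  simp [E4Z]

@[simp] theorem constantCoeff_E6Z : PowerSeries.constantCoeff E6Z = 1 := by
  simp [E6Z]

/-- The coefficients of the `q`-expansion of `Δ` are integers (Ramanujan's `τ`). -/
theorem coeff_qExpansion_discriminant (n : ℕ) :
    PowerSeries.coeff n (qExpansion 1 ModularForm.discriminant)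
      = ((PowerSeries.coeff n DeltaZ : ℤ) : ℂ) := by
  rw [← map_DeltaZ, PowerSeries.coeff_map, eq_intCast]

/-! ### Orders: `S_k = X · (unit)`, `Δ = X · (unit)` -/

/-- `S_k / X`. -/
def sigU (k : ℕ) : PowerSeries ℤ :=
  PowerSeries.mk fun n => ((ArithmeticFunction.sigma k (n + 1) : ℕ) : ℤ)

theorem sig_eq_X_mul (k : ℕ) : sig k = PowerSeries.X * sigU k := by
  ext n
  rcases n with _ | n
  · simp
  · rw [PowerSeries.coeff_succ_X_mul]
    simp [sigU]

@[simp] theorem constantCoeff_sigU (k : ℕ) : PowerSeries.constantCoeff (sigU k) = 1 := by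
  rw [← PowerSeries.coeff_zero_eq_constantCoeff_apply]; simp [sigU]

theorem isUnit_sigU (k : ℕ) : IsUnit (sigU k) := by
  rw [PowerSeries.isUnit_iff_constantCoeff]; simp

/-- `Δ / X`. -/
def DeltaU : PowerSeries ℤ := PowerSeries.mk fun n => PowerSeries.coeff (n + 1) DeltaZ

theorem DeltaZ_eq_X_mul : DeltaZ = PowerSeries.X * DeltaU := by
  ext n
  rcases n with _ | n
  · simp
  · rw [PowerSeries.coeff_succ_X_mul]
    simp [DeltaU]

@[simp] theorem constantCoeff_DeltaU : PowerSeries.constantCoeff DeltaU = 1 := by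
  rw [← PowerSeries.coeff_zero_eq_constantCoeff_apply]; simp [DeltaU]

theorem isUnit_DeltaU : IsUnit DeltaU := by
  rw [PowerSeries.isUnit_iff_constantCoeff]; simp

/-! ### `S₅ ≡ S₃ mod 24` -/

theorem twentyfour_dvd (d : ℕ) : (24 : ℤ) ∣ (d : ℤ) ^ 5 - (d : ℤ) ^ 3 := by
  have h : ∀ r < 24, (r ^ 5) % 24 = (r ^ 3) % 24 := by decide
  have h2 : d ^ 5 % 24 = d ^ 3 % 24 := by
    rw [Nat.pow_mod, Nat.pow_mod d 3]
    exact h _ (Nat.mod_lt _ (by norm_num))
  have h3 : ((d ^ 3 : ℕ) : ℤ) ≡ ((d ^ 5 : ℕ) : ℤ) [ZMOD ((24 : ℕ) : ℤ)] :=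
    (Int.natCast_modEq_iff).mpr h2.symm
  exact_mod_cast h3.dvd

/-- `(S₅ - S₃) / 24`. -/
def sigD : PowerSeries ℤ :=
  PowerSeries.mk fun n =>
    (((ArithmeticFunction.sigma 5 n : ℕ) : ℤ) - ((ArithmeticFunction.sigma 3 n : ℕ) : ℤ)) / 24

theorem sig_five_sub_sig_three : sig 5 - sig 3 = 24 * sigD := by
  ext n
  rw [coeff_ofNat_mul, map_sub, coeff_sig, coeff_sig, sigD, PowerSeries.coeff_mk]
  have hd : (24 : ℤ) ∣ ((ArithmeticFunction.sigma 5 n : ℕ) : ℤ)
      - ((ArithmeticFunction.sigma 3 n : ℕ) : ℤ) := by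
    rw [ArithmeticFunction.sigma_apply, ArithmeticFunction.sigma_apply]
    push_cast
    rw [← Finset.sum_sub_distrib]
    exact Finset.dvd_sum fun d _ => twentyfour_dvd d
  exact (Int.mul_ediv_cancel' hd).symm

/-! ### Transfer to `ℤ_(ℓ)` and reduction mod `ℓ` -/

section Local

variable (ℓ : ℕ)

/-- An integral power series, viewed over `ℤ_(ℓ)`. -/
def toLoc (F : PowerSeries ℤ) : PowerSeries ↥(GaloisRep.ratLocalizedAt ℓ) :=
  PowerSeries.map (Int.castRingHom ↥(GaloisRep.ratLocalizedAt ℓ)) F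

theorem map_iotaC_toLoc (F : PowerSeries ℤ) :
    PowerSeries.map (iotaC ℓ) (toLoc ℓ F) = PowerSeries.map (Int.castRingHom ℂ) F := by
  rw [toLoc, ← RingHom.comp_apply, ← PowerSeries.map_comp]
  exact congrArg (fun g : ℤ →+* ℂ => PowerSeries.map g F) (RingHom.ext_int _ _)

theorem map_redHom_toLoc [Fact ℓ.Prime] (F : PowerSeries ℤ) :
    PowerSeries.map (redHom ℓ) (toLoc ℓ F) = PowerSeries.map (Int.castRingHom (ZMod ℓ)) F := by
  rw [toLoc, ← RingHom.comp_apply, ← PowerSeries.map_comp]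
  exact congrArg (fun g : ℤ →+* ZMod ℓ => PowerSeries.map g F) (RingHom.ext_int _ _)

@[simp] theorem toLoc_one : toLoc ℓ 1 = 1 := map_one _
@[simp] theorem toLoc_zero : toLoc ℓ 0 = 0 := map_zero _
theorem toLoc_add (F G : PowerSeries ℤ) : toLoc ℓ (F + G) = toLoc ℓ F + toLoc ℓ G := map_add _ _ _
theorem toLoc_sub (F G : PowerSeries ℤ) : toLoc ℓ (F - G) = toLoc ℓ F - toLoc ℓ G := map_sub _ _ _
theorem toLoc_mul (F G : PowerSeries ℤ) : toLoc ℓ (F * G) = toLoc ℓ F * toLoc ℓ G := map_mul _ _ _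
theorem toLoc_pow (F : PowerSeries ℤ) (n : ℕ) : toLoc ℓ (F ^ n) = toLoc ℓ F ^ n := map_pow _ _ _

theorem map_iotaC_toLoc_E4Z : PowerSeries.map (iotaC ℓ) (toLoc ℓ E4Z) = qExpansion 1 E₄ := by
  rw [map_iotaC_toLoc, map_E4Z]

theorem map_iotaC_toLoc_E6Z : PowerSeries.map (iotaC ℓ) (toLoc ℓ E6Z) = qExpansion 1 E₆ := by
  rw [map_iotaC_toLoc, map_E6Z]

theorem map_iotaC_toLoc_DeltaZ :
    PowerSeries.map (iotaC ℓ) (toLoc ℓ DeltaZ) = qExpansion 1 ModularForm.discriminant := by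
  rw [map_iotaC_toLoc, map_DeltaZ]

end Local

/-! ### Reductions of `S_k` in an arbitrary commutative ring -/

section Red

variable {A : Type*} [CommRing A] (f : ℤ →+* A)

theorem map_sig_eq_X_mul (k : ℕ) :
    PowerSeries.map f (sig k) = PowerSeries.X * PowerSeries.map f (sigU k) := by
  rw [sig_eq_X_mul, map_mul, PowerSeries.map_X]

@[simp] theorem constantCoeff_map_sigU (k : ℕ) :
    PowerSeries.constantCoeff (PowerSeries.map f (sigU k)) = 1 := by
  rw [← PowerSeries.coeff_zero_eq_constantCoeff_apply, PowerSeries.coeff_map,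
    PowerSeries.coeff_zero_eq_constantCoeff_apply, constantCoeff_sigU, map_one]

theorem isUnit_map_sigU (k : ℕ) : IsUnit (PowerSeries.map f (sigU k)) :=
  (isUnit_sigU k).map _

@[simp] theorem coeff_zero_map_sig (k : ℕ) :
    PowerSeries.coeff 0 (PowerSeries.map f (sig k)) = 0 := by
  simp [PowerSeries.coeff_map]

@[simp] theorem coeff_one_map_sig (k : ℕ) :
    PowerSeries.coeff 1 (PowerSeries.map f (sig k)) = 1 := by
  simp [PowerSeries.coeff_map]

theorem map_sig_ne_zero [Nontrivial A] (k : ℕ) : PowerSeries.map f (sig k) ≠ 0 := by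
  intro h
  have := congrArg (PowerSeries.coeff 1) h
  simp at this

theorem map_DeltaZ_eq_X_mul :
    PowerSeries.map f DeltaZ = PowerSeries.X * PowerSeries.map f DeltaU := by
  rw [DeltaZ_eq_X_mul, map_mul, PowerSeries.map_X]

theorem isUnit_map_DeltaU : IsUnit (PowerSeries.map f DeltaU) :=
  isUnit_DeltaU.map _

/-- `S₅ ≡ S₃` in any ring where `24 = 0`, e.g. modulo `2`, `3`, `4`, `8`. -/
theorem map_sig_five_eq (h24 : (24 : A) = 0) :
    PowerSeries.map f (sig 5) = PowerSeries.map f (sig 3) := by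
  have h := congrArg (PowerSeries.map f) sig_five_sub_sig_three
  rw [map_sub, map_mul, map_ofNat] at h
  have h24' : (24 : PowerSeries A) = 0 := by
    have : (24 : PowerSeries A) = PowerSeries.C (24 : A) := by simp [map_ofNat]
    rw [this, h24, map_zero]
  rw [h24', zero_mul, sub_eq_zero] at h
  exact h

end Red

end Fermat.Agent.S16.EisQ
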