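/-
S16, shared helpers for the slices U1–U5 (formal side of the norm/Sturm arguments).

* `S3`, `S5 : ℤ⟦X⟧` and the `q`-expansions `E₄ = 1 + 240 S₃`, `E₆ = 1 - 504 S₅`;
* `invNat ℓ m` : the inverse of an integer prime to `ℓ` in `ℤ_(ℓ)`;
* `usec p` : the `U_p`-section `∑ a_{np} Xⁿ` of a power series, and the `q`-expansion of
  `heckeULin k _ G` (Prelude `ModularFormClass.qCoeff_heckeU`);
* small facts on `iotaC`, `redHom`.
-/
import Mathlib
import Fermat.Agent.S16.Defs
import Fermat.Prelude.Def_ModularForm_HeckeOperatorForms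
import Fermat.Prelude.Thm_CongruenceSubgroup_one_mem_strictPeriods_Gamma0
import Fermat.Prelude.Thm_ModularFormClass_qCoeff_heckeU

set_option autoImplicit false

noncomputable section

open UpperHalfPlane ModularForm CongruenceSubgroup PowerSeries
open scoped MatrixGroups ModularForm

namespace Fermat.Agent.S16.UCommon

/-! ### `E₄`, `E₆` -/

/-- `S₃ = ∑ σ₃(n) Xⁿ`. -/
def S3 : ℤ⟦X⟧ := PowerSeries.mk fun n => (ArithmeticFunction.sigma 3 n : ℤ)

/-- `S₅ = ∑ σ₅(n) Xⁿ`. -/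
def S5 : ℤ⟦X⟧ := PowerSeries.mk fun n => (ArithmeticFunction.sigma 5 n : ℤ)

theorem coeff_S3 (n : ℕ) : coeff n S3 = (ArithmeticFunction.sigma 3 n : ℤ) := by simp [S3]

theorem coeff_S5 (n : ℕ) : coeff n S5 = (ArithmeticFunction.sigma 5 n : ℤ) := by simp [S5]

theorem coeff_zero_S3 : coeff 0 S3 = 0 := by simp [S3]

theorem coeff_zero_S5 : coeff 0 S5 = 0 := by simp [S5]

theorem coeff_one_S3 : coeff 1 S3 = 1 := by simp [S3]

theorem coeff_one_S5 : coeff 1 S5 = 1 := by simp [S5]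

theorem qExpansion_E4 :
    qExpansion 1 E₄ = PowerSeries.map (Int.castRingHom ℂ) (1 + 240 * S3) := by
  ext n
  rw [EisensteinSeries.E_qExpansion_coeff _ ⟨2, rfl⟩]
  have hb : bernoulli 4 = -1 / 30 := by decide +kernel
  simp only [coeff_map, map_add, S3]
  have h240 : (240 : ℤ⟦X⟧) = C (240 : ℤ) := (map_ofNat (C (R := ℤ)) 240).symm
  rw [h240, coeff_C_mul, coeff_mk, coeff_one]
  by_cases hn : n = 0
  · subst hn; simp
  · simp only [hn, if_false, hb, eq_intCast]
    push_cast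
    ring

theorem qExpansion_E6 :
    qExpansion 1 E₆ = PowerSeries.map (Int.castRingHom ℂ) (1 - 504 * S5) := by
  ext n
  rw [EisensteinSeries.E_qExpansion_coeff _ ⟨3, rfl⟩]
  have hb : bernoulli 6 = 1 / 42 := by decide +kernel
  simp only [coeff_map, map_sub, S5]
  have h504 : (504 : ℤ⟦X⟧) = C (504 : ℤ) := (map_ofNat (C (R := ℤ)) 504).symm
  rw [h504, coeff_C_mul, coeff_mk, coeff_one]
  by_cases hn : n = 0
  · subst hn; simp
  · simp only [hn, if_false, hb, eq_intCast]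
    push_cast
    ring

/-! ### `ℤ_(ℓ)` -/

section Local

variable (ℓ : ℕ)

/-- The inverse of a natural number prime to `ℓ`, in `ℤ_(ℓ)`. -/
def invNat (m : ℕ) (hm : m.Coprime ℓ) : ↥(GaloisRep.ratLocalizedAt ℓ) :=
  ⟨(m : ℚ)⁻¹, by
    show ((m : ℚ)⁻¹).den.Coprime ℓ
    rw [Rat.inv_natCast_den]
    split_ifs
    · simp
    · exact hm⟩

theorem mul_invNat (m : ℕ) (hm : m.Coprime ℓ) (hm0 : m ≠ 0) :
    (m : ↥(GaloisRep.ratLocalizedAt ℓ)) * invNat ℓ m hm = 1 := by
  apply Subtype.ext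
  have : (m : ℚ) ≠ 0 := by exact_mod_cast hm0
  show ((m : ↥(GaloisRep.ratLocalizedAt ℓ)) : ℚ) * (m : ℚ)⁻¹ = 1
  rw [show ((m : ↥(GaloisRep.ratLocalizedAt ℓ)) : ℚ) = (m : ℚ) from by norm_cast]
  exact mul_inv_cancel₀ this

theorem iotaC_invNat (m : ℕ) (hm : m.Coprime ℓ) : iotaC ℓ (invNat ℓ m hm) = (m : ℂ)⁻¹ := by
  rw [iotaC_apply]
  show (((m : ℚ)⁻¹ : ℚ) : ℂ) = _
  push_cast
  rfl

theorem map_iotaC_intCast (F : ℤ⟦X⟧) :
    PowerSeries.map (iotaC ℓ) (PowerSeries.map (Int.castRingHom ↥(GaloisRep.ratLocalizedAt ℓ)) F)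
      = PowerSeries.map (Int.castRingHom ℂ) F := by
  ext n
  simp [coeff_map]

theorem redHom_self [Fact ℓ.Prime] : redHom ℓ (ℓ : ↥(GaloisRep.ratLocalizedAt ℓ)) = 0 := by
  rw [map_natCast]
  exact ZMod.natCast_self ℓ

end Local

/-! ### The `U_p`-section -/

section Usec

variable (p : ℕ)

/-- The `U_p`-section of a power series: `∑ a_{np} Xⁿ`. -/
def usec {A : Type*} [Semiring A] (f : A⟦X⟧) : A⟦X⟧ := PowerSeries.mk fun n => coeff (n * p) f

theorem coeff_usec {A : Type*} [Semiring A] (f : A⟦X⟧) (n : ℕ) :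
    coeff n (usec p f) = coeff (n * p) f := by simp [usec]

theorem usec_map {A B : Type*} [Semiring A] [Semiring B] (f : A →+* B) (F : A⟦X⟧) :
    usec p (PowerSeries.map f F) = PowerSeries.map f (usec p F) := by
  ext n
  simp [usec]

theorem usec_add {A : Type*} [Semiring A] (f g : A⟦X⟧) :
    usec p (f + g) = usec p f + usec p g := by
  ext n
  simp [usec]

theorem usec_C_mul {A : Type*} [Semiring A] (c : A) (f : A⟦X⟧) :
    usec p (C c * f) = C c * usec p f := by
  ext n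
  simp [usec]

theorem usec_one (hp0 : p ≠ 0) {A : Type*} [Semiring A] : usec p (1 : A⟦X⟧) = 1 := by
  ext n
  simp only [usec, coeff_mk, coeff_one]
  by_cases hn : n = 0
  · subst hn; simp
  · have : n * p ≠ 0 := Nat.mul_ne_zero hn hp0
    simp [hn, this]

theorem usec_expand (hp0 : p ≠ 0) {A : Type*} [CommRing A] (f : A⟦X⟧) :
    usec p (PowerSeries.expand p hp0 f) = f := by
  ext n
  rw [coeff_usec, mul_comm, PowerSeries.coeff_expand_mul]

/-- The `q`-expansion of `U_p G` is the `U_p`-section of the `q`-expansion of `G`. -/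
theorem qExpansion_heckeU [NeZero p] (k : ℤ) (G : ModularForm (Gamma0 p) k) :
    qExpansion 1 (ModularForm.heckeULin (N := p) (p := p) k dvd_rfl G)
      = usec p (qExpansion 1 G) := by
  ext n
  have h := ModularFormClass.qCoeff_heckeU (k := k) G (one_mem_strictPeriods_Gamma0 p)
    (NeZero.ne p) n
  rw [ModularForm.coe_heckeULin_apply]
  simpa [usec, ModularFormClass.qCoeff, ModularForm.coeffHeckeU] using h

end Usec

end Fermat.Agent.S16.UCommon

end
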