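/-
S16, shared leaf EQ (adapters): the integral series `S12 = (5 S₃ + 7 S₅) / 12` and
`(S₅ - S₃) / 24` of `S16/EisQ.lean`, restated in the notations of `S16/UCommon.lean`
(`UCommon.S3`, `UCommon.S5`) and of `S16/Sturm.lean` (`Sturm.sigmaSeries`).
-/
import Mathlib
import Fermat.Agent.S16.EisQ
import Fermat.Agent.S16.UCommon
import Fermat.Agent.S16.Sturm

set_option autoImplicit false

noncomputable section

namespace Fermat.Agent.S16.EisQ12

open Fermat.Agent.S16.EisQ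

theorem S3_eq : UCommon.S3 = sig 3 := rfl

theorem S5_eq : UCommon.S5 = sig 5 := rfl

theorem sigmaSeries_eq (k : ℕ) : Sturm.sigmaSeries k = sig k := rfl

theorem coeff_zero_sig12 : PowerSeries.coeff 0 sig12 = 0 := by
  simp [sig12]

theorem coeff_one_sig12 : PowerSeries.coeff 1 sig12 = 1 := by
  simp [sig12]

/-- `12 * sig12 = 5 S₃ + 7 S₅`, in the notation of `UCommon`. -/
theorem sig12_mul_S : 12 * sig12 = 5 * UCommon.S3 + 7 * UCommon.S5 := sig12_mul

/-- `12 * sig12 = 5 σ₃ + 7 σ₅`, in the notation of `Sturm`. -/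
theorem sig12_mul_sigmaSeries :
    12 * sig12 = 5 * Sturm.sigmaSeries 3 + 7 * Sturm.sigmaSeries 5 := sig12_mul

theorem exists_S12 : ∃ S12 : PowerSeries ℤ, 12 * S12 = 5 * UCommon.S3 + 7 * UCommon.S5 ∧
    PowerSeries.coeff 0 S12 = 0 ∧ PowerSeries.coeff 1 S12 = 1 :=
  ⟨sig12, sig12_mul_S, coeff_zero_sig12, coeff_one_sig12⟩

theorem exists_S12_sigmaSeries : ∃ S12 : PowerSeries ℤ,
    12 * S12 = 5 * Sturm.sigmaSeries 3 + 7 * Sturm.sigmaSeries 5 ∧
    PowerSeries.coeff 0 S12 = 0 ∧ PowerSeries.coeff 1 S12 = 1 :=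
  ⟨sig12, sig12_mul_sigmaSeries, coeff_zero_sig12, coeff_one_sig12⟩

theorem exists_D : ∃ D : PowerSeries ℤ, UCommon.S5 - UCommon.S3 = 24 * D :=
  ⟨sigD, sig_five_sub_sig_three⟩

theorem exists_D_sigmaSeries :
    ∃ D : PowerSeries ℤ, Sturm.sigmaSeries 5 - Sturm.sigmaSeries 3 = 24 * D :=
  ⟨sigD, sig_five_sub_sig_three⟩

/-- The `Δ`-formula in the notation of `Sturm`/`S24`:
`X * dedekindEtaUnit = S12 + 100 σ₃² - 147 σ₅² + 8000 σ₃³`. -/
theorem X_mul_dedekindEtaUnit :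
    PowerSeries.X * ModularCurve.dedekindEtaUnit
      = sig12 + 100 * Sturm.sigmaSeries 3 ^ 2 - 147 * Sturm.sigmaSeries 5 ^ 2
        + 8000 * Sturm.sigmaSeries 3 ^ 3 := by
  have hinj : Function.Injective (PowerSeries.map (Int.castRingHom ℂ)) :=
    PowerSeries.map_injective _ (RingHom.injective_int (Int.castRingHom ℂ))
  apply hinj
  have h1 : PowerSeries.map (Int.castRingHom ℂ) (PowerSeries.X * ModularCurve.dedekindEtaUnit)
      = UpperHalfPlane.qExpansion 1 ModularForm.discriminant := by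
    rw [Fermat.Agent.S24.JqBridge.qExpansion_discriminant, map_mul, PowerSeries.map_X]
  rw [h1, ← map_DeltaZ]
  rfl

end Fermat.Agent.S16.EisQ12
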