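/-
S16, glue between the landed slices COS (`Cos.lean`), W (`AtkinLehner.lean`) and PAIRS
(`Pairs.lean`): the hypotheses under which W and PAIRS were written are discharged here once.

* `traceZero p : AtkinLehner.TraceZero p`                      (from `Cos.traceZero`);
* `isPair_G p G : IsPair p 2 G (-(p)⁻¹ • U_p G)`                (bundled `PairDef.IsPair`);
* `pairG p G : QPair p 2`   = `(G, -p⁻¹ U_p G)`, with `q`-expansions;
* `pairPG p G : QPair p 2`  = `(p G, -U_p G)`, with `q`-expansions.
-/
import Mathlib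
import Fermat.Agent.S16.Cos
import Fermat.Agent.S16.AtkinLehner
import Fermat.Agent.S16.Pairs

set_option autoImplicit false

noncomputable section

open UpperHalfPlane ModularForm CongruenceSubgroup Matrix.SpecialLinearGroup
open scoped MatrixGroups ModularForm

namespace Fermat.Agent.S16.Glue

variable (p : ℕ) [Fact p.Prime]

/-- The trace to level one of a weight-2 form of level `Γ₀(p)` vanishes (shape used by W). -/
theorem traceZero : AtkinLehner.TraceZero p := by
  intro F
  exact Cos.traceZero p F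

theorem neZero : NeZero p := ⟨(Fact.out : p.Prime).ne_zero⟩

attribute [local instance] neZero

/-- The Atkin–Lehner identity `(G ∣[2] S)(τ) = -p⁻¹ (U_p G)(τ/p)` as a pair of bundled forms:
the hypothesis `hG` of `QPair.ofG`. -/
theorem isPair_G (G : ModularForm (Gamma0 p) 2) :
    IsPair p 2 G (-(p : ℂ)⁻¹ • ModularForm.heckeULin (N := p) (p := p) 2 dvd_rfl G) := by
  intro τ
  exact AtkinLehner.isPair_heckeU (traceZero p) G τ

/-- The pair `(G, -p⁻¹ U_p G)`. -/
def pairG (G : ModularForm (Gamma0 p) 2) : QPair p 2 := QPair.ofG G (isPair_G p G)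

theorem pairG_q (G : ModularForm (Gamma0 p) 2) : (pairG p G).q = qExpansion 1 G := rfl

theorem pairG_q' (G : ModularForm (Gamma0 p) 2) :
    (pairG p G).q' =
      -(p : ℂ)⁻¹ • qExpansion 1 (ModularForm.heckeULin (N := p) (p := p) 2 dvd_rfl G) :=
  QPair.ofG_q' G (isPair_G p G)

theorem coeff_pairG_q' (G : ModularForm (Gamma0 p) 2) (n : ℕ) :
    (pairG p G).q'.coeff n = -(p : ℂ)⁻¹ * (qExpansion 1 G).coeff (n * p) :=
  QPair.coeff_ofG_q' G (isPair_G p G) n

/-- The pair `(p G, -U_p G)`. -/
def pairPG (G : ModularForm (Gamma0 p) 2) : QPair p 2 := (pairG p G).smul (p : ℂ)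

theorem pairPG_q (G : ModularForm (Gamma0 p) 2) :
    (pairPG p G).q = PowerSeries.C (p : ℂ) * qExpansion 1 G := by
  rw [pairPG, QPair.smul_q, pairG_q, PowerSeries.smul_eq_C_mul]

theorem pairPG_q' (G : ModularForm (Gamma0 p) 2) :
    (pairPG p G).q' = -qExpansion 1 (ModularForm.heckeULin (N := p) (p := p) 2 dvd_rfl G) := by
  have hp : (p : ℂ) ≠ 0 := Nat.cast_ne_zero.mpr (Fact.out : p.Prime).ne_zero
  rw [pairPG, QPair.smul_q', pairG_q', smul_smul, mul_neg, mul_inv_cancel₀ hp, neg_one_smul]

end Fermat.Agent.S16.Glue
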