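/-
S16, slice MASTER (unconditional form): `NormHyp p` from the coset file, and the unconditional
contradiction lemmas.
-/
import Mathlib
import Fermat.Agent.S16.Master
import Fermat.Agent.S16.Cos

set_option autoImplicit false

noncomputable section

open UpperHalfPlane ModularForm CongruenceSubgroup
open scoped MatrixGroups ModularForm

namespace Fermat.Agent.S16

variable (p : ℕ) [Fact p.Prime]

/-- The norm form exists (slice COS). -/
theorem normHyp : NormHyp p := fun w Φ =>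
  ⟨Cos.normForm p Φ, fun τ => by
    rw [Cos.normForm_apply]
    simp only [zpow_natCast]⟩

/-- **MASTER**, unconditional. -/
theorem false_of_pair' (ℓ : ℕ) [Fact ℓ.Prime] (w : ℕ)
    (Φ Φ' : ModularForm (Gamma0 p) (w : ℤ)) (h : IsPair p w Φ Φ')
    (φ ψ : PowerSeries ↥(GaloisRep.ratLocalizedAt ℓ))
    (hφ : PowerSeries.map (iotaC ℓ) φ = qExpansion 1 Φ)
    (hψ : PowerSeries.map (iotaC ℓ) ψ = qExpansion 1 Φ')
    (ξ₀ ξ₁ : PowerSeries (ZMod ℓ))
    (h0 : PowerSeries.map (redHom ℓ) φ = ξ₀)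
    (h1 : PowerSeries.map (redHom ℓ) ψ =
      PowerSeries.expand p (Fact.out : p.Prime).ne_zero ξ₁)
    (hne : ξ₀ * ξ₁ ^ p ≠ 0)
    (hord : ∀ n : ℕ, 12 * n ≤ w * (p + 1) → PowerSeries.coeff n (ξ₀ * ξ₁ ^ p) = 0) : False :=
  haveI : NeZero p := ⟨(Fact.out : p.Prime).ne_zero⟩
  false_of_pair (normHyp p) ℓ w Φ Φ' h φ ψ hφ hψ ξ₀ ξ₁ h0 h1 hne hord

/-- **MASTER** for a `QPair`, unconditional, order form. -/
theorem false_of_qpair_order' (ℓ : ℕ) [Fact ℓ.Prime] (w : ℕ)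
    (P : QPair p (w : ℤ))
    (φ ψ : PowerSeries ↥(GaloisRep.ratLocalizedAt ℓ))
    (hφ : PowerSeries.map (iotaC ℓ) φ = qExpansion 1 P.Φ)
    (hψ : PowerSeries.map (iotaC ℓ) ψ = qExpansion 1 P.Φ')
    (ξ₀ ξ₁ : PowerSeries (ZMod ℓ))
    (h0 : PowerSeries.map (redHom ℓ) φ = ξ₀)
    (h1 : PowerSeries.map (redHom ℓ) ψ =
      PowerSeries.expand p (Fact.out : p.Prime).ne_zero ξ₁)
    (M : ℕ) (u : PowerSeries (ZMod ℓ)) (hu : u ≠ 0)
    (hM : ξ₀ * ξ₁ ^ p = PowerSeries.X ^ M * u) (hwM : w * (p + 1) < 12 * M) : False :=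
  haveI : NeZero p := ⟨(Fact.out : p.Prime).ne_zero⟩
  false_of_qpair_order (normHyp p) ℓ w P φ ψ hφ hψ ξ₀ ξ₁ h0 h1 M u hu hM hwM

end Fermat.Agent.S16
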