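import Mathlib
import Fermat.Prelude.Def_ModularForm_HeckeOperator
import Fermat.Prelude.Thm_CongruenceSubgroup_one_mem_strictPeriods_Gamma0
import Fermat.Agent.S23.QCalc
import Fermat.Agent.S16.NDet
import Fermat.Agent.S16.NQ

/-!
# S16, piece NQ (supplement): the `q`-expansion of a trace

The additive analogue of `NQ.hasQ_prod_heckeMatrix`:

* `hasQ_sum_heckeMatrix` : if `f` is the sum of the `q`-series `ψ`, then
  `t ↦ ∑_{j<p} f((t+j)/p)` is the sum of the `q`-series `p · ∑ₙ ψ_{pn} Xⁿ`;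
* `qExpansion_eq_add_sect` / `qExpansion_eq_add_sect_of_slash` : if a level-one form `T` is
  pointwise `F(t) + ∑_{j<p} F'((t+j)/p)` (resp. `F + ∑_{j<p} F ∣[k] S T^j` with
  `(F ∣[k] S)(τ) = F'(τ/p)`), then `qExp T = qExp F + p · sect p 0 (qExp F')`;
* `coeff_qExpansion_eq_add` : coefficientwise, `a_n(T) = a_n(F) + p · a_{pn}(F')`.
-/

set_option autoImplicit false

noncomputable section

namespace Fermat.Agent.S16.NQSum

open Fermat.Agent.S16.NDet Fermat.Agent.S16.NQ Fermat.Agent.S23.QCalc UpperHalfPlane Function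
  CongruenceSubgroup
open scoped MatrixGroups ModularForm

/-- `∑_{j<p} ζ^{jr} = 0` for a primitive `p`-th root of unity `ζ` and `0 < r < p`. -/
theorem sum_pow_mul_eq_zero {p : ℕ} {ζ : ℂ} (hζ : IsPrimitiveRoot ζ p) {r : ℕ} (hr0 : 0 < r)
    (hrp : r < p) : ∑ j ∈ Finset.range p, (ζ ^ j) ^ r = 0 := by
  have h1 : ζ ^ r ≠ 1 := fun h => by
    have := hζ.pow_inj hrp (lt_of_lt_of_le hr0 hrp.le |>.trans_le le_rfl) (by rw [h, pow_zero])
    omega
  have h2 : ∑ j ∈ Finset.range p, (ζ ^ r) ^ j = 0 := by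
    have h3 := geom_sum_mul (ζ ^ r) p
    rw [← pow_mul, mul_comm r p, pow_mul, hζ.pow_eq_one, one_pow, sub_self] at h3
    rcases mul_eq_zero.mp h3 with h | h
    · exact h
    · exact absurd (sub_eq_zero.mp h) h1
  rw [← h2]
  refine Finset.sum_congr rfl fun j _ => ?_
  rw [← pow_mul, ← pow_mul, mul_comm]

/-- **Trace analogue of `hasQ_prod_heckeMatrix`.** -/
theorem hasQ_sum_heckeMatrix {p : ℕ} (hp : p ≠ 0) {f : ℍ → ℂ} {ψ : PowerSeries ℂ}
    (hf : HasQ f ψ) :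
    HasQ (fun t => ∑ j ∈ Finset.range p, f (ModularForm.heckeMatrix p j • t))
      (PowerSeries.C (p : ℂ) * sect p 0 ψ) := by
  refine ((hasQ_sectFun hp hf 0).const_mul (p : ℂ)).congr fun t => ?_
  have hζ := Complex.isPrimitiveRoot_exp p hp
  set ζ : ℂ := Complex.exp (2 * Real.pi * Complex.I / p) with hζdef
  set x : ℂ := Periodic.qParam 1 ((ModularForm.heckeMatrix p 0 • t : ℍ) : ℂ) with hx
  rw [Finset.sum_congr rfl fun j _ => apply_heckeMatrix_eq_sum hp hf j t, Finset.sum_comm]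
  have hterm : ∀ r ∈ Finset.range p, ∑ j ∈ Finset.range p, (ζ ^ j * x) ^ r * sectFun p ψ r t =
      if r = 0 then (p : ℂ) * sectFun p ψ 0 t else 0 := by
    intro r hr
    have hrp : r < p := Finset.mem_range.mp hr
    have h1 : ∑ j ∈ Finset.range p, (ζ ^ j * x) ^ r * sectFun p ψ r t =
        (∑ j ∈ Finset.range p, (ζ ^ j) ^ r) * (x ^ r * sectFun p ψ r t) := by
      rw [Finset.sum_mul]
      refine Finset.sum_congr rfl fun j _ => ?_
      rw [mul_pow]
      ring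
    rw [h1]
    split_ifs with h0
    · subst h0
      simp
    · rw [sum_pow_mul_eq_zero hζ (Nat.pos_of_ne_zero h0) hrp, zero_mul]
  rw [Finset.sum_congr rfl hterm, Finset.sum_ite_eq' (Finset.range p) 0,
    if_pos (Finset.mem_range.mpr (Nat.pos_of_ne_zero hp))]

/-- If a level-one form `T` is pointwise `F(t) + ∑_{j<p} F'((t+j)/p)` with `F, F'` of level
`Γ₀(p)`, then `qExp T = qExp F + p · sect p 0 (qExp F')`. -/
theorem qExpansion_eq_add_sect {p : ℕ} [NeZero p] {w k : ℤ}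
    (F Ft : ModularForm (Gamma0 p) w) (T : ModularForm 𝒮ℒ k)
    (hT : ∀ t : ℍ, T t = F t + ∑ j ∈ Finset.range p, Ft (ModularForm.heckeMatrix p j • t)) :
    qExpansion 1 T = qExpansion 1 F + PowerSeries.C (p : ℂ) * sect p 0 (qExpansion 1 Ft) := by
  have hF : HasQ F (qExpansion 1 F) := hasQ_modularForm (one_mem_strictPeriods_Gamma0 p) F
  have hFt : HasQ Ft (qExpansion 1 Ft) := hasQ_modularForm (one_mem_strictPeriods_Gamma0 p) Ft
  have h := hF.add (hasQ_sum_heckeMatrix (NeZero.ne p) hFt)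
  exact (HasQ.eq_qExpansion one_mem_strictPeriods_SL T (h.congr fun t => (hT t).symm)).symm

/-- Slash form: `T = F + ∑_{j<p} F ∣[w] S T^j` and `(F ∣[w] S)(τ) = F'(τ/p)`. -/
theorem qExpansion_eq_add_sect_of_slash {p : ℕ} [NeZero p] {w k : ℤ}
    (F Ft : ModularForm (Gamma0 p) w) (T : ModularForm 𝒮ℒ k)
    (hT : ∀ τ : ℍ, T τ = F τ + ∑ j ∈ Finset.range p,
      ((F : ℍ → ℂ) ∣[w] (ModularGroup.S * ModularGroup.T ^ (j : ℤ))) τ)
    (hpair : ∀ τ : ℍ, ((F : ℍ → ℂ) ∣[w] ModularGroup.S) τ =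
      Ft (ModularForm.heckeMatrix p 0 • τ)) :
    qExpansion 1 T = qExpansion 1 F + PowerSeries.C (p : ℂ) * sect p 0 (qExpansion 1 Ft) := by
  refine qExpansion_eq_add_sect F Ft T fun t => ?_
  rw [hT t]
  congr 1
  refine Finset.sum_congr rfl fun j _ => ?_
  exact slash_S_mul_T_zpow_apply (NeZero.ne p) w _ _ hpair j t

/-- Coefficientwise: `a_n(T) = a_n(F) + p · a_{pn}(F')`. -/
theorem coeff_qExpansion_eq_add {p : ℕ} [NeZero p] {w k : ℤ}
    (F Ft : ModularForm (Gamma0 p) w) (T : ModularForm 𝒮ℒ k)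
    (hT : ∀ τ : ℍ, T τ = F τ + ∑ j ∈ Finset.range p,
      ((F : ℍ → ℂ) ∣[w] (ModularGroup.S * ModularGroup.T ^ (j : ℤ))) τ)
    (hpair : ∀ τ : ℍ, ((F : ℍ → ℂ) ∣[w] ModularGroup.S) τ =
      Ft (ModularForm.heckeMatrix p 0 • τ)) (n : ℕ) :
    PowerSeries.coeff n (qExpansion 1 T) = PowerSeries.coeff n (qExpansion 1 F) +
      (p : ℂ) * PowerSeries.coeff (p * n) (qExpansion 1 Ft) := by
  rw [qExpansion_eq_add_sect_of_slash F Ft T hT hpair, map_add, PowerSeries.coeff_C_mul,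
    coeff_sect, add_zero]

end Fermat.Agent.S16.NQSum
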