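/-
S16, slice PH, final statement: for `a b` prime to `p` there is a weight two modular form `P` of
level `Γ₀(p)` (the sum over `j` of the products `e_{aj} e_{bj}` of weight one Eisenstein series)
whose `q`-expansion has constant term `p (p - 1) / 4 - S(a, b) / p` and even integers as higher
coefficients.
-/
import Mathlib
import Fermat.Agent.S16.PFormEV
import Fermat.Agent.S16.EV
import Fermat.Agent.S16.EVWrap

set_option autoImplicit false

noncomputable section

open Filter Topology Complex
open UpperHalfPlane hiding I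
open scoped MatrixGroups ModularForm Manifold Real

namespace Fermat.Agent.S16.PH

open CongruenceSubgroup

/-- **PH.** -/
theorem exists_pform (p : ℕ) [Fact p.Prime] (a b : ℕ) (ha : ¬ p ∣ a) (hb : ¬ p ∣ b) :
    ∃ P : ModularForm (Gamma0 p) 2,
      PowerSeries.coeff 0 (qExpansion 1 P) = (p : ℂ) * (p - 1) / 4 - (dedS p a b : ℂ) / p ∧
      ∀ m : ℕ, 1 ≤ m → ∃ k : ℤ, PowerSeries.coeff m (qExpansion 1 P) = 2 * k := by
  refine PForm.exists_pform_of_ev p EV.ev ?_ ?_ ?_ ?_ a b ha hb
  · intro y hy t
    rw [EV.ev_eq_Zc (EV.notInt_zero_left hy)]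
    simp
  · intro γ y _ t
    have h := EV.ev_SL2 γ 0 y t
    simpa using h
  · intro x y a b hxy t
    exact EV.ev_add_int hxy a b t
  · intro x y hxy
    have h := EVWrap.isBoundedAtImInfty_Z x y hxy
    have h2 : EV.ev x y = (fun t : ℍ => ZW.Z ((x : ℂ) * (t : ℂ) + (y : ℂ)) t) +
        Function.const ℍ (2 * π * I * x) := by
      funext t
      rfl
    rw [h2]
    exact BoundedAtFilter.add h (const_boundedAtFilter _ _)

end Fermat.Agent.S16.PH
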