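/-
S16, slice PH, final glue (helper9): the four `ev`-facts consumed by `PForm.exists_pform_of_ev`
are discharged for `EV.ev` (`ev_eq_Zc`, `ev_SL2`, `ev_add_int`, `EVWrap.isBoundedAtImInfty_Z`),
which gives `LBF.HasPH p` unconditionally.
-/
import Mathlib
import Fermat.Agent.S16.EV
import Fermat.Agent.S16.EVWrap
import Fermat.Agent.S16.PFormEV
import Fermat.Agent.S16.LBF
import Fermat.Agent.S16.LBFGlue

set_option autoImplicit false

noncomputable section

open Filter Topology Complex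
open UpperHalfPlane hiding I
open scoped MatrixGroups ModularForm Manifold Real

namespace Fermat.Agent.S16.PHFinal

open CongruenceSubgroup Fermat.Agent.S16.EVLambert

theorem ev_zero_eq_Zc (y : ℝ) (hy : ¬ ∃ n : ℤ, y = n) (t : ℍ) :
    EV.ev 0 y t = Zc (y : ℂ) (ee (t : ℂ)) := by
  rw [EV.ev_eq_Zc (EV.notInt_zero_left hy) t]
  simp

theorem ev_zero_SL (γ : SL(2, ℤ)) (y : ℝ) (t : ℍ) :
    EV.ev 0 y (γ • t) =
      denom γ t * EV.ev (y * ((γ 1 0 : ℤ) : ℝ)) (y * ((γ 1 1 : ℤ) : ℝ)) t := by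
  have h := EV.ev_SL2 γ 0 y t
  simpa only [zero_mul, zero_add] using h

theorem isBoundedAtImInfty_ev (x y : ℝ) (hxy : ¬ ((∃ m : ℤ, x = m) ∧ (∃ n : ℤ, y = n))) :
    IsBoundedAtImInfty (EV.ev x y) := by
  have h := EVWrap.isBoundedAtImInfty_Z x y hxy
  rw [isBoundedAtImInfty_iff] at h ⊢
  obtain ⟨M, A, hMA⟩ := h
  refine ⟨M + ‖2 * (π : ℂ) * I * (x : ℂ)‖, A, fun t ht => ?_⟩
  rw [EV.ev]
  exact (norm_add_le _ _).trans (add_le_add (hMA t ht) le_rfl)

/-- **(PH)**, unconditional. -/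
theorem hasPH (p : ℕ) [Fact p.Prime] : LBF.HasPH p :=
  LBF.hasPH_of_coeff fun a b ha hb =>
    PForm.exists_pform_of_ev p EV.ev ev_zero_eq_Zc (fun γ y _ t => ev_zero_SL γ y t)
      (fun _ _ a b hxy t => EV.ev_add_int hxy a b t) isBoundedAtImInfty_ev a b ha hb

end Fermat.Agent.S16.PHFinal
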