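/-
S16: the swap of a pair.  If `(Φ ∣[w] S) τ = Φ' (τ / p)` and `w` is even, then
`(Φ' ∣[w] S) τ = p ^ (-w) * Φ (τ / p)`.
-/
import Mathlib
import Fermat.Agent.S16.Pairs

set_option autoImplicit false

noncomputable section

open UpperHalfPlane ModularForm CongruenceSubgroup
open scoped MatrixGroups ModularForm

namespace Fermat.Agent.S16

namespace QPair

variable {p : ℕ} [NeZero p]

theorem coe_S_smul (τ : ℍ) : ((ModularGroup.S • τ : ℍ) : ℂ) = (-(τ : ℂ))⁻¹ := by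
  rw [UpperHalfPlane.modular_S_smul]

theorem heckeMatrix_zero_smul_S_smul (τ : ℍ) :
    ModularForm.heckeMatrix p 0 • (ModularGroup.S • (ModularForm.heckeMatrix p 0 • τ)) =
      ModularGroup.S • τ := by
  apply UpperHalfPlane.ext
  have hp : (p : ℂ) ≠ 0 := Nat.cast_ne_zero.mpr (NeZero.ne p)
  have hτ : (τ : ℂ) ≠ 0 := UpperHalfPlane.ne_zero τ
  rw [ModularForm.coe_heckeMatrix_smul (NeZero.ne p), coe_S_smul, coe_S_smul,
    ModularForm.coe_heckeMatrix_smul (NeZero.ne p)]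
  simp only [Nat.cast_zero, add_zero]
  field_simp

theorem S_smul_S_smul (τ : ℍ) : ModularGroup.S • (ModularGroup.S • τ) = τ := by
  apply UpperHalfPlane.ext
  rw [coe_S_smul, coe_S_smul]
  simp

/-- the swapped identity -/
theorem isPair_swap {w : ℤ} (hw : Even w) (P : QPair p w) :
    IsPair p w P.Φ' (((p : ℂ) ^ (-w)) • P.Φ) := by
  intro τ
  have hp : (p : ℂ) ≠ 0 := Nat.cast_ne_zero.mpr (NeZero.ne p)
  have hτ : (τ : ℂ) ≠ 0 := UpperHalfPlane.ne_zero τ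
  set τ₁ : ℍ := ModularForm.heckeMatrix p 0 • τ with hτ₁
  set σ : ℍ := ModularGroup.S • τ₁ with hσ
  have h1 := P.isPair σ
  rw [ModularForm.SL_slash_apply, hσ, S_smul_S_smul, heckeMatrix_zero_smul_S_smul] at h1
  rw [ModularForm.SL_slash_apply, ← h1]
  simp only [ModularGroup.denom_S]
  rw [coe_S_smul, hτ₁, ModularForm.coe_heckeMatrix_smul (NeZero.ne p)]
  show P.Φ (ModularForm.heckeMatrix p 0 • τ) * _ * _ = ((p : ℂ) ^ (-w)) • P.Φ (ModularForm.heckeMatrix p 0 • τ)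
  rw [smul_eq_mul, mul_assoc, mul_comm ((p : ℂ) ^ (-w))]
  congr 1
  rw [← mul_zpow]
  have : (-(((τ : ℂ) + ((0 : ℕ) : ℂ)) / (p : ℂ)))⁻¹ * (τ : ℂ) = -(p : ℂ) := by
    simp only [Nat.cast_zero, add_zero]
    field_simp
  rw [this, (Even.neg hw).neg_zpow]

/-- the swapped pair `(Φ', p ^ (-w) • Φ)` (for even weight) -/
def swap {w : ℤ} (hw : Even w) (P : QPair p w) : QPair p w where
  Φ := P.Φ'
  Φ' := ((p : ℂ) ^ (-w)) • P.Φ
  isPair := isPair_swap hw P

theorem swap_q {w : ℤ} (hw : Even w) (P : QPair p w) : (P.swap hw).q = P.q' := rfl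

theorem swap_q' {w : ℤ} (hw : Even w) (P : QPair p w) :
    (P.swap hw).q' = ((p : ℂ) ^ (-w)) • P.q :=
  ModularForm.qExpansion_smul one_pos one_mem ((p : ℂ) ^ (-w)) P.Φ

end QPair

end Fermat.Agent.S16
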