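/-
S16, reduction slice (second seat for `R`): the pure algebra.

* `natCard_quot_map_ker` : for surjective ring homomorphisms `ρ : A → B`, `ε : A → C`,
  `B ⧸ ρ(ker ε)` and `C ⧸ ε(ker ρ)` have the same cardinality (both are `A ⧸ (ker ρ ⊔ ker ε)`).
* `natCard_int_quot_eq` : an ideal `J` of `ℤ` with `J ≤ (m) ↔ Q m` for all `m > 0`, where `Q n`
  holds and `Q m → m ∣ n`, has `Nat.card (ℤ ⧸ J) = n`.
-/
import Mathlib

set_option autoImplicit false

namespace Fermat.Agent.S16.ReduceAlg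

section General

variable {A B C : Type*} [CommRing A] [CommRing B] [CommRing C]

/-- `B ⧸ ρ(I) ≃ A ⧸ (I ⊔ ker ρ)` for a surjective `ρ : A → B`. -/
noncomputable def quotMapEquiv (ρ : A →+* B) (hρ : Function.Surjective ρ) (I : Ideal A) :
    (A ⧸ (I ⊔ RingHom.ker ρ)) ≃+* (B ⧸ Ideal.map ρ I) :=
  let f : A →+* (B ⧸ Ideal.map ρ I) := (Ideal.Quotient.mk (Ideal.map ρ I)).comp ρ
  have hf : Function.Surjective f := Ideal.Quotient.mk_surjective.comp hρ
  have hker : RingHom.ker f = I ⊔ RingHom.ker ρ := by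
    rw [RingHom.ker_eq_comap_bot, ← Ideal.comap_comap, ← RingHom.ker_eq_comap_bot,
      Ideal.mk_ker, Ideal.comap_map_of_surjective ρ hρ, RingHom.ker_eq_comap_bot ρ]
  (Ideal.quotEquivOfEq hker.symm).trans (RingHom.quotientKerEquivOfSurjective hf)

/-- For surjective `ρ : A → B` and `ε : A → C`, the quotients `B ⧸ ρ(ker ε)` and `C ⧸ ε(ker ρ)`
have the same cardinality. -/
theorem natCard_quot_map_ker (ρ : A →+* B) (ε : A →+* C) (hρ : Function.Surjective ρ)
    (hε : Function.Surjective ε) :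
    Nat.card (B ⧸ Ideal.map ρ (RingHom.ker ε)) = Nat.card (C ⧸ Ideal.map ε (RingHom.ker ρ)) := by
  have e1 := quotMapEquiv ρ hρ (RingHom.ker ε)
  have e2 := quotMapEquiv ε hε (RingHom.ker ρ)
  have e3 : (A ⧸ (RingHom.ker ε ⊔ RingHom.ker ρ)) ≃+* (A ⧸ (RingHom.ker ρ ⊔ RingHom.ker ε)) :=
    Ideal.quotEquivOfEq (sup_comm _ _)
  exact Nat.card_congr ((e1.symm.trans e3).trans e2).toEquiv

end General

section Int

/-- `Nat.card (ℤ ⧸ (k)) = |k|`. -/
theorem natCard_int_quot_span (k : ℤ) : Nat.card (ℤ ⧸ Ideal.span {k}) = k.natAbs := by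
  rw [Nat.card_congr (Int.quotientSpanEquivZMod k).toEquiv, Nat.card_zmod]

/-- An ideal `J` of `ℤ` such that, for `m > 0`, `J ≤ (m)` iff `Q m`, where `Q n` holds and
`Q m` implies `m ∣ n`: then `ℤ ⧸ J` has exactly `n` elements. -/
theorem natCard_int_quot_eq {J : Ideal ℤ} {Q : ℕ → Prop} {n : ℕ} (hn : 0 < n)
    (h1 : ∀ m : ℕ, 0 < m → (J ≤ Ideal.span {(m : ℤ)} ↔ Q m)) (hLB : Q n)
    (hUB : ∀ m : ℕ, 0 < m → Q m → m ∣ n) : Nat.card (ℤ ⧸ J) = n := by
  obtain ⟨k, rfl⟩ : ∃ k : ℤ, J = Ideal.span {k} :=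
    ⟨_, (IsPrincipalIdealRing.principal J).span_singleton_generator.symm⟩
  rw [natCard_int_quot_span]
  -- `n ∣ k`
  have hnk : (n : ℤ) ∣ k := by
    have := (h1 n hn).mpr hLB
    rw [Ideal.span_singleton_le_span_singleton] at this
    exact this
  rcases Nat.eq_zero_or_pos k.natAbs with hk0 | hkpos
  · -- `k = 0` is impossible
    exfalso
    have hk : k = 0 := Int.natAbs_eq_zero.mp hk0
    have h2 : Q (2 * n) := by
      refine (h1 (2 * n) (by omega)).mp ?_
      rw [hk, Ideal.span_singleton_le_span_singleton]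
      exact dvd_zero _
    have := Nat.le_of_dvd hn (hUB (2 * n) (by omega) h2)
    omega
  · have h3 : Q k.natAbs := by
      refine (h1 k.natAbs hkpos).mp ?_
      rw [Ideal.span_singleton_le_span_singleton]
      exact Int.natAbs_dvd.mpr dvd_rfl
    have h4 : k.natAbs ∣ n := hUB k.natAbs hkpos h3
    have h5 : n ∣ k.natAbs := Int.natCast_dvd.mp hnk
    exact Nat.dvd_antisymm h4 h5

end Int

end Fermat.Agent.S16.ReduceAlg
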