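/-
S16, reduction slice (second seat for `R`): the Hecke polynomials `P_n`.

For every `n ≥ 1` there is a polynomial `P` in the Hecke generators (an element of
`ModularCurve.HeckeAlg = MvPolynomial Nat.Primes ℤ`) such that

* `a_1 (P f) = a_n (f)` for every weight-2 cusp form `f` of level `Γ₀(p)`, and
* the Eisenstein eigen-system sends `P` to `σ'(n)` (the sum of the divisors of `n` prime to `p`).
-/
import Mathlib
import Fermat.Agent.S16.Defs
import Fermat.Agent.S49.Forms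
import Fermat.Prelude.Def_CuspForm_HeckeEvalForms

set_option autoImplicit false

open CuspForm CongruenceSubgroup ModularFormClass ModularCurve

namespace Fermat.Agent.S16.ReduceTn

open Fermat.Agent.S16

/-! ### Divisor-sum identities for `σ'` -/

theorem sigmaP_zero (p : ℕ) : sigmaP p 0 = 0 := by
  simp [sigmaP]

theorem sigmaP_one (p : ℕ) (hp : p.Prime) : sigmaP p 1 = 1 := by
  have h : ¬ p ∣ 1 := fun h => hp.one_lt.ne' (Nat.dvd_one.mp h)
  rw [sigmaP, Nat.divisors_one, Finset.filter_singleton, if_pos h, Finset.sum_singleton]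

/-- `σ'(m p) = σ'(m)`. -/
theorem sigmaP_mul_self (p : ℕ) (hp : p.Prime) (m : ℕ) : sigmaP p (m * p) = sigmaP p m := by
  rcases Nat.eq_zero_or_pos m with rfl | hm
  · simp
  unfold sigmaP
  refine Finset.sum_congr ?_ fun _ _ => rfl
  ext d
  simp only [Finset.mem_filter, Nat.mem_divisors]
  constructor
  · rintro ⟨⟨hd, -⟩, hpd⟩
    refine ⟨⟨?_, hm.ne'⟩, hpd⟩
    have hcop : Nat.Coprime d p := (Nat.Coprime.symm ((Nat.Prime.coprime_iff_not_dvd hp).mpr hpd))
    exact hcop.dvd_of_dvd_mul_right hd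
  · rintro ⟨⟨hd, -⟩, hpd⟩
    exact ⟨⟨Dvd.dvd.mul_right hd p, Nat.mul_ne_zero hm.ne' hp.ne_zero⟩, hpd⟩

/-- For a prime `ℓ ≠ p`: `σ'(m ℓ) + [ℓ ∣ m] ℓ σ'(m / ℓ) = (1 + ℓ) σ'(m)`. -/
theorem sigmaP_mul_prime (p : ℕ) (hp : p.Prime) {ℓ : ℕ} (hℓ : ℓ.Prime) (hℓp : ℓ ≠ p) (m : ℕ) :
    sigmaP p (m * ℓ) + (if ℓ ∣ m then ℓ * sigmaP p (m / ℓ) else 0) = (1 + ℓ) * sigmaP p m := by
  rcases Nat.eq_zero_or_pos m with rfl | hm
  · simp [sigmaP_zero]
  have hpℓ : ¬ p ∣ ℓ := fun h => hℓp ((Nat.prime_dvd_prime_iff_eq hp hℓ).mp h).symm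
  set D : Finset ℕ := m.divisors.filter (fun d => ¬ p ∣ d) with hD
  set I : Finset ℕ := D.image (· * ℓ) with hI
  have hinj : Function.Injective (fun d : ℕ => d * ℓ) := fun a b h =>
    Nat.eq_of_mul_eq_mul_right hℓ.pos h
  -- the divisors of `m ℓ` prime to `p`
  have h1 : (m * ℓ).divisors.filter (fun d => ¬ p ∣ d) = D ∪ I := by
    ext d
    simp only [hD, hI, Finset.mem_filter, Nat.mem_divisors, Finset.mem_union, Finset.mem_image]
    constructor
    · rintro ⟨⟨hd, -⟩, hpd⟩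
      by_cases hℓd : ℓ ∣ d
      · obtain ⟨d', rfl⟩ := hℓd
        right
        refine ⟨d', ⟨⟨?_, hm.ne'⟩, fun h => hpd (Dvd.dvd.mul_left h ℓ)⟩, mul_comm _ _⟩
        rw [mul_comm m ℓ] at hd
        exact Nat.dvd_of_mul_dvd_mul_left hℓ.pos hd
      · left
        refine ⟨⟨?_, hm.ne'⟩, hpd⟩
        have hcop : Nat.Coprime d ℓ :=
          (Nat.Coprime.symm ((Nat.Prime.coprime_iff_not_dvd hℓ).mpr hℓd))
        exact hcop.dvd_of_dvd_mul_right hd
    · rintro (⟨⟨hd, -⟩, hpd⟩ | ⟨d', ⟨⟨hd', -⟩, hpd'⟩, rfl⟩)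
      · exact ⟨⟨Dvd.dvd.mul_right hd ℓ, Nat.mul_ne_zero hm.ne' hℓ.ne_zero⟩, hpd⟩
      · refine ⟨⟨Nat.mul_dvd_mul_right hd' ℓ, Nat.mul_ne_zero hm.ne' hℓ.ne_zero⟩, fun h => ?_⟩
        rcases (Nat.Prime.dvd_mul hp).mp h with h | h
        · exact hpd' h
        · exact hpℓ h
  have h2 : ∑ d ∈ D ∩ I, d = if ℓ ∣ m then ℓ * sigmaP p (m / ℓ) else 0 := by
    split_ifs with hℓm
    · have h3 : D ∩ I = ((m / ℓ).divisors.filter (fun d => ¬ p ∣ d)).image (· * ℓ) := by
        ext d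
        simp only [hD, hI, Finset.mem_inter, Finset.mem_filter, Nat.mem_divisors,
          Finset.mem_image]
        constructor
        · rintro ⟨⟨⟨hd, -⟩, hpd⟩, d', ⟨⟨hd', -⟩, hpd'⟩, rfl⟩
          refine ⟨d', ⟨⟨?_, ?_⟩, hpd'⟩, rfl⟩
          · exact (Nat.dvd_div_iff_mul_dvd hℓm).mpr (by rwa [mul_comm] at hd)
          · exact (Nat.div_pos (Nat.le_of_dvd hm hℓm) hℓ.pos).ne'
        · rintro ⟨d', ⟨⟨hd', -⟩, hpd'⟩, rfl⟩
          have hd'' : ℓ * d' ∣ m := (Nat.dvd_div_iff_mul_dvd hℓm).mp hd'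
          have hpd : ¬ p ∣ d' * ℓ := fun h => by
            rcases (Nat.Prime.dvd_mul hp).mp h with h | h
            · exact hpd' h
            · exact hpℓ h
          refine ⟨⟨⟨by rwa [mul_comm], hm.ne'⟩, hpd⟩, d', ⟨⟨?_, hm.ne'⟩, hpd'⟩, rfl⟩
          exact Dvd.dvd.trans (Dvd.intro_left ℓ rfl) hd''
      rw [h3, Finset.sum_image (fun a _ b _ h => hinj h), sigmaP, Finset.mul_sum]
      exact Finset.sum_congr rfl fun d _ => mul_comm _ _
    · have h3 : D ∩ I = ∅ := by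
        ext d
        simp only [hD, hI, Finset.mem_inter, Finset.mem_filter, Nat.mem_divisors,
          Finset.mem_image, Finset.notMem_empty, iff_false]
        rintro ⟨⟨⟨hd, -⟩, -⟩, d', -, rfl⟩
        exact hℓm (Dvd.dvd.trans (Dvd.intro_left d' rfl) hd)
      rw [h3, Finset.sum_empty]
  have h4 : ∑ d ∈ I, d = ℓ * sigmaP p m := by
    rw [hI, Finset.sum_image (fun a _ b _ h => hinj h), sigmaP, Finset.mul_sum]
    exact Finset.sum_congr rfl fun d _ => mul_comm _ _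
  have h5 := Finset.sum_union_inter (s₁ := D) (s₂ := I) (f := fun d : ℕ => d)
  have h6 : sigmaP p (m * ℓ) = ∑ d ∈ D ∪ I, d := by
    rw [sigmaP, h1]
  have h7 : sigmaP p m = ∑ d ∈ D, d := rfl
  rw [h6, ← h2, h5, h4, ← h7]
  ring

/-! ### The Hecke polynomials -/

section Main

variable (p : ℕ) [Fact p.Prime]

local instance instNeZeroLevel : NeZero p := ⟨(Fact.out : p.Prime).ne_zero⟩

/-- The action of (the image of) a Hecke polynomial on weight-2 cusp forms of level `p`. -/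
noncomputable def act (P : HeckeAlg) : Module.End ℂ (CuspForm (Gamma0 p) 2) :=
  ((heckeEvalForms p 2 P : heckeAlgebra p 2 ∅) : Module.End ℂ (CuspForm (Gamma0 p) 2))

theorem act_def (P : HeckeAlg) :
    act p P = ((heckeEvalForms p 2 P : heckeAlgebra p 2 ∅) :
      Module.End ℂ (CuspForm (Gamma0 p) 2)) := rfl

theorem act_one : act p 1 = 1 := by
  rw [act, map_one]; rfl

theorem act_mul (P Q : HeckeAlg) : act p (P * Q) = act p P * act p Q := by
  rw [act, map_mul]; rfl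

theorem act_sub (P Q : HeckeAlg) : act p (P - Q) = act p P - act p Q := by
  rw [act, map_sub]; rfl

theorem act_C (a : ℤ) (f : CuspForm (Gamma0 p) 2) : act p (MvPolynomial.C a) f = a • f := by
  rw [act, heckeEvalForms_C]
  rfl

theorem act_heckeGen_self (f : CuspForm (Gamma0 p) 2) :
    act p (heckeGen ⟨p, Fact.out⟩) f = CuspForm.heckeULin 2 (dvd_refl p) f := by
  rw [act, heckeEvalForms_heckeGen_of_dvd (N := p) (k := 2) (q := ⟨p, Fact.out⟩) (dvd_refl p)]
  rfl

theorem act_heckeGen_of_ne {ℓ : ℕ} (hℓ : ℓ.Prime) (hℓp : ¬ ℓ ∣ p) (f : CuspForm (Gamma0 p) 2) :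
    act p (heckeGen ⟨ℓ, hℓ⟩) f = CuspForm.heckeTLin 2 hℓ hℓp f := by
  rw [act, heckeEvalForms_heckeGen_of_not_dvd (N := p) (k := 2) (ℓ := ⟨ℓ, hℓ⟩) hℓp]
  rfl

/-- **The Hecke polynomials.** For `n ≥ 1` there is a polynomial `P` in the Hecke generators
with `a_1(P f) = a_n(f)` for all weight-2 cusp forms `f` of level `p`, which the Eisenstein
eigen-system sends to `σ'(n)`. -/
theorem exists_heckePoly (n : ℕ) (hn : 0 < n) :
    ∃ P : HeckeAlg,
      (∀ f : CuspForm (Gamma0 p) 2, qCoeff (⇑(act p P f)) 1 = qCoeff (⇑f) n) ∧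
      MvPolynomial.aeval (eisensteinSystem p) P = ((sigmaP p n : ℕ) : ℤ) := by
  have hp : p.Prime := Fact.out
  induction n using Nat.strong_induction_on with
  | _ n ih =>
    rcases eq_or_ne n 1 with rfl | hn1
    · refine ⟨1, fun f => ?_, ?_⟩
      · rw [act_one]; rfl
      · rw [map_one, sigmaP_one p hp]; rfl
    have hℓ : n.minFac.Prime := Nat.minFac_prime hn1
    set ℓ := n.minFac with hℓdef
    have hℓn : ℓ ∣ n := Nat.minFac_dvd n
    obtain ⟨m, hm⟩ : ∃ m, n = m * ℓ := ⟨n / ℓ, (Nat.div_mul_cancel hℓn).symm⟩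
    have hmpos : 0 < m := by
      rcases Nat.eq_zero_or_pos m with h0 | h0
      · rw [h0, zero_mul] at hm; omega
      · exact h0
    have hmlt : m < n := by
      rw [hm]
      exact lt_mul_of_one_lt_right hmpos hℓ.one_lt
    obtain ⟨Pm, hPm, hPm'⟩ := ih m hmlt hmpos
    by_cases hℓp : ℓ = p
    · -- `ℓ = p`: use `U_p`
      refine ⟨Pm * heckeGen ⟨p, hp⟩, fun f => ?_, ?_⟩
      · rw [act_mul, Module.End.mul_apply, hPm, act_heckeGen_self,
          Fermat.Agent.S49.qc_heckeU hp (dvd_refl p), hm, hℓp]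
      · rw [map_mul, hPm', aeval_heckeGen,
          eisensteinSystem_of_dvd (N := p) (ℓ := ⟨p, hp⟩) (dvd_refl p), mul_one, hm, hℓp,
          sigmaP_mul_self p hp]
    · have hℓp' : ¬ ℓ ∣ p := fun h => hℓp ((Nat.prime_dvd_prime_iff_eq hℓ hp).mp h)
      have hsig := sigmaP_mul_prime p hp hℓ hℓp m
      by_cases hℓm : ℓ ∣ m
      · obtain ⟨m', hm'⟩ : ∃ m', m = m' * ℓ := ⟨m / ℓ, (Nat.div_mul_cancel hℓm).symm⟩
        have hm'pos : 0 < m' := by
          rcases Nat.eq_zero_or_pos m' with h0 | h0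
          · rw [h0, zero_mul] at hm'; omega
          · exact h0
        have hm'lt : m' < n := by
          have : m' < m := by
            rw [hm']
            exact lt_mul_of_one_lt_right hm'pos hℓ.one_lt
          omega
        have hdiv : m / ℓ = m' := by rw [hm', Nat.mul_div_cancel _ hℓ.pos]
        obtain ⟨Pm', hPm'1, hPm'2⟩ := ih m' hm'lt hm'pos
        refine ⟨Pm * heckeGen ⟨ℓ, hℓ⟩ - MvPolynomial.C (ℓ : ℤ) * Pm', fun f => ?_, ?_⟩
        · rw [act_sub, act_mul, act_mul, LinearMap.sub_apply, Module.End.mul_apply,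
            Module.End.mul_apply, act_C, act_heckeGen_of_ne p hℓ hℓp',
            ← Fermat.Agent.S49.qcLin_apply, map_sub, map_zsmul, Fermat.Agent.S49.qcLin_apply,
            Fermat.Agent.S49.qcLin_apply, hPm, hPm'1, Fermat.Agent.S49.qc_heckeT hℓ hℓp',
            if_pos hℓm, hdiv, ← hm]
          simp only [zsmul_eq_mul]
          push_cast
          ring
        · rw [map_sub, map_mul, map_mul, hPm', hPm'2, aeval_heckeGen, MvPolynomial.aeval_C,
            eisensteinSystem_of_not_dvd (N := p) (ℓ := ⟨ℓ, hℓ⟩) hℓp']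
          rw [if_pos hℓm, hdiv, ← hm] at hsig
          have hsig' : ((sigmaP p n : ℕ) : ℤ) + (ℓ : ℤ) * (sigmaP p m' : ℕ)
              = (1 + (ℓ : ℤ)) * (sigmaP p m : ℕ) := by exact_mod_cast hsig
          simp only [algebraMap_int_eq, eq_intCast, Int.cast_natCast]
          linarith
      · refine ⟨Pm * heckeGen ⟨ℓ, hℓ⟩, fun f => ?_, ?_⟩
        · rw [act_mul, Module.End.mul_apply, hPm, act_heckeGen_of_ne p hℓ hℓp',
            Fermat.Agent.S49.qc_heckeT hℓ hℓp', if_neg hℓm, add_zero, ← hm]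
        · rw [map_mul, hPm', aeval_heckeGen,
            eisensteinSystem_of_not_dvd (N := p) (ℓ := ⟨ℓ, hℓ⟩) hℓp']
          rw [if_neg hℓm, add_zero, ← hm] at hsig
          have hsig' : ((sigmaP p n : ℕ) : ℤ) = (1 + (ℓ : ℤ)) * (sigmaP p m : ℕ) := by
            exact_mod_cast hsig
          rw [hsig']
          ring

end Main

end Fermat.Agent.S16.ReduceTn
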