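/-
S16, reduction slice (second seat / backup for `R`).

With `ρ : HeckeAlg → 𝕋` the (surjective) evaluation map onto the integral Hecke algebra of level
`p` and `ε : HeckeAlg → ℤ` the Eisenstein eigen-system, `𝕋 ⧸ ρ(ker ε)` has the cardinality of
`ℤ ⧸ ε(ker ρ)`; and an Eisenstein congruence modulo `m` forces `ε(ker ρ) ⊆ mℤ`.
-/
import Mathlib
import Fermat.Agent.S16.Defs
import Fermat.Agent.S16.ReduceTn
import Fermat.Agent.S16.ReduceAlg
import Fermat.Agent.S49.Forms
import Fermat.Prelude.Def_CuspForm_HeckeLocal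
import Fermat.Prelude.Def_CuspForm_HeckeEvalForms
import Fermat.Prelude.Def_HeckeGalois_EichlerShimura
import Fermat.Prelude.Def_ModularCurve_ModularUnit

set_option autoImplicit false

open CuspForm CongruenceSubgroup ModularFormClass ModularCurve

namespace Fermat.Agent.S16.ReduceCore

open Fermat.Agent.S16 Fermat.Agent.S16.ReduceTn

variable (p : ℕ) [Fact p.Prime]

local instance instNeZeroLevel' : NeZero p := ⟨(Fact.out : p.Prime).ne_zero⟩

/-- The evaluation map onto the integral Hecke algebra (the map of the statement S16). -/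
noncomputable def rho : HeckeAlg →+* ↥(heckeLatticeAlgebra p ∅) :=
  (latticeRestrictHom p ∅).toRingHom.comp (heckeEvalForms p 2)

/-- The Eisenstein eigen-system as a ring homomorphism. -/
noncomputable def eps : HeckeAlg →+* ℤ :=
  (MvPolynomial.aeval (R := ℤ) (eisensteinSystem p)).toRingHom

theorem eps_apply (s : HeckeAlg) : eps p s = MvPolynomial.aeval (eisensteinSystem p) s := rfl

theorem eps_C (a : ℤ) : eps p (MvPolynomial.C a) = a := by
  rw [eps_apply, MvPolynomial.aeval_C]; rfl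

theorem eps_surjective : Function.Surjective (eps p) := fun a => ⟨MvPolynomial.C a, eps_C p a⟩

theorem ker_eps : RingHom.ker (eps p) = eisensteinIdeal p := by
  ext s
  rw [RingHom.mem_ker, eisensteinIdeal, mem_eigenIdeal_iff, eps_apply]

theorem heckeEvalForms_surjective : Function.Surjective (heckeEvalForms p 2) := by
  have hp : p.Prime := Fact.out
  have key : ∀ t : Module.End ℂ (CuspForm (Gamma0 p) 2), t ∈ heckeAlgebra p 2 ∅ →
      ∃ P : HeckeAlg, ((heckeEvalForms p 2 P : heckeAlgebra p 2 ∅) :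
        Module.End ℂ (CuspForm (Gamma0 p) 2)) = t := by
    intro t ht
    unfold heckeAlgebra at ht
    induction ht using Algebra.adjoin_induction with
    | mem x hx =>
      rcases hx with ⟨ℓ, hℓ, hℓN, -, rfl⟩ | ⟨q, hqN, hq, -, rfl⟩
      · refine ⟨heckeGen ⟨ℓ, hℓ⟩, ?_⟩
        rw [heckeEvalForms_heckeGen_of_not_dvd (N := p) (k := 2) (ℓ := ⟨ℓ, hℓ⟩) hℓN]
        rfl
      · refine ⟨heckeGen ⟨q, hq⟩, ?_⟩
        rw [heckeEvalForms_heckeGen_of_dvd (N := p) (k := 2) (q := ⟨q, hq⟩) hqN]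
        rfl
    | algebraMap r =>
      refine ⟨MvPolynomial.C r, ?_⟩
      rw [heckeEvalForms_C]
      rfl
    | add x y _ _ hx hy =>
      obtain ⟨P, rfl⟩ := hx
      obtain ⟨Q, rfl⟩ := hy
      exact ⟨P + Q, by rw [map_add]; rfl⟩
    | mul x y _ _ hx hy =>
      obtain ⟨P, rfl⟩ := hx
      obtain ⟨Q, rfl⟩ := hy
      exact ⟨P * Q, by rw [map_mul]; rfl⟩
  rintro ⟨t, ht⟩
  obtain ⟨P, hP⟩ := key t ht
  exact ⟨P, Subtype.ext hP⟩

theorem rho_surjective : Function.Surjective (rho p) :=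
  (latticeRestrictHom_surjective p ∅).comp (heckeEvalForms_surjective p)

/-- `ρ(s) = 0` means that `s` kills the integral lattice. -/
theorem act_eq_zero_of_rho_eq_zero {s : HeckeAlg} (hs : rho p s = 0)
    {f : CuspForm (Gamma0 p) 2} (hf : f ∈ intLattice p 2) : act p s f = 0 := by
  have h1 : ((rho p s : ↥(heckeLatticeAlgebra p ∅)) : Module.End ℤ ↥(intLattice p 2)) = 0 := by
    rw [hs]; rfl
  have h2 := LinearMap.congr_fun h1 ⟨f, hf⟩
  exact congrArg Subtype.val h2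

/-! ### The easy direction: an Eisenstein congruence modulo `m` forces `ε(ker ρ) ⊆ mℤ` -/

theorem mem_intLattice_of_int {f : CuspForm (Gamma0 p) 2}
    (hf : ∀ n : ℕ, ∃ z : ℤ, qCoeff (⇑f) n = (z : ℂ)) : f ∈ intLattice p 2 :=
  Submodule.subset_span hf

theorem act_add (P Q : HeckeAlg) : act p (P + Q) = act p P + act p Q := by
  rw [act, map_add]; rfl

theorem qc_zsmul (z : ℤ) (f : CuspForm (Gamma0 p) 2) (n : ℕ) :
    qCoeff (⇑(z • f)) n = (z : ℂ) * qCoeff (⇑f) n := by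
  rw [← Fermat.Agent.S49.qcLin_apply, map_zsmul, Fermat.Agent.S49.qcLin_apply, zsmul_eq_mul]

theorem qc_sub (f g : CuspForm (Gamma0 p) 2) (n : ℕ) :
    qCoeff (⇑(f - g)) n = qCoeff (⇑f) n - qCoeff (⇑g) n := by
  rw [← Fermat.Agent.S49.qcLin_apply, map_sub, Fermat.Agent.S49.qcLin_apply,
    Fermat.Agent.S49.qcLin_apply]

/-- A cusp form all of whose coefficients are divisible by `m` (in `ℤ`) is `m` times an element
of the integral lattice. -/
theorem exists_eq_zsmul {m : ℕ} (hm : 0 < m) (h : CuspForm (Gamma0 p) 2)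
    (hh : ∀ n : ℕ, ∃ z : ℤ, qCoeff (⇑h) n = ((m : ℤ) : ℂ) * (z : ℂ)) :
    ∃ g ∈ intLattice p 2, h = (m : ℤ) • g := by
  have hm' : ((m : ℤ) : ℂ) ≠ 0 := by exact_mod_cast hm.ne'
  refine ⟨(((m : ℤ) : ℂ)⁻¹) • h, mem_intLattice_of_int p fun n => ?_, ?_⟩
  · obtain ⟨z, hz⟩ := hh n
    refine ⟨z, ?_⟩
    rw [Fermat.Agent.S49.qc_smul, hz, ← mul_assoc, inv_mul_cancel₀ hm', one_mul]
  · rw [← Int.cast_smul_eq_zsmul ℂ, smul_smul, mul_inv_cancel₀ hm', one_smul]

/-- The Eisenstein congruence for the generators. -/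
theorem exists_gen_congr {m : ℕ} (hm : 0 < m) (f : CuspForm (Gamma0 p) 2) (a : ℕ → ℤ)
    (ha : ∀ j : ℕ, qCoeff (⇑f) j = (a j : ℂ))
    (hcong : ∀ j : ℕ, 1 ≤ j → a j ≡ (sigmaP p j : ℤ) [ZMOD (m : ℤ)]) (ℓ : Nat.Primes) :
    ∃ g ∈ intLattice p 2, act p (heckeGen ℓ) f = (eisensteinSystem p ℓ) • f + (m : ℤ) • g := by
  have hp : p.Prime := Fact.out
  by_cases hℓ : (ℓ : ℕ) ∣ p
  · -- `ℓ = p`
    have hℓp : ℓ = ⟨p, hp⟩ := Subtype.ext ((Nat.prime_dvd_prime_iff_eq ℓ.2 hp).mp hℓ)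
    subst hℓp
    obtain ⟨g, hg, hgeq⟩ := exists_eq_zsmul p hm (CuspForm.heckeULin 2 (dvd_refl p) f - f) (by
      intro n
      rw [qc_sub, Fermat.Agent.S49.qc_heckeU hp (dvd_refl p)]
      simp only [ha]
      rcases Nat.eq_zero_or_pos n with rfl | hn
      · exact ⟨0, by simp⟩
      · have h1 := hcong (n * p) (Nat.mul_pos hn hp.pos)
        have h2 := hcong n hn
        rw [sigmaP_mul_self p hp] at h1
        obtain ⟨z, hz⟩ := (Int.modEq_iff_dvd.mp (h2.trans h1.symm))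
        exact ⟨z, by rw [← Int.cast_sub, hz, Int.cast_mul]⟩)
    refine ⟨g, hg, ?_⟩
    rw [act_heckeGen_self, eisensteinSystem_of_dvd (N := p) (ℓ := ⟨p, hp⟩) (dvd_refl p), one_smul,
      ← hgeq]
    abel
  · have hℓp : (ℓ : ℕ) ≠ p := fun h => hℓ (h ▸ dvd_refl _)
    obtain ⟨g, hg, hgeq⟩ := exists_eq_zsmul p hm
      (CuspForm.heckeTLin 2 ℓ.2 hℓ f - ((1 + (ℓ : ℕ) : ℤ)) • f) (by
      intro n
      rw [qc_sub, Fermat.Agent.S49.qc_heckeT ℓ.2 hℓ, qc_zsmul]
      simp only [ha]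
      rcases Nat.eq_zero_or_pos n with rfl | hn
      · refine ⟨0, ?_⟩
        simp only [zero_mul, dvd_zero, if_true, Nat.zero_div, Int.cast_zero, mul_zero]
        push_cast
        ring
      · have h1 := hcong (n * ℓ) (Nat.mul_pos hn ℓ.2.pos)
        have h2 := hcong n hn
        have hsig := sigmaP_mul_prime p hp ℓ.2 hℓp n
        by_cases hℓn : (ℓ : ℕ) ∣ n
        · have hn' : 1 ≤ n / ℓ := Nat.div_pos (Nat.le_of_dvd hn hℓn) ℓ.2.pos
          have h3 := hcong (n / ℓ) hn'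
          rw [if_pos hℓn] at hsig ⊢
          have hsig' : ((sigmaP p (n * ℓ) : ℕ) : ℤ) + (ℓ : ℤ) * (sigmaP p (n / ℓ) : ℕ)
              = (1 + (ℓ : ℤ)) * (sigmaP p n : ℕ) := by exact_mod_cast hsig
          have h4 : a (n * ℓ) + (ℓ : ℤ) * a (n / ℓ) - (1 + (ℓ : ℤ)) * a n ≡ 0 [ZMOD (m : ℤ)] := by
            have := ((h1.add (h3.mul_left (ℓ : ℤ))).sub (h2.mul_left (1 + (ℓ : ℤ))))
            rw [hsig', sub_self] at this
            exact this
          obtain ⟨z, hz⟩ := Int.modEq_zero_iff_dvd.mp h4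
          refine ⟨z, ?_⟩
          have : ((a (n * ℓ) + (ℓ : ℤ) * a (n / ℓ) - (1 + (ℓ : ℤ)) * a n : ℤ) : ℂ)
              = (((m : ℤ) * z : ℤ) : ℂ) := by rw [hz]
          push_cast at this ⊢
          linear_combination this
        · rw [if_neg hℓn, add_zero] at hsig
          rw [if_neg hℓn, add_zero]
          have hsig' : ((sigmaP p (n * ℓ) : ℕ) : ℤ) = (1 + (ℓ : ℤ)) * (sigmaP p n : ℕ) := by
            exact_mod_cast hsig
          have h4 : a (n * ℓ) - (1 + (ℓ : ℤ)) * a n ≡ 0 [ZMOD (m : ℤ)] := by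
            have := (h1.sub (h2.mul_left (1 + (ℓ : ℤ))))
            rw [hsig', sub_self] at this
            exact this
          obtain ⟨z, hz⟩ := Int.modEq_zero_iff_dvd.mp h4
          refine ⟨z, ?_⟩
          have : ((a (n * ℓ) - (1 + (ℓ : ℤ)) * a n : ℤ) : ℂ) = (((m : ℤ) * z : ℤ) : ℂ) := by
            rw [hz]
          push_cast at this ⊢
          linear_combination this)
    refine ⟨g, hg, ?_⟩
    have hact : act p (heckeGen ℓ) f = CuspForm.heckeTLin 2 ℓ.2 hℓ f :=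
      act_heckeGen_of_ne p ℓ.2 hℓ f
    rw [hact, eisensteinSystem_of_not_dvd (N := p) (ℓ := ℓ) hℓ, ← hgeq]
    abel

/-- `f` is an eigenvector modulo `m·L` of every Hecke polynomial, with eigenvalue `ε(s)`. -/
theorem exists_congr {m : ℕ} (hm : 0 < m) (f : CuspForm (Gamma0 p) 2) (a : ℕ → ℤ)
    (ha : ∀ j : ℕ, qCoeff (⇑f) j = (a j : ℂ))
    (hcong : ∀ j : ℕ, 1 ≤ j → a j ≡ (sigmaP p j : ℤ) [ZMOD (m : ℤ)]) (s : HeckeAlg) :
    ∃ g ∈ intLattice p 2, act p s f = (eps p s) • f + (m : ℤ) • g := by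
  induction s using MvPolynomial.induction_on with
  | C c =>
    refine ⟨0, Submodule.zero_mem _, ?_⟩
    rw [act_C, eps_C, smul_zero, add_zero]
  | add P Q hP hQ =>
    obtain ⟨g, hg, hPg⟩ := hP
    obtain ⟨g', hg', hQg⟩ := hQ
    refine ⟨g + g', Submodule.add_mem _ hg hg', ?_⟩
    rw [act_add, LinearMap.add_apply, hPg, hQg, map_add, add_smul, smul_add]
    abel
  | mul_X P ℓ hP =>
    obtain ⟨g, hg, hPg⟩ := hP
    obtain ⟨gℓ, hgℓ, hℓeq⟩ := exists_gen_congr p hm f a ha hcong ℓ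
    have hmem : act p P gℓ ∈ intLattice p 2 :=
      mem_intLattice_of_mem_heckeAlgebra one_le_two (heckeEvalForms p 2 P).2 hgℓ
    refine ⟨(eisensteinSystem p ℓ) • g + act p P gℓ,
      Submodule.add_mem _ (Submodule.smul_mem _ _ hg) hmem, ?_⟩
    have hX : act p (MvPolynomial.X ℓ) f = (eisensteinSystem p ℓ) • f + (m : ℤ) • gℓ := hℓeq
    have hε : eps p (P * MvPolynomial.X ℓ) = eps p P * eisensteinSystem p ℓ := by
      rw [map_mul, eps_apply (p := p) (MvPolynomial.X ℓ), MvPolynomial.aeval_X]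
    rw [act_mul, Module.End.mul_apply, hX, map_add, map_zsmul, map_zsmul, hPg, hε, smul_add,
      smul_add, smul_smul, smul_smul, smul_smul, mul_comm (eps p P) (eisensteinSystem p ℓ),
      mul_comm (m : ℤ) (eisensteinSystem p ℓ)]
    abel

/-- **The easy direction.** If some cusp form with integer coefficients is congruent to the
Eisenstein series modulo `m`, then the Eisenstein eigen-system maps `ker ρ` into `mℤ`. -/
theorem dvd_eps_of_eisCong {m : ℕ} (hm : 0 < m) (h : EisCong p m) (s : HeckeAlg)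
    (hs : rho p s = 0) : (m : ℤ) ∣ eps p s := by
  have hp : p.Prime := Fact.out
  obtain ⟨f, a, ha, hcong⟩ := h
  have hf : f ∈ intLattice p 2 := mem_intLattice_of_int p fun n => ⟨a n, ha n⟩
  obtain ⟨g, hg, hgeq⟩ := exists_congr p hm f a ha hcong s
  rw [act_eq_zero_of_rho_eq_zero p hs hf] at hgeq
  obtain ⟨b, hb⟩ := Fermat.Agent.S49.qc_int_of_mem_intLattice hg 1
  have h1 : qCoeff (⇑((eps p s) • f + (m : ℤ) • g)) 1 = 0 := by
    rw [← hgeq]
    rw [← Fermat.Agent.S49.qcLin_apply, map_zero]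
  rw [Fermat.Agent.S49.qc_add, qc_zsmul, qc_zsmul, ha, hb] at h1
  have h2 : eps p s * a 1 + (m : ℤ) * b = 0 := by exact_mod_cast h1
  have h3 := hcong 1 le_rfl
  rw [sigmaP_one p hp] at h3
  obtain ⟨c, hc⟩ := Int.modEq_iff_dvd.mp h3
  -- `1 - a 1 = m c`
  refine ⟨eps p s * c - b, ?_⟩
  have : a 1 = 1 - (m : ℤ) * c := by
    have : ((1 : ℕ) : ℤ) - a 1 = (m : ℤ) * c := hc
    push_cast at this
    linarith
  rw [this] at h2
  linear_combination h2

/-! ### The cardinality -/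

theorem eisensteinNumerator_pos : 0 < eisensteinNumerator p := by
  have hp : p.Prime := Fact.out
  have h1 : 0 < p - 1 := by have := hp.two_le; omega
  exact Nat.div_pos (Nat.le_of_dvd h1 (Nat.gcd_dvd_left _ _))
    (Nat.gcd_pos_of_pos_left _ h1)

/-- **The reduction, modulo the duality direction `hc`.** -/
theorem natCard_eq_of_dual
    (hc : ∀ m : ℕ, 0 < m → (∀ s : HeckeAlg, rho p s = 0 → (m : ℤ) ∣ eps p s) → EisCong p m)
    (hLB : EisCong p (eisensteinNumerator p))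
    (hUB : ∀ m : ℕ, 0 < m → EisCong p m → m ∣ eisensteinNumerator p) :
    Nat.card (↥(heckeLatticeAlgebra p ∅) ⧸
        Ideal.map ((latticeRestrictHom p ∅).toRingHom.comp (heckeEvalForms p 2))
          (eisensteinIdeal p)) =
      eisensteinNumerator p := by
  rw [← ker_eps p]
  show Nat.card (↥(heckeLatticeAlgebra p ∅) ⧸ Ideal.map (rho p) (RingHom.ker (eps p))) = _
  rw [ReduceAlg.natCard_quot_map_ker (rho p) (eps p) (rho_surjective p) (eps_surjective p)]
  refine ReduceAlg.natCard_int_quot_eq (Q := EisCong p) (eisensteinNumerator_pos p)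
    (fun m hm => ⟨fun h => hc m hm fun s hs => ?_, fun h => ?_⟩) hLB hUB
  · have h1 : eps p s ∈ Ideal.map (eps p) (RingHom.ker (rho p)) :=
      Ideal.mem_map_of_mem _ (RingHom.mem_ker.mpr hs)
    exact Ideal.mem_span_singleton.mp (h h1)
  · rw [Ideal.map_le_iff_le_comap]
    intro s hs
    rw [Ideal.mem_comap, Ideal.mem_span_singleton]
    exact dvd_eps_of_eisCong p hm h s (RingHom.mem_ker.mp hs)

end Fermat.Agent.S16.ReduceCore
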