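/-
S16, slice TRACE: the trace from `Γ₀(p)` to level one, in every weight.

For a modular form `F` of weight `k` on `Γ₀(p)` (`p` prime), the function
`F + ∑_{j < p} F ∣[k] (S * T ^ j)` is a modular form of level one (`traceSL F`).
For a pair `(Φ, Φ')` with `(Φ ∣ S)(τ) = Φ'(τ / p)` this is `Φ + p • U_p Φ'`, whose `q`-expansion
coefficients are `a_n(Φ) + p a_{np}(Φ')`.
-/
import Mathlib
import Fermat.Agent.S16.Pairs
import Fermat.Agent.S16.NQ

set_option autoImplicit false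

noncomputable section

open UpperHalfPlane ModularForm CongruenceSubgroup
open scoped MatrixGroups ModularForm Manifold

namespace Fermat.Agent.S16.Trace

open ModularGroup

/-! ### Matrix identities -/

theorem T_pow_eq_zpow (j : ℕ) : (T ^ j : SL(2, ℤ)) = T ^ (j : ℤ) := (zpow_natCast T j).symm

theorem T_mem_Gamma0 (p : ℕ) : T ∈ Gamma0 p := by
  rw [Gamma0_mem]
  simp [ModularGroup.T]

/-- The matrix `!![a, b; c, d]` of determinant one. -/
def gam (a b c d : ℤ) (h : a * d - b * c = 1) : SL(2, ℤ) :=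
  ⟨!![a, b; c, d], by rw [Matrix.det_fin_two_of]; exact h⟩

theorem coe_gam (a b c d : ℤ) (h : a * d - b * c = 1) :
    ((gam a b c d h : SL(2, ℤ)) : Matrix (Fin 2) (Fin 2) ℤ) = !![a, b; c, d] := rfl

theorem gam_mem_Gamma0 (p : ℕ) (a b c d : ℤ) (h : a * d - b * c = 1) (hc : (p : ℤ) ∣ c) :
    gam a b c d h ∈ Gamma0 p := by
  rw [Gamma0_mem, coe_gam]
  simpa using (ZMod.intCast_zmod_eq_zero_iff_dvd _ _).mpr hc

theorem exists_S_T_pow_self (p : ℕ) : ∃ γ ∈ Gamma0 p, S * T ^ p = γ * S := by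
  refine ⟨gam 1 0 (-(p : ℤ)) 1 (by ring), gam_mem_Gamma0 p _ _ _ _ _ (by simp), ?_⟩
  apply Subtype.ext
  rw [T_pow_eq_zpow, Matrix.SpecialLinearGroup.coe_mul, Matrix.SpecialLinearGroup.coe_mul,
    coe_T_zpow, coe_S, coe_gam]
  ext a b
  fin_cases a <;> fin_cases b <;> simp [Matrix.mul_apply, Fin.sum_univ_two]

theorem exists_S_mul_S (p : ℕ) : ∃ γ ∈ Gamma0 p, S * T ^ 0 * S = γ := by
  refine ⟨S * T ^ 0 * S, ?_, rfl⟩
  rw [Gamma0_mem, pow_zero, mul_one]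
  have h : ((S * S : SL(2, ℤ)) : Matrix (Fin 2) (Fin 2) ℤ) = -1 := by
    rw [Matrix.SpecialLinearGroup.coe_mul]; exact S_mul_S_eq
  rw [h]
  simp

theorem exists_S_T_pow_S (p j j' : ℕ) (h : (p : ℤ) ∣ (j : ℤ) * j' + 1) :
    ∃ γ ∈ Gamma0 p, S * T ^ j * S = γ * (S * T ^ j') := by
  refine ⟨gam (-(j' : ℤ)) (-1) ((j : ℤ) * j' + 1) j (by ring), gam_mem_Gamma0 p _ _ _ _ _ h, ?_⟩
  apply Subtype.ext
  rw [T_pow_eq_zpow, T_pow_eq_zpow, Matrix.SpecialLinearGroup.coe_mul,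
    Matrix.SpecialLinearGroup.coe_mul, Matrix.SpecialLinearGroup.coe_mul,
    Matrix.SpecialLinearGroup.coe_mul, coe_T_zpow, coe_T_zpow, coe_S, coe_gam]
  ext a b
  fin_cases a <;> fin_cases b <;> simp [Matrix.mul_apply, Fin.sum_univ_two]

/-! ### The involution `j ↦ -1/j` on `{1, …, p-1}` -/

/-- `j ↦ -1/j mod p`. -/
def sig (p j : ℕ) : ℕ := (-((j : ZMod p))⁻¹).val

section Sig

variable {p : ℕ} [Fact p.Prime]

theorem natCast_ne_zero_of_mem {j : ℕ} (hj : j ∈ Finset.Ico 1 p) : (j : ZMod p) ≠ 0 := by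
  rw [Finset.mem_Ico] at hj
  rw [Ne, ZMod.natCast_eq_zero_iff]
  exact Nat.not_dvd_of_pos_of_lt hj.1 hj.2

theorem natCast_sig (j : ℕ) : ((sig p j : ℕ) : ZMod p) = -((j : ZMod p))⁻¹ := by
  rw [sig, ZMod.natCast_zmod_val]

theorem sig_mem {j : ℕ} (hj : j ∈ Finset.Ico 1 p) : sig p j ∈ Finset.Ico 1 p := by
  have h0 := natCast_ne_zero_of_mem hj
  rw [Finset.mem_Ico]
  refine ⟨Nat.pos_of_ne_zero fun h => ?_, ZMod.val_lt _⟩
  have h1 : -((j : ZMod p))⁻¹ = 0 := by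
    rw [← natCast_sig, h, Nat.cast_zero]
  exact h0 (inv_eq_zero.mp (neg_eq_zero.mp h1))

theorem sig_sig {j : ℕ} (hj : j ∈ Finset.Ico 1 p) : sig p (sig p j) = j := by
  have hlt : j < p := (Finset.mem_Ico.mp hj).2
  rw [sig, natCast_sig, inv_neg, neg_neg, inv_inv, ZMod.val_natCast_of_lt hlt]

theorem dvd_mul_sig_add_one {j : ℕ} (hj : j ∈ Finset.Ico 1 p) :
    (p : ℤ) ∣ (j : ℤ) * (sig p j : ℕ) + 1 := by
  have h0 := natCast_ne_zero_of_mem hj
  rw [← ZMod.intCast_zmod_eq_zero_iff_dvd]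
  push_cast
  rw [natCast_sig, mul_neg, mul_inv_cancel₀ h0]
  ring

end Sig

/-! ### The trace function -/

section TraceFun

variable {p : ℕ} {k : ℤ}

theorem slash_gamma0 (F : ModularForm (Gamma0 p) k) {γ : SL(2, ℤ)} (hγ : γ ∈ Gamma0 p) :
    (⇑F : ℍ → ℂ) ∣[k] γ = ⇑F := by
  rw [ModularForm.SL_slash]
  exact F.slash_action_eq' _ ⟨γ, hγ, rfl⟩

theorem slash_gamma0_mul (F : ModularForm (Gamma0 p) k) {γ : SL(2, ℤ)} (hγ : γ ∈ Gamma0 p)
    (δ : SL(2, ℤ)) : (⇑F : ℍ → ℂ) ∣[k] (γ * δ) = (⇑F : ℍ → ℂ) ∣[k] δ := by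
  rw [SlashAction.slash_mul, slash_gamma0 F hγ]

/-- `F + ∑_{j < p} F ∣[k] (S * T ^ j)`. -/
def traceFun (F : ModularForm (Gamma0 p) k) : ℍ → ℂ :=
  ⇑F + ∑ j ∈ Finset.range p, (⇑F : ℍ → ℂ) ∣[k] (S * T ^ j)

theorem slash_S_T_pow_T (F : ModularForm (Gamma0 p) k) (j : ℕ) :
    ((⇑F : ℍ → ℂ) ∣[k] (S * T ^ j)) ∣[k] T = (⇑F : ℍ → ℂ) ∣[k] (S * T ^ (j + 1)) := by
  rw [← SlashAction.slash_mul, mul_assoc, ← pow_succ]

theorem slash_S_T_pow_self (F : ModularForm (Gamma0 p) k) :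
    (⇑F : ℍ → ℂ) ∣[k] (S * T ^ p) = (⇑F : ℍ → ℂ) ∣[k] (S * T ^ 0) := by
  obtain ⟨γ, hγ, h⟩ := exists_S_T_pow_self p
  rw [h, slash_gamma0_mul F hγ, pow_zero, mul_one]

theorem traceFun_slash_T (F : ModularForm (Gamma0 p) k) : traceFun F ∣[k] T = traceFun F := by
  rw [traceFun, SlashAction.add_slash, slash_gamma0 F (T_mem_Gamma0 p), SlashAction.sum_slash]
  congr 1
  simp only [slash_S_T_pow_T]
  have h1 := Finset.sum_range_succ' (fun j => (⇑F : ℍ → ℂ) ∣[k] (S * T ^ j)) p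
  have h2 := Finset.sum_range_succ (fun j => (⇑F : ℍ → ℂ) ∣[k] (S * T ^ j)) p
  rw [h2, slash_S_T_pow_self F] at h1
  exact (add_right_cancel h1).symm

theorem slash_S_T_pow_S (F : ModularForm (Gamma0 p) k) {j j' : ℕ}
    (h : (p : ℤ) ∣ (j : ℤ) * j' + 1) :
    ((⇑F : ℍ → ℂ) ∣[k] (S * T ^ j)) ∣[k] S = (⇑F : ℍ → ℂ) ∣[k] (S * T ^ j') := by
  obtain ⟨γ, hγ, hγ'⟩ := exists_S_T_pow_S p j j' h
  rw [← SlashAction.slash_mul, hγ', slash_gamma0_mul F hγ]

theorem slash_S_T_zero_S (F : ModularForm (Gamma0 p) k) :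
    ((⇑F : ℍ → ℂ) ∣[k] (S * T ^ 0)) ∣[k] S = ⇑F := by
  obtain ⟨γ, hγ, hγ'⟩ := exists_S_mul_S p
  rw [← SlashAction.slash_mul, hγ', slash_gamma0 F hγ]

theorem traceFun_slash_S [Fact p.Prime] (F : ModularForm (Gamma0 p) k) :
    traceFun F ∣[k] S = traceFun F := by
  have hp : 0 < p := (Fact.out : p.Prime).pos
  have hsplit : ∀ f : ℕ → ℍ → ℂ, ∑ j ∈ Finset.range p, f j = f 0 + ∑ j ∈ Finset.Ico 1 p, f j := by
    intro f
    rw [Finset.range_eq_Ico, Finset.sum_eq_sum_Ico_succ_bot hp]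
  rw [traceFun, SlashAction.add_slash, SlashAction.sum_slash, hsplit, hsplit, slash_S_T_zero_S]
  have h0 : (⇑F : ℍ → ℂ) ∣[k] S = (⇑F : ℍ → ℂ) ∣[k] (S * T ^ 0) := by
    rw [pow_zero, mul_one]
  have hsum : ∑ j ∈ Finset.Ico 1 p, ((⇑F : ℍ → ℂ) ∣[k] (S * T ^ j)) ∣[k] S =
      ∑ j ∈ Finset.Ico 1 p, (⇑F : ℍ → ℂ) ∣[k] (S * T ^ j) := by
    refine Finset.sum_nbij' (sig p) (sig p) (fun j hj => sig_mem hj) (fun j hj => sig_mem hj)
      (fun j hj => sig_sig hj) (fun j hj => sig_sig hj) fun j hj => ?_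
    exact slash_S_T_pow_S F (dvd_mul_sig_add_one hj)
  rw [hsum, h0]
  abel

theorem isBoundedAtImInfty_sum {ι : Type*} (s : Finset ι) (f : ι → ℍ → ℂ)
    (h : ∀ i ∈ s, IsBoundedAtImInfty (f i)) : IsBoundedAtImInfty (∑ i ∈ s, f i) := by
  classical
  induction s using Finset.induction_on with
  | empty =>
    rw [Finset.sum_empty]
    exact Filter.const_boundedAtFilter _ (0 : ℂ)
  | insert a s ha ih =>
    rw [Finset.sum_insert ha]
    exact Filter.BoundedAtFilter.add (h a (Finset.mem_insert_self a s))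
      (ih fun i hi => h i (Finset.mem_insert_of_mem hi))

theorem mdifferentiable_slash [NeZero p] (F : ModularForm (Gamma0 p) k) (γ : SL(2, ℤ)) :
    MDifferentiable 𝓘(ℂ) 𝓘(ℂ) ((⇑F : ℍ → ℂ) ∣[k] γ) := by
  rw [ModularForm.SL_slash, ← ModularForm.coe_translate]
  exact (ModularForm.translate F _).holo'

theorem mdifferentiable_sum {ι : Type*} (s : Finset ι) (f : ι → ℍ → ℂ)
    (h : ∀ i ∈ s, MDifferentiable 𝓘(ℂ) 𝓘(ℂ) (f i)) :
    MDifferentiable 𝓘(ℂ) 𝓘(ℂ) (∑ i ∈ s, f i) := by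
  classical
  induction s using Finset.induction_on with
  | empty =>
    rw [Finset.sum_empty]
    exact mdifferentiable_const
  | insert a s ha ih =>
    rw [Finset.sum_insert ha]
    exact (h a (Finset.mem_insert_self a s)).add
      (ih fun i hi => h i (Finset.mem_insert_of_mem hi))

variable [Fact p.Prime]

/-- **The trace to level one**: `F + ∑_{j < p} F ∣[k] (S * T ^ j)` as a modular form of level
one. -/
def traceSL (F : ModularForm (Gamma0 p) k) : ModularForm 𝒮ℒ k :=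
  { toFun := traceFun F
    slash_action_eq' := fun A hA => by
      obtain ⟨A, rfl⟩ := hA
      exact SlashInvariantForm.slash_action_generators_SL2Z (traceFun_slash_S F) (traceFun_slash_T F) A
    holo' := F.holo'.add (mdifferentiable_sum _ _ fun j _ => mdifferentiable_slash F _)
    bdd_at_cusps' := fun hc => by
      rw [OnePoint.isBoundedAt_iff_forall_SL2Z hc]
      intro γ _
      rw [SlashInvariantForm.slash_action_generators_SL2Z (traceFun_slash_S F) (traceFun_slash_T F)]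
      exact Filter.BoundedAtFilter.add (ModularFormClass.bdd_at_infty F)
        (isBoundedAtImInfty_sum _ _ fun j _ => ModularFormClass.bdd_at_infty_slash F _) }

theorem coe_traceSL (F : ModularForm (Gamma0 p) k) :
    (⇑(traceSL F) : ℍ → ℂ) = ⇑F + ∑ j ∈ Finset.range p, (⇑F : ℍ → ℂ) ∣[k] (S * T ^ j) := rfl

theorem traceSL_apply (F : ModularForm (Gamma0 p) k) (τ : ℍ) :
    traceSL F τ = F τ + ∑ j ∈ Finset.range p, ((⇑F : ℍ → ℂ) ∣[k] (S * T ^ j)) τ := by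
  show (⇑F + ∑ j ∈ Finset.range p, (⇑F : ℍ → ℂ) ∣[k] (S * T ^ j)) τ = _
  rw [Pi.add_apply, Finset.sum_apply]

/-- The trace in the shape of a statement about all forms (as consumed by the `Δ`-trick). -/
theorem exists_trace (F : ModularForm (Gamma0 p) k) :
    ∃ T' : ModularForm 𝒮ℒ k,
      (⇑T' : ℍ → ℂ) = ⇑F + ∑ j ∈ Finset.range p, (⇑F : ℍ → ℂ) ∣[k] (S * T ^ j) :=
  ⟨traceSL F, rfl⟩

end TraceFun

/-! ### The trace of a pair -/

section Pair

variable {p : ℕ} [Fact p.Prime] {w : ℤ}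

/-- The trace of a pair `(Φ, Φ')`: the level one form `Φ + ∑_{j < p} Φ'((τ + j)/p)`. -/
def traceForm (P : QPair p w) : ModularForm 𝒮ℒ w := traceSL P.Φ

theorem traceForm_apply (P : QPair p w) (τ : ℍ) :
    traceForm P τ = P.Φ τ + ∑ j ∈ Finset.range p, P.Φ' (ModularForm.heckeMatrix p j • τ) := by
  rw [traceForm, traceSL_apply]
  congr 1
  refine Finset.sum_congr rfl fun j _ => ?_
  rw [T_pow_eq_zpow]
  exact NQ.slash_S_mul_T_zpow_apply (NeZero.ne p) w _ _ P.isPair j τ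

/-- The trace of a pair is, as a function, the `Γ₀(p)`-form `Φ + p • U_p Φ'`. -/
theorem coe_traceForm (P : QPair p w) :
    (⇑(traceForm P) : ℍ → ℂ) =
      ⇑(P.Φ + (p : ℂ) • ModularForm.heckeULin (N := p) (p := p) w dvd_rfl P.Φ') := by
  ext τ
  have hp : (p : ℂ) ≠ 0 := Nat.cast_ne_zero.mpr (NeZero.ne p)
  rw [traceForm_apply]
  show _ = P.Φ τ + (p : ℂ) • ModularForm.heckeU w p (⇑P.Φ') τ
  rw [ModularForm.heckeU_apply w (NeZero.ne p), smul_eq_mul, ← mul_assoc, mul_inv_cancel₀ hp,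
    one_mul]

/-- The `q`-expansion coefficients of the trace of a pair: `a_n(Φ) + p a_{np}(Φ')`. -/
theorem coeff_qExpansion_traceForm (P : QPair p w) (n : ℕ) :
    (qExpansion 1 (traceForm P)).coeff n = P.q.coeff n + (p : ℂ) * P.q'.coeff (n * p) := by
  have hU : (qExpansion 1 (ModularForm.heckeULin (N := p) (p := p) w dvd_rfl P.Φ')).coeff n =
      (qExpansion 1 P.Φ').coeff (n * p) :=
    ModularFormClass.qCoeff_heckeU (k := w) P.Φ' QPair.one_mem (NeZero.ne p) n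
  rw [coe_traceForm, FunLike.coe_add, ModularForm.qExpansion_add one_pos QPair.one_mem,
    FunLike.coe_smul, ModularForm.qExpansion_smul one_pos QPair.one_mem, map_add,
    PowerSeries.coeff_smul, hU, smul_eq_mul]
  rfl

end Pair

/-! ### Vanishing in small weights -/

/-- A level one form of weight `14` (more generally of weight `k` with `k - 12 = 2`) with
vanishing constant term is zero. -/
theorem eq_zero_of_coeff_zero_of_sub_eq_two {k : ℤ} (hk : k - 12 = 2) (f : ModularForm 𝒮ℒ k)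
    (h0 : (qExpansion 1 f).coeff 0 = 0) : f = 0 := by
  have hsub : Subsingleton (ModularForm 𝒮ℒ 2) :=
    rank_zero_iff.mp ModularForm.levelOne_weight_two_rank_zero
  have h1 : CuspForm.discriminantEquiv (ModularForm.toCuspForm f h0) = 0 := by
    rw [← ModularForm.mcast_eq_zero_iff (b := 2) hk rfl]
    exact Subsingleton.elim _ _
  have h2 : ModularForm.toCuspForm f h0 = 0 := by
    simpa using h1
  ext τ
  have h3 := congrArg (fun g : CuspForm 𝒮ℒ k => g τ) h2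
  simpa using h3

theorem eq_zero_of_coeff_zero_weight_fourteen (f : ModularForm 𝒮ℒ 14)
    (h0 : (qExpansion 1 f).coeff 0 = 0) : f = 0 :=
  eq_zero_of_coeff_zero_of_sub_eq_two (by norm_num) f h0

end Fermat.Agent.S16.Trace

end
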