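/-
S16, slice TAU: `τ(p²) = τ(p)² - p¹¹` for the coefficients of `Δ`.

Proof: the trace of the pair `(Δ(p ·), p⁻¹² Δ)` is a level one form of weight `12` with
coefficients `[p ∣ n] τ(n/p) + p⁻¹¹ τ(np)` and vanishing constant term, hence a multiple of `Δ`;
compare the coefficients `n = 1` and `n = p`.
-/
import Mathlib
import Fermat.Agent.S16.Trace
import Fermat.Agent.S16.PairSwap
import Fermat.Agent.S24.JqBridge

set_option autoImplicit false

noncomputable section

open UpperHalfPlane ModularForm CongruenceSubgroup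
open scoped MatrixGroups ModularForm Manifold

namespace Fermat.Agent.S16.Tau

local notation "Δ" => ModularForm.discriminant

/-- `Δ` as a modular form of level one. -/
def deltaForm : ModularForm 𝒮ℒ 12 := CuspForm.toModularFormₗ CuspForm.discriminant

theorem coe_deltaForm : (⇑deltaForm : ℍ → ℂ) = Δ := rfl

theorem coeff_zero_discriminant : (qExpansion 1 Δ).coeff 0 = 0 := by
  simpa using CuspFormClass.qExpansion_coeff_zero CuspForm.discriminant one_pos
    one_mem_strictPeriods_SL

theorem coeff_one_discriminant : (qExpansion 1 Δ).coeff 1 = 1 :=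
  ModularForm.discriminant_qExpansion_coeff_one

/-- A level one form of weight `12` with vanishing constant term is `a₁ • Δ`: coefficients. -/
theorem coeff_eq_mul_of_coeff_zero (f : ModularForm 𝒮ℒ 12) (h0 : (qExpansion 1 f).coeff 0 = 0)
    (n : ℕ) : (qExpansion 1 f).coeff n = (qExpansion 1 f).coeff 1 * (qExpansion 1 Δ).coeff n := by
  set c : ℂ := (qExpansion 1 f).coeff 1 with hc
  set g : ModularForm 𝒮ℒ 12 := f - c • deltaForm with hg
  have hgq : qExpansion 1 g = qExpansion 1 f - c • qExpansion 1 Δ := by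
    rw [hg, FunLike.coe_sub, ModularForm.qExpansion_sub one_pos one_mem_strictPeriods_SL,
      FunLike.coe_smul, ModularForm.qExpansion_smul one_pos one_mem_strictPeriods_SL,
      coe_deltaForm]
  have hg0 : g = 0 := by
    apply ModularForm.sturm_bound_levelOne
    have h2 : ((2 : ℕ) : ℕ∞) ≤ (qExpansion 1 g).order := by
      apply PowerSeries.nat_le_order
      intro i hi
      rw [hgq, map_sub, PowerSeries.coeff_smul, smul_eq_mul]
      interval_cases i
      · rw [h0, coeff_zero_discriminant, mul_zero, sub_zero]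
      · rw [coeff_one_discriminant, mul_one, sub_self]
    refine lt_of_lt_of_le ?_ h2
    have h12 : (12 : ℤ).toNat / 12 = 1 := by decide
    rw [h12]
    exact_mod_cast (by norm_num : (1 : ℕ) < 2)
  have h1 : (qExpansion 1 g).coeff n = 0 := by
    rw [hg0]
    simp [qExpansion_zero]
  rw [hgq, map_sub, PowerSeries.coeff_smul, smul_eq_mul, sub_eq_zero] at h1
  exact h1

theorem even_twelve : Even (12 : ℤ) := ⟨6, by norm_num⟩

/-- The pair `(Δ(p ·), p⁻¹² Δ)`. -/
def deltaPair (p : ℕ) [NeZero p] : QPair p 12 :=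
  (QPair.ofLevelOne p deltaForm).swap even_twelve

theorem deltaPair_q (p : ℕ) [NeZero p] :
    (deltaPair p).q = PowerSeries.expand p (NeZero.ne p) (qExpansion 1 Δ) := by
  rw [deltaPair, QPair.swap_q, QPair.ofLevelOne_q', coe_deltaForm]

theorem deltaPair_q' (p : ℕ) [NeZero p] :
    (deltaPair p).q' = ((p : ℂ) ^ (-(12 : ℤ))) • qExpansion 1 Δ := by
  rw [deltaPair, QPair.swap_q', QPair.ofLevelOne_q, coe_deltaForm]

/-- The coefficients of the trace of `(Δ(p ·), p⁻¹² Δ)`: `[p ∣ n] τ(n/p) + p⁻¹¹ τ(np)`. -/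
theorem coeff_trace_deltaPair (p : ℕ) [Fact p.Prime] (n : ℕ) :
    (qExpansion 1 (Trace.traceForm (deltaPair p))).coeff n =
      (if p ∣ n then (qExpansion 1 Δ).coeff (n / p) else 0) +
        ((p : ℂ) ^ 11)⁻¹ * (qExpansion 1 Δ).coeff (n * p) := by
  have hp : (p : ℂ) ≠ 0 := Nat.cast_ne_zero.mpr (NeZero.ne p)
  rw [Trace.coeff_qExpansion_traceForm, deltaPair_q, deltaPair_q', PowerSeries.coeff_expand,
    PowerSeries.coeff_smul, smul_eq_mul, ← mul_assoc]
  congr 2
  rw [zpow_neg, show (12 : ℤ) = ((12 : ℕ) : ℤ) from rfl, zpow_natCast]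
  field_simp

/-- **`τ(p²) = τ(p)² - p¹¹`** for the coefficients of the discriminant. -/
theorem tau_prime_sq (p : ℕ) (hp : p.Prime) :
    (qExpansion 1 Δ).coeff (p ^ 2) = (qExpansion 1 Δ).coeff p ^ 2 - (p : ℂ) ^ 11 := by
  have : Fact p.Prime := ⟨hp⟩
  have hp0 : (p : ℂ) ≠ 0 := Nat.cast_ne_zero.mpr hp.ne_zero
  have hp11 : (p : ℂ) ^ 11 ≠ 0 := pow_ne_zero _ hp0
  set f := Trace.traceForm (deltaPair p) with hf
  have hc0 : (qExpansion 1 f).coeff 0 = 0 := by
    rw [hf, coeff_trace_deltaPair, if_pos (dvd_zero p), Nat.zero_div, zero_mul,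
      coeff_zero_discriminant, mul_zero, add_zero]
  have hc1 : (qExpansion 1 f).coeff 1 = ((p : ℂ) ^ 11)⁻¹ * (qExpansion 1 Δ).coeff p := by
    rw [hf, coeff_trace_deltaPair, if_neg (fun h => hp.one_lt.ne' (Nat.dvd_one.mp h)), one_mul,
      zero_add]
  have hcp : (qExpansion 1 f).coeff p =
      1 + ((p : ℂ) ^ 11)⁻¹ * (qExpansion 1 Δ).coeff (p ^ 2) := by
    rw [hf, coeff_trace_deltaPair, if_pos dvd_rfl, Nat.div_self hp.pos, coeff_one_discriminant,
      sq]
  have key := coeff_eq_mul_of_coeff_zero f hc0 p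
  rw [hcp, hc1] at key
  field_simp at key
  linear_combination key

/-! ### Integrality of `τ` -/

/-- Ramanujan's `τ(n)`, as an integer: the coefficients of `q ∏ (1 - qⁿ)²⁴`. -/
def tauZ (n : ℕ) : ℤ := PowerSeries.coeff n (PowerSeries.X * ModularCurve.dedekindEtaUnit)

theorem coeff_discriminant_eq_tauZ (n : ℕ) : (qExpansion 1 Δ).coeff n = (tauZ n : ℂ) := by
  rw [Fermat.Agent.S24.JqBridge.qExpansion_discriminant, tauZ,
    show (PowerSeries.X : PowerSeries ℂ) * Fermat.Agent.S24.JqBridge.toC ModularCurve.dedekindEtaUnit =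
      PowerSeries.map (Int.castRingHom ℂ) (PowerSeries.X * ModularCurve.dedekindEtaUnit) by
        rw [map_mul, PowerSeries.map_X],
    PowerSeries.coeff_map, eq_intCast]

theorem tauZ_zero : tauZ 0 = 0 := by
  have h := coeff_discriminant_eq_tauZ 0
  rw [coeff_zero_discriminant] at h
  exact_mod_cast h.symm

theorem tauZ_one : tauZ 1 = 1 := by
  have h := coeff_discriminant_eq_tauZ 1
  rw [coeff_one_discriminant] at h
  exact_mod_cast h.symm

/-- `τ(p²) = τ(p)² - p¹¹` over `ℤ`. -/
theorem tauZ_prime_sq (p : ℕ) (hp : p.Prime) : tauZ (p ^ 2) = tauZ p ^ 2 - (p : ℤ) ^ 11 := by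
  have h := tau_prime_sq p hp
  rw [coeff_discriminant_eq_tauZ, coeff_discriminant_eq_tauZ] at h
  exact_mod_cast h

end Fermat.Agent.S16.Tau

end
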