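/-
S16, slice U1 (the `Δ`-trick), second seat.

Let `G ∈ M₂(Γ₀(p))` with `q`-expansion `1 + ε ∑_{j ≥ 1} h_j q^j`, `h_j ∈ ℤ`, `ε ∈ ℚ`.  Then
`p¹¹ (p + 1) ∈ ε ℤ`.

Proof: the trace of the weight `14` pair `(G · Δ(p ·), -p⁻¹³ (U_p G) · Δ)` is a level one form of
weight `14` with vanishing constant term, hence zero.  Its coefficients `n = 1` and `n = p` give
`τ(p) = -ε z₁` and `p¹² = τ(p²) + ε z₂`; conclude with `τ(p²) = τ(p)² - p¹¹`.
-/
import Mathlib
import Fermat.Agent.S16.Tau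
import Fermat.Agent.S16.ALFinal

set_option autoImplicit false

noncomputable section

open UpperHalfPlane ModularForm CongruenceSubgroup
open scoped MatrixGroups ModularForm Manifold

namespace Fermat.Agent.S16.U1Core

open Fermat.Agent.S16.Tau

local notation "Δ" => ModularForm.discriminant

variable {p : ℕ} [Fact p.Prime]

/-- The weight `14` pair `(G · Δ(p ·), -p⁻¹³ (U_p G) · Δ)`. -/
def pair14 (G : ModularForm (Gamma0 p) 2) : QPair p 14 :=
  ((QPair.ofG G (ALFinal.isPair_heckeU G)).mul (deltaPair p)).cast (by norm_num)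

theorem pair14_q (G : ModularForm (Gamma0 p) 2) :
    (pair14 G).q = qExpansion 1 G * PowerSeries.expand p (NeZero.ne p) (qExpansion 1 Δ) := by
  rw [pair14, QPair.cast_q, QPair.mul_q, QPair.ofG_q, deltaPair_q]

theorem coeff_pair14_q' (G : ModularForm (Gamma0 p) 2) (m : ℕ) :
    (pair14 G).q'.coeff m = -((p : ℂ) ^ 13)⁻¹ *
      ∑ x ∈ Finset.HasAntidiagonal.antidiagonal m, (qExpansion 1 G).coeff (x.1 * p) * (qExpansion 1 Δ).coeff x.2 := by
  have hp : (p : ℂ) ≠ 0 := Nat.cast_ne_zero.mpr (NeZero.ne p)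
  rw [pair14, QPair.cast_q', QPair.mul_q', deltaPair_q', PowerSeries.coeff_mul, Finset.mul_sum]
  refine Finset.sum_congr rfl fun x _ => ?_
  rw [QPair.coeff_ofG_q', PowerSeries.coeff_smul, smul_eq_mul, zpow_neg,
    show (12 : ℤ) = ((12 : ℕ) : ℤ) from rfl, zpow_natCast]
  field_simp

/-- The trace of `pair14 G` vanishes. -/
theorem traceForm_pair14 (G : ModularForm (Gamma0 p) 2) : Trace.traceForm (pair14 G) = 0 := by
  apply Trace.eq_zero_of_coeff_zero_weight_fourteen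
  rw [Trace.coeff_qExpansion_traceForm, pair14_q, coeff_pair14_q', PowerSeries.coeff_mul]
  simp [PowerSeries.coeff_expand, coeff_zero_discriminant]

/-- **The `Δ`-trick identity**: for every `n`,
`p¹² a_n(G · Δ(p ·)) = ∑_{i + j = np} a_{ip}(G) τ(j)`. -/
theorem key_identity (G : ModularForm (Gamma0 p) 2) (n : ℕ) :
    (p : ℂ) ^ 12 * (qExpansion 1 G * PowerSeries.expand p (NeZero.ne p) (qExpansion 1 Δ)).coeff n =
      ∑ x ∈ Finset.HasAntidiagonal.antidiagonal (n * p),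
        (qExpansion 1 G).coeff (x.1 * p) * (qExpansion 1 Δ).coeff x.2 := by
  have hp : (p : ℂ) ≠ 0 := Nat.cast_ne_zero.mpr (NeZero.ne p)
  have h := Trace.coeff_qExpansion_traceForm (pair14 G) n
  rw [traceForm_pair14, pair14_q, coeff_pair14_q'] at h
  have h0 : (qExpansion 1 (⇑(0 : ModularForm 𝒮ℒ 14))).coeff n = 0 := by
    rw [show (⇑(0 : ModularForm 𝒮ℒ 14) : ℍ → ℂ) = 0 from rfl, qExpansion_zero, map_zero]
  rw [h0] at h
  field_simp at h
  linear_combination (-1 : ℂ) * h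

/-- Coefficient `1` of `g · τ(q^p)` vanishes. -/
theorem coeff_one_mul_expand (g : PowerSeries ℂ) :
    (g * PowerSeries.expand p (NeZero.ne p) (qExpansion 1 Δ)).coeff 1 = 0 := by
  have hp : p.Prime := Fact.out
  rw [PowerSeries.coeff_mul]
  refine Finset.sum_eq_zero fun x hx => ?_
  have hx' : x.1 + x.2 = 1 := Finset.HasAntidiagonal.mem_antidiagonal.mp hx
  rw [PowerSeries.coeff_expand]
  split_ifs with hdvd
  · have h2 : x.2 = 0 := by
      rcases Nat.eq_zero_or_pos x.2 with h | h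
      · exact h
      · have := Nat.le_of_dvd h hdvd
        have := hp.two_le
        omega
    rw [h2, Nat.zero_div, coeff_zero_discriminant, mul_zero]
  · rw [mul_zero]

/-- Coefficient `p` of `g · τ(q^p)` is `g₀`. -/
theorem coeff_self_mul_expand (g : PowerSeries ℂ) :
    (g * PowerSeries.expand p (NeZero.ne p) (qExpansion 1 Δ)).coeff p = g.coeff 0 := by
  have hp : p.Prime := Fact.out
  rw [PowerSeries.coeff_mul, Finset.sum_eq_single (0, p)]
  · rw [PowerSeries.coeff_expand, if_pos dvd_rfl, Nat.div_self hp.pos, coeff_one_discriminant,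
      mul_one]
  · intro x hx hne
    have hx' : x.1 + x.2 = p := Finset.HasAntidiagonal.mem_antidiagonal.mp hx
    rw [PowerSeries.coeff_expand]
    split_ifs with hdvd
    · have h2 : x.2 = 0 := by
        rcases Nat.eq_zero_or_pos x.2 with h | h
        · exact h
        · exfalso
          have h3 := Nat.le_of_dvd h hdvd
          apply hne
          ext
          · show x.1 = 0
            omega
          · show x.2 = p
            omega
      rw [h2, Nat.zero_div, coeff_zero_discriminant, mul_zero]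
    · rw [mul_zero]
  · intro hnot
    exact absurd (Finset.HasAntidiagonal.mem_antidiagonal.mpr (zero_add p)) hnot

/-- The integer `∑_{i + j = m, i ≥ 1} h_{ip} τ(j)`. -/
def zsum (p : ℕ) (h : ℕ → ℤ) (m : ℕ) : ℤ :=
  ∑ x ∈ Finset.HasAntidiagonal.antidiagonal m, if x.1 = 0 then 0 else h (x.1 * p) * tauZ x.2

theorem sum_eq_tauZ_add (g : PowerSeries ℂ) (ε : ℂ) (h : ℕ → ℤ) (hg0 : g.coeff 0 = 1)
    (hgj : ∀ j : ℕ, 1 ≤ j → g.coeff j = ε * (h j : ℂ)) (m : ℕ) :
    ∑ x ∈ Finset.HasAntidiagonal.antidiagonal m,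
        g.coeff (x.1 * p) * (qExpansion 1 Δ).coeff x.2 =
      (tauZ m : ℂ) + ε * (zsum p h m : ℂ) := by
  have hp : p.Prime := Fact.out
  have hterm : ∀ x ∈ Finset.HasAntidiagonal.antidiagonal m,
      g.coeff (x.1 * p) * (qExpansion 1 Δ).coeff x.2 =
        (if x = (0, m) then (tauZ m : ℂ) else 0) +
          ε * ((if x.1 = 0 then 0 else h (x.1 * p) * tauZ x.2 : ℤ) : ℂ) := by
    intro x hx
    have hx' : x.1 + x.2 = m := Finset.HasAntidiagonal.mem_antidiagonal.mp hx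
    rw [coeff_discriminant_eq_tauZ]
    by_cases h1 : x.1 = 0
    · have h2 : x.2 = m := by omega
      have hxe : x = (0, m) := Prod.ext h1 h2
      rw [if_pos hxe, if_pos h1, h1, zero_mul, hg0, h2]
      push_cast
      ring
    · have hxe : x ≠ (0, m) := fun hh => h1 (by rw [hh])
      have hpos : 1 ≤ x.1 * p := Nat.mul_pos (Nat.pos_of_ne_zero h1) hp.pos
      rw [if_neg hxe, if_neg h1, hgj _ hpos]
      push_cast
      ring
  rw [Finset.sum_congr rfl hterm, Finset.sum_add_distrib, ← Finset.mul_sum, zsum,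
    Finset.sum_ite_eq', if_pos (Finset.HasAntidiagonal.mem_antidiagonal.mpr (zero_add m))]
  push_cast
  rfl

/-- **Slice U1.**  If `G ∈ M₂(Γ₀(p))` has `q`-expansion `1 + ε ∑_{j ≥ 1} h_j q^j` with `h_j ∈ ℤ`,
then `p¹¹ (p + 1) ∈ ε ℤ`. -/
theorem exists_int (G : ModularForm (Gamma0 p) 2) (ε : ℚ) (h : ℕ → ℤ)
    (hG0 : ModularFormClass.qCoeff G 0 = 1)
    (hGj : ∀ j : ℕ, 1 ≤ j → ModularFormClass.qCoeff G j = ((ε * (h j : ℚ) : ℚ) : ℂ)) :
    ∃ z : ℤ, (p : ℚ) ^ 11 * ((p : ℚ) + 1) = ε * (z : ℚ) := by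
  have hp : p.Prime := Fact.out
  have hg0 : (qExpansion 1 G).coeff 0 = 1 := hG0
  have hgj : ∀ j : ℕ, 1 ≤ j → (qExpansion 1 G).coeff j = (ε : ℂ) * (h j : ℂ) := by
    intro j hj
    have := hGj j hj
    rw [ModularFormClass.qCoeff] at this
    rw [this]
    push_cast
    ring
  have k1 := key_identity G 1
  rw [coeff_one_mul_expand, mul_zero, sum_eq_tauZ_add _ (ε : ℂ) h hg0 hgj, one_mul] at k1
  have kp := key_identity G p
  rw [coeff_self_mul_expand, hg0, mul_one, sum_eq_tauZ_add _ (ε : ℂ) h hg0 hgj, ← sq,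
    tauZ_prime_sq p hp] at kp
  refine ⟨zsum p h (p ^ 2) - tauZ p * zsum p h p, ?_⟩
  have k1' : (tauZ p : ℚ) = -(ε * (zsum p h p : ℚ)) := by
    have : (tauZ p : ℂ) = -((ε : ℂ) * (zsum p h p : ℂ)) := by linear_combination -k1
    exact_mod_cast this
  have kp' : (p : ℚ) ^ 12 = ((tauZ p : ℚ) ^ 2 - (p : ℚ) ^ 11) + ε * (zsum p h (p ^ 2) : ℚ) := by
    have : (p : ℂ) ^ 12 = (((tauZ p : ℤ) ^ 2 - (p : ℤ) ^ 11 : ℤ) : ℂ) +
        (ε : ℂ) * (zsum p h (p ^ 2) : ℂ) := kp
    exact_mod_cast this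
  push_cast
  have e1 : (tauZ p : ℚ) ^ 2 = (tauZ p : ℚ) * -(ε * (zsum p h p : ℚ)) := by
    rw [sq]
    congr 1
  linear_combination kp' + e1

end Fermat.Agent.S16.U1Core

end
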