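/-
S16, slice U2: for a prime `ℓ ≥ 5` with `ℓ ∣ p + 1` there is no `G ∈ M₂(Γ₀(p))` whose
`q`-expansion is `ℓ`-integral and `≡ 1 mod ℓ`.

Proof (helper1's norm + Sturm argument): with `H = U_p G` and `(G ∣ S)(τ) = -p⁻¹ H(τ/p)`, the pair
`Φ = G² - E₄`, `Φ' = (-p⁻¹ H)² - E₄(p·)` (resp. `G³ - E₆` for `ℓ = 5`) has reductions
`1 - Ē₄` and `(1 - Ē₄)(Xᵖ)` (because `-p⁻¹ ≡ 1 mod ℓ`), both of order `1`; hence the norm form, of
weight `w (p+1)` with `w ∈ {4, 6}`, reduces to a nonzero series of order `p + 1 > w (p+1)/12`,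
contradicting the Sturm bound at level one.

* `core`, `no_form_of` : the statement with the master lemma (`S16/Master.lean`) and the
  Atkin–Lehner identity (`S16/AtkinLehner.lean`) as hypotheses;
* `no_form` : the final, unconditional statement, in the shape of the hypothesis `hU2` of
  `UA.dvd_eisensteinNumerator` (both hypotheses discharged by `S16/ALFinal.lean`).
-/
import Mathlib
import Fermat.Agent.S16.Defs
import Fermat.Agent.S16.EisInt
import Fermat.Agent.S16.Pairs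
import Fermat.Agent.S16.ALFinal

set_option autoImplicit false

noncomputable section

open UpperHalfPlane ModularForm CongruenceSubgroup
open scoped MatrixGroups ModularForm

namespace Fermat.Agent.S16.U2

open Fermat.Agent.S16

/-! ### Formal power series -/

section Formal

variable {A B : Type*} [CommRing A] [CommRing B]

/-- `U_p` on power series: `∑ aₙ Xⁿ ↦ ∑ a_{np} Xⁿ`. -/
def upSeries (p : ℕ) (g : PowerSeries A) : PowerSeries A :=
  PowerSeries.mk fun n => PowerSeries.coeff (n * p) g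

@[simp]
theorem coeff_upSeries (p n : ℕ) (g : PowerSeries A) :
    PowerSeries.coeff n (upSeries p g) = PowerSeries.coeff (n * p) g := by
  simp [upSeries]

theorem map_upSeries (f : A →+* B) (p : ℕ) (g : PowerSeries A) :
    PowerSeries.map f (upSeries p g) = upSeries p (PowerSeries.map f g) := by
  ext n
  simp

theorem upSeries_one {p : ℕ} (hp : p ≠ 0) : upSeries p (1 : PowerSeries A) = 1 := by
  ext n
  rw [coeff_upSeries, PowerSeries.coeff_one, PowerSeries.coeff_one]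
  simp [hp]

/-- A power series without constant term: `ξ · ξᵖ` has no coefficient below `p + 1`. -/
theorem coeff_mul_pow_eq_zero (ξ : PowerSeries A) (h0 : PowerSeries.coeff 0 ξ = 0) (p n : ℕ)
    (hn : n < p + 1) : PowerSeries.coeff n (ξ * ξ ^ p) = 0 := by
  have hX : (PowerSeries.X : PowerSeries A) ∣ ξ :=
    PowerSeries.X_dvd_iff.mpr (by simpa using h0)
  obtain ⟨ξ', rfl⟩ := hX
  rw [← pow_succ', mul_pow, PowerSeries.coeff_X_pow_mul', if_neg (by omega)]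

end Formal

/-! ### The element `-1/p` of `ℤ_(ℓ)` -/

section NegInv

variable (ℓ : ℕ) [Fact ℓ.Prime]

/-- `-1/p ∈ ℤ_(ℓ)` for `ℓ ∤ p`. -/
def negInvP (p : ℕ) (hp : ¬ ℓ ∣ p) : ↥(GaloisRep.ratLocalizedAt ℓ) :=
  ⟨-(p : ℚ)⁻¹, by
    have hp0 : 0 < p := Nat.pos_of_ne_zero (fun h => hp (h ▸ dvd_zero ℓ))
    refine Subring.neg_mem _ ?_
    show ((p : ℚ)⁻¹).den.Coprime ℓ
    rw [Rat.inv_natCast_den_of_pos hp0]
    exact ((Nat.Prime.coprime_iff_not_dvd (Fact.out : ℓ.Prime)).mpr hp).symm⟩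

theorem iotaC_negInvP (p : ℕ) (hp : ¬ ℓ ∣ p) : iotaC ℓ (negInvP ℓ p hp) = -(p : ℂ)⁻¹ := by
  rw [iotaC_apply]
  simp [negInvP]

theorem negInvP_mul (p : ℕ) (hp : ¬ ℓ ∣ p) :
    negInvP ℓ p hp * ((p : ℕ) : ↥(GaloisRep.ratLocalizedAt ℓ)) = -1 := by
  have hp0 : (p : ℚ) ≠ 0 := by
    have : p ≠ 0 := fun h => hp (h ▸ dvd_zero ℓ)
    exact_mod_cast this
  apply Subtype.ext
  rw [Subring.coe_mul, Subring.coe_natCast, Subring.coe_neg, Subring.coe_one]
  show -(p : ℚ)⁻¹ * (p : ℚ) = -1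
  field_simp

theorem redHom_negInvP (p : ℕ) (hp : ¬ ℓ ∣ p) (h : ℓ ∣ p + 1) :
    redHom ℓ (negInvP ℓ p hp) = 1 := by
  have h1 := congrArg (redHom ℓ) (negInvP_mul ℓ p hp)
  rw [map_mul, map_natCast, map_neg, map_one] at h1
  have h2 : (p : ZMod ℓ) = -1 := by
    have h3 : ((p + 1 : ℕ) : ZMod ℓ) = 0 := (ZMod.natCast_eq_zero_iff _ _).mpr h
    push_cast at h3
    linear_combination h3
  rw [h2] at h1
  linear_combination -h1

end NegInv

/-! ### Reductions of the two expansions -/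

section Red

variable (ℓ : ℕ) [Fact ℓ.Prime]

theorem red_phi (e : ℕ) (g : PowerSeries ↥(GaloisRep.ratLocalizedAt ℓ)) (EZ : PowerSeries ℤ)
    (hred : PowerSeries.map (redHom ℓ) g = 1) :
    PowerSeries.map (redHom ℓ)
        (g ^ e - EZ.map (Int.castRingHom ↥(GaloisRep.ratLocalizedAt ℓ))) =
      1 - EZ.map (Int.castRingHom (ZMod ℓ)) := by
  rw [map_sub, map_pow, hred, one_pow, EisInt.map_map_intCast]

theorem red_psi (p : ℕ) (hp : p ≠ 0) (e : ℕ) (u : ↥(GaloisRep.ratLocalizedAt ℓ))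
    (hu : redHom ℓ u = 1) (g : PowerSeries ↥(GaloisRep.ratLocalizedAt ℓ)) (EZ : PowerSeries ℤ)
    (hred : PowerSeries.map (redHom ℓ) g = 1) :
    PowerSeries.map (redHom ℓ)
        ((PowerSeries.C u * upSeries p g) ^ e -
          PowerSeries.expand p hp (EZ.map (Int.castRingHom ↥(GaloisRep.ratLocalizedAt ℓ)))) =
      PowerSeries.expand p hp (1 - EZ.map (Int.castRingHom (ZMod ℓ))) := by
  rw [map_sub, map_pow, map_mul, PowerSeries.map_C, hu, map_one, one_mul, map_upSeries, hred,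
    upSeries_one hp, one_pow, PowerSeries.map_expand, EisInt.map_map_intCast, map_sub, map_one]

end Red

/-! ### The modular part -/

section Modular

variable (ℓ : ℕ) [Fact ℓ.Prime] (p : ℕ) [NeZero p]

/-- The statement of the master lemma (`Master.false_of_pair`) for fixed `p` and `ℓ`. -/
def MasterStmt : Prop :=
  ∀ (w : ℕ) (Φ Φ' : ModularForm (Gamma0 p) (w : ℤ)), IsPair p w Φ Φ' →
    ∀ φ ψ : PowerSeries ↥(GaloisRep.ratLocalizedAt ℓ),
      PowerSeries.map (iotaC ℓ) φ = qExpansion 1 Φ →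
      PowerSeries.map (iotaC ℓ) ψ = qExpansion 1 Φ' →
      ∀ ξ₀ ξ₁ : PowerSeries (ZMod ℓ),
        PowerSeries.map (redHom ℓ) φ = ξ₀ →
        PowerSeries.map (redHom ℓ) ψ = PowerSeries.expand p (NeZero.ne p) ξ₁ →
        ξ₀ * ξ₁ ^ p ≠ 0 →
        (∀ n : ℕ, 12 * n ≤ w * (p + 1) → PowerSeries.coeff n (ξ₀ * ξ₁ ^ p) = 0) → False

/-- The norm + Sturm argument for a pair `Φ = G^e - E`, `Φ' = (-p⁻¹ U_p G)^e - E(p·)` of weight
`w < 12`, where `E` is a level-one form with integral `q`-expansion `EZ = 1 + c X + …`,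
`c ≢ 0 mod ℓ`. -/
theorem core (hM : MasterStmt ℓ p) (hℓp : ¬ ℓ ∣ p) (hdvd : ℓ ∣ p + 1) (w e : ℕ) (hw : w < 12)
    (P : QPair p (w : ℤ)) (G : ModularForm (Gamma0 p) 2) (EZ : PowerSeries ℤ)
    (hq : P.q = qExpansion 1 G ^ e - EZ.map (Int.castRingHom ℂ))
    (hq' : P.q' = (-(p : ℂ)⁻¹ •
        qExpansion 1 (ModularForm.heckeULin (N := p) (p := p) 2 dvd_rfl G)) ^ e -
      PowerSeries.expand p (NeZero.ne p) (EZ.map (Int.castRingHom ℂ)))
    (hE0 : PowerSeries.coeff 0 EZ = 1) (hE1 : ((PowerSeries.coeff 1 EZ : ℤ) : ZMod ℓ) ≠ 0)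
    (g : PowerSeries ↥(GaloisRep.ratLocalizedAt ℓ))
    (hg : qExpansion 1 G = PowerSeries.map (iotaC ℓ) g)
    (hred : PowerSeries.map (redHom ℓ) g = 1) : False := by
  have hξ : (1 - EZ.map (Int.castRingHom (ZMod ℓ)) : PowerSeries (ZMod ℓ)) ≠ 0 := by
    intro h
    have h1 := congrArg (PowerSeries.coeff 1) h
    rw [map_sub, PowerSeries.coeff_map, PowerSeries.coeff_one, map_zero, if_neg one_ne_zero,
      zero_sub, neg_eq_zero] at h1
    exact hE1 h1
  have hξ0 : PowerSeries.coeff 0 (1 - EZ.map (Int.castRingHom (ZMod ℓ)) : PowerSeries (ZMod ℓ))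
      = 0 := by
    rw [map_sub, PowerSeries.coeff_map, hE0, PowerSeries.coeff_one, if_pos rfl]
    simp
  refine hM w P.Φ P.Φ' P.isPair
    (g ^ e - EZ.map (Int.castRingHom ↥(GaloisRep.ratLocalizedAt ℓ)))
    ((PowerSeries.C (negInvP ℓ p hℓp) * upSeries p g) ^ e -
      PowerSeries.expand p (NeZero.ne p) (EZ.map (Int.castRingHom ↥(GaloisRep.ratLocalizedAt ℓ))))
    ?_ ?_ _ _ (red_phi ℓ e g EZ hred)
    (red_psi ℓ p (NeZero.ne p) e _ (redHom_negInvP ℓ p hℓp hdvd) g EZ hred)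
    (mul_ne_zero hξ (pow_ne_zero p hξ)) ?_
  · show _ = P.q
    rw [hq, map_sub, map_pow, ← hg, EisInt.map_map_intCast]
  · show _ = P.q'
    rw [hq', map_sub, map_pow, map_mul, PowerSeries.map_C, iotaC_negInvP, PowerSeries.map_expand,
      EisInt.map_map_intCast, map_upSeries, ← hg]
    congr 2
    rw [PowerSeries.smul_eq_C_mul]
    congr 1
    ext n
    rw [coeff_upSeries, QPair.coeff_qExpansion_heckeU]
  · intro n hn
    refine coeff_mul_pow_eq_zero _ hξ0 p n ?_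
    by_contra hcon
    have h1 : p + 1 ≤ n := by omega
    nlinarith

/-- `ℓ ∤ 240` for a prime `ℓ ≥ 7`. -/
theorem cast_240_ne_zero (hℓ : 5 ≤ ℓ) (h5 : ℓ ≠ 5) : ((240 : ℤ) : ZMod ℓ) ≠ 0 := by
  have hℓp : ℓ.Prime := Fact.out
  intro h
  have h' : ((240 : ℕ) : ZMod ℓ) = 0 := by exact_mod_cast h
  rw [ZMod.natCast_eq_zero_iff] at h'
  have h240 : (240 : ℕ) = 2 ^ 4 * (3 * 5) := by norm_num
  rw [h240] at h'
  rcases (Nat.Prime.dvd_mul hℓp).mp h' with h2 | h35
  · have := Nat.le_of_dvd (by norm_num) (hℓp.dvd_of_dvd_pow h2)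
    omega
  · rcases (Nat.Prime.dvd_mul hℓp).mp h35 with h3 | h5'
    · have := Nat.le_of_dvd (by norm_num) h3
      omega
    · have := Nat.le_of_dvd (by norm_num) h5'
      omega

/-- **U2**, with the master lemma and the Atkin–Lehner identity as hypotheses. -/
theorem no_form_of (hM : MasterStmt ℓ p)
    (hW : ∀ G : ModularForm (Gamma0 p) 2,
      IsPair p 2 G (-(p : ℂ)⁻¹ • ModularForm.heckeULin (N := p) (p := p) 2 dvd_rfl G))
    (hℓ : 5 ≤ ℓ) (hdvd : ℓ ∣ p + 1)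
    (G : ModularForm (Gamma0 p) 2) (g : PowerSeries ↥(GaloisRep.ratLocalizedAt ℓ))
    (hg : qExpansion 1 G = PowerSeries.map (iotaC ℓ) g)
    (hred : PowerSeries.map (redHom ℓ) g = 1) : False := by
  have hℓprime : ℓ.Prime := Fact.out
  have hℓp : ¬ ℓ ∣ p := by
    intro h
    have h1 : ℓ ∣ 1 := (Nat.dvd_add_right h).mp hdvd
    have := Nat.le_of_dvd one_pos h1
    omega
  by_cases h5 : ℓ = 5
  · -- weight 6: `Φ = G³ - E₆`
    have hP : ∃ P : QPair p ((6 : ℕ) : ℤ),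
        P.q = qExpansion 1 G ^ 3 - EisInt.e6Z.map (Int.castRingHom ℂ) ∧
        P.q' = (-(p : ℂ)⁻¹ •
          qExpansion 1 (ModularForm.heckeULin (N := p) (p := p) 2 dvd_rfl G)) ^ 3 -
          PowerSeries.expand p (NeZero.ne p) (EisInt.e6Z.map (Int.castRingHom ℂ)) := by
      refine ⟨((((QPair.ofG G (hW G)).mul (QPair.ofG G (hW G))).mul (QPair.ofG G (hW G))).cast
        (by norm_num)).sub ((QPair.ofLevelOne p E₆).cast (by norm_num)), ?_, ?_⟩
      · rw [QPair.sub_q, QPair.cast_q, QPair.mul_q, QPair.mul_q, QPair.ofG_q, QPair.cast_q,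
          QPair.ofLevelOne_q, EisInt.qExpansion_E6]
        ring
      · rw [QPair.sub_q', QPair.cast_q', QPair.mul_q', QPair.mul_q', QPair.ofG_q', QPair.cast_q',
          QPair.ofLevelOne_q', EisInt.qExpansion_E6]
        ring
    obtain ⟨P, hq, hq'⟩ := hP
    refine core ℓ p hM hℓp hdvd 6 3 (by norm_num) P G EisInt.e6Z hq hq' EisInt.coeff_e6Z_zero ?_
      g hg hred
    rw [EisInt.coeff_e6Z_one]
    intro h
    rw [ZMod.intCast_zmod_eq_zero_iff_dvd, h5] at h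
    obtain ⟨k, hk⟩ := h
    push_cast at hk
    omega
  · -- weight 4: `Φ = G² - E₄`
    have hP : ∃ P : QPair p ((4 : ℕ) : ℤ),
        P.q = qExpansion 1 G ^ 2 - EisInt.e4Z.map (Int.castRingHom ℂ) ∧
        P.q' = (-(p : ℂ)⁻¹ •
          qExpansion 1 (ModularForm.heckeULin (N := p) (p := p) 2 dvd_rfl G)) ^ 2 -
          PowerSeries.expand p (NeZero.ne p) (EisInt.e4Z.map (Int.castRingHom ℂ)) := by
      refine ⟨(((QPair.ofG G (hW G)).mul (QPair.ofG G (hW G))).cast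
        (by norm_num)).sub ((QPair.ofLevelOne p E₄).cast (by norm_num)), ?_, ?_⟩
      · rw [QPair.sub_q, QPair.cast_q, QPair.mul_q, QPair.ofG_q, QPair.cast_q,
          QPair.ofLevelOne_q, EisInt.qExpansion_E4]
        ring
      · rw [QPair.sub_q', QPair.cast_q', QPair.mul_q', QPair.ofG_q', QPair.cast_q',
          QPair.ofLevelOne_q', EisInt.qExpansion_E4]
        ring
    obtain ⟨P, hq, hq'⟩ := hP
    refine core ℓ p hM hℓp hdvd 4 2 (by norm_num) P G EisInt.e4Z hq hq' EisInt.coeff_e4Z_zero ?_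
      g hg hred
    rw [EisInt.coeff_e4Z_one]
    exact cast_240_ne_zero ℓ hℓ h5

end Modular

/-- **U2**: for primes `p` and `ℓ ≥ 5` with `ℓ ∣ p + 1`, no `G ∈ M₂(Γ₀(p))` has an `ℓ`-integral
`q`-expansion congruent to `1` modulo `ℓ`. -/
theorem no_form (p : ℕ) [Fact p.Prime] (ℓ : ℕ) [Fact ℓ.Prime] (hℓ : 5 ≤ ℓ) (hdvd : ℓ ∣ p + 1)
    (G : ModularForm (Gamma0 p) 2) (g : PowerSeries ↥(GaloisRep.ratLocalizedAt ℓ))
    (hg : qExpansion 1 G = PowerSeries.map (iotaC ℓ) g)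
    (hred : PowerSeries.map (redHom ℓ) g = 1) : False :=
  haveI : NeZero p := ⟨(Fact.out : p.Prime).ne_zero⟩
  no_form_of ℓ p
    (fun w Φ Φ' h φ ψ hφ hψ ξ₀ ξ₁ h0 h1 hne hord =>
      false_of_pair (ALFinal.normHyp p) ℓ w Φ Φ' h φ ψ hφ hψ ξ₀ ξ₁ h0 h1 hne hord)
    (fun G => ALFinal.isPair_heckeU G) hℓ hdvd G g hg hred

end Fermat.Agent.S16.U2
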