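/-
S16, slice U3 (formal half): the case `ℓ = p ≥ 5` of the upper bound.

Integral `q`-expansions of `E₄`, `E₆`, and the residue computation for
`Φ = (pG)² − E₄` (`p ≥ 7`) resp. `Φ = (pG)³ + E₆` (`p = 5`).
-/
import Mathlib
import Fermat.Agent.S16.Defs
import Fermat.Agent.S16.NDet

set_option autoImplicit false

noncomputable section

namespace Fermat.Agent.S16.U3

open PowerSeries ModularForm ModularFormClass UpperHalfPlane EisensteinSeries
open scoped MatrixGroups ModularForm ArithmeticFunction.sigma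

/-- The integral `q`-expansion of `E₄`: `1 + 240 ∑ σ₃(m) q^m`. -/
def e4Z : PowerSeries ℤ :=
  PowerSeries.mk fun m => if m = 0 then 1 else 240 * (ArithmeticFunction.sigma 3 m : ℤ)

/-- The integral `q`-expansion of `E₆`: `1 - 504 ∑ σ₅(m) q^m`. -/
def e6Z : PowerSeries ℤ :=
  PowerSeries.mk fun m => if m = 0 then 1 else -504 * (ArithmeticFunction.sigma 5 m : ℤ)

theorem qExpansion_E4 : qExpansion 1 E₄ = PowerSeries.map (Int.castRingHom ℂ) e4Z := by
  ext m
  rw [E_qExpansion_coeff _ ⟨2, rfl⟩, PowerSeries.coeff_map, e4Z, PowerSeries.coeff_mk]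
  split_ifs with h
  · simp
  · have hb : bernoulli 4 = -1 / 30 := by decide +kernel
    rw [hb]
    push_cast
    norm_num

theorem qExpansion_E6 : qExpansion 1 E₆ = PowerSeries.map (Int.castRingHom ℂ) e6Z := by
  ext m
  rw [E_qExpansion_coeff _ ⟨3, rfl⟩, PowerSeries.coeff_map, e6Z, PowerSeries.coeff_mk]
  split_ifs with h
  · simp
  · have hb : bernoulli 6 = 1 / 42 := by decide +kernel
    rw [hb]
    push_cast
    norm_num

/-! ### Generic formal lemmas -/

section Generic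

variable {A : Type*} [CommRing A]

/-- If `ξ` has no constant term, `u * ξ ^ d` vanishes below degree `d`. -/
theorem coeff_mul_pow_of_lt (u ξ : PowerSeries A) (h0 : PowerSeries.coeff 0 ξ = 0) (d n : ℕ)
    (hn : n < d) : PowerSeries.coeff n (u * ξ ^ d) = 0 := by
  obtain ⟨v, rfl⟩ : (PowerSeries.X : PowerSeries A) ∣ ξ :=
    PowerSeries.X_dvd_iff.mpr (by simpa using h0)
  rw [mul_pow, ← mul_assoc, mul_comm u, mul_assoc, PowerSeries.coeff_X_pow_mul', if_neg (by omega)]

/-- If `ξ` has no constant term, the coefficient of degree `d` of `u * ξ ^ d` is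
`u₀ * ξ₁ ^ d`. -/
theorem coeff_mul_pow_self (u ξ : PowerSeries A) (h0 : PowerSeries.coeff 0 ξ = 0) (d : ℕ) :
    PowerSeries.coeff d (u * ξ ^ d) = PowerSeries.coeff 0 u * PowerSeries.coeff 1 ξ ^ d := by
  obtain ⟨v, rfl⟩ : (PowerSeries.X : PowerSeries A) ∣ ξ :=
    PowerSeries.X_dvd_iff.mpr (by simpa using h0)
  rw [mul_pow, ← mul_assoc, mul_comm u, mul_assoc, PowerSeries.coeff_X_pow_mul', if_pos le_rfl,
    Nat.sub_self]
  have h1 : PowerSeries.coeff 1 (PowerSeries.X * v) = PowerSeries.coeff 0 v := by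
    simpa using PowerSeries.coeff_succ_X_mul 0 v
  rw [h1]
  simp only [PowerSeries.coeff_zero_eq_constantCoeff, map_mul, map_pow]

/-- The `0`-th section of the constant series `1` is `1`. -/
theorem sect_zero_one (p : ℕ) (hp : p ≠ 0) : NDet.sect p 0 (1 : PowerSeries A) = 1 := by
  ext n
  rw [NDet.coeff_sect, add_zero, PowerSeries.coeff_one, PowerSeries.coeff_one]
  by_cases hn : n = 0
  · simp [hn]
  · rw [if_neg hn, if_neg (Nat.mul_ne_zero hp hn)]

end Generic

/-! ### Integral models of `E₄`, `E₆` over `ℤ_(p)` and `𝔽_p` -/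

section Local

variable (p : ℕ)

/-- `E₄` over `ℤ_(p)`. -/
def e4R : PowerSeries ↥(GaloisRep.ratLocalizedAt p) :=
  PowerSeries.map (Int.castRingHom ↥(GaloisRep.ratLocalizedAt p)) e4Z

/-- `E₆` over `ℤ_(p)`. -/
def e6R : PowerSeries ↥(GaloisRep.ratLocalizedAt p) :=
  PowerSeries.map (Int.castRingHom ↥(GaloisRep.ratLocalizedAt p)) e6Z

/-- `E₄` over `𝔽_p`. -/
def e4F : PowerSeries (ZMod p) := PowerSeries.map (Int.castRingHom (ZMod p)) e4Z

/-- `E₆` over `𝔽_p`. -/
def e6F : PowerSeries (ZMod p) := PowerSeries.map (Int.castRingHom (ZMod p)) e6Z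

theorem map_iotaC_e4R : PowerSeries.map (iotaC p) (e4R p) = qExpansion 1 E₄ := by
  rw [qExpansion_E4]
  ext n
  simp only [e4R, PowerSeries.coeff_map, eq_intCast, map_intCast]

theorem map_iotaC_e6R : PowerSeries.map (iotaC p) (e6R p) = qExpansion 1 E₆ := by
  rw [qExpansion_E6]
  ext n
  simp only [e6R, PowerSeries.coeff_map, eq_intCast, map_intCast]

theorem coeff_zero_e4F : PowerSeries.coeff 0 (e4F p) = 1 := by
  simp [e4F, e4Z]

theorem coeff_one_e4F : PowerSeries.coeff 1 (e4F p) = 240 := by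
  simp [e4F, e4Z]

theorem coeff_zero_e6F : PowerSeries.coeff 0 (e6F p) = 1 := by
  simp [e6F, e6Z]

theorem coeff_one_e6F : PowerSeries.coeff 1 (e6F p) = -504 := by
  simp [e6F, e6Z]

variable [Fact p.Prime]

theorem map_red_e4R : PowerSeries.map (redHom p) (e4R p) = e4F p := by
  ext n
  simp only [e4R, e4F, PowerSeries.coeff_map, eq_intCast, map_intCast]

theorem map_red_e6R : PowerSeries.map (redHom p) (e6R p) = e6F p := by
  ext n
  simp only [e6R, e6F, PowerSeries.coeff_map, eq_intCast, map_intCast]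

theorem redHom_natCast_self : redHom p (p : ↥(GaloisRep.ratLocalizedAt p)) = 0 := by
  rw [map_natCast]
  exact ZMod.natCast_self p

theorem prime_ne_zero : p ≠ 0 := (Fact.out : p.Prime).ne_zero

/-- `240 ≠ 0` in `𝔽_p` for `p ≥ 7`. -/
theorem c240_ne_zero (hp7 : 7 ≤ p) : (240 : ZMod p) ≠ 0 := by
  have hp : p.Prime := Fact.out
  intro h
  have h1 : ((240 : ℕ) : ZMod p) = 0 := by exact_mod_cast h
  rw [ZMod.natCast_eq_zero_iff] at h1
  have h2 : p ∣ 16 * 15 := by simpa using h1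
  rcases (Nat.Prime.dvd_mul hp).mp h2 with h3 | h3
  · have h4 : p ∣ 2 := hp.dvd_of_dvd_pow (show p ∣ 2 ^ 4 by simpa using h3)
    have := Nat.le_of_dvd (by norm_num) h4
    omega
  · have h4 : p ∣ 3 * 5 := by simpa using h3
    rcases (Nat.Prime.dvd_mul hp).mp h4 with h5 | h5
    · have := Nat.le_of_dvd (by norm_num) h5
      omega
    · have := Nat.le_of_dvd (by norm_num) h5
      omega

/-- `504 ≠ 0` in `𝔽_5`. -/
theorem c504_ne_zero_five : (504 : ZMod 5) ≠ 0 := by decide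

/-! ### The residues for `Φ = p² G² − E₄` (weight 4) -/

/-- `q`-expansion of `Φ = p² G² − E₄` over `ℤ_(p)`. -/
def phi4 (g : PowerSeries ↥(GaloisRep.ratLocalizedAt p)) : PowerSeries ↥(GaloisRep.ratLocalizedAt p) :=
  PowerSeries.C ((p : ↥(GaloisRep.ratLocalizedAt p)) ^ 2) * g ^ 2 - e4R p

/-- `q`-expansion of `Φ' = H² − E₄(p·)` over `ℤ_(p)`, `H = U_p G`. -/
def psi4 (g : PowerSeries ↥(GaloisRep.ratLocalizedAt p)) : PowerSeries ↥(GaloisRep.ratLocalizedAt p) :=
  NDet.sect p 0 g ^ 2 - PowerSeries.expand p (prime_ne_zero p) (e4R p)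

theorem map_red_sect (g : PowerSeries ↥(GaloisRep.ratLocalizedAt p))
    (hg : PowerSeries.map (redHom p) g = 1) :
    PowerSeries.map (redHom p) (NDet.sect p 0 g) = 1 := by
  rw [NDet.map_sect, hg, sect_zero_one p (prime_ne_zero p)]

theorem map_red_phi4 (g : PowerSeries ↥(GaloisRep.ratLocalizedAt p)) :
    PowerSeries.map (redHom p) (phi4 p g) = -e4F p := by
  rw [phi4, map_sub, map_mul, PowerSeries.map_C, map_pow (redHom p), redHom_natCast_self,
    map_red_e4R]
  simp

theorem map_red_psi4 (g : PowerSeries ↥(GaloisRep.ratLocalizedAt p))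
    (hg : PowerSeries.map (redHom p) g = 1) :
    PowerSeries.map (redHom p) (psi4 p g) =
      PowerSeries.expand p (prime_ne_zero p) (1 - e4F p) := by
  rw [psi4, map_sub, map_pow, map_red_sect p g hg, PowerSeries.map_expand, map_red_e4R, map_sub,
    map_one, one_pow]

theorem coeff_zero_xi4 : PowerSeries.coeff 0 (1 - e4F p) = 0 := by
  rw [map_sub, coeff_zero_e4F]
  simp

theorem coeff_one_xi4 : PowerSeries.coeff 1 (1 - e4F p) = -240 := by
  rw [map_sub, coeff_one_e4F]
  simp [PowerSeries.coeff_one]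

theorem coeff_lt_res4 (n : ℕ) (hn : 12 * n ≤ 4 * (p + 1)) :
    PowerSeries.coeff n (-e4F p * (1 - e4F p) ^ p) = 0 := by
  have hp2 : 2 ≤ p := (Fact.out : p.Prime).two_le
  exact coeff_mul_pow_of_lt _ _ (coeff_zero_xi4 p) p n (by omega)

theorem res4_ne_zero (hp7 : 7 ≤ p) : -e4F p * (1 - e4F p) ^ p ≠ 0 := by
  intro h
  have h1 := coeff_mul_pow_self (-e4F p) (1 - e4F p) (coeff_zero_xi4 p) p
  rw [h, map_zero, coeff_one_xi4, map_neg, coeff_zero_e4F] at h1
  have h2 : ((-240 : ZMod p)) ^ p ≠ 0 := pow_ne_zero _ (neg_ne_zero.mpr (c240_ne_zero p hp7))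
  apply h2
  have h3 : -1 * (-240 : ZMod p) ^ p = 0 := h1.symm
  simpa using h3

/-! ### The residues for `Φ = p³ G³ + E₆` (weight 6) -/

/-- `q`-expansion of `Φ = p³ G³ + E₆` over `ℤ_(p)`. -/
def phi6 (g : PowerSeries ↥(GaloisRep.ratLocalizedAt p)) : PowerSeries ↥(GaloisRep.ratLocalizedAt p) :=
  PowerSeries.C ((p : ↥(GaloisRep.ratLocalizedAt p)) ^ 3) * g ^ 3 + e6R p

/-- `q`-expansion of `Φ' = −H³ + E₆(p·)` over `ℤ_(p)`, `H = U_p G`. -/
def psi6 (g : PowerSeries ↥(GaloisRep.ratLocalizedAt p)) : PowerSeries ↥(GaloisRep.ratLocalizedAt p) :=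
  -(NDet.sect p 0 g ^ 3) + PowerSeries.expand p (prime_ne_zero p) (e6R p)

theorem map_red_phi6 (g : PowerSeries ↥(GaloisRep.ratLocalizedAt p)) :
    PowerSeries.map (redHom p) (phi6 p g) = e6F p := by
  rw [phi6, map_add, map_mul, PowerSeries.map_C, map_pow (redHom p), redHom_natCast_self,
    map_red_e6R]
  simp

theorem map_red_psi6 (g : PowerSeries ↥(GaloisRep.ratLocalizedAt p))
    (hg : PowerSeries.map (redHom p) g = 1) :
    PowerSeries.map (redHom p) (psi6 p g) =
      PowerSeries.expand p (prime_ne_zero p) (e6F p - 1) := by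
  rw [psi6, map_add, map_neg, map_pow, map_red_sect p g hg, PowerSeries.map_expand, map_red_e6R,
    map_sub, map_one, one_pow]
  ring

theorem coeff_zero_xi6 : PowerSeries.coeff 0 (e6F p - 1) = 0 := by
  rw [map_sub, coeff_zero_e6F]
  simp

theorem coeff_one_xi6 : PowerSeries.coeff 1 (e6F p - 1) = -504 := by
  rw [map_sub, coeff_one_e6F]
  simp [PowerSeries.coeff_one]

theorem coeff_lt_res6 (n : ℕ) (hn : 12 * n ≤ 6 * (p + 1)) :
    PowerSeries.coeff n (e6F p * (e6F p - 1) ^ p) = 0 := by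
  have hp2 : 2 ≤ p := (Fact.out : p.Prime).two_le
  exact coeff_mul_pow_of_lt _ _ (coeff_zero_xi6 p) p n (by omega)

theorem res6_ne_zero (h504 : (504 : ZMod p) ≠ 0) : e6F p * (e6F p - 1) ^ p ≠ 0 := by
  intro h
  have h1 := coeff_mul_pow_self (e6F p) (e6F p - 1) (coeff_zero_xi6 p) p
  rw [h, map_zero, coeff_one_xi6, coeff_zero_e6F, one_mul] at h1
  exact pow_ne_zero _ (neg_ne_zero.mpr h504) h1.symm

end Local

end Fermat.Agent.S16.U3
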