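/-
S16, slice U3: the case `ℓ = p ≥ 5` of the upper bound.
No `G ∈ M₂(Γ₀(p))` has a `p`-integral `q`-expansion congruent to `1` modulo `p`.
-/
import Mathlib
import Fermat.Prelude.Def_ModularForm_HeckeOperatorForms
import Fermat.Prelude.Thm_ModularFormClass_qCoeff_heckeU
import Fermat.Prelude.Thm_CongruenceSubgroup_one_mem_strictPeriods_Gamma0
import Fermat.Agent.S16.Defs
import Fermat.Agent.S16.NDet
import Fermat.Agent.S16.PairDef
import Fermat.Agent.S16.U3Formal

set_option autoImplicit false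

noncomputable section

namespace Fermat.Agent.S16.U3

open PowerSeries ModularForm ModularFormClass UpperHalfPlane EisensteinSeries CongruenceSubgroup
open scoped MatrixGroups ModularForm

/-- The `q`-expansion of `U_p G` is the `0`-th section of the `q`-expansion of `G`. -/
theorem qExpansion_heckeULin (p : ℕ) [NeZero p] (k : ℤ) (G : ModularForm (Gamma0 p) k) :
    qExpansion 1 (ModularForm.heckeULin (N := p) (p := p) k dvd_rfl G) =
      NDet.sect p 0 (qExpansion 1 G) := by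
  ext n
  rw [NDet.coeff_sect, add_zero]
  have h := ModularFormClass.qCoeff_heckeU G (CongruenceSubgroup.one_mem_strictPeriods_Gamma0 p)
    (NeZero.ne p) n
  rw [ModularForm.coeffHeckeU_apply] at h
  rw [mul_comm p n]
  exact h

section Main

variable (p : ℕ) [Fact p.Prime]

/-- The shape of the MASTER lemma (norm + Sturm) consumed here. -/
def MasterHyp : Prop :=
  ∀ (w : ℕ) (Φ Φ' : ModularForm (Gamma0 p) (w : ℤ)) (_ : IsPair p w Φ Φ')
    (φ ψ : PowerSeries ↥(GaloisRep.ratLocalizedAt p))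
    (_ : PowerSeries.map (iotaC p) φ = qExpansion 1 Φ)
    (_ : PowerSeries.map (iotaC p) ψ = qExpansion 1 Φ')
    (ξ₀ ξ₁ : PowerSeries (ZMod p)) (_ : PowerSeries.map (redHom p) φ = ξ₀)
    (_ : PowerSeries.map (redHom p) ψ = PowerSeries.expand p (prime_ne_zero p) ξ₁)
    (_ : ξ₀ * ξ₁ ^ p ≠ 0)
    (_ : ∀ n : ℕ, 12 * n ≤ w * (p + 1) → PowerSeries.coeff n (ξ₀ * ξ₁ ^ p) = 0), False

/-- The weight-4 pair `((pG)² − E₄, H² − E₄(p·))`, `H = U_p G`. -/
def Pair4Hyp [NeZero p] (G : ModularForm (Gamma0 p) 2) : Prop :=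
  ∃ Φ Φ' : ModularForm (Gamma0 p) ((4 : ℕ) : ℤ), IsPair p ((4 : ℕ) : ℤ) Φ Φ' ∧
    qExpansion 1 Φ = PowerSeries.C ((p : ℂ) ^ 2) * qExpansion 1 G ^ 2 - qExpansion 1 E₄ ∧
    qExpansion 1 Φ' =
      qExpansion 1 (ModularForm.heckeULin (N := p) (p := p) 2 dvd_rfl G) ^ 2 -
        PowerSeries.expand p (prime_ne_zero p) (qExpansion 1 E₄)

/-- The weight-6 pair `((pG)³ + E₆, −H³ + E₆(p·))`, `H = U_p G`. -/
def Pair6Hyp [NeZero p] (G : ModularForm (Gamma0 p) 2) : Prop :=
  ∃ Φ Φ' : ModularForm (Gamma0 p) ((6 : ℕ) : ℤ), IsPair p ((6 : ℕ) : ℤ) Φ Φ' ∧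
    qExpansion 1 Φ = PowerSeries.C ((p : ℂ) ^ 3) * qExpansion 1 G ^ 3 + qExpansion 1 E₆ ∧
    qExpansion 1 Φ' =
      -(qExpansion 1 (ModularForm.heckeULin (N := p) (p := p) 2 dvd_rfl G) ^ 3) +
        PowerSeries.expand p (prime_ne_zero p) (qExpansion 1 E₆)

omit [Fact p.Prime] in
theorem map_iotaC_C_natCast_pow (k : ℕ) :
    PowerSeries.map (iotaC p) (PowerSeries.C ((p : ↥(GaloisRep.ratLocalizedAt p)) ^ k)) =
      PowerSeries.C ((p : ℂ) ^ k) := by
  rw [PowerSeries.map_C, map_pow, map_natCast]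

theorem map_iotaC_phi4 [NeZero p] (G : ModularForm (Gamma0 p) 2)
    (g : PowerSeries ↥(GaloisRep.ratLocalizedAt p))
    (hG : qExpansion 1 G = PowerSeries.map (iotaC p) g) :
    PowerSeries.map (iotaC p) (phi4 p g) =
      PowerSeries.C ((p : ℂ) ^ 2) * qExpansion 1 G ^ 2 - qExpansion 1 E₄ := by
  rw [phi4, map_sub, map_mul, map_iotaC_C_natCast_pow, map_pow (PowerSeries.map (iotaC p)) g,
    map_iotaC_e4R, hG]

theorem map_iotaC_psi4 [NeZero p] (G : ModularForm (Gamma0 p) 2)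
    (g : PowerSeries ↥(GaloisRep.ratLocalizedAt p))
    (hG : qExpansion 1 G = PowerSeries.map (iotaC p) g) :
    PowerSeries.map (iotaC p) (psi4 p g) =
      qExpansion 1 (ModularForm.heckeULin (N := p) (p := p) 2 dvd_rfl G) ^ 2 -
        PowerSeries.expand p (prime_ne_zero p) (qExpansion 1 E₄) := by
  rw [psi4, map_sub, map_pow, NDet.map_sect, PowerSeries.map_expand, map_iotaC_e4R,
    qExpansion_heckeULin, hG]

theorem map_iotaC_phi6 [NeZero p] (G : ModularForm (Gamma0 p) 2)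
    (g : PowerSeries ↥(GaloisRep.ratLocalizedAt p))
    (hG : qExpansion 1 G = PowerSeries.map (iotaC p) g) :
    PowerSeries.map (iotaC p) (phi6 p g) =
      PowerSeries.C ((p : ℂ) ^ 3) * qExpansion 1 G ^ 3 + qExpansion 1 E₆ := by
  rw [phi6, map_add, map_mul, map_iotaC_C_natCast_pow, map_pow (PowerSeries.map (iotaC p)) g,
    map_iotaC_e6R, hG]

theorem map_iotaC_psi6 [NeZero p] (G : ModularForm (Gamma0 p) 2)
    (g : PowerSeries ↥(GaloisRep.ratLocalizedAt p))
    (hG : qExpansion 1 G = PowerSeries.map (iotaC p) g) :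
    PowerSeries.map (iotaC p) (psi6 p g) =
      -(qExpansion 1 (ModularForm.heckeULin (N := p) (p := p) 2 dvd_rfl G) ^ 3) +
        PowerSeries.expand p (prime_ne_zero p) (qExpansion 1 E₆) := by
  rw [psi6, map_add, map_neg, map_pow, NDet.map_sect, PowerSeries.map_expand, map_iotaC_e6R,
    qExpansion_heckeULin, hG]

/-- `p ≥ 7`: conditional on the MASTER lemma and the weight-4 pair. -/
theorem false_of_seven_le [NeZero p] (hM : MasterHyp p) (hp7 : 7 ≤ p)
    (G : ModularForm (Gamma0 p) 2) (h4 : Pair4Hyp p G)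
    (g : PowerSeries ↥(GaloisRep.ratLocalizedAt p))
    (hG : qExpansion 1 G = PowerSeries.map (iotaC p) g)
    (hg : PowerSeries.map (redHom p) g = 1) : False := by
  obtain ⟨Φ, Φ', hpair, hΦ, hΦ'⟩ := h4
  exact hM 4 Φ Φ' hpair (phi4 p g) (psi4 p g) ((map_iotaC_phi4 p G g hG).trans hΦ.symm)
    ((map_iotaC_psi4 p G g hG).trans hΦ'.symm) (-e4F p) (1 - e4F p) (map_red_phi4 p g)
    (map_red_psi4 p g hg) (res4_ne_zero p hp7) (coeff_lt_res4 p)

/-- `504 ≠ 0` in `𝔽_p` for `p = 5`. -/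
theorem c504_ne_zero_of_eq_five (hp : p = 5) : (504 : ZMod p) ≠ 0 := by
  subst hp
  exact c504_ne_zero_five

/-- `p = 5`: conditional on the MASTER lemma and the weight-6 pair. -/
theorem false_of_eq_five [NeZero p] (hM : MasterHyp p) (hp : p = 5)
    (G : ModularForm (Gamma0 p) 2) (h6 : Pair6Hyp p G)
    (g : PowerSeries ↥(GaloisRep.ratLocalizedAt p))
    (hG : qExpansion 1 G = PowerSeries.map (iotaC p) g)
    (hg : PowerSeries.map (redHom p) g = 1) : False := by
  obtain ⟨Φ, Φ', hpair, hΦ, hΦ'⟩ := h6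
  exact hM 6 Φ Φ' hpair (phi6 p g) (psi6 p g) ((map_iotaC_phi6 p G g hG).trans hΦ.symm)
    ((map_iotaC_psi6 p G g hG).trans hΦ'.symm) (e6F p) (e6F p - 1) (map_red_phi6 p g)
    (map_red_psi6 p g hg) (res6_ne_zero p (c504_ne_zero_of_eq_five p hp)) (coeff_lt_res6 p)

/-- **U3, conditional form**: for a prime `p ≥ 5`, no `G ∈ M₂(Γ₀(p))` has a `p`-integral
`q`-expansion congruent to `1` modulo `p`. -/
theorem false_of_hyps [NeZero p] (hM : MasterHyp p) (hp5 : 5 ≤ p)
    (G : ModularForm (Gamma0 p) 2) (h4 : Pair4Hyp p G) (h6 : Pair6Hyp p G)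
    (g : PowerSeries ↥(GaloisRep.ratLocalizedAt p))
    (hG : qExpansion 1 G = PowerSeries.map (iotaC p) g)
    (hg : PowerSeries.map (redHom p) g = 1) : False := by
  have hp : p.Prime := Fact.out
  by_cases h7 : 7 ≤ p
  · exact false_of_seven_le p hM h7 G h4 g hG hg
  · have h5 : p = 5 := by
      have h6' : p ≠ 6 := by
        rintro rfl
        exact absurd hp (by decide)
      omega
    exact false_of_eq_five p hM h5 G h6 g hG hg

end Main

end Fermat.Agent.S16.U3
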