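/-
S16, slice U3: the two pairs `((pG)² − E₄, H² − E₄(p·))` and `((pG)³ + E₆, −H³ + E₆(p·))`
(`H = U_p G`) from the Atkin–Lehner pair `(G, −p⁻¹ H)`, via the `QPair` calculus.
-/
import Mathlib
import Fermat.Agent.S16.Pairs
import Fermat.Agent.S16.U3

set_option autoImplicit false

noncomputable section

namespace Fermat.Agent.S16.U3

open PowerSeries ModularForm ModularFormClass UpperHalfPlane EisensteinSeries CongruenceSubgroup
open scoped MatrixGroups ModularForm

section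

variable (p : ℕ) [Fact p.Prime] [NeZero p]

/-- The pair `(pG, −H)`, `H = U_p G`. -/
def pairPG (G : ModularForm (Gamma0 p) 2)
    (hAL : IsPair p 2 G (-(p : ℂ)⁻¹ • ModularForm.heckeULin (N := p) (p := p) 2 dvd_rfl G)) :
    QPair p 2 :=
  (QPair.ofG G hAL).smul (p : ℂ)

theorem pairPG_q (G : ModularForm (Gamma0 p) 2) (hAL) :
    (pairPG p G hAL).q = PowerSeries.C (p : ℂ) * qExpansion 1 G := by
  rw [pairPG, QPair.smul_q, QPair.ofG_q, PowerSeries.smul_eq_C_mul]

theorem pairPG_q' (G : ModularForm (Gamma0 p) 2) (hAL) :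
    (pairPG p G hAL).q' =
      -qExpansion 1 (ModularForm.heckeULin (N := p) (p := p) 2 dvd_rfl G) := by
  have hp : (p : ℂ) ≠ 0 := Nat.cast_ne_zero.mpr (NeZero.ne p)
  rw [pairPG, QPair.smul_q', QPair.ofG_q', smul_smul, mul_neg, mul_inv_cancel₀ hp, neg_one_smul]

theorem pair4Hyp_of_isPair (G : ModularForm (Gamma0 p) 2)
    (hAL : IsPair p 2 G (-(p : ℂ)⁻¹ • ModularForm.heckeULin (N := p) (p := p) 2 dvd_rfl G)) :
    Pair4Hyp p G := by
  have h22 : (2 : ℤ) + 2 = ((4 : ℕ) : ℤ) := by norm_num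
  have h4 : (4 : ℤ) = ((4 : ℕ) : ℤ) := by norm_num
  set P : QPair p ((4 : ℕ) : ℤ) :=
    (((pairPG p G hAL).mul (pairPG p G hAL)).cast h22).sub ((QPair.ofLevelOne p E₄).cast h4)
    with hP
  refine ⟨P.Φ, P.Φ', P.isPair, ?_, ?_⟩
  · have h : P.q = PowerSeries.C ((p : ℂ) ^ 2) * qExpansion 1 G ^ 2 - qExpansion 1 E₄ := by
      rw [hP, QPair.sub_q, QPair.cast_q, QPair.cast_q, QPair.mul_q, pairPG_q,
        QPair.ofLevelOne_q, map_pow]
      ring
    exact h
  · have h : P.q' = qExpansion 1 (ModularForm.heckeULin (N := p) (p := p) 2 dvd_rfl G) ^ 2 -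
        PowerSeries.expand p (prime_ne_zero p) (qExpansion 1 E₄) := by
      rw [hP, QPair.sub_q', QPair.cast_q', QPair.cast_q', QPair.mul_q', pairPG_q',
        QPair.ofLevelOne_q']
      ring
    exact h

theorem pair6Hyp_of_isPair (G : ModularForm (Gamma0 p) 2)
    (hAL : IsPair p 2 G (-(p : ℂ)⁻¹ • ModularForm.heckeULin (N := p) (p := p) 2 dvd_rfl G)) :
    Pair6Hyp p G := by
  have h222 : (2 : ℤ) + 2 + 2 = ((6 : ℕ) : ℤ) := by norm_num
  have h6 : (6 : ℤ) = ((6 : ℕ) : ℤ) := by norm_num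
  set P : QPair p ((6 : ℕ) : ℤ) :=
    ((((pairPG p G hAL).mul (pairPG p G hAL)).mul (pairPG p G hAL)).cast h222).add
      ((QPair.ofLevelOne p E₆).cast h6) with hP
  refine ⟨P.Φ, P.Φ', P.isPair, ?_, ?_⟩
  · have h : P.q = PowerSeries.C ((p : ℂ) ^ 3) * qExpansion 1 G ^ 3 + qExpansion 1 E₆ := by
      rw [hP, QPair.add_q, QPair.cast_q, QPair.cast_q, QPair.mul_q, QPair.mul_q, pairPG_q,
        QPair.ofLevelOne_q, map_pow]
      ring
    exact h
  · have h : P.q' = -(qExpansion 1 (ModularForm.heckeULin (N := p) (p := p) 2 dvd_rfl G) ^ 3) +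
        PowerSeries.expand p (prime_ne_zero p) (qExpansion 1 E₆) := by
      rw [hP, QPair.add_q', QPair.cast_q', QPair.cast_q', QPair.mul_q', QPair.mul_q', pairPG_q',
        QPair.ofLevelOne_q']
      ring
    exact h

/-- **U3, conditional on the MASTER lemma and the Atkin–Lehner pair only.** -/
theorem false_of_isPair (hM : MasterHyp p) (hp5 : 5 ≤ p) (G : ModularForm (Gamma0 p) 2)
    (hAL : IsPair p 2 G (-(p : ℂ)⁻¹ • ModularForm.heckeULin (N := p) (p := p) 2 dvd_rfl G))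
    (g : PowerSeries ↥(GaloisRep.ratLocalizedAt p))
    (hG : qExpansion 1 G = PowerSeries.map (iotaC p) g)
    (hg : PowerSeries.map (redHom p) g = 1) : False :=
  false_of_hyps p hM hp5 G (pair4Hyp_of_isPair p G hAL) (pair6Hyp_of_isPair p G hAL) g hG hg

end

end Fermat.Agent.S16.U3
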