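/-
S16, slice U3 (final, unconditional): for a prime `p ≥ 5`, no `G ∈ M₂(Γ₀(p))` has a `p`-integral
`q`-expansion congruent to `1` modulo `p`.

Assembly of `U3Pairs.false_of_isPair` with the landed slices COS (`Cos.normForm`,
`Cos.traceZero`), W (`ALGlue.isPair_heckeU`) and MASTER (`false_of_pair`).
-/
import Mathlib
import Fermat.Agent.S16.Cos
import Fermat.Agent.S16.ALGlue
import Fermat.Agent.S16.Master
import Fermat.Agent.S16.U3Pairs

set_option autoImplicit false

noncomputable section

namespace Fermat.Agent.S16.U3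

open PowerSeries ModularForm ModularFormClass UpperHalfPlane CongruenceSubgroup
open scoped MatrixGroups ModularForm

section

variable (p : ℕ) [Fact p.Prime]

/-- The norm to level one exists (slice COS), in the shape consumed by MASTER. -/
theorem normHyp : NormHyp p := by
  intro w Φ
  refine ⟨Cos.normForm p Φ, fun τ => ?_⟩
  rw [Cos.normForm_apply]
  simp only [zpow_natCast]

/-- The trace to level one of a weight-2 form vanishes (slice COS), in the shape consumed by W. -/
theorem traceZero : AtkinLehner.TraceZero p :=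
  ALGlue.traceZero_of_pow (Cos.traceZero_apply p)

/-- The MASTER lemma at `ℓ = p`. -/
theorem masterHyp : MasterHyp p := by
  haveI : NeZero p := ⟨prime_ne_zero p⟩
  intro w Φ Φ' h φ ψ hφ hψ ξ₀ ξ₁ h0 h1 hne hord
  exact false_of_pair (normHyp p) p w Φ Φ' h φ ψ hφ hψ ξ₀ ξ₁ h0 h1 hne hord

/-- **Slice U3**: for a prime `p ≥ 5`, no `G ∈ M₂(Γ₀(p))` has a `p`-integral `q`-expansion
congruent to `1` modulo `p`. -/
theorem no_form_mod_p (hp5 : 5 ≤ p) (G : ModularForm (Gamma0 p) 2)
    (g : PowerSeries ↥(GaloisRep.ratLocalizedAt p))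
    (hG : qExpansion 1 G = PowerSeries.map (iotaC p) g)
    (hg : PowerSeries.map (redHom p) g = 1) : False :=
  haveI : NeZero p := ⟨prime_ne_zero p⟩
  false_of_isPair p (masterHyp p) hp5 G (ALGlue.isPair_heckeU (traceZero p) G) g hG hg

end

end Fermat.Agent.S16.U3
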