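/-
S16, slice U4: `ℓ = 3`, `9 ∣ p + 1`.  No `G ∈ M₂(Γ₀(p))` has `q`-expansion `≡ 1 mod 9`.

Formal part: for `g = 1 + 9 a` over `ℤ_(3)`, `φ = (g² - E₄)/24` is `3`-integral with
`φ ≡ -S₃ mod 3`, and likewise `ψ = (p⁻² h² - E₄(q^p))/24 ≡ -S₃(q^p) mod 3` for `h = 1 + 9 a'`
(`p² ≡ 1 mod 9`).
-/
import Mathlib
import Fermat.Agent.S16.Defs
import Fermat.Agent.S16.Pairs
import Fermat.Agent.S16.Master
import Fermat.Agent.S16.Cos
import Fermat.Agent.S16.ALGlue

set_option autoImplicit false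

noncomputable section

namespace Fermat.Agent.S16.U4

open PowerSeries

/-- `S₃ = ∑ σ₃(n) qⁿ` over a semiring `A`. -/
def S3 (A : Type*) [Semiring A] : PowerSeries A :=
  PowerSeries.mk (fun n => ((ArithmeticFunction.sigma 3 n : ℕ) : A))

theorem coeff_S3 (A : Type*) [Semiring A] (n : ℕ) :
    coeff n (S3 A) = ((ArithmeticFunction.sigma 3 n : ℕ) : A) := by
  simp [S3]

theorem map_S3 {A B : Type*} [Semiring A] [Semiring B] (f : A →+* B) :
    PowerSeries.map f (S3 A) = S3 B := by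
  ext n
  simp [S3]

theorem coeff_zero_S3 (A : Type*) [Semiring A] : coeff 0 (S3 A) = 0 := by
  simp [coeff_S3]

theorem coeff_one_S3 (A : Type*) [Semiring A] : coeff 1 (S3 A) = 1 := by
  simp [coeff_S3]

open scoped MatrixGroups ModularForm in
open UpperHalfPlane ModularForm EisensteinSeries in
/-- `E₄ = 1 + 240 ∑ σ₃(n) qⁿ`. -/
theorem qExpansion_E4 : qExpansion 1 E₄ = 1 + 240 * S3 ℂ := by
  ext m
  rw [E_qExpansion_coeff (by norm_num) ⟨2, rfl⟩ m, show bernoulli 4 = -1 / 30 by decide +kernel]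
  have h240 : (240 : PowerSeries ℂ) = C (240 : ℂ) := (map_ofNat (C (R := ℂ)) 240).symm
  rw [map_add, h240, coeff_C_mul, coeff_S3, coeff_one]
  rcases Nat.eq_zero_or_pos m with rfl | hm
  · simp
  · rw [if_neg hm.ne', if_neg hm.ne']
    push_cast
    ring

section Formal

variable {R κ : Type*} [CommRing R] [CommRing κ]

theorem three_eq_zero_of (h3 : (3 : κ) = 0) : (3 : PowerSeries κ) = 0 := by
  rw [← map_ofNat (C (R := κ)) 3, h3, map_zero]

/-- Formal `φ = (g² - E₄)/24` for `g = 1 + 9 a`, `E₄ = 1 + 240 s`: it is integral and `≡ -s`. -/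
theorem formal_phi (red : R →+* κ) (h3 : (3 : κ) = 0) (u8 : R) (h8 : 8 * u8 = 1)
    (a s : PowerSeries R) :
    24 * (C u8 * (6 * a + 27 * a ^ 2 - 80 * s)) = (1 + 9 * a) ^ 2 - (1 + 240 * s) ∧
    PowerSeries.map red (C u8 * (6 * a + 27 * a ^ 2 - 80 * s)) = - PowerSeries.map red s := by
  have e8 : (8 : PowerSeries R) * C u8 = 1 := by
    rw [← map_ofNat (C (R := R)) 8, ← map_mul, h8, map_one]
  constructor
  · linear_combination (3 * (6 * a + 27 * a ^ 2 - 80 * s)) * e8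
  · have e3 := three_eq_zero_of h3
    have e8' : (8 : PowerSeries κ) * C (red u8) = 1 := by
      rw [← map_ofNat (C (R := κ)) 8, ← map_mul, ← map_ofNat red 8, ← map_mul, h8, map_one,
        map_one]
    simp only [map_mul, map_sub, map_add, map_pow, map_ofNat, PowerSeries.map_C]
    linear_combination (2 * C (red u8) * PowerSeries.map red a
      + 9 * C (red u8) * PowerSeries.map red a ^ 2 - 3 * PowerSeries.map red s) * e3
      - 10 * PowerSeries.map red s * e8'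

/-- Formal `ψ = (p⁻² h² - E₄(q^p))/24` for `h = 1 + 9 a`, `p⁻² = 1 + 9 u`. -/
theorem formal_psi (red : R →+* κ) (h3 : (3 : κ) = 0) (u8 : R) (h8 : 8 * u8 = 1)
    (v2 u : R) (hv : v2 = 1 + 9 * u) (a s : PowerSeries R) :
    24 * (C u8 * (3 * C u + (1 + 9 * C u) * (6 * a + 27 * a ^ 2) - 80 * s))
      = C v2 * (1 + 9 * a) ^ 2 - (1 + 240 * s) ∧
    PowerSeries.map red (C u8 * (3 * C u + (1 + 9 * C u) * (6 * a + 27 * a ^ 2) - 80 * s))
      = - PowerSeries.map red s := by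
  have e8 : (8 : PowerSeries R) * C u8 = 1 := by
    rw [← map_ofNat (C (R := R)) 8, ← map_mul, h8, map_one]
  have ev : (C v2 : PowerSeries R) = 1 + 9 * C u := by
    rw [hv, map_add, map_mul, map_one, map_ofNat]
  constructor
  · rw [ev]
    linear_combination (3 * (3 * C u + (1 + 9 * C u) * (6 * a + 27 * a ^ 2) - 80 * s)) * e8
  · have e3 := three_eq_zero_of h3
    have e8' : (8 : PowerSeries κ) * C (red u8) = 1 := by
      rw [← map_ofNat (C (R := κ)) 8, ← map_mul, ← map_ofNat red 8, ← map_mul, h8, map_one,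
        map_one]
    simp only [map_mul, map_sub, map_add, map_pow, map_ofNat, PowerSeries.map_C, map_one]
    linear_combination (C (red u8) * C (red u) + (1 + 9 * C (red u)) * (2 * C (red u8) * PowerSeries.map red a
      + 9 * C (red u8) * PowerSeries.map red a ^ 2) - 3 * PowerSeries.map red s) * e3
      - 10 * PowerSeries.map red s * e8'

end Formal

section Order

/-- `ξ₀ ξ₁^p = (-S₃)^(p+1) ≠ 0` in `𝔽₃⟦X⟧`. -/
theorem xi_ne_zero (p : ℕ) :
    (-S3 (ZMod 3)) * (-S3 (ZMod 3)) ^ p ≠ 0 := by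
  have h1 : (-S3 (ZMod 3)) ≠ 0 := by
    intro h
    have := congrArg (coeff 1) h
    rw [map_neg, coeff_one_S3, map_zero] at this
    revert this
    decide
  exact mul_ne_zero h1 (pow_ne_zero p h1)

/-- `ξ₀ ξ₁^p = (-S₃)^(p+1)` has order `p + 1 > 4 (p + 1) / 12`. -/
theorem coeff_xi (p n : ℕ) (hn : 12 * n ≤ 4 * (p + 1)) :
    coeff n ((-S3 (ZMod 3)) * (-S3 (ZMod 3)) ^ p) = 0 := by
  have hX : (X : PowerSeries (ZMod 3)) ∣ -S3 (ZMod 3) := by
    rw [PowerSeries.X_dvd_iff, map_neg, ← coeff_zero_eq_constantCoeff_apply, coeff_zero_S3,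
      neg_zero]
  have hpow : (X : PowerSeries (ZMod 3)) ^ (p + 1) ∣ (-S3 (ZMod 3)) * (-S3 (ZMod 3)) ^ p := by
    rw [← pow_succ']
    exact pow_dvd_pow_of_dvd hX (p + 1)
  exact (PowerSeries.X_pow_dvd_iff.mp hpow) n (by omega)

end Order

section Consts

/-- the inverse of a natural number prime to `ℓ` lies in `ℤ_(ℓ)` -/
theorem inv_natCast_mem (ℓ n : ℕ) (hn : n.Coprime ℓ) :
    ((n : ℚ)⁻¹) ∈ GaloisRep.ratLocalizedAt ℓ := by
  show ((n : ℚ)⁻¹).den.Coprime ℓ
  rw [Rat.inv_natCast_den]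
  split_ifs
  · exact Nat.coprime_one_left ℓ
  · exact hn

/-- `1/n` as an element of `ℤ_(ℓ)` -/
def invNat (ℓ n : ℕ) (hn : n.Coprime ℓ) : ↥(GaloisRep.ratLocalizedAt ℓ) :=
  ⟨(n : ℚ)⁻¹, inv_natCast_mem ℓ n hn⟩

theorem natCast_mul_invNat (ℓ n : ℕ) (hn : n.Coprime ℓ) (h0 : n ≠ 0) :
    (n : ↥(GaloisRep.ratLocalizedAt ℓ)) * invNat ℓ n hn = 1 := by
  apply Subtype.ext
  have h0' : (n : ℚ) ≠ 0 := Nat.cast_ne_zero.mpr h0
  simp [invNat, h0']

theorem iotaC_invNat (ℓ n : ℕ) (hn : n.Coprime ℓ) :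
    iotaC ℓ (invNat ℓ n hn) = (n : ℂ)⁻¹ := by
  rw [iotaC_apply]
  simp [invNat]

end Consts

section Glue

open UpperHalfPlane ModularForm CongruenceSubgroup
open scoped MatrixGroups ModularForm

variable {p : ℕ} [NeZero p]

/-- the pair `((G² - E₄)/24, ((p⁻¹ U_p G)² - E₄(p ·))/24)` of weight `4` -/
def pairU4 (G : ModularForm (Gamma0 p) 2)
    (hG : IsPair p 2 G (-(p : ℂ)⁻¹ • ModularForm.heckeULin (N := p) (p := p) 2 dvd_rfl G)) :
    QPair p ((4 : ℕ) : ℤ) :=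
  ((((QPair.ofG G hG).mul (QPair.ofG G hG)).cast (by norm_num)).sub
    ((QPair.ofLevelOne p E₄).cast (by norm_num))).smul ((24 : ℂ)⁻¹)

theorem pairU4_q (G : ModularForm (Gamma0 p) 2)
    (hG : IsPair p 2 G (-(p : ℂ)⁻¹ • ModularForm.heckeULin (N := p) (p := p) 2 dvd_rfl G)) :
    (pairU4 G hG).q = (24 : ℂ)⁻¹ • (qExpansion 1 G * qExpansion 1 G - qExpansion 1 E₄) := by
  simp only [pairU4, QPair.smul_q, QPair.sub_q, QPair.cast_q, QPair.mul_q, QPair.ofG_q,
    QPair.ofLevelOne_q]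

theorem pairU4_q' (G : ModularForm (Gamma0 p) 2)
    (hG : IsPair p 2 G (-(p : ℂ)⁻¹ • ModularForm.heckeULin (N := p) (p := p) 2 dvd_rfl G)) :
    (pairU4 G hG).q' = (24 : ℂ)⁻¹ • ((QPair.ofG G hG).q' * (QPair.ofG G hG).q'
      - PowerSeries.expand p (NeZero.ne p) (qExpansion 1 E₄)) := by
  simp only [pairU4, QPair.smul_q', QPair.sub_q', QPair.cast_q', QPair.mul_q', QPair.ofLevelOne_q']

/-- the `U_p`-section of a power series -/
def sect (p : ℕ) {A : Type*} [Semiring A] (a : PowerSeries A) : PowerSeries A :=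
  PowerSeries.mk (fun n => coeff (n * p) a)

omit [NeZero p] in
theorem coeff_sect_one_add (hp0 : p ≠ 0) {A : Type*} [CommRing A] (a : PowerSeries A) (n : ℕ) :
    coeff n (1 + 9 * sect p a) = coeff (n * p) (1 + 9 * a) := by
  have h9 : (9 : PowerSeries A) = C (9 : A) := (map_ofNat (C (R := A)) 9).symm
  rw [map_add, map_add, h9, coeff_C_mul, coeff_C_mul, sect, coeff_mk, coeff_one, coeff_one]
  have : (n * p = 0) ↔ n = 0 := by
    constructor
    · intro h
      rcases Nat.mul_eq_zero.mp h with h | h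
      · exact h
      · exact absurd h hp0
    · rintro rfl
      simp
  simp only [this]

theorem smul_eq_ofNat_mul (x : PowerSeries ℂ) : (24 : ℂ) • x = 24 * x := by
  rw [PowerSeries.smul_eq_C_mul, map_ofNat]

theorem data (h9 : 9 ∣ p + 1) (G : ModularForm (Gamma0 p) 2)
    (hG : IsPair p 2 G (-(p : ℂ)⁻¹ • ModularForm.heckeULin (N := p) (p := p) 2 dvd_rfl G))
    (a : PowerSeries ↥(GaloisRep.ratLocalizedAt 3))
    (ha : PowerSeries.map (iotaC 3) (1 + 9 * a) = qExpansion 1 G) :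
    ∃ φ ψ : PowerSeries ↥(GaloisRep.ratLocalizedAt 3),
      PowerSeries.map (iotaC 3) φ = (pairU4 G hG).q ∧
      PowerSeries.map (iotaC 3) ψ = (pairU4 G hG).q' ∧
      PowerSeries.map (redHom 3) φ = -S3 (ZMod 3) ∧
      PowerSeries.map (redHom 3) ψ = PowerSeries.expand p (NeZero.ne p) (-S3 (ZMod 3)) := by
  have hp0 : p ≠ 0 := NeZero.ne p
  have hp3 : p.Coprime 3 := by
    rw [Nat.coprime_comm, Nat.Prime.coprime_iff_not_dvd Nat.prime_three]
    omega
  obtain ⟨m, hm⟩ := h9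
  have h8 : (8 : ↥(GaloisRep.ratLocalizedAt 3)) * invNat 3 8 (by decide) = 1 := by
    have := natCast_mul_invNat 3 8 (by decide) (by norm_num)
    simpa using this
  have hPv : (p : ↥(GaloisRep.ratLocalizedAt 3)) * invNat 3 p hp3 = 1 :=
    natCast_mul_invNat 3 p hp3 hp0
  have hm' : (p : ↥(GaloisRep.ratLocalizedAt 3)) + 1 = 9 * (m : ↥(GaloisRep.ratLocalizedAt 3)) := by
    exact_mod_cast congrArg (Nat.cast (R := ↥(GaloisRep.ratLocalizedAt 3))) hm
  have hv2 : (invNat 3 p hp3) ^ 2 = 1 + 9 * (-(invNat 3 p hp3) ^ 2 * m *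
      ((p : ↥(GaloisRep.ratLocalizedAt 3)) - 1)) := by
    linear_combination ((p : ↥(GaloisRep.ratLocalizedAt 3)) * invNat 3 p hp3 + 1) * hPv
      - (invNat 3 p hp3) ^ 2 * ((p : ↥(GaloisRep.ratLocalizedAt 3)) - 1) * hm'
  have h3 : (3 : ZMod 3) = 0 := by decide
  obtain ⟨φ, hφ1, hφ2⟩ : ∃ φ : PowerSeries ↥(GaloisRep.ratLocalizedAt 3),
      24 * φ = (1 + 9 * a) ^ 2 - (1 + 240 * S3 ↥(GaloisRep.ratLocalizedAt 3)) ∧
      PowerSeries.map (redHom 3) φ
        = - PowerSeries.map (redHom 3) (S3 ↥(GaloisRep.ratLocalizedAt 3)) :=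
    ⟨_, formal_phi (redHom 3) h3 _ h8 a (S3 ↥(GaloisRep.ratLocalizedAt 3))⟩
  obtain ⟨ψ, hψ1, hψ2⟩ : ∃ ψ : PowerSeries ↥(GaloisRep.ratLocalizedAt 3),
      24 * ψ = C ((invNat 3 p hp3) ^ 2) * (1 + 9 * sect p a) ^ 2
        - (1 + 240 * PowerSeries.expand p hp0 (S3 ↥(GaloisRep.ratLocalizedAt 3))) ∧
      PowerSeries.map (redHom 3) ψ = - PowerSeries.map (redHom 3)
        (PowerSeries.expand p hp0 (S3 ↥(GaloisRep.ratLocalizedAt 3))) :=
    ⟨_, formal_psi (redHom 3) h3 _ h8 _ _ hv2 (sect p a)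
      (PowerSeries.expand p hp0 (S3 ↥(GaloisRep.ratLocalizedAt 3)))⟩
  refine ⟨φ, ψ, ?_, ?_, ?_, ?_⟩
  · -- `φ`
    rw [pairU4_q, eq_inv_smul_iff₀ (by norm_num : (24 : ℂ) ≠ 0), smul_eq_ofNat_mul]
    have := congrArg (PowerSeries.map (iotaC 3)) hφ1
    rw [map_mul, map_ofNat, map_sub, map_pow, ha, map_add, map_one, map_mul, map_ofNat, map_S3,
      ← qExpansion_E4] at this
    rw [this]
    ring
  · -- `ψ`
    rw [pairU4_q', eq_inv_smul_iff₀ (by norm_num : (24 : ℂ) ≠ 0), smul_eq_ofNat_mul]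
    have hg' : (QPair.ofG G hG).q' = PowerSeries.map (iotaC 3)
        (C (-(invNat 3 p hp3)) * (1 + 9 * sect p a)) := by
      ext n
      rw [QPair.coeff_ofG_q', ← ha, PowerSeries.coeff_map, PowerSeries.coeff_map,
        coeff_C_mul, coeff_sect_one_add hp0, map_mul, map_neg, iotaC_invNat]
    have := congrArg (PowerSeries.map (iotaC 3)) hψ1
    rw [map_mul, map_ofNat] at this
    rw [this, hg', qExpansion_E4]
    simp only [map_sub, map_add, map_mul, map_pow, map_neg, map_one, map_ofNat,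
      PowerSeries.map_expand, map_S3, PowerSeries.map_C]
    ring
  · rw [hφ2, map_S3]
  · rw [hψ2, PowerSeries.map_expand, map_S3, map_neg]

end Glue

section Final

open UpperHalfPlane ModularForm CongruenceSubgroup
open scoped MatrixGroups ModularForm

/-- the norm to level one exists (slice COS) -/
theorem normHyp (p : ℕ) [Fact p.Prime] : NormHyp p := by
  intro w Φ
  refine ⟨Cos.normForm p Φ, fun τ => ?_⟩
  rw [Cos.normForm_apply]
  simp only [zpow_natCast]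

/-- the trace to level one vanishes in weight two (slice COS) -/
theorem traceZero (p : ℕ) [Fact p.Prime] : AtkinLehner.TraceZero p :=
  ALGlue.traceZero_of_pow (fun F τ => Cos.traceZero_apply p F τ)

/-- **Slice U4.** If `9 ∣ p + 1`, no `G ∈ M₂(Γ₀(p))` has a `q`-expansion of the form `1 + 9 a`
with `a` `3`-integral. -/
theorem no_form (p : ℕ) [Fact p.Prime] (h9 : 9 ∣ p + 1)
    (G : ModularForm (Gamma0 p) 2) (a : PowerSeries ↥(GaloisRep.ratLocalizedAt 3))
    (hG : qExpansion 1 G = PowerSeries.map (iotaC 3) (1 + 9 * a)) : False := by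
  have : NeZero p := ⟨(Fact.out : p.Prime).ne_zero⟩
  have hpair := ALGlue.isPair_heckeU (traceZero p) G
  obtain ⟨φ, ψ, h1, h2, h3, h4⟩ := data h9 G hpair a hG.symm
  exact false_of_qpair (normHyp p) 3 4 (pairU4 G hpair) φ ψ h1 h2 _ _ h3 h4 (xi_ne_zero p)
    (coeff_xi p)

end Final

end Fermat.Agent.S16.U4
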