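/-
S16, slice U5 (formal core).  The weight-8 polynomial
`Y(g) = (g^4 - 6 E₄ g^2 + 8 E₆ g - 3 E₄^2) / 6912` evaluated at `g = 1 + 8 a`:
with `E₄ = 1 + 240 s`, `E₆ = 1 - 504 u`, `12 T = 5 s + 7 u` one has
`Y(1 + 8a) = -T - 25 s^2 - 8 T a - (40/3) s a^2 + (8/27) a^3 + (16/27) a^4`,
which is 2-integral and congruent to `T + s^2` modulo 2, whatever `a` is.
-/
import Mathlib

set_option autoImplicit false

noncomputable section

open PowerSeries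

namespace Fermat.Agent.S16.U5Core

variable {R : Type*} [CommRing R]

/-- The integral form of `Y(1 + 8a)`; `c3` is an inverse of `3`. -/
def yR (c3 : R) (s T a : R⟦X⟧) : R⟦X⟧ :=
  -T - 25 * s ^ 2 - 8 * T * a - 40 * C c3 * s * a ^ 2 + 8 * C c3 ^ 3 * a ^ 3
    + 16 * C c3 ^ 3 * a ^ 4

theorem yR_identity (c3 : R) (h3 : 3 * c3 = 1) (s u T a : R⟦X⟧) (hT : 12 * T = 5 * s + 7 * u) :
    6912 * yR c3 s T a = (1 + 8 * a) ^ 4 - 6 * (1 + 240 * s) * (1 + 8 * a) ^ 2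
      + 8 * (1 - 504 * u) * (1 + 8 * a) - 3 * (1 + 240 * s) ^ 2 := by
  have hc : (3 : R⟦X⟧) * C c3 = 1 := by
    rw [← map_ofNat (C (R := R)) 3, ← map_mul, h3, map_one]
  unfold yR
  linear_combination (-576 - 4608 * a) * hT
    + (-92160 * s * a ^ 2 + (2048 * a ^ 3 + 4096 * a ^ 4) * (9 * C c3 ^ 2 + 3 * C c3 + 1)) * hc

theorem two_eq_zero {k : Type*} [CommRing k] (f : R →+* k) (h2 : f 2 = 0) : (2 : k⟦X⟧) = 0 := by
  have : (2 : k⟦X⟧) = C (f 2) := by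
    rw [map_ofNat f 2, map_ofNat (C (R := k)) 2]
  rw [this, h2, map_zero]

/-- Modulo 2, `Y(1 + 8a)` does not depend on `a`. -/
theorem map_yR {k : Type*} [CommRing k] (f : R →+* k) (h2 : f 2 = 0) (c3 : R) (s T a : R⟦X⟧) :
    PowerSeries.map f (yR c3 s T a) = PowerSeries.map f T + PowerSeries.map f s ^ 2 := by
  have h2' : (2 : k⟦X⟧) = 0 := two_eq_zero f h2
  have e : yR c3 s T a = (T + s ^ 2) - 2 * (T + 13 * s ^ 2 + 4 * T * a + 20 * C c3 * s * a ^ 2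
      - 4 * C c3 ^ 3 * a ^ 3 - 8 * C c3 ^ 3 * a ^ 4) := by
    unfold yR; ring
  rw [e, map_sub, map_mul, map_add, map_pow, map_ofNat (PowerSeries.map f) 2, h2', zero_mul,
    sub_zero]

theorem coeff_zero_xi {k : Type*} [CommRing k] (ξs ξT : k⟦X⟧) (hs : coeff 0 ξs = 0)
    (hT : coeff 0 ξT = 0) : coeff 0 (ξT + ξs ^ 2) = 0 := by
  rw [map_add, hT, zero_add, pow_two, coeff_zero_mul_self_aux ξs hs]
where
  coeff_zero_mul_self_aux (ξs : k⟦X⟧) (hs : coeff 0 ξs = 0) : coeff 0 (ξs * ξs) = 0 := by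
    rw [coeff_mul]
    simp [hs]

theorem coeff_one_xi {k : Type*} [CommRing k] (ξs ξT : k⟦X⟧) (hs : coeff 0 ξs = 0)
    (hT : coeff 1 ξT = 1) : coeff 1 (ξT + ξs ^ 2) = 1 := by
  rw [map_add, hT, pow_two, coeff_mul]
  simp [Finset.Nat.antidiagonal_succ, hs]

/-- A power series `ξ = X + …` over a domain: `ξ ^ (p+1)` is nonzero and starts in degree
`p + 1`. -/
theorem coeff_mul_pow_eq_zero {k : Type*} [CommRing k] (ξ : k⟦X⟧) (h0 : coeff 0 ξ = 0)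
    (p n : ℕ) (hn : n ≤ p) : coeff n (ξ * ξ ^ p) = 0 := by
  have hX : (X : k⟦X⟧) ∣ ξ := by
    rw [X_dvd_iff]
    simpa using h0
  have hXp : (X : k⟦X⟧) ^ (p + 1) ∣ ξ * ξ ^ p := by
    rw [← pow_succ']
    exact pow_dvd_pow_of_dvd hX _
  exact (X_pow_dvd_iff.mp hXp) n (by omega)

theorem mul_pow_ne_zero {k : Type*} [CommRing k] [IsDomain k] (ξ : k⟦X⟧) (h1 : coeff 1 ξ = 1)
    (p : ℕ) : ξ * ξ ^ p ≠ 0 := by
  have hξ : ξ ≠ 0 := by
    rintro rfl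
    simp at h1
  exact mul_ne_zero hξ (pow_ne_zero _ hξ)

end Fermat.Agent.S16.U5Core

end
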