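/-
S16, slice U5 (`ℓ = 2`, `8 ∣ p + 1`), analytic/formal data.

* `yForm p G A B : ModularForm (Gamma0 p) 8`, the form `(G⁴ - 6 A G² + 8 B G - 3 A²)/6912`,
  its values, its slash under `SL(2, ℤ)` (pointwise) and its `q`-expansion;
* `TT = (5 S₃ + 7 S₅)/12 ∈ ℤ⟦X⟧` and the residue `xi = T + S₃² mod 2` (`xi = X + ⋯`);
* `data` : the `ℤ_(2)`-integral `q`-expansions of `yForm` and of its partner, and their
  residues modulo 2;
* `exists_partner` : `-p⁻¹ U_p G = 1 + 8 a'` when `G = 1 + 8 a` and `8 ∣ p + 1`.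
-/
import Mathlib
import Fermat.Agent.S16.Defs
import Fermat.Agent.S16.UCommon
import Fermat.Agent.S16.U5Core
import Fermat.Prelude.Def_ModularForm_HeckeOperatorForms
import Fermat.Prelude.Thm_CongruenceSubgroup_one_mem_strictPeriods_Gamma0
import Fermat.Prelude.Thm_ModularFormClass_qCoeff_heckeU

set_option autoImplicit false

noncomputable section

open UpperHalfPlane ModularForm CongruenceSubgroup PowerSeries
open scoped MatrixGroups ModularForm

namespace Fermat.Agent.S16.U5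

open Fermat.Agent.S16.UCommon

/-! ### The weight-8 form -/

section Form

variable (p : ℕ)

/-- The weight-8 form `Y(G; A, B) = (G^4 - 6 A G^2 + 8 B G - 3 A^2)/6912`. -/
def yForm (G : ModularForm (Gamma0 p) 2) (A : ModularForm (Gamma0 p) 4)
    (B : ModularForm (Gamma0 p) 6) : ModularForm (Gamma0 p) 8 :=
  (1 / 6912 : ℂ) • (mcast (by norm_num) ((G.mul G).mul (G.mul G))
    - (6 : ℂ) • mcast (by norm_num) (A.mul (G.mul G))
    + (8 : ℂ) • mcast (by norm_num) (B.mul G)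
    - (3 : ℂ) • mcast (by norm_num) (A.mul A))

theorem yForm_apply (G : ModularForm (Gamma0 p) 2) (A : ModularForm (Gamma0 p) 4)
    (B : ModularForm (Gamma0 p) 6) (τ : ℍ) :
    yForm p G A B τ
      = (1 / 6912 : ℂ) * (G τ ^ 4 - 6 * A τ * G τ ^ 2 + 8 * B τ * G τ - 3 * A τ ^ 2) := by
  simp only [yForm, ModularForm.smul_apply, ModularForm.sub_apply, ModularForm.add_apply,
    ModularForm.mcast_apply, ModularForm.coe_mul, Pi.mul_apply, smul_eq_mul]
  ring

theorem yForm_slash (G G' : ModularForm (Gamma0 p) 2) (A A' : ModularForm (Gamma0 p) 4)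
    (B B' : ModularForm (Gamma0 p) 6) (γ : SL(2, ℤ)) (σ τ : ℍ)
    (hG : ((G : ℍ → ℂ) ∣[(2 : ℤ)] γ) τ = G' σ)
    (hA : ((A : ℍ → ℂ) ∣[(4 : ℤ)] γ) τ = A' σ)
    (hB : ((B : ℍ → ℂ) ∣[(6 : ℤ)] γ) τ = B' σ) :
    ((yForm p G A B : ℍ → ℂ) ∣[(8 : ℤ)] γ) τ = yForm p G' A' B' σ := by
  rw [SL_slash_apply] at hG hA hB ⊢
  rw [yForm_apply, yForm_apply, ← hG, ← hA, ← hB]
  set d := denom (Matrix.SpecialLinearGroup.toGL
    ((Matrix.SpecialLinearGroup.map (Int.castRingHom ℝ)) γ)) ↑τ with hd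
  have hd0 : d ≠ 0 := denom_ne_zero _ _
  have e8 : d ^ (-(8 : ℤ)) = (d ^ (-(2 : ℤ))) ^ 4 := by
    rw [← zpow_natCast, ← zpow_mul]; norm_num
  have e4 : d ^ (-(4 : ℤ)) = (d ^ (-(2 : ℤ))) ^ 2 := by
    rw [← zpow_natCast, ← zpow_mul]; norm_num
  have e6 : d ^ (-(6 : ℤ)) = (d ^ (-(2 : ℤ))) ^ 3 := by
    rw [← zpow_natCast, ← zpow_mul]; norm_num
  rw [e8, e4, e6]
  ring

theorem qExpansion_yForm (G : ModularForm (Gamma0 p) 2) (A : ModularForm (Gamma0 p) 4)
    (B : ModularForm (Gamma0 p) 6) :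
    qExpansion 1 (yForm p G A B) = (1 / 6912 : ℂ) • (qExpansion 1 G ^ 4
      - 6 * qExpansion 1 A * qExpansion 1 G ^ 2 + 8 * qExpansion 1 B * qExpansion 1 G
      - 3 * qExpansion 1 A ^ 2) := by
  have h1 := one_mem_strictPeriods_Gamma0 p
  have hp : (0 : ℝ) < 1 := one_pos
  set X1 : ModularForm (Gamma0 p) 8 := mcast (by norm_num) ((G.mul G).mul (G.mul G)) with hX1
  set X2 : ModularForm (Gamma0 p) 8 := mcast (by norm_num) (A.mul (G.mul G)) with hX2
  set X3 : ModularForm (Gamma0 p) 8 := mcast (by norm_num) (B.mul G) with hX3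
  set X4 : ModularForm (Gamma0 p) 8 := mcast (by norm_num) (A.mul A) with hX4
  have e1 : qExpansion 1 X1 = qExpansion 1 G ^ 4 := by
    rw [hX1, ModularForm.qExpansion_mcast, ModularForm.qExpansion_mul hp h1,
      ModularForm.qExpansion_mul hp h1]
    ring
  have e2 : qExpansion 1 X2 = qExpansion 1 A * qExpansion 1 G ^ 2 := by
    rw [hX2, ModularForm.qExpansion_mcast, ModularForm.qExpansion_mul hp h1,
      ModularForm.qExpansion_mul hp h1]
    ring
  have e3 : qExpansion 1 X3 = qExpansion 1 B * qExpansion 1 G := by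
    rw [hX3, ModularForm.qExpansion_mcast, ModularForm.qExpansion_mul hp h1]
  have e4 : qExpansion 1 X4 = qExpansion 1 A ^ 2 := by
    rw [hX4, ModularForm.qExpansion_mcast, ModularForm.qExpansion_mul hp h1]
    ring
  have hy : yForm p G A B
      = (1 / 6912 : ℂ) • (X1 - (6 : ℂ) • X2 + (8 : ℂ) • X3 - (3 : ℂ) • X4) := rfl
  rw [hy, FunLike.coe_smul, ModularForm.qExpansion_smul hp h1, FunLike.coe_sub,
    ModularForm.qExpansion_sub hp h1, FunLike.coe_add, ModularForm.qExpansion_add hp h1,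
    FunLike.coe_sub, ModularForm.qExpansion_sub hp h1, FunLike.coe_smul, FunLike.coe_smul,
    FunLike.coe_smul, ModularForm.qExpansion_smul hp h1, ModularForm.qExpansion_smul hp h1,
    ModularForm.qExpansion_smul hp h1, e1, e2, e3, e4]
  congr 1
  simp only [PowerSeries.smul_eq_C_mul, map_ofNat]
  ring

end Form

/-! ### `T = (5 S₃ + 7 S₅)/12` -/

/-- `T = (5 S₃ + 7 S₅)/12`. -/
def TT : ℤ⟦X⟧ := PowerSeries.mk fun n =>
  (5 * (ArithmeticFunction.sigma 3 n : ℤ) + 7 * (ArithmeticFunction.sigma 5 n : ℤ)) / 12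

theorem twelve_dvd_pow (d : ℤ) : (12 : ℤ) ∣ 5 * d ^ 3 + 7 * d ^ 5 := by
  have h : ∀ x : ZMod 12, 5 * x ^ 3 + 7 * x ^ 5 = 0 := by decide
  have := h (d : ZMod 12)
  have h2 : ((5 * d ^ 3 + 7 * d ^ 5 : ℤ) : ZMod 12) = 0 := by
    push_cast
    exact this
  exact (ZMod.intCast_zmod_eq_zero_iff_dvd _ 12).mp h2

theorem twelve_dvd_sigma (n : ℕ) :
    (12 : ℤ) ∣ 5 * (ArithmeticFunction.sigma 3 n : ℤ)
      + 7 * (ArithmeticFunction.sigma 5 n : ℤ) := by
  rw [ArithmeticFunction.sigma_apply, ArithmeticFunction.sigma_apply]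
  push_cast
  rw [Finset.mul_sum, Finset.mul_sum, ← Finset.sum_add_distrib]
  exact Finset.dvd_sum fun d _ => twelve_dvd_pow d

theorem twelve_mul_TT : 12 * TT = 5 * S3 + 7 * S5 := by
  ext n
  have h12 : (12 : ℤ⟦X⟧) = C (12 : ℤ) := (map_ofNat (C (R := ℤ)) 12).symm
  have h5 : (5 : ℤ⟦X⟧) = C (5 : ℤ) := (map_ofNat (C (R := ℤ)) 5).symm
  have h7 : (7 : ℤ⟦X⟧) = C (7 : ℤ) := (map_ofNat (C (R := ℤ)) 7).symm
  rw [h12, h5, h7, map_add, coeff_C_mul, coeff_C_mul, coeff_C_mul]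
  simp only [TT, S3, S5, coeff_mk]
  exact Int.mul_ediv_cancel' (twelve_dvd_sigma n)

theorem coeff_zero_TT : coeff 0 TT = 0 := by simp [TT]

theorem coeff_one_TT : coeff 1 TT = 1 := by simp [TT]

/-! ### The local ring `ℤ_(2)` -/

/-- `ℤ_(2)`. -/
abbrev R2 : Type := ↥(GaloisRep.ratLocalizedAt 2)

/-- `1/3 ∈ ℤ_(2)`. -/
def c3 : R2 := invNat 2 3 (by norm_num)

theorem three_mul_c3 : (3 : R2) * c3 = 1 := by
  have := mul_invNat 2 3 (by norm_num) (by norm_num)
  exact_mod_cast this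

/-- `S₃` over `ℤ_(2)`. -/
def sR : R2⟦X⟧ := PowerSeries.map (Int.castRingHom R2) S3

/-- `S₅` over `ℤ_(2)`. -/
def uR : R2⟦X⟧ := PowerSeries.map (Int.castRingHom R2) S5

/-- `T` over `ℤ_(2)`. -/
def tR : R2⟦X⟧ := PowerSeries.map (Int.castRingHom R2) TT

theorem twelve_mul_tR : 12 * tR = 5 * sR + 7 * uR := by
  have := congrArg (PowerSeries.map (Int.castRingHom R2)) twelve_mul_TT
  rw [map_add, map_mul, map_mul, map_mul, map_ofNat (PowerSeries.map (Int.castRingHom R2)) 12,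
    map_ofNat (PowerSeries.map (Int.castRingHom R2)) 5,
    map_ofNat (PowerSeries.map (Int.castRingHom R2)) 7] at this
  exact this

/-- The residue of `Y(1 + 8a)` modulo 2. -/
def xi : (ZMod 2)⟦X⟧ :=
  PowerSeries.map (redHom 2) tR + PowerSeries.map (redHom 2) sR ^ 2

theorem redHom_two : redHom 2 2 = 0 := by
  have : (2 : R2) = ((2 : ℕ) : R2) := by norm_num
  rw [this, map_natCast]
  decide

theorem coeff_zero_xi : coeff 0 xi = 0 := by
  apply U5Core.coeff_zero_xi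
  · simp [sR, coeff_zero_S3]
  · simp [tR, coeff_zero_TT]

theorem coeff_one_xi : coeff 1 xi = 1 := by
  apply U5Core.coeff_one_xi
  · simp [sR, coeff_zero_S3]
  · simp [tR, coeff_one_TT]

/-! ### Integral `q`-expansions -/

section Data

variable (p : ℕ)

theorem map_iota_yR (G : ModularForm (Gamma0 p) 2) (A : ModularForm (Gamma0 p) 4)
    (B : ModularForm (Gamma0 p) 6) (a s u T : R2⟦X⟧) (hT : 12 * T = 5 * s + 7 * u)
    (hqG : qExpansion 1 G = PowerSeries.map (iotaC 2) (1 + 8 * a))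
    (hqA : qExpansion 1 A = PowerSeries.map (iotaC 2) (1 + 240 * s))
    (hqB : qExpansion 1 B = PowerSeries.map (iotaC 2) (1 - 504 * u)) :
    PowerSeries.map (iotaC 2) (U5Core.yR c3 s T a) = qExpansion 1 (yForm p G A B) := by
  rw [qExpansion_yForm, hqG, hqA, hqB]
  have h := congrArg (PowerSeries.map (iotaC 2))
    (U5Core.yR_identity c3 three_mul_c3 s u T a hT)
  simp only [map_add, map_sub, map_mul, map_pow, map_one,
    map_ofNat (PowerSeries.map (iotaC 2))] at h ⊢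
  rw [← h, PowerSeries.smul_eq_C_mul, ← mul_assoc]
  have : (C (1 / 6912 : ℂ) : ℂ⟦X⟧) * 6912 = 1 := by
    rw [← map_ofNat (C (R := ℂ)) 6912, ← map_mul]
    norm_num
  rw [this, one_mul]

theorem data (hp0 : p ≠ 0) (G G' : ModularForm (Gamma0 p) 2) (A A' : ModularForm (Gamma0 p) 4)
    (B B' : ModularForm (Gamma0 p) 6) (a a' : R2⟦X⟧)
    (hqG : qExpansion 1 G = PowerSeries.map (iotaC 2) (1 + 8 * a))
    (hqG' : qExpansion 1 G' = PowerSeries.map (iotaC 2) (1 + 8 * a'))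
    (hqA : qExpansion 1 A = qExpansion 1 E₄)
    (hqA' : qExpansion 1 A' = PowerSeries.expand p hp0 (qExpansion 1 E₄))
    (hqB : qExpansion 1 B = qExpansion 1 E₆)
    (hqB' : qExpansion 1 B' = PowerSeries.expand p hp0 (qExpansion 1 E₆)) :
    ∃ φ ψ : R2⟦X⟧,
      PowerSeries.map (iotaC 2) φ = qExpansion 1 (yForm p G A B) ∧
      PowerSeries.map (iotaC 2) ψ = qExpansion 1 (yForm p G' A' B') ∧
      PowerSeries.map (redHom 2) φ = xi ∧
      PowerSeries.map (redHom 2) ψ = PowerSeries.expand p hp0 xi := by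
  have hE4 : qExpansion 1 E₄ = PowerSeries.map (iotaC 2) (1 + 240 * sR) := by
    rw [qExpansion_E4, ← map_iotaC_intCast 2, sR, map_add, map_mul, map_one,
      map_ofNat (PowerSeries.map (Int.castRingHom R2)) 240]
  have hE6 : qExpansion 1 E₆ = PowerSeries.map (iotaC 2) (1 - 504 * uR) := by
    rw [qExpansion_E6, ← map_iotaC_intCast 2, uR, map_sub, map_mul, map_one,
      map_ofNat (PowerSeries.map (Int.castRingHom R2)) 504]
  have hA1 : qExpansion 1 A = PowerSeries.map (iotaC 2) (1 + 240 * sR) := hqA.trans hE4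
  have hB1 : qExpansion 1 B = PowerSeries.map (iotaC 2) (1 - 504 * uR) := hqB.trans hE6
  have hA2 : qExpansion 1 A'
      = PowerSeries.map (iotaC 2) (1 + 240 * PowerSeries.expand p hp0 sR) := by
    rw [hqA', hE4, ← PowerSeries.map_expand, map_add, map_mul, map_one,
      map_ofNat (PowerSeries.expand p hp0) 240]
  have hB2 : qExpansion 1 B'
      = PowerSeries.map (iotaC 2) (1 - 504 * PowerSeries.expand p hp0 uR) := by
    rw [hqB', hE6, ← PowerSeries.map_expand, map_sub, map_mul, map_one,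
      map_ofNat (PowerSeries.expand p hp0) 504]
  have hT2 : 12 * PowerSeries.expand p hp0 tR
      = 5 * PowerSeries.expand p hp0 sR + 7 * PowerSeries.expand p hp0 uR := by
    have := congrArg (PowerSeries.expand p hp0) twelve_mul_tR
    rw [map_add, map_mul, map_mul, map_mul, map_ofNat (PowerSeries.expand p hp0) 12,
      map_ofNat (PowerSeries.expand p hp0) 5, map_ofNat (PowerSeries.expand p hp0) 7] at this
    exact this
  refine ⟨U5Core.yR c3 sR tR a,
    U5Core.yR c3 (PowerSeries.expand p hp0 sR) (PowerSeries.expand p hp0 tR) a',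
    map_iota_yR p G A B a sR uR tR twelve_mul_tR hqG hA1 hB1,
    map_iota_yR p G' A' B' a' _ _ _ hT2 hqG' hA2 hB2, ?_, ?_⟩
  · rw [U5Core.map_yR (redHom 2) redHom_two]
    rfl
  · rw [U5Core.map_yR (redHom 2) redHom_two, PowerSeries.map_expand, PowerSeries.map_expand, xi,
      map_add, map_pow]

theorem xi_ne : xi * xi ^ p ≠ 0 :=
  U5Core.mul_pow_ne_zero xi coeff_one_xi p

theorem coeff_xi (n : ℕ) (hn : 12 * n ≤ 8 * (p + 1)) : coeff n (xi * xi ^ p) = 0 :=
  U5Core.coeff_mul_pow_eq_zero xi coeff_zero_xi p n (by omega)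

/-- If `G = 1 + 8 a` and `8 ∣ p + 1` then `-p⁻¹ U_p G = 1 + 8 a'`. -/
theorem exists_partner [NeZero p] (h8 : 8 ∣ p + 1) (G : ModularForm (Gamma0 p) 2) (a : R2⟦X⟧)
    (hqG : qExpansion 1 G = PowerSeries.map (iotaC 2) (1 + 8 * a)) :
    ∃ a' : R2⟦X⟧, qExpansion 1 (-(p : ℂ)⁻¹ • ModularForm.heckeULin (N := p) (p := p) 2 dvd_rfl G)
      = PowerSeries.map (iotaC 2) (1 + 8 * a') := by
  have hp0 : p ≠ 0 := NeZero.ne p
  obtain ⟨m, hm⟩ := h8
  have hcop : p.Coprime 2 := by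
    rw [Nat.coprime_two_right, Nat.odd_iff]
    omega
  set pinv : R2 := invNat 2 p hcop with hpinv
  have hpp : (p : R2) * pinv = 1 := mul_invNat 2 p hcop hp0
  have h8 : (8 : R2⟦X⟧) = C (8 : R2) := (map_ofNat (C (R := R2)) 8).symm
  have husec : usec p (1 + 8 * a) = 1 + 8 * usec p a := by
    rw [usec_add, usec_one p hp0, h8, usec_C_mul]
  refine ⟨C (-(m : R2) * pinv) + C (-pinv) * usec p a, ?_⟩
  rw [ModularForm.qExpansion_smul one_pos (one_mem_strictPeriods_Gamma0 p),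
    qExpansion_heckeU, hqG, usec_map, husec, PowerSeries.smul_eq_C_mul]
  have hC : (C (-(p : ℂ)⁻¹) : ℂ⟦X⟧) = PowerSeries.map (iotaC 2) (C (-pinv)) := by
    rw [PowerSeries.map_C]
    congr 1
    rw [map_neg, hpinv, iotaC_invNat]
  rw [hC, ← map_mul]
  congr 1
  have key : (-pinv : R2) = 1 + 8 * (-(m : R2) * pinv) := by
    have hm' : (p : R2) + 1 = 8 * (m : R2) := by exact_mod_cast congrArg (Nat.cast : ℕ → R2) hm
    linear_combination hpp - pinv * hm'
  rw [h8]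
  have key' : (C (-pinv) : R2⟦X⟧) = 1 + C (8 : R2) * C (-(m : R2) * pinv) := by
    rw [← map_mul, ← map_one (C (R := R2)), ← map_add, ← key]
  calc C (-pinv) * (1 + C 8 * usec p a)
      = C (-pinv) + C 8 * (C (-pinv) * usec p a) := by ring
    _ = 1 + C 8 * (C (-(m : R2) * pinv) + C (-pinv) * usec p a) := by
        rw [mul_add, ← add_assoc, ← key']

end Data

end Fermat.Agent.S16.U5

end
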