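/-
S16, slice U5 (`ℓ = 2`, `8 ∣ p + 1`): there is no `G ∈ M₂(Γ₀(p))` whose `q`-expansion is
`1 + 8 a` with `a ∈ ℤ_(2)⟦q⟧`.

Proof.  Let `G' = -p⁻¹ U_p G` (Atkin–Lehner partner of `G`); as `8 ∣ p + 1`, `G' = 1 + 8 a'`.
The weight-8 forms `Φ = Y(G; E₄, E₆)`, `Φ' = Y(G'; E₄(p·), E₆(p·))`, with
`Y(g; A, B) = (g⁴ - 6 A g² + 8 B g - 3 A²)/6912`, form a pair; their `q`-expansions are
`2`-integral with residues `ξ` and `ξ(q^p)`, `ξ = T + S₃² = q + ⋯`.  The master lemma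
(norm + Sturm) gives a contradiction, because `ξ^{p+1}` vanishes to order `p + 1 > 8(p+1)/12`.
-/
import Mathlib
import Fermat.Agent.S16.Defs
import Fermat.Agent.S16.Pairs
import Fermat.Agent.S16.ALFinal
import Fermat.Agent.S16.MasterFinal
import Fermat.Agent.S16.U5Form

set_option autoImplicit false

noncomputable section

open UpperHalfPlane ModularForm CongruenceSubgroup PowerSeries
open scoped MatrixGroups ModularForm

namespace Fermat.Agent.S16.U5

/-- `Y` of three pairs is a pair (weight 8). -/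
theorem isPair_yForm (p : ℕ) (G G' : ModularForm (Gamma0 p) 2) (A A' : ModularForm (Gamma0 p) 4)
    (B B' : ModularForm (Gamma0 p) 6) (hG : IsPair p 2 G G') (hA : IsPair p 4 A A')
    (hB : IsPair p 6 B B') : IsPair p 8 (yForm p G A B) (yForm p G' A' B') := fun τ =>
  yForm_slash p G G' A A' B B' ModularGroup.S _ τ (hG τ) (hA τ) (hB τ)

/-- The master lemma in the case at hand: no weight-8 pair has residues `(ξ, ξ(q^p))`. -/
theorem false_of_isPair (p : ℕ) [Fact p.Prime] (Φ Φ' : ModularForm (Gamma0 p) 8)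
    (h : IsPair p 8 Φ Φ') (φ ψ : R2⟦X⟧)
    (hφ : PowerSeries.map (iotaC 2) φ = qExpansion 1 Φ)
    (hψ : PowerSeries.map (iotaC 2) ψ = qExpansion 1 Φ')
    (h0 : PowerSeries.map (redHom 2) φ = xi)
    (h1 : PowerSeries.map (redHom 2) ψ = PowerSeries.expand p (Fact.out : p.Prime).ne_zero xi) :
    False :=
  false_of_pair' p 2 8 Φ Φ' h φ ψ hφ hψ xi xi h0 h1 (xi_ne p) (coeff_xi p)

/-- **Slice U5.** For a prime `p` with `8 ∣ p + 1` there is no modular form of weight 2 on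
`Γ₀(p)` whose `q`-expansion is `≡ 1 mod 8` (with `2`-integral coefficients). -/
theorem no_form (p : ℕ) [Fact p.Prime] (h8 : 8 ∣ p + 1) (G : ModularForm (Gamma0 p) 2)
    (a : PowerSeries ↥(GaloisRep.ratLocalizedAt 2))
    (hG : qExpansion 1 G = PowerSeries.map (iotaC 2) (1 + 8 * a)) : False := by
  have hp0 : p ≠ 0 := (Fact.out : p.Prime).ne_zero
  have : NeZero p := ⟨hp0⟩
  obtain ⟨a', ha'⟩ := exists_partner p h8 G a hG
  have hpG := ALFinal.isPair_heckeU G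
  have hqA : qExpansion 1 (QPair.ofLevelOne p E₄).Φ = qExpansion 1 E₄ := QPair.ofLevelOne_q p E₄
  have hqB : qExpansion 1 (QPair.ofLevelOne p E₆).Φ = qExpansion 1 E₆ := QPair.ofLevelOne_q p E₆
  have hqA' : qExpansion 1 (QPair.ofLevelOne p E₄).Φ'
      = PowerSeries.expand p hp0 (qExpansion 1 E₄) := QPair.ofLevelOne_q' p E₄
  have hqB' : qExpansion 1 (QPair.ofLevelOne p E₆).Φ'
      = PowerSeries.expand p hp0 (qExpansion 1 E₆) := QPair.ofLevelOne_q' p E₆
  obtain ⟨φ, ψ, hφ, hψ, h0, h1⟩ := data p hp0 G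
    (-(p : ℂ)⁻¹ • ModularForm.heckeULin (N := p) (p := p) 2 dvd_rfl G) (QPair.ofLevelOne p E₄).Φ
    (QPair.ofLevelOne p E₄).Φ' (QPair.ofLevelOne p E₆).Φ (QPair.ofLevelOne p E₆).Φ' a a' hG ha'
    hqA hqA' hqB hqB'
  have hpair := isPair_yForm p G _ _ _ _ _ hpG (QPair.ofLevelOne p E₄).isPair
    (QPair.ofLevelOne p E₆).isPair
  exact false_of_isPair p _ _ hpair φ ψ hφ hψ h0 h1

end Fermat.Agent.S16.U5

end
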