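/-
S16, slice U5 (final assembly, backup seat): `ℓ = 2`, `8 ∣ p + 1`.
No `G ∈ M₂(Γ₀(p))` has a `q`-expansion of the form `1 + 8 a` with `a` `2`-integral.

The weight-8 pair is `Y(G) = (G⁴ - 6 E₄ G² + 8 E₆ G - 3 E₄²)/6912` with partner
`Y(-p⁻¹ U_p G; E₄(p·), E₆(p·))`; both reduce to `ξ = S₁₂ + S₃²` resp. `ξ(X^p)` modulo 2
(`U5Core.map_yR`), `ξ = X + …`, so the norm is `≡ ξ^(p+1)`, of order `p + 1 > 8 (p+1)/12`.
-/
import Mathlib
import Fermat.Agent.S16.Defs
import Fermat.Agent.S16.Pairs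
import Fermat.Agent.S16.Master
import Fermat.Agent.S16.ALFinal
import Fermat.Agent.S16.UCommon
import Fermat.Agent.S16.U5Core
import Fermat.Agent.S16.EisQ12

set_option autoImplicit false

noncomputable section

namespace Fermat.Agent.S16.U5B

open PowerSeries UpperHalfPlane ModularForm CongruenceSubgroup
open scoped MatrixGroups ModularForm

section Glue

variable {p : ℕ} [NeZero p]

/-- the weight-8 pair `Y(G)`, `Y(-p⁻¹ U_p G; E₄(p·), E₆(p·))` -/
def pairY (G : ModularForm (Gamma0 p) 2)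
    (hG : IsPair p 2 G (-(p : ℂ)⁻¹ • ModularForm.heckeULin (N := p) (p := p) 2 dvd_rfl G)) :
    QPair p ((8 : ℕ) : ℤ) :=
  QPair.smul ((6912 : ℂ)⁻¹)
    (QPair.sub
      (QPair.add
        (QPair.sub
          (QPair.cast (by norm_num)
            (((QPair.ofG G hG).mul (QPair.ofG G hG)).mul ((QPair.ofG G hG).mul (QPair.ofG G hG))))
          (QPair.smul 6 (QPair.cast (by norm_num)
            ((QPair.ofLevelOne p E₄).mul ((QPair.ofG G hG).mul (QPair.ofG G hG))))))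
        (QPair.smul 8 (QPair.cast (by norm_num)
          ((QPair.ofLevelOne p E₆).mul (QPair.ofG G hG)))))
      (QPair.smul 3 (QPair.cast (by norm_num)
        ((QPair.ofLevelOne p E₄).mul (QPair.ofLevelOne p E₄)))))

theorem pairY_q (G : ModularForm (Gamma0 p) 2)
    (hG : IsPair p 2 G (-(p : ℂ)⁻¹ • ModularForm.heckeULin (N := p) (p := p) 2 dvd_rfl G)) :
    (pairY G hG).q = (6912 : ℂ)⁻¹ •
      (qExpansion 1 G * qExpansion 1 G * (qExpansion 1 G * qExpansion 1 G)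
        - (6 : ℂ) • (qExpansion 1 E₄ * (qExpansion 1 G * qExpansion 1 G))
        + (8 : ℂ) • (qExpansion 1 E₆ * qExpansion 1 G)
        - (3 : ℂ) • (qExpansion 1 E₄ * qExpansion 1 E₄)) := by
  simp only [pairY, QPair.smul_q, QPair.sub_q, QPair.add_q, QPair.cast_q, QPair.mul_q,
    QPair.ofG_q, QPair.ofLevelOne_q]

theorem pairY_q' (G : ModularForm (Gamma0 p) 2)
    (hG : IsPair p 2 G (-(p : ℂ)⁻¹ • ModularForm.heckeULin (N := p) (p := p) 2 dvd_rfl G)) :
    (pairY G hG).q' = (6912 : ℂ)⁻¹ •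
      ((QPair.ofG G hG).q' * (QPair.ofG G hG).q' * ((QPair.ofG G hG).q' * (QPair.ofG G hG).q')
        - (6 : ℂ) • (PowerSeries.expand p (NeZero.ne p) (qExpansion 1 E₄) *
            ((QPair.ofG G hG).q' * (QPair.ofG G hG).q'))
        + (8 : ℂ) • (PowerSeries.expand p (NeZero.ne p) (qExpansion 1 E₆) * (QPair.ofG G hG).q')
        - (3 : ℂ) • (PowerSeries.expand p (NeZero.ne p) (qExpansion 1 E₄) *
            PowerSeries.expand p (NeZero.ne p) (qExpansion 1 E₄))) := by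
  simp only [pairY, QPair.smul_q', QPair.sub_q', QPair.add_q', QPair.cast_q', QPair.mul_q',
    QPair.ofLevelOne_q']

theorem smul_eq_ofNat_mul (x : PowerSeries ℂ) : (6912 : ℂ) • x = 6912 * x := by
  rw [PowerSeries.smul_eq_C_mul, map_ofNat]

theorem data (h8 : 8 ∣ p + 1) (G : ModularForm (Gamma0 p) 2)
    (hG : IsPair p 2 G (-(p : ℂ)⁻¹ • ModularForm.heckeULin (N := p) (p := p) 2 dvd_rfl G))
    (a : PowerSeries ↥(GaloisRep.ratLocalizedAt 2))
    (ha : PowerSeries.map (iotaC 2) (1 + 8 * a) = qExpansion 1 G) :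
    ∃ (φ ψ : PowerSeries ↥(GaloisRep.ratLocalizedAt 2)) (ξ : PowerSeries (ZMod 2)),
      PowerSeries.map (iotaC 2) φ = (pairY G hG).q ∧
      PowerSeries.map (iotaC 2) ψ = (pairY G hG).q' ∧
      PowerSeries.map (redHom 2) φ = ξ ∧
      PowerSeries.map (redHom 2) ψ = PowerSeries.expand p (NeZero.ne p) ξ ∧
      coeff 0 ξ = 0 ∧ coeff 1 ξ = 1 := by
  have hp0 : p ≠ 0 := NeZero.ne p
  have hp2 : p.Coprime 2 := by
    rw [Nat.coprime_comm, Nat.Prime.coprime_iff_not_dvd Nat.prime_two]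
    omega
  obtain ⟨m, hm⟩ := h8
  -- constants of `ℤ_(2)`
  obtain ⟨c3, h3⟩ : ∃ c3 : ↥(GaloisRep.ratLocalizedAt 2), 3 * c3 = 1 := by
    refine ⟨UCommon.invNat 2 3 (by decide), ?_⟩
    have := UCommon.mul_invNat 2 3 (by decide) (by norm_num)
    simpa using this
  obtain ⟨w, hw, hιw⟩ : ∃ w : ↥(GaloisRep.ratLocalizedAt 2),
      w = 1 + 8 * ((m : ↥(GaloisRep.ratLocalizedAt 2)) * w) ∧ iotaC 2 w = -(p : ℂ)⁻¹ := by
    have hPv : (p : ↥(GaloisRep.ratLocalizedAt 2)) * UCommon.invNat 2 p hp2 = 1 :=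
      UCommon.mul_invNat 2 p hp2 hp0
    have hm' : (p : ↥(GaloisRep.ratLocalizedAt 2)) + 1 = 8 * (m : ↥(GaloisRep.ratLocalizedAt 2)) := by
      exact_mod_cast congrArg (Nat.cast (R := ↥(GaloisRep.ratLocalizedAt 2))) hm
    refine ⟨-(UCommon.invNat 2 p hp2), ?_, ?_⟩
    · linear_combination hPv - UCommon.invNat 2 p hp2 * hm'
    · rw [map_neg, UCommon.iotaC_invNat]
  have h2 : redHom 2 (2 : ↥(GaloisRep.ratLocalizedAt 2)) = 0 := by
    rw [map_ofNat]
    decide
  -- the integral series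
  obtain ⟨s, hs⟩ : ∃ s : PowerSeries ↥(GaloisRep.ratLocalizedAt 2),
      s = PowerSeries.map (Int.castRingHom ↥(GaloisRep.ratLocalizedAt 2)) UCommon.S3 := ⟨_, rfl⟩
  obtain ⟨u, hu⟩ : ∃ u : PowerSeries ↥(GaloisRep.ratLocalizedAt 2),
      u = PowerSeries.map (Int.castRingHom ↥(GaloisRep.ratLocalizedAt 2)) UCommon.S5 := ⟨_, rfl⟩
  obtain ⟨T, hTdef⟩ : ∃ T : PowerSeries ↥(GaloisRep.ratLocalizedAt 2),
      T = PowerSeries.map (Int.castRingHom ↥(GaloisRep.ratLocalizedAt 2)) EisQ.sig12 := ⟨_, rfl⟩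
  have hT : (12 : PowerSeries ↥(GaloisRep.ratLocalizedAt 2)) * T = 5 * s + 7 * u := by
    have := congrArg (PowerSeries.map (Int.castRingHom ↥(GaloisRep.ratLocalizedAt 2)))
      EisQ12.sig12_mul_S
    rw [hTdef, hs, hu]
    simpa only [map_mul, map_add, map_ofNat] using this
  have hT' : (12 : PowerSeries ↥(GaloisRep.ratLocalizedAt 2)) * PowerSeries.expand p hp0 T =
      5 * PowerSeries.expand p hp0 s + 7 * PowerSeries.expand p hp0 u := by
    have := congrArg (PowerSeries.expand p hp0) hT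
    simpa only [map_mul, map_add, map_ofNat] using this
  obtain ⟨b, hbdef⟩ : ∃ b : PowerSeries ↥(GaloisRep.ratLocalizedAt 2), b = UCommon.usec p a :=
    ⟨_, rfl⟩
  obtain ⟨a', ha'⟩ : ∃ a' : PowerSeries ↥(GaloisRep.ratLocalizedAt 2),
      a' = C ((m : ↥(GaloisRep.ratLocalizedAt 2)) * w) + b
        + 8 * C ((m : ↥(GaloisRep.ratLocalizedAt 2)) * w) * b := ⟨_, rfl⟩
  have hφ := U5Core.yR_identity c3 h3 s u T a hT
  have hψ := U5Core.yR_identity c3 h3 (PowerSeries.expand p hp0 s) (PowerSeries.expand p hp0 u)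
    (PowerSeries.expand p hp0 T) a' hT'
  -- `E₄`, `E₆` over `ℂ`
  have hE4 : qExpansion 1 E₄ = 1 + 240 * PowerSeries.map (iotaC 2) s := by
    rw [hs, UCommon.map_iotaC_intCast, UCommon.qExpansion_E4, map_add, map_one, map_mul, map_ofNat]
  have hE6 : qExpansion 1 E₆ = 1 - 504 * PowerSeries.map (iotaC 2) u := by
    rw [hu, UCommon.map_iotaC_intCast, UCommon.qExpansion_E6, map_sub, map_one, map_mul, map_ofNat]
  refine ⟨U5Core.yR c3 s T a,
    U5Core.yR c3 (PowerSeries.expand p hp0 s) (PowerSeries.expand p hp0 T) a',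
    PowerSeries.map (redHom 2) T + PowerSeries.map (redHom 2) s ^ 2,
    ?_, ?_, U5Core.map_yR (redHom 2) h2 c3 s T a, ?_, ?_, ?_⟩
  · -- `φ`
    rw [pairY_q, eq_inv_smul_iff₀ (by norm_num : (6912 : ℂ) ≠ 0), smul_eq_ofNat_mul]
    have := congrArg (PowerSeries.map (iotaC 2)) hφ
    rw [map_mul, map_ofNat] at this
    rw [this, ← ha, hE4, hE6]
    simp only [map_sub, map_add, map_mul, map_pow, map_one, map_ofNat,
      PowerSeries.smul_eq_C_mul]
    ring
  · -- `ψ`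
    rw [pairY_q', eq_inv_smul_iff₀ (by norm_num : (6912 : ℂ) ≠ 0), smul_eq_ofNat_mul]
    have hb : (1 : PowerSeries ↥(GaloisRep.ratLocalizedAt 2)) + 8 * b
        = UCommon.usec p (1 + 8 * a) := by
      rw [hbdef, show (8 : PowerSeries ↥(GaloisRep.ratLocalizedAt 2))
          = C (8 : ↥(GaloisRep.ratLocalizedAt 2)) from
            (map_ofNat (C (R := ↥(GaloisRep.ratLocalizedAt 2))) 8).symm,
        UCommon.usec_add, UCommon.usec_C_mul, UCommon.usec_one p hp0]
    have hg' : (QPair.ofG G hG).q' = PowerSeries.map (iotaC 2) (1 + 8 * a') := by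
      have e : (1 : PowerSeries ↥(GaloisRep.ratLocalizedAt 2)) + 8 * a'
          = C w * UCommon.usec p (1 + 8 * a) := by
        have hCw : (C w : PowerSeries ↥(GaloisRep.ratLocalizedAt 2))
            = 1 + 8 * C ((m : ↥(GaloisRep.ratLocalizedAt 2)) * w) := by
          conv_lhs => rw [hw]
          rw [map_add, map_one, map_mul, map_ofNat]
        rw [← hb, ha', hCw]
        ring
      rw [e]
      ext n
      rw [QPair.coeff_ofG_q', ← ha, PowerSeries.coeff_map, PowerSeries.coeff_map,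
        coeff_C_mul, UCommon.coeff_usec, map_mul, hιw]
    have := congrArg (PowerSeries.map (iotaC 2)) hψ
    rw [map_mul, map_ofNat] at this
    rw [this, hg', hE4, hE6]
    simp only [map_sub, map_add, map_mul, map_pow, map_one, map_ofNat,
      PowerSeries.smul_eq_C_mul, PowerSeries.map_expand]
    ring
  · -- reduction of `ψ`
    rw [U5Core.map_yR (redHom 2) h2, PowerSeries.map_expand, PowerSeries.map_expand, map_add,
      map_pow]
  · -- `coeff 0 ξ = 0`
    refine U5Core.coeff_zero_xi _ _ ?_ ?_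
    · rw [hs]; simp [PowerSeries.coeff_map, UCommon.coeff_zero_S3]
    · rw [hTdef]; simp [PowerSeries.coeff_map, EisQ12.coeff_zero_sig12]
  · -- `coeff 1 ξ = 1`
    refine U5Core.coeff_one_xi _ _ ?_ ?_
    · rw [hs]; simp [PowerSeries.coeff_map, UCommon.coeff_zero_S3]
    · rw [hTdef]; simp [PowerSeries.coeff_map, EisQ12.coeff_one_sig12]

end Glue

/-- **Slice U5.** If `8 ∣ p + 1`, no `G ∈ M₂(Γ₀(p))` has a `q`-expansion of the form `1 + 8 a`
with `a` `2`-integral. -/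
theorem no_form (p : ℕ) [Fact p.Prime] (h8 : 8 ∣ p + 1)
    (G : ModularForm (Gamma0 p) 2) (a : PowerSeries ↥(GaloisRep.ratLocalizedAt 2))
    (hG : qExpansion 1 G = PowerSeries.map (iotaC 2) (1 + 8 * a)) : False := by
  have : NeZero p := ⟨(Fact.out : p.Prime).ne_zero⟩
  have hpair := ALFinal.isPair_heckeU G
  obtain ⟨φ, ψ, ξ, h1, h2, h3, h4, hξ0, hξ1⟩ := data h8 G hpair a hG.symm
  exact false_of_qpair (ALFinal.normHyp p) 2 8 (pairY G hpair) φ ψ h1 h2 ξ ξ h3 h4
    (U5Core.mul_pow_ne_zero ξ hξ1 p)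
    (fun n hn => U5Core.coeff_mul_pow_eq_zero ξ hξ0 p n (by omega))

end Fermat.Agent.S16.U5B
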