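/-
S16 (index of the Eisenstein ideal), slice UA: the upper bound.

If some weight-2 cusp form of level `p` (`p ≥ 5`) with integer `q`-expansion is congruent to the
Eisenstein system `σ'` modulo `m`, then `m ∣ n = (p-1)/gcd(p-1,12)`.

* `arith`   : pure arithmetic.  From `24 m ∣ (p-1) p^11 (p+1)` and the four non-divisibility facts
              (`ℓ ∤ m` for `ℓ ≥ 5`, `ℓ ∣ p+1`; `p ∤ m`; `3 ∤ m` if `9 ∣ p+1`; `2 ∤ m` if `8 ∣ p+1`)
              conclude `m ∣ eisensteinNumerator p` (valuation by valuation).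
* `exists_G`: from the Eisenstein series `E` (slice E) and the congruence, the normalised form
              `G = (E - f)/((p-1)/24)`, with `q`-expansion `1 + (24 m/(p-1)) ∑ h_j q^j`, `h_j ∈ ℤ`.
* `exists_series` : such a `q`-expansion is `1 + c a` with `a ∈ ℤ_(ℓ)[[q]]` whenever
              `24 m/(p-1) = c u/d` with `ℓ ∤ d`.
* `dvd_eisensteinNumerator` : the glue; hypotheses are the literal outputs of slices E, U1 .. U5.
-/
import Mathlib
import Fermat.Agent.S16.Defs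
import Fermat.Prelude.Def_ModularCurve_ModularUnit
import Fermat.Prelude.Thm_CongruenceSubgroup_one_mem_strictPeriods_Gamma0

set_option autoImplicit false

open ModularCurve UpperHalfPlane ModularFormClass

namespace Fermat.Agent.S16.UA

theorem fact24 (ℓ : ℕ) : (24 : ℕ).factorization ℓ =
    3 * (if ℓ = 2 then 1 else 0) + (if ℓ = 3 then 1 else 0) := by
  have h : (24 : ℕ) = 2 ^ 3 * 3 := by norm_num
  rw [h, Nat.factorization_mul (by norm_num) (by norm_num), Nat.factorization_pow,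
    Nat.prime_two.factorization, Nat.prime_three.factorization]
  simp [Finsupp.single_apply, eq_comm]

theorem fact12 (ℓ : ℕ) : (12 : ℕ).factorization ℓ =
    2 * (if ℓ = 2 then 1 else 0) + (if ℓ = 3 then 1 else 0) := by
  have h : (12 : ℕ) = 2 ^ 2 * 3 := by norm_num
  rw [h, Nat.factorization_mul (by norm_num) (by norm_num), Nat.factorization_pow,
    Nat.prime_two.factorization, Nat.prime_three.factorization]
  simp [Finsupp.single_apply, eq_comm]

theorem eisensteinNumerator_ne_zero (p : ℕ) (hp : 2 ≤ p) : eisensteinNumerator p ≠ 0 := by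
  unfold eisensteinNumerator
  have h1 : 0 < p - 1 := by omega
  have h2 : Nat.gcd (p - 1) 12 ∣ p - 1 := Nat.gcd_dvd_left _ _
  have h3 : 0 < Nat.gcd (p - 1) 12 := Nat.gcd_pos_of_pos_left _ h1
  exact (Nat.div_pos (Nat.le_of_dvd h1 h2) h3).ne'

theorem fact_eisensteinNumerator (p ℓ : ℕ) (hp : 2 ≤ p) :
    (eisensteinNumerator p).factorization ℓ =
      (p - 1).factorization ℓ - min ((p - 1).factorization ℓ) ((12 : ℕ).factorization ℓ) := by
  unfold eisensteinNumerator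
  have h1 : p - 1 ≠ 0 := by omega
  rw [Nat.factorization_div (Nat.gcd_dvd_left _ _), Nat.factorization_gcd h1 (by norm_num)]
  rfl

/-- The pure arithmetic behind the upper bound. -/
theorem arith (p m : ℕ) (hp : p.Prime) (hp5 : 5 ≤ p) (hm : 0 < m)
    (h1 : 24 * m ∣ (p - 1) * p ^ 11 * (p + 1))
    (h2 : ∀ ℓ : ℕ, ℓ.Prime → 5 ≤ ℓ → ℓ ∣ p + 1 → ¬ ℓ ∣ m)
    (h3 : ¬ p ∣ m)
    (h4 : 9 ∣ p + 1 → ¬ 3 ∣ m)
    (h5 : 8 ∣ p + 1 → ¬ 2 ∣ m) :
    m ∣ eisensteinNumerator p := by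
  have hpm1 : p - 1 ≠ 0 := by omega
  have hp0 : p ≠ 0 := by omega
  have hpp1 : p + 1 ≠ 0 := by omega
  rw [← Nat.factorization_prime_le_iff_dvd hm.ne' (eisensteinNumerator_ne_zero p (by omega))]
  intro ℓ hℓ
  rw [fact_eisensteinNumerator p ℓ (by omega)]
  have hF1 : (24 * m).factorization ℓ ≤ ((p - 1) * p ^ 11 * (p + 1)).factorization ℓ :=
    (Nat.factorization_le_iff_dvd (by positivity) (by positivity)).mpr h1 ℓ
  rw [Nat.factorization_mul (by norm_num) hm.ne',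
    Nat.factorization_mul (by positivity) hpp1,
    Nat.factorization_mul hpm1 (by positivity), Nat.factorization_pow, hp.factorization] at hF1
  simp only [Finsupp.coe_add, Pi.add_apply, Finsupp.coe_smul, Pi.smul_apply, smul_eq_mul,
    Finsupp.single_apply] at hF1
  rw [fact24] at hF1
  rw [fact12]
  have hdm : ℓ ∣ m ↔ 1 ≤ m.factorization ℓ := hℓ.dvd_iff_one_le_factorization hm.ne'
  by_cases hℓ2 : ℓ = 2
  · subst hℓ2
    have hodd : ¬ 2 ∣ p := by
      intro h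
      have := (Nat.prime_dvd_prime_iff_eq Nat.prime_two hp).mp h
      omega
    have hb : 1 ≤ (p - 1).factorization 2 :=
      (Nat.prime_two.dvd_iff_one_le_factorization hpm1).mp (by omega)
    have hc : 1 ≤ (p + 1).factorization 2 :=
      (Nat.prime_two.dvd_iff_one_le_factorization hpp1).mp (by omega)
    have hbc : (p - 1).factorization 2 < 2 ∨ (p + 1).factorization 2 < 2 := by
      by_contra hcon
      rw [not_or, not_lt, not_lt] at hcon
      have hb4 : 2 ^ 2 ∣ p - 1 := (Nat.prime_two.pow_dvd_iff_le_factorization hpm1).mpr hcon.1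
      have hc4 : 2 ^ 2 ∣ p + 1 := (Nat.prime_two.pow_dvd_iff_le_factorization hpp1).mpr hcon.2
      omega
    have h8 : 3 ≤ (p + 1).factorization 2 → m.factorization 2 = 0 := by
      intro h
      have h8' : 2 ^ 3 ∣ p + 1 := (Nat.prime_two.pow_dvd_iff_le_factorization hpp1).mpr h
      have := h5 (by simpa using h8')
      rw [hdm] at this
      omega
    have hp2 : (if p = 2 then 1 else 0 : ℕ) = 0 := by rw [if_neg (by omega)]
    simp only [if_true, if_false, show (2 : ℕ) ≠ 3 by norm_num, hp2] at hF1 ⊢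
    omega
  by_cases hℓ3 : ℓ = 3
  · subst hℓ3
    have hbc : (p - 1).factorization 3 = 0 ∨ (p + 1).factorization 3 = 0 := by
      by_cases hb : 3 ∣ p - 1
      · right
        exact Nat.factorization_eq_zero_of_not_dvd (by omega)
      · left
        exact Nat.factorization_eq_zero_of_not_dvd hb
    have h9 : 2 ≤ (p + 1).factorization 3 → m.factorization 3 = 0 := by
      intro h
      have h9' : 3 ^ 2 ∣ p + 1 := (Nat.prime_three.pow_dvd_iff_le_factorization hpp1).mpr h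
      have := h4 (by simpa using h9')
      rw [hdm] at this
      omega
    have hp3 : (if p = 3 then 1 else 0 : ℕ) = 0 := by rw [if_neg (by omega)]
    simp only [if_true, if_false, show (3 : ℕ) ≠ 2 by norm_num, hp3] at hF1 ⊢
    omega
  by_cases hℓp : ℓ = p
  · subst hℓp
    have : m.factorization ℓ = 0 := Nat.factorization_eq_zero_of_not_dvd h3
    omega
  · have hℓ5 : 5 ≤ ℓ := by
      have h2' := hℓ.two_le
      have h4' : ℓ ≠ 4 := by
        rintro rfl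
        norm_num at hℓ
      omega
    have hbc : (p - 1).factorization ℓ = 0 ∨ (p + 1).factorization ℓ = 0 := by
      by_cases hb : ℓ ∣ p - 1
      · right
        apply Nat.factorization_eq_zero_of_not_dvd
        intro hc
        have h2' : ℓ ∣ 2 := by
          have := Nat.dvd_sub hc hb
          have he : p + 1 - (p - 1) = 2 := by omega
          rwa [he] at this
        have := Nat.le_of_dvd (by norm_num) h2'
        omega
      · left
        exact Nat.factorization_eq_zero_of_not_dvd hb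
    have hc0 : 1 ≤ (p + 1).factorization ℓ → m.factorization ℓ = 0 := by
      intro h
      have hc' : ℓ ∣ p + 1 := (hℓ.dvd_iff_one_le_factorization hpp1).mpr h
      have := h2 ℓ hℓ hℓ5 hc'
      rw [hdm] at this
      omega
    have hpl : (if p = ℓ then 1 else 0 : ℕ) = 0 := by rw [if_neg (fun h => hℓp h.symm)]
    simp only [if_false, hℓ2, hℓ3, hpl] at hF1 ⊢
    omega


/-- `b / d ∈ ℤ_(ℓ)` for `ℓ ∤ d`. -/
theorem div_mem {ℓ : ℕ} (hℓ : ℓ.Prime) (b : ℤ) {d : ℕ} (hd : ¬ ℓ ∣ d) :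
    ((b : ℚ) / (d : ℚ)) ∈ GaloisRep.ratLocalizedAt ℓ := by
  have hd0 : 0 < d := Nat.pos_of_ne_zero (fun h => hd (h ▸ dvd_zero ℓ))
  rw [div_eq_mul_inv]
  refine Subring.mul_mem _ (intCast_mem _ b) ?_
  show ((d : ℚ)⁻¹).den.Coprime ℓ
  rw [Rat.inv_natCast_den_of_pos hd0]
  exact ((Nat.Prime.coprime_iff_not_dvd hℓ).mpr hd).symm

/-- A function `ℍ → ℂ` whose `q`-expansion is `1 + c ∑ (b j / d) q^j` with `c ∈ ℤ_(ℓ)`, `b j ∈ ℤ`,
`ℓ ∤ d`, has `q`-expansion `1 + c a` with `a ∈ ℤ_(ℓ)[[q]]`. -/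
theorem exists_series (ℓ : ℕ) [Fact ℓ.Prime] (c : ↥(GaloisRep.ratLocalizedAt ℓ)) (c' : ℚ)
    (hc : (c : ℚ) = c') (G : ℍ → ℂ)
    (b : ℕ → ℤ) (d : ℕ) (hd : ¬ ℓ ∣ d) (h0 : qCoeff G 0 = 1)
    (hG : ∀ j : ℕ, 1 ≤ j → qCoeff G j = (((c' * (b j : ℚ) / (d : ℚ) : ℚ)) : ℂ)) :
    ∃ a : PowerSeries ↥(GaloisRep.ratLocalizedAt ℓ),
      qExpansion 1 G = PowerSeries.map (iotaC ℓ) (1 + PowerSeries.C c * a) := by
  refine ⟨PowerSeries.mk fun j => if j = 0 then 0 else
    ⟨(b j : ℚ) / (d : ℚ), div_mem (Fact.out : ℓ.Prime) (b j) hd⟩, ?_⟩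
  ext j
  rw [PowerSeries.coeff_map, map_add, PowerSeries.coeff_C_mul, PowerSeries.coeff_mk,
    PowerSeries.coeff_one]
  by_cases hj : j = 0
  · subst hj
    have h0' : (qExpansion 1 G).coeff 0 = 1 := h0
    rw [h0']
    simp
  · have hj' : (qExpansion 1 G).coeff j = _ := hG j (Nat.one_le_iff_ne_zero.mpr hj)
    rw [hj', if_neg hj, if_neg hj, zero_add, iotaC_apply]
    congr 1
    rw [Subring.coe_mul, hc]
    ring

theorem redHom_natCast_self (ℓ : ℕ) [Fact ℓ.Prime] :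
    redHom ℓ ((ℓ : ℕ) : ↥(GaloisRep.ratLocalizedAt ℓ)) = 0 := by
  rw [map_natCast]
  exact ZMod.natCast_self ℓ

theorem map_redHom_eq_one (ℓ : ℕ) [Fact ℓ.Prime] (a : PowerSeries ↥(GaloisRep.ratLocalizedAt ℓ)) :
    PowerSeries.map (redHom ℓ)
      (1 + PowerSeries.C ((ℓ : ℕ) : ↥(GaloisRep.ratLocalizedAt ℓ)) * a) = 1 := by
  rw [map_add, map_one, map_mul, PowerSeries.map_C, redHom_natCast_self, map_zero, zero_mul,
    add_zero]

/-- Rewriting `ε = 24 m / (p - 1)` as `c₀ u / d`. -/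
theorem coeff_rewrite {p m c₀ u d : ℕ} (hp : 2 ≤ p) (hd : d ≠ 0)
    (hrel : 24 * m * d = c₀ * u * (p - 1)) (x : ℤ) :
    ((24 * (m : ℚ)) / ((p : ℚ) - 1) * (x : ℚ) : ℚ) = (c₀ : ℚ) * ((u * x : ℤ) : ℚ) / (d : ℚ) := by
  have hp1 : ((p : ℚ) - 1) ≠ 0 := by
    have : (2 : ℚ) ≤ (p : ℚ) := by exact_mod_cast hp
    linarith
  have hd' : (d : ℚ) ≠ 0 := by exact_mod_cast hd
  have hrel' : (24 * (m : ℚ) * (d : ℚ)) = (c₀ : ℚ) * (u : ℚ) * ((p : ℚ) - 1) := by
    have h : ((24 * m * d : ℕ) : ℚ) = ((c₀ * u * (p - 1) : ℕ) : ℚ) := by rw [hrel]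
    rw [Nat.cast_mul, Nat.cast_mul, Nat.cast_mul, Nat.cast_mul, Nat.cast_sub (by omega)] at h
    simpa using h
  rw [div_mul_eq_mul_div, div_eq_div_iff hp1 hd']
  push_cast
  linear_combination (x : ℚ) * hrel'

/-- From the Eisenstein series `E` and a cusp form congruent to it modulo `m`, the normalised
difference `G = (E - f) / ((p - 1)/24)`. -/
theorem exists_G (p m : ℕ) (hp : 2 ≤ p)
    (hE : ∃ E : ModularForm (CongruenceSubgroup.Gamma0 p) 2,
      qCoeff E 0 = ((p : ℂ) - 1) / 24 ∧ ∀ j : ℕ, 1 ≤ j → qCoeff E j = (sigmaP p j : ℂ))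
    (hcong : EisCong p m) :
    ∃ (G : ModularForm (CongruenceSubgroup.Gamma0 p) 2) (h : ℕ → ℤ),
      qCoeff G 0 = 1 ∧
      ∀ j : ℕ, 1 ≤ j → qCoeff G j = (((24 * (m : ℚ)) / ((p : ℚ) - 1) * (h j : ℚ) : ℚ) : ℂ) := by
  obtain ⟨E, hE0, hEj⟩ := hE
  obtain ⟨f, a, hfa, hcong⟩ := hcong
  have hΓ := CongruenceSubgroup.one_mem_strictPeriods_Gamma0 p
  have hp1 : ((p : ℂ) - 1) ≠ 0 := by
    intro h
    have h' : (p : ℂ) = ((1 : ℕ) : ℂ) := by
      rw [Nat.cast_one]
      linear_combination h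
    have := Nat.cast_injective h'
    omega
  refine ⟨(24 / ((p : ℂ) - 1)) • (E - CuspForm.toModularFormₗ f),
    fun j => ((sigmaP p j : ℤ) - a j) / (m : ℤ), ?_, ?_⟩
  all_goals
    have hq : qExpansion 1 (⇑((24 / ((p : ℂ) - 1)) • (E - CuspForm.toModularFormₗ f)) : ℍ → ℂ) =
        (24 / ((p : ℂ) - 1)) • (qExpansion 1 E - qExpansion 1 f) := by
      have h1 : (⇑((24 / ((p : ℂ) - 1)) • (E - CuspForm.toModularFormₗ f)) : ℍ → ℂ) =
          (24 / ((p : ℂ) - 1)) • (⇑(E - CuspForm.toModularFormₗ f) : ℍ → ℂ) := rfl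
      have h2 : (⇑(E - CuspForm.toModularFormₗ f) : ℍ → ℂ) = ⇑E - ⇑f := rfl
      rw [h1, ModularForm.qExpansion_smul one_pos hΓ, h2, ModularForm.qExpansion_sub one_pos hΓ]
  · have hf0 : (qExpansion 1 f).coeff 0 = 0 := CuspFormClass.qExpansion_coeff_zero f one_pos hΓ
    have hE0' : (qExpansion 1 E).coeff 0 = ((p : ℂ) - 1) / 24 := hE0
    show (qExpansion 1 _).coeff 0 = 1
    rw [hq, PowerSeries.coeff_smul, map_sub, hf0, hE0', sub_zero, smul_eq_mul]
    field_simp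
  · intro j hj
    have hfj : (qExpansion 1 f).coeff j = (a j : ℂ) := hfa j
    have hEj' : (qExpansion 1 E).coeff j = (sigmaP p j : ℂ) := hEj j hj
    have hdvd : (m : ℤ) ∣ (sigmaP p j : ℤ) - a j := (hcong j hj).dvd
    have hmul : ((sigmaP p j : ℤ) - a j) = (m : ℤ) * (((sigmaP p j : ℤ) - a j) / (m : ℤ)) :=
      (Int.mul_ediv_cancel' hdvd).symm
    have hmulC : ((sigmaP p j : ℂ) - (a j : ℂ)) =
        (m : ℂ) * ((((sigmaP p j : ℤ) - a j) / (m : ℤ) : ℤ) : ℂ) := by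
      have := congrArg (fun x : ℤ => (x : ℂ)) hmul
      simpa using this
    show (qExpansion 1 _).coeff j = _
    rw [hq, PowerSeries.coeff_smul, map_sub, hfj, hEj', hmulC]
    push_cast
    ring

/-- `ℓ ∣ p + 1`, `ℓ ≥ 3` implies `ℓ ∤ p - 1`. -/
theorem not_dvd_pred {p ℓ : ℕ} (hp : 1 ≤ p) (hℓ : 3 ≤ ℓ) (h : ℓ ∣ p + 1) : ¬ ℓ ∣ p - 1 := by
  intro hb
  have h2 : ℓ ∣ 2 := by
    have := Nat.dvd_sub h hb
    have he : p + 1 - (p - 1) = 2 := by omega
    rwa [he] at this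
  have := Nat.le_of_dvd (by norm_num) h2
  omega

/-- **Slice UA**: the upper bound `m ∣ n` for every modulus `m` of an Eisenstein congruence, from
the Eisenstein series `E` (slice E) and the five statements U1–U5. -/
theorem dvd_eisensteinNumerator (p : ℕ) [Fact p.Prime] (hp5 : 5 ≤ p)
    (hE : ∃ E : ModularForm (CongruenceSubgroup.Gamma0 p) 2,
      qCoeff E 0 = ((p : ℂ) - 1) / 24 ∧ ∀ j : ℕ, 1 ≤ j → qCoeff E j = (sigmaP p j : ℂ))
    (hU1 : ∀ (G : ModularForm (CongruenceSubgroup.Gamma0 p) 2) (ε : ℚ) (h : ℕ → ℤ), ε ≠ 0 →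
      qCoeff G 0 = 1 → (∀ j : ℕ, 1 ≤ j → qCoeff G j = ((ε * (h j : ℚ) : ℚ) : ℂ)) →
      ∃ z : ℤ, (p : ℚ) ^ 11 * ((p : ℚ) + 1) = ε * (z : ℚ))
    (hU2 : ∀ (ℓ : ℕ) [Fact ℓ.Prime], 5 ≤ ℓ → ℓ ∣ p + 1 →
      ∀ (G : ModularForm (CongruenceSubgroup.Gamma0 p) 2)
        (g : PowerSeries ↥(GaloisRep.ratLocalizedAt ℓ)),
        qExpansion 1 G = PowerSeries.map (iotaC ℓ) g → PowerSeries.map (redHom ℓ) g = 1 → False)
    (hU3 : ∀ (G : ModularForm (CongruenceSubgroup.Gamma0 p) 2)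
        (g : PowerSeries ↥(GaloisRep.ratLocalizedAt p)),
        qExpansion 1 G = PowerSeries.map (iotaC p) g → PowerSeries.map (redHom p) g = 1 → False)
    (hU4 : 9 ∣ p + 1 → ∀ (G : ModularForm (CongruenceSubgroup.Gamma0 p) 2)
        (a : PowerSeries ↥(GaloisRep.ratLocalizedAt 3)),
        qExpansion 1 G = PowerSeries.map (iotaC 3) (1 + 9 * a) → False)
    (hU5 : 8 ∣ p + 1 → ∀ (G : ModularForm (CongruenceSubgroup.Gamma0 p) 2)
        (a : PowerSeries ↥(GaloisRep.ratLocalizedAt 2)),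
        qExpansion 1 G = PowerSeries.map (iotaC 2) (1 + 8 * a) → False) :
    ∀ m : ℕ, 0 < m → EisCong p m → m ∣ eisensteinNumerator p := by
  intro m hm hcong
  have hp : p.Prime := Fact.out
  obtain ⟨G, h, hG0, hGj⟩ := exists_G p m (by omega) hE hcong
  have hp1 : ((p : ℚ) - 1) ≠ 0 := by
    have : (5 : ℚ) ≤ (p : ℚ) := by exact_mod_cast hp5
    linarith
  refine arith p m hp hp5 hm ?_ ?_ ?_ ?_ ?_
  · -- U1
    have hm' : (m : ℚ) ≠ 0 := by exact_mod_cast hm.ne'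
    have hε : (24 * (m : ℚ)) / ((p : ℚ) - 1) ≠ 0 := div_ne_zero (by positivity) hp1
    obtain ⟨z, hz⟩ := hU1 G _ h hε hG0 hGj
    have key : ((p : ℚ) - 1) * (p : ℚ) ^ 11 * ((p : ℚ) + 1) = 24 * (m : ℚ) * (z : ℚ) := by
      rw [div_mul_eq_mul_div, eq_div_iff hp1] at hz
      linear_combination hz
    have hz' : (((p - 1) * p ^ 11 * (p + 1) : ℕ) : ℤ) = ((24 * m : ℕ) : ℤ) * z := by
      have h1 : ((p - 1 : ℕ) : ℤ) = (p : ℤ) - 1 := by omega
      have h2 : (((p : ℤ) - 1) * (p : ℤ) ^ 11 * ((p : ℤ) + 1) : ℤ) = 24 * (m : ℤ) * z := by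
        exact_mod_cast key
      rw [Nat.cast_mul, Nat.cast_mul, Nat.cast_pow, h1]
      push_cast
      linear_combination h2
    exact Int.natCast_dvd_natCast.mp ⟨z, hz'⟩
  · -- U2
    intro ℓ hℓ hℓ5 hdvd hℓm
    have : Fact ℓ.Prime := ⟨hℓ⟩
    obtain ⟨m', rfl⟩ := hℓm
    have hd : ¬ ℓ ∣ p - 1 := not_dvd_pred (by omega) (by omega) hdvd
    obtain ⟨a, ha⟩ := exists_series ℓ ((ℓ : ℕ) : ↥(GaloisRep.ratLocalizedAt ℓ)) (ℓ : ℚ)
      (Subring.coe_natCast _ ℓ) G (fun j => ((24 * m' : ℕ) : ℤ) * h j) (p - 1) hd hG0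
      (fun j hj => by
        rw [hGj j hj]
        congr 1
        have := coeff_rewrite (p := p) (m := ℓ * m') (c₀ := ℓ) (u := 24 * m') (d := p - 1)
          (by omega) (by omega) (by ring) (h j)
        exact this)
    exact hU2 ℓ hℓ5 hdvd G _ ha (map_redHom_eq_one ℓ a)
  · -- U3
    intro hpm
    obtain ⟨m', rfl⟩ := hpm
    have hd : ¬ p ∣ p - 1 := Nat.not_dvd_of_pos_of_lt (by omega) (by omega)
    obtain ⟨a, ha⟩ := exists_series p ((p : ℕ) : ↥(GaloisRep.ratLocalizedAt p)) (p : ℚ)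
      (Subring.coe_natCast _ p) G (fun j => ((24 * m' : ℕ) : ℤ) * h j) (p - 1) hd hG0
      (fun j hj => by
        rw [hGj j hj]
        congr 1
        have := coeff_rewrite (p := p) (m := p * m') (c₀ := p) (u := 24 * m') (d := p - 1)
          (by omega) (by omega) (by ring) (h j)
        exact this)
    exact hU3 G _ ha (map_redHom_eq_one p a)
  · -- U4
    intro h9 h3m
    obtain ⟨m', rfl⟩ := h3m
    have hd : ¬ 3 ∣ p - 1 := by omega
    obtain ⟨a, ha⟩ := exists_series 3 (9 : ↥(GaloisRep.ratLocalizedAt 3)) ((9 : ℕ) : ℚ)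
      (by rw [Nat.cast_ofNat]; rfl) G (fun j => ((8 * m' : ℕ) : ℤ) * h j) (p - 1) hd hG0
      (fun j hj => by
        rw [hGj j hj]
        congr 1
        have := coeff_rewrite (p := p) (m := 3 * m') (c₀ := 9) (u := 8 * m') (d := p - 1)
          (by omega) (by omega) (by ring) (h j)
        exact this)
    rw [map_ofNat] at ha
    exact hU4 h9 G a ha
  · -- U5
    intro h8 h2m
    obtain ⟨m', rfl⟩ := h2m
    obtain ⟨d, hd2⟩ : ∃ d, p - 1 = 2 * d := ⟨(p - 1) / 2, by omega⟩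
    have hd : ¬ 2 ∣ d := by omega
    obtain ⟨a, ha⟩ := exists_series 2 (8 : ↥(GaloisRep.ratLocalizedAt 2)) ((8 : ℕ) : ℚ)
      (by rw [Nat.cast_ofNat]; rfl) G (fun j => ((3 * m' : ℕ) : ℤ) * h j) d hd hG0
      (fun j hj => by
        rw [hGj j hj]
        congr 1
        have := coeff_rewrite (p := p) (m := 2 * m') (c₀ := 8) (u := 3 * m') (d := d)
          (by omega) (by omega) (by rw [hd2]; ring) (h j)
        exact this)
    rw [map_ofNat] at ha
    exact hU5 h8 G a ha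

end Fermat.Agent.S16.UA
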