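/-
S16, slice UB: the upper bound, unconditionally.

For a prime `p ≥ 5`, every modulus `m > 0` of an Eisenstein congruence (`EisCong p m`) divides
`n = (p - 1)/gcd(p - 1, 12)`.  This is `UA.dvd_eisensteinNumerator` fed with the landed slices
E (`Eis`), U1 (`U1Core`), U2, U3, U4 and U5 (`U5B`).
-/
import Mathlib
import Fermat.Agent.S16.UA
import Fermat.Agent.S16.Eis
import Fermat.Agent.S16.U1Core
import Fermat.Agent.S16.U2
import Fermat.Agent.S16.U3Final
import Fermat.Agent.S16.U4
import Fermat.Agent.S16.U5B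

set_option autoImplicit false

open ModularCurve UpperHalfPlane ModularFormClass CongruenceSubgroup

namespace Fermat.Agent.S16.UB

/-- **The upper bound** (`hUB` of `Reduce.card_eq_of_bounds` for `p ≥ 5`). -/
theorem dvd_of_eisCong (p : ℕ) [Fact p.Prime] (hp5 : 5 ≤ p) :
    ∀ m : ℕ, 0 < m → EisCong p m → m ∣ eisensteinNumerator p :=
  haveI : NeZero p := ⟨(Fact.out : p.Prime).ne_zero⟩
  UA.dvd_eisensteinNumerator p hp5 (Eis.exists_eisForm_qCoeff p)
    (fun G ε h _ hG0 hGj => U1Core.exists_int G ε h hG0 hGj)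
    (fun ℓ _ hℓ hdvd G g hg hred => U2.no_form p ℓ hℓ hdvd G g hg hred)
    (fun G g hG hg => U3.no_form_mod_p p hp5 G g hG hg)
    (fun h9 G a hG => U4.no_form p h9 G a hG)
    (fun h8 G a hG => U5B.no_form p h8 G a hG)

end Fermat.Agent.S16.UB
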